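import Mathlib
import Fermat.Prelude.Def_ModularCurve_X0ModL

/-!
# S28, consumer side of the tower bound (helper72)

From the degree bound `dedekindPsi N ≤ [k(j(q^d) : d ∣ N) : k(j)]` over some field `k`
(of characteristic `l`) we extract `dedekindPsi N` monomials in the `j(q^d)`, defined over `ℤ`,
whose reductions are linearly independent over `k(J)`, and we descend this to the prime
field `ZMod l`.
-/

set_option autoImplicit false

noncomputable section

open ModularCurve

namespace Fermat.Agent.S28.H72

/-- The series `j(q^d)`, `d ∣ N`, over `ℤ`. -/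
def gensZ (N : ℕ) : Set (LaurentSeries ℤ) :=
  {x | ∃ (d : ℕ) (_ : NeZero d), d ∣ N ∧ x = qExpand ℤ d (jqModC ℤ)}

theorem mem_gensZ {N d : ℕ} [NeZero d] (hd : d ∣ N) : qExpand ℤ d (jqModC ℤ) ∈ gensZ N :=
  ⟨d, ‹_›, hd, rfl⟩

theorem coeffMap_qExpand_jqModC {R : Type*} [CommRing R] (d : ℕ) [NeZero d] :
    coeffMap (Int.castRingHom R) (qExpand ℤ d (jqModC ℤ)) = qExpand R d (jqModC R) := by
  rw [coeffMap_qExpand, coeffMap_jqModC]

theorem image_gensZ (k : Type*) [Field k] (N : ℕ) :
    (coeffMap (Int.castRingHom k)) '' (gensZ N) = divisorExpansionsC k N := by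
  ext x
  constructor
  · rintro ⟨y, ⟨d, hd, hdN, rfl⟩, rfl⟩
    exact ⟨d, hd, hdN, coeffMap_qExpand_jqModC d⟩
  · rintro ⟨d, hd, hdN, rfl⟩
    exact ⟨qExpand ℤ d (jqModC ℤ), ⟨d, hd, hdN, rfl⟩, coeffMap_qExpand_jqModC d⟩

/-- Every element of the multiplicative closure of the generators over a field is the
image of an integral monomial. -/
theorem exists_of_mem_closure (k : Type*) [Field k] (N : ℕ) {x : LaurentSeries k}
    (hx : x ∈ Submonoid.closure (divisorExpansionsC k N)) :
    ∃ b ∈ Submonoid.closure (gensZ N), coeffMap (Int.castRingHom k) b = x := by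
  rw [← image_gensZ] at hx
  have h := (MonoidHom.map_mclosure (coeffMap (Int.castRingHom k) : LaurentSeries ℤ →* LaurentSeries k)
    (gensZ N)).symm ▸ hx
  obtain ⟨b, hb, rfl⟩ := Submonoid.mem_map.mp h
  exact ⟨b, hb, rfl⟩

/-- Abstract core: in a finite extension generated by a set `S`, any `n ≤ [E(S) : E]`
admits `n` monomials in `S` that are linearly independent over `E`. -/
theorem exists_linearIndependent_monomials {E K : Type*} [Field E] [Field K] [Algebra E K]
    (S : Set K) (n : ℕ) (hn : n ≤ Module.finrank E ↥(IntermediateField.adjoin E S)) :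
    ∃ f : Fin n → K, (∀ i, f i ∈ Submonoid.closure S) ∧ LinearIndependent E f := by
  classical
  rcases Nat.eq_zero_or_pos n with h0 | hpos
  · subst h0
    exact ⟨fun _ => 1, fun _ => one_mem _, linearIndependent_empty_type⟩
  have hfin : FiniteDimensional E ↥(IntermediateField.adjoin E S) :=
    Module.finite_of_finrank_pos (lt_of_lt_of_le hpos hn)
  have halg : ∀ x ∈ S, IsAlgebraic E x := by
    intro x hx
    have hxκ : x ∈ IntermediateField.adjoin E S := IntermediateField.subset_adjoin E _ hx
    have h1 : IsAlgebraic E (⟨x, hxκ⟩ : ↥(IntermediateField.adjoin E S)) :=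
      Algebra.IsAlgebraic.isAlgebraic _
    exact (isAlgebraic_algebraMap_iff
      (algebraMap ↥(IntermediateField.adjoin E S) K).injective).mpr h1
  have hspan : (Subalgebra.toSubmodule (IntermediateField.adjoin E S).toSubalgebra) =
      Submodule.span E (Submonoid.closure S : Set K) := by
    rw [IntermediateField.adjoin_toSubalgebra_of_isAlgebraic halg, Algebra.adjoin_eq_span]
  have hrank : Module.finrank E ↥(Submodule.span E (Submonoid.closure S : Set K)) =
      Module.finrank E ↥(IntermediateField.adjoin E S) := by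
    rw [← hspan]
    rfl
  have hfin' : FiniteDimensional E ↥(Submodule.span E (Submonoid.closure S : Set K)) := by
    rw [← hspan]
    exact hfin
  obtain ⟨f, hfmem, -, hfli⟩ :=
    Submodule.exists_fun_fin_finrank_span_eq E (Submonoid.closure S : Set K)
  have hle : n ≤ Module.finrank E ↥(Submodule.span E (Submonoid.closure S : Set K)) := by
    rw [hrank]; exact hn
  exact ⟨f ∘ Fin.castLE hle, fun i => hfmem _, hfli.comp _ (Fin.castLE_injective hle)⟩

/-- (M1) From the degree bound over a field `k`: `dedekindPsi N` integral monomials in the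
`j(q^d)` whose images over `k` are linearly independent over `k(J)`. -/
theorem exists_monomials_field (k : Type*) [Field k] (N : ℕ) [NeZero N]
    (hpsi : dedekindPsi N ≤
      (IntermediateField.adjoin k {jqModC k}).relfinrank (modularFunctionFieldFullC k N)) :
    ∃ b : Fin (dedekindPsi N) → LaurentSeries ℤ,
      (∀ i, b i ∈ Submonoid.closure (gensZ N)) ∧
      LinearIndependent ↥(IntermediateField.adjoin k {jqModC k})
        (fun i => coeffMap (Int.castRingHom k) (b i)) := by
  classical
  have hEκ : IntermediateField.adjoin k {jqModC k} ≤ modularFunctionFieldFullC k N := by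
    rw [IntermediateField.adjoin_le_iff]
    rintro x hx
    rw [Set.mem_singleton_iff] at hx
    subst hx
    exact jqModC_mem_full k N
  rw [IntermediateField.relfinrank_eq_finrank_of_le hEκ] at hpsi
  have hadj : IntermediateField.extendScalars hEκ =
      IntermediateField.adjoin ↥(IntermediateField.adjoin k {jqModC k})
        (divisorExpansionsC k N) :=
    IntermediateField.extendScalars_adjoin hEκ
  rw [hadj] at hpsi
  obtain ⟨f, hfmem, hfli⟩ := exists_linearIndependent_monomials
    (E := ↥(IntermediateField.adjoin k {jqModC k})) (divisorExpansionsC k N) (dedekindPsi N) hpsi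
  choose b hb hbf using fun i => exists_of_mem_closure k N (hfmem i)
  refine ⟨b, hb, ?_⟩
  have : (fun i : Fin (dedekindPsi N) => coeffMap (Int.castRingHom k) (b i)) = f := by
    funext i
    exact hbf _
  rw [this]
  exact hfli

/-- A coefficient map between fields carries `k(J)` into `k'(J)`. -/
theorem coeffMap_mem_adjoin {k k' : Type*} [Field k] [Field k'] (φ : k →+* k')
    {a : LaurentSeries k} (ha : a ∈ IntermediateField.adjoin k {jqModC k}) :
    coeffMap φ a ∈ IntermediateField.adjoin k' {jqModC k'} := by
  induction ha using IntermediateField.adjoin_induction with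
  | mem x hx =>
    rw [Set.mem_singleton_iff] at hx
    subst hx
    rw [coeffMap_jqModC]
    exact IntermediateField.subset_adjoin k' _ (Set.mem_singleton _)
  | algebraMap x =>
    rw [algebraMap_laurentSeries_eq_single, coeffMap_single,
      ← algebraMap_laurentSeries_eq_single]
    exact IntermediateField.algebraMap_mem _ _
  | add x y _ _ hx hy =>
    rw [map_add]
    exact add_mem hx hy
  | inv x _ hx =>
    rw [map_inv₀]
    exact inv_mem hx
  | mul x y _ _ hx hy =>
    rw [map_mul]
    exact mul_mem hx hy

/-- Descent of linear independence over `k(J)` along a coefficient map `k → k'`. -/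
theorem linearIndependent_of_coeffMap {k k' : Type*} [Field k] [Field k'] (φ : k →+* k')
    {ι : Type*} (c : ι → LaurentSeries k)
    (h : LinearIndependent ↥(IntermediateField.adjoin k' {jqModC k'})
      (fun i => coeffMap φ (c i))) :
    LinearIndependent ↥(IntermediateField.adjoin k {jqModC k}) c := by
  classical
  rw [linearIndependent_iff'] at h ⊢
  intro s g hg i hi
  have hinj : Function.Injective (coeffMap φ) := (coeffMap φ).injective
  have h1 : ∑ j ∈ s, (⟨coeffMap φ (g j : LaurentSeries k), coeffMap_mem_adjoin φ (g j).2⟩ :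
      ↥(IntermediateField.adjoin k' {jqModC k'})) • coeffMap φ (c j) = 0 := by
    have h2 := congrArg (coeffMap φ) hg
    rw [map_sum, map_zero] at h2
    rw [← h2]
    refine Finset.sum_congr rfl fun j _ => ?_
    rw [IntermediateField.smul_def, IntermediateField.smul_def, smul_eq_mul, smul_eq_mul, map_mul]
  have h3 := h s _ h1 i hi
  have h4 : coeffMap φ (g i : LaurentSeries k) = 0 := congrArg Subtype.val h3
  have h5 : (g i : LaurentSeries k) = 0 := hinj (by rw [h4, map_zero])
  exact Subtype.ext h5

/-- (M2) Descent to the prime field: from the degree bound over some field `k0` of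
characteristic `l`, `dedekindPsi N` integral monomials in the `j(q^d)` whose reductions mod `l`
are linearly independent over `F_l(J)`. -/
theorem exists_monomials_zmod (l : ℕ) [Fact l.Prime] (k0 : Type*) [Field k0] [CharP k0 l]
    (N : ℕ) [NeZero N]
    (hpsi : dedekindPsi N ≤
      (IntermediateField.adjoin k0 {jqModC k0}).relfinrank (modularFunctionFieldFullC k0 N)) :
    ∃ b : Fin (dedekindPsi N) → LaurentSeries ℤ,
      (∀ i, b i ∈ Submonoid.closure (gensZ N)) ∧
      LinearIndependent ↥(IntermediateField.adjoin (ZMod l) {jqModC (ZMod l)})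
        (fun i => coeffMap (Int.castRingHom (ZMod l)) (b i)) := by
  obtain ⟨b, hb, hli⟩ := exists_monomials_field k0 N hpsi
  refine ⟨b, hb, ?_⟩
  refine linearIndependent_of_coeffMap (ZMod.castHom (dvd_refl l) k0) _ ?_
  have : (fun i => coeffMap (ZMod.castHom (dvd_refl l) k0)
      (coeffMap (Int.castRingHom (ZMod l)) (b i))) =
      fun i => coeffMap (Int.castRingHom k0) (b i) := by
    funext i
    rw [coeffMap_coeffMap]
    exact coeffMap_congr (RingHom.ext_int _ _) _
  rw [this]
  exact hli

theorem coeff_aeval_jqModC (k : Type*) [Field k] (P : Polynomial k) :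
    (Polynomial.aeval (jqModC k) P).coeff (-(P.natDegree : ℤ)) = P.leadingCoeff := by
  rw [Polynomial.aeval_def, Polynomial.eval₂_eq_sum_range, HahnSeries.coeff_sum,
    Finset.sum_range_succ]
  have h1 : ∀ i ∈ Finset.range P.natDegree,
      (algebraMap k (LaurentSeries k) (P.coeff i) * jqModC k ^ i).coeff (-(P.natDegree : ℤ))
        = 0 := by
    intro i hi
    rw [algebraMap_laurentSeries_eq_single, HahnSeries.coeff_single_zero_mul,
      coeff_jqModC_pow_of_lt k (by have := Finset.mem_range.mp hi; omega), mul_zero]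
  rw [Finset.sum_eq_zero h1, zero_add, algebraMap_laurentSeries_eq_single,
    HahnSeries.coeff_single_zero_mul, coeff_jqModC_pow_self, mul_one]
  rfl

theorem aeval_jqModC_ne_zero (k : Type*) [Field k] {P : Polynomial k} (hP : P ≠ 0) :
    Polynomial.aeval (jqModC k) P ≠ 0 := by
  intro h
  have h1 := coeff_aeval_jqModC k P
  rw [h, HahnSeries.coeff_zero] at h1
  exact hP (Polynomial.leadingCoeff_eq_zero.mp h1.symm)

theorem coeffMap_injective {R S : Type*} [CommRing R] [CommRing S] (f : R →+* S)
    (hf : Function.Injective f) : Function.Injective (coeffMap f) := by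
  intro x y hxy
  ext k
  apply hf
  have := congrArg (fun z => z.coeff k) hxy
  simpa using this

theorem coeffMap_eval₂_int {R : Type*} [CommRing R] (T : Polynomial ℤ) :
    coeffMap (Int.castRingHom R) (T.eval₂ (Int.castRingHom (LaurentSeries ℤ)) (jqModC ℤ)) =
      T.eval₂ (Int.castRingHom (LaurentSeries R)) (jqModC R) := by
  rw [Polynomial.hom_eval₂, coeffMap_jqModC]
  congr 1
  exact RingHom.ext_int _ _

theorem aeval_map_int (k : Type*) [Field k] (T : Polynomial ℤ) :
    Polynomial.aeval (jqModC k) (T.map (Int.castRingHom k)) =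
      T.eval₂ (Int.castRingHom (LaurentSeries k)) (jqModC k) := by
  rw [Polynomial.aeval_def, Polynomial.eval₂_map]
  congr 1
  exact RingHom.ext_int _ _

/-- Strip the common power of `l` from a finite family of integer polynomials, not all zero. -/
theorem exists_primitive_family (l : ℕ) [Fact l.Prime] {n : ℕ} (T : Fin n → Polynomial ℤ)
    (hT : ∃ i, T i ≠ 0) :
    ∃ (m : ℕ) (T' : Fin n → Polynomial ℤ), (∀ i, T i = Polynomial.C ((l : ℤ) ^ m) * T' i) ∧
      ∃ i, (T' i).map (Int.castRingHom (ZMod l)) ≠ 0 := by
  obtain ⟨i0, hi0⟩ := hT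
  obtain ⟨j0, hj0⟩ : ∃ j0, (T i0).coeff j0 ≠ 0 := by
    by_contra hcon
    push Not at hcon
    exact hi0 (Polynomial.ext fun j => by simpa using hcon j)
  have key : ∀ k : ℕ, ∀ T : Fin n → Polynomial ℤ, ((T i0).coeff j0).natAbs = k → k ≠ 0 →
      ∃ (m : ℕ) (T' : Fin n → Polynomial ℤ), (∀ i, T i = Polynomial.C ((l : ℤ) ^ m) * T' i) ∧
        ∃ i, (T' i).map (Int.castRingHom (ZMod l)) ≠ 0 := by
    intro k
    induction k using Nat.strong_induction_on with
    | _ k ih =>
      intro T hk hk0
      by_cases hex : ∃ i, (T i).map (Int.castRingHom (ZMod l)) ≠ 0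
      · exact ⟨0, T, fun i => by simp, hex⟩
      · push Not at hex
        have hdvd : ∀ i, Polynomial.C (l : ℤ) ∣ T i := by
          intro i
          rw [Polynomial.C_dvd_iff_dvd_coeff]
          intro j
          have h1 := congrArg (fun p => Polynomial.coeff p j) (hex i)
          simp only [Polynomial.coeff_map, Polynomial.coeff_zero] at h1
          exact (ZMod.intCast_zmod_eq_zero_iff_dvd _ _).mp h1
        choose T1 hT1 using hdvd
        have hc : (T i0).coeff j0 = (l : ℤ) * (T1 i0).coeff j0 := by
          rw [hT1 i0, Polynomial.coeff_C_mul]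
        have hl2 : 2 ≤ l := (Fact.out : l.Prime).two_le
        have hne : (T1 i0).coeff j0 ≠ 0 := by
          intro h0
          rw [h0, mul_zero] at hc
          rw [hc] at hk
          exact hk0 (by simpa using hk.symm)
        have hlt : ((T1 i0).coeff j0).natAbs < k := by
          rw [← hk, hc, Int.natAbs_mul, Int.natAbs_natCast]
          have hpos : 0 < ((T1 i0).coeff j0).natAbs := Int.natAbs_pos.mpr hne
          nlinarith
        obtain ⟨m, T', hT', hi⟩ := ih _ hlt T1 rfl (Int.natAbs_ne_zero.mpr hne)
        refine ⟨m + 1, T', fun i => ?_, hi⟩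
        rw [hT1 i, hT' i, ← mul_assoc, ← Polynomial.C_mul, pow_succ']
  exact key _ T rfl (Int.natAbs_ne_zero.mpr hj0)

/-- Clear the denominators of a finite family of rational polynomials. -/
theorem exists_int_multiple {n : ℕ} (t : Fin n → Polynomial ℚ) :
    ∃ (M : ℤ) (T : Fin n → Polynomial ℤ), M ≠ 0 ∧
      ∀ i, (T i).map (Int.castRingHom ℚ) = Polynomial.C (M : ℚ) * t i := by
  classical
  have h := fun i => IsLocalization.integerNormalization_spec (nonZeroDivisors ℤ) (t i)
  choose c hcM hc using h
  refine ⟨∏ i, c i, fun i => Polynomial.C (∏ k ∈ Finset.univ.erase i, c k) *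
    IsLocalization.integerNormalization (nonZeroDivisors ℤ) (t i), ?_, fun i => ?_⟩
  · exact Finset.prod_ne_zero_iff.mpr fun i _ => nonZeroDivisors.ne_zero (hcM i)
  · rw [Polynomial.map_mul, Polynomial.map_C]
    have h1 : Polynomial.map (Int.castRingHom ℚ)
        (IsLocalization.integerNormalization (nonZeroDivisors ℤ) (t i)) =
        Polynomial.C ((c i : ℤ) : ℚ) * t i := by
      have := hc i
      rw [show algebraMap ℤ ℚ = Int.castRingHom ℚ from rfl] at this
      rw [this]
      ext j
      simp
    rw [h1, ← mul_assoc, ← Polynomial.C_mul]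
    congr 2
    rw [← Finset.mul_prod_erase Finset.univ (fun k => c k) (Finset.mem_univ i)]
    simp only [eq_intCast, Int.cast_mul, Int.cast_prod]
    ring

/-- The scaling lemma: integral series whose reductions mod `l` are linearly independent over
`F_l(J)` are linearly independent over `ℚ(j)`. -/
theorem linearIndependent_rat_of_zmod (l : ℕ) [Fact l.Prime] {n : ℕ}
    (b : Fin n → LaurentSeries ℤ)
    (h : LinearIndependent ↥(IntermediateField.adjoin (ZMod l) {jqModC (ZMod l)})
      (fun i => coeffMap (Int.castRingHom (ZMod l)) (b i))) :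
    LinearIndependent ↥(IntermediateField.adjoin ℚ {jqModC ℚ})
      (fun i => coeffMap (Int.castRingHom ℚ) (b i)) := by
  classical
  rw [Fintype.linearIndependent_iff]
  intro g hg
  have hrs : ∀ i, ∃ r s : Polynomial ℚ, Polynomial.aeval (jqModC ℚ) s ≠ 0 ∧
      (g i : LaurentSeries ℚ) * Polynomial.aeval (jqModC ℚ) s =
        Polynomial.aeval (jqModC ℚ) r := by
    intro i
    obtain ⟨r, s, hrs⟩ := (IntermediateField.mem_adjoin_simple_iff ℚ _).mp (g i).2
    by_cases hs : Polynomial.aeval (jqModC ℚ) s = 0
    · refine ⟨0, 1, ?_, ?_⟩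
      · rw [map_one]; exact one_ne_zero
      · rw [hrs, hs, div_zero, map_zero, zero_mul]
    · exact ⟨r, s, hs, by rw [hrs, div_mul_cancel₀ _ hs]⟩
  choose r s hs hrs using hrs
  have hS : Polynomial.aeval (jqModC ℚ) (∏ i, s i) ≠ 0 := by
    rw [map_prod]
    exact Finset.prod_ne_zero_iff.mpr fun i _ => hs i
  have ht : ∀ i, Polynomial.aeval (jqModC ℚ) (r i * ∏ k ∈ Finset.univ.erase i, s k) =
      (g i : LaurentSeries ℚ) * Polynomial.aeval (jqModC ℚ) (∏ i, s i) := by
    intro i
    rw [map_mul, ← hrs i, mul_assoc, ← map_mul,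
      Finset.mul_prod_erase Finset.univ s (Finset.mem_univ i)]
  have hsum : ∑ i, Polynomial.aeval (jqModC ℚ) (r i * ∏ k ∈ Finset.univ.erase i, s k) *
      coeffMap (Int.castRingHom ℚ) (b i) = 0 := by
    have h1 : ∑ i, (g i : LaurentSeries ℚ) * coeffMap (Int.castRingHom ℚ) (b i) = 0 := by
      rw [← hg]
      refine Finset.sum_congr rfl fun i _ => ?_
      rw [IntermediateField.smul_def, smul_eq_mul]
    calc ∑ i, Polynomial.aeval (jqModC ℚ) (r i * ∏ k ∈ Finset.univ.erase i, s k) *
        coeffMap (Int.castRingHom ℚ) (b i)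
        = Polynomial.aeval (jqModC ℚ) (∏ i, s i) *
          ∑ i, (g i : LaurentSeries ℚ) * coeffMap (Int.castRingHom ℚ) (b i) := by
          rw [Finset.mul_sum]
          refine Finset.sum_congr rfl fun i _ => ?_
          rw [ht i]; ring
      _ = 0 := by rw [h1, mul_zero]
  obtain ⟨M, T, hM, hT⟩ := exists_int_multiple fun i => r i * ∏ k ∈ Finset.univ.erase i, s k
  -- the relation over `ℤ`
  have hZ : ∑ i, (T i).eval₂ (Int.castRingHom (LaurentSeries ℤ)) (jqModC ℤ) * b i = 0 := by
    apply coeffMap_injective (Int.castRingHom ℚ) Int.cast_injective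
    rw [map_sum, map_zero]
    have h2 : ∀ i, coeffMap (Int.castRingHom ℚ)
        ((T i).eval₂ (Int.castRingHom (LaurentSeries ℤ)) (jqModC ℤ) * b i) =
        Polynomial.aeval (jqModC ℚ) (Polynomial.C (M : ℚ)) *
          (Polynomial.aeval (jqModC ℚ) (r i * ∏ k ∈ Finset.univ.erase i, s k) *
            coeffMap (Int.castRingHom ℚ) (b i)) := by
      intro i
      rw [map_mul, coeffMap_eval₂_int, ← aeval_map_int, hT i, map_mul, mul_assoc]
    rw [Finset.sum_congr rfl fun i _ => h2 i, ← Finset.mul_sum, hsum, mul_zero]
  have hT0 : ∀ i, T i = 0 := by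
    by_contra hne
    push Not at hne
    obtain ⟨m, T', hTT', i1, hi1⟩ := exists_primitive_family l T hne
    have hZ' : ∑ i, (T' i).eval₂ (Int.castRingHom (LaurentSeries ℤ)) (jqModC ℤ) * b i = 0 := by
      have h3 : ((l : ℤ) ^ m : LaurentSeries ℤ) *
          ∑ i, (T' i).eval₂ (Int.castRingHom (LaurentSeries ℤ)) (jqModC ℤ) * b i = 0 := by
        rw [← hZ, Finset.mul_sum]
        refine Finset.sum_congr rfl fun i _ => ?_
        rw [hTT' i, Polynomial.eval₂_mul, Polynomial.eval₂_C, mul_assoc]
        simp
      rcases mul_eq_zero.mp h3 with h4 | h4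
      · exfalso
        have hl0 : (l : ℤ) ≠ 0 := by exact_mod_cast (Fact.out : l.Prime).ne_zero
        have h5 : ((l : ℤ) ^ m : LaurentSeries ℤ) ≠ 0 := by
          have h6 : ((l : ℤ) : LaurentSeries ℤ) ≠ 0 := by
            intro h7
            have h8 := congrArg (fun z : LaurentSeries ℤ => z.coeff 0) h7
            have h9 : ((l : ℤ) : LaurentSeries ℤ) = HahnSeries.C (l : ℤ) := by simp
            rw [h9] at h8
            simp only [HahnSeries.coeff_zero] at h8
            rw [HahnSeries.C_apply, HahnSeries.coeff_single_same] at h8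
            exact hl0 h8
          exact pow_ne_zero m h6
        exact h5 h4
      · exact h4
    have hl := congrArg (coeffMap (Int.castRingHom (ZMod l))) hZ'
    rw [map_sum, map_zero] at hl
    have hmem : ∀ i, Polynomial.aeval (jqModC (ZMod l))
        ((T' i).map (Int.castRingHom (ZMod l))) ∈
        IntermediateField.adjoin (ZMod l) {jqModC (ZMod l)} := by
      intro i
      exact IntermediateField.algebra_adjoin_le_adjoin _ _
        (Polynomial.aeval_mem_adjoin_singleton _ _)
    have hlin := Fintype.linearIndependent_iff.mp h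
      (fun i => ⟨_, hmem i⟩) (by
        rw [← hl]
        refine Finset.sum_congr rfl fun i _ => ?_
        rw [IntermediateField.smul_def, smul_eq_mul, map_mul, coeffMap_eval₂_int,
          ← aeval_map_int]) i1
    exact aeval_jqModC_ne_zero (ZMod l) hi1 (congrArg Subtype.val hlin)
  intro i
  have hti : r i * ∏ k ∈ Finset.univ.erase i, s k = 0 := by
    have h1 := hT i
    rw [hT0 i, Polynomial.map_zero] at h1
    have hC : Polynomial.C (M : ℚ) ≠ 0 := by
      rw [Ne, Polynomial.C_eq_zero]
      exact_mod_cast hM
    exact (mul_eq_zero.mp h1.symm).resolve_left hC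
  have h2 : (g i : LaurentSeries ℚ) * Polynomial.aeval (jqModC ℚ) (∏ i, s i) = 0 := by
    rw [← ht i, hti, map_zero]
  exact Subtype.ext ((mul_eq_zero.mp h2).resolve_right hS)

end Fermat.Agent.S28.H72
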