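import Fermat.Prelude.Def_ModularCurve_IgusaScheme
import Fermat.Agent.S24.CoverRam_helper98
import Fermat.Agent.S24.CoverAsm_helper31
import Fermat.Agent.S24.ValSpec_helper90
import Fermat.Agent.S24.PhiData_helper69
import Fermat.Agent.S24.Finite_helper89
import Fermat.Agent.S24.LinDisj_helper31
import Fermat.Agent.S24.Cosets_helper35

/-!
# S28, node (U_N): `[ℚ(j(q^d) : d ∣ N) : ℚ(j)] ≤ ψ(N)`

The S24 library computes the degree of `ℚ̄(j) ⊆ ℚ̄ ⊗ F_N` as the index `ψ(N)` of `Γ₀(N)`.
Linear disjointness of `ℚ((q))` and `ℚ̄` over `ℚ` (coefficientwise) transports the upper bound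
to the rational function field `F_N = modularFunctionFieldFull N` over `ℚ(j)`.
-/

set_option autoImplicit false

open ModularCurve ModularCurve.IgusaScheme IntermediateField Polynomial
open Fermat.Agent.S24

noncomputable section

namespace Fermat.Agent.S28.H81

/-- The degree over `ℚ̄(j)` (S24 library). -/
theorem finrank_bar (N : ℕ) [NeZero N] :
    FiniteDimensional ↥(IntermediateField.adjoin H98.Kbar {H98.jBar N}) (H98.FN N) ∧
      Module.finrank ↥(IntermediateField.adjoin H98.Kbar {H98.jBar N}) (H98.FN N)
        = dedekindPsi N := by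
  obtain ⟨P⟩ := H69.nonempty_phiData N
  have C := H31.analyticCoverOf (H90.valSpec N) P (H89.finite_FN P)
  obtain ⟨hfd, hn, -⟩ := H98.ramification_data_of_cover C (H89.transcendental_jBar N _)
  exact ⟨hfd, by rw [hn, H35.card_quotient_Gamma0 N (NeZero.ne N)]⟩

/-- `H31.exists_relation_of_coeffMap` for an arbitrary finite index type. -/
theorem exists_relation_fintype {K C : Type*} [Field K] [Field C] (φ : K →+* C)
    {ι : Type*} [Fintype ι] (u : ι → LaurentSeries K) (c : ι → C) (hc : c ≠ 0)
    (h : ∑ i, c i • coeffMap φ (u i) = 0) :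
    ∃ a : ι → K, a ≠ 0 ∧ ∑ i, a i • u i = 0 := by
  classical
  obtain ⟨a, ha, hsum⟩ := H31.exists_relation_of_coeffMap φ (u ∘ (Fintype.equivFin ι).symm)
    (c ∘ (Fintype.equivFin ι).symm) (by
      intro h0
      apply hc
      funext i
      have := congrFun h0 (Fintype.equivFin ι i)
      simpa using this) (by
      rw [← h]
      exact Fintype.sum_equiv (Fintype.equivFin ι).symm _ _ (fun k => rfl))
  refine ⟨a ∘ Fintype.equivFin ι, ?_, ?_⟩
  · intro h0
    apply ha
    funext k
    have := congrFun h0 ((Fintype.equivFin ι).symm k)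
    simpa using this
  · rw [← hsum]
    exact Fintype.sum_equiv (Fintype.equivFin ι) _ _ (fun i => by simp)

/-- the module action of constants on Laurent series is multiplication by the constant series -/
theorem smul_eq_algebraMap_mul (K : Type*) [Field K] (c : K) (x : LaurentSeries K) :
    c • x = algebraMap K (LaurentSeries K) c * x := by
  ext n
  rw [HahnSeries.coeff_smul, H89.coeff_algebraMap_mul]
  rfl

/-- A nontrivial relation with coefficients in `L[j]` among base-changed rational Laurent series
descends to a nontrivial relation with coefficients in `ℚ[j]`. -/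
theorem poly_relation_descent {ι : Type*} [Fintype ι] (L : Type*) [Field L] [Algebra ℚ L]
    (v : ι → LaurentSeries ℚ) (A : ι → L[X]) (hA : A ≠ 0)
    (h : ∑ i, aeval (coeffEmb L jq) (A i) * coeffEmb L (v i) = 0) :
    ∃ p : ι → ℚ[X], p ≠ 0 ∧ ∑ i, aeval jq (p i) * v i = 0 := by
  classical
  obtain ⟨i₀, hi₀⟩ : ∃ i₀, A i₀ ≠ 0 := by
    by_contra hne
    push Not at hne
    exact hA (funext hne)
  set D : ℕ := (Finset.univ.sup fun i => (A i).natDegree) + 1 with hD
  have hdeg : ∀ i, (A i).natDegree < D := fun i =>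
    Nat.lt_succ_of_le (Finset.le_sup (f := fun i => (A i).natDegree) (Finset.mem_univ i))
  let c : ι × Fin D → L := fun t => (A t.1).coeff t.2
  let u : ι × Fin D → LaurentSeries ℚ := fun t => jq ^ (t.2 : ℕ) * v t.1
  have hc : c ≠ 0 := by
    intro h0
    apply hi₀
    apply leadingCoeff_eq_zero.mp
    have := congrFun h0 (i₀, ⟨(A i₀).natDegree, hdeg i₀⟩)
    exact this
  have hrel : ∑ t, c t • coeffMap (algebraMap ℚ L) (u t) = 0 := by
    rw [← h, Fintype.sum_prod_type]
    refine Finset.sum_congr rfl fun i _ => ?_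
    rw [aeval_eq_sum_range' (hdeg i), Finset.sum_mul]
    simp only [Algebra.smul_def]
    rw [← Fin.sum_univ_eq_sum_range (fun m => (algebraMap L (LaurentSeries L) ((A i).coeff m) *
      coeffEmb L jq ^ m) * coeffEmb L (v i))]
    refine Finset.sum_congr rfl fun k _ => ?_
    rw [smul_eq_algebraMap_mul]
    show algebraMap L (LaurentSeries L) ((A i).coeff k) *
      coeffMap (algebraMap ℚ L) (jq ^ (k : ℕ) * v i) = _
    rw [map_mul, map_pow, mul_assoc]
    rfl
  obtain ⟨a, ha, hsum⟩ := exists_relation_fintype (algebraMap ℚ L) u c hc hrel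
  refine ⟨fun i => ∑ k : Fin D, monomial (k : ℕ) (a (i, k)), ?_, ?_⟩
  · intro h0
    apply ha
    funext t
    have h1 := congrArg (fun q : ℚ[X] => q.coeff (t.2 : ℕ)) (congrFun h0 t.1)
    simp only [finsetSum_coeff, coeff_monomial, Pi.zero_apply, coeff_zero] at h1
    rw [Finset.sum_eq_single t.2] at h1
    · simpa using h1
    · intro b _ hb
      rw [if_neg]
      intro hbt
      exact hb (Fin.ext hbt)
    · intro hb
      exact absurd (Finset.mem_univ _) hb
  · rw [← hsum, Fintype.sum_prod_type]
    refine Finset.sum_congr rfl fun i _ => ?_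
    rw [map_sum, Finset.sum_mul]
    refine Finset.sum_congr rfl fun k _ => ?_
    rw [aeval_monomial, smul_eq_algebraMap_mul, mul_assoc]

open scoped IntermediateField.algebraAdjoinAdjoin in
/-- **Node (U_N), instance-free form.**  More than `ψ(N)` elements of
`F_N = ℚ(j(q^d) : d ∣ N) ⊆ ℚ((q))` satisfy a nontrivial linear relation with coefficients
in `ℚ[j]`. -/
theorem exists_poly_relation (N : ℕ) [NeZero N] {ι : Type*} [Fintype ι]
    (v : ι → LaurentSeries ℚ) (hv : ∀ i, v i ∈ modularFunctionFieldFull N)
    (hcard : dedekindPsi N < Fintype.card ι) :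
    ∃ p : ι → ℚ[X], p ≠ 0 ∧ ∑ i, aeval jq (p i) * v i = 0 := by
  classical
  obtain ⟨hfd, hn⟩ := finrank_bar N
  let w : ι → H98.FN N := fun i =>
    ⟨coeffEmb H98.Kbar (v i), coeffEmb_mem_laurentBaseChange H98.Kbar (hv i)⟩
  have hw : ¬ LinearIndependent ↥(IntermediateField.adjoin H98.Kbar {H98.jBar N}) w := by
    intro hli
    have hle := hli.fintype_card_le_finrank
    rw [hn] at hle
    omega
  rw [← LinearIndependent.iff_fractionRing (R := ↥(Algebra.adjoin H98.Kbar {H98.jBar N}))
    (K := ↥(IntermediateField.adjoin H98.Kbar {H98.jBar N})),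
    Fintype.linearIndependent_iff] at hw
  push Not at hw
  obtain ⟨g, hg, i₀, hi₀⟩ := hw
  have hex : ∀ i, ∃ A : H98.Kbar[X], aeval (H98.jBar N) A = (g i : H98.FN N) := by
    intro i
    have h1 : (g i : H98.FN N) ∈ (aeval (R := H98.Kbar) (H98.jBar N)).range := by
      rw [← Algebra.adjoin_singleton_eq_range_aeval]
      exact (g i).2
    exact h1
  choose A hA using hex
  have hA0 : A ≠ 0 := by
    intro h0
    apply hi₀
    apply Subtype.ext
    rw [← hA i₀, h0]
    simp
  have hrelL : ∑ i, aeval (coeffEmb H98.Kbar jq) (A i) * coeffEmb H98.Kbar (v i) = 0 := by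
    have h1 := congrArg ((modularFunctionFieldBar N).val) hg
    rw [map_sum, map_zero] at h1
    rw [← h1]
    refine Finset.sum_congr rfl fun i _ => ?_
    rw [Subalgebra.smul_def, smul_eq_mul, map_mul, ← hA i, ← aeval_algHom_apply]
    rfl
  exact poly_relation_descent H98.Kbar v A hA0 hrelL

/-- From polynomial relations to a degree bound (stated for an abstract field `E` mapping to
`M`, so that the choice of the `ℚ`-algebra structure on `E` is irrelevant). -/
theorem finrank_adjoin_le_of_relations {E M : Type*} [Field E] [Algebra ℚ E] [Field M]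
    [Algebra ℚ M] (f : E →+* M) (x : E) (n : ℕ) (htr : Transcendental ℚ (f x))
    (H : ∀ s : Finset E, n < s.card →
      ∃ p : s → ℚ[X], p ≠ 0 ∧ ∑ i : s, aeval (f x) (p i) * f (i : E) = 0) :
    FiniteDimensional ↥(IntermediateField.adjoin ℚ {x}) E ∧
      Module.finrank ↥(IntermediateField.adjoin ℚ {x}) E ≤ n := by
  classical
  have hf : ∀ q : ℚ[X], f (aeval x q) = aeval (f x) q := by
    intro q
    rw [aeval_def, aeval_def, hom_eval₂]
    congr 1
    exact Subsingleton.elim _ _
  have key : ∀ s : Finset E,
      LinearIndependent ↥(IntermediateField.adjoin ℚ {x}) (fun i : s => (i : E)) →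
        s.card ≤ n := by
    intro s hli
    by_contra hlt
    rw [not_le] at hlt
    obtain ⟨p, hp, hrel⟩ := H s hlt
    apply hp
    funext i
    have hmem : ∀ i : s, aeval x (p i) ∈ IntermediateField.adjoin ℚ {x} := fun i =>
      IntermediateField.algebra_adjoin_le_adjoin ℚ {x} (aeval_mem_adjoin_singleton ℚ x)
    have hzero := Fintype.linearIndependent_iff.mp hli
      (fun i => ⟨aeval x (p i), hmem i⟩) (by
        apply f.injective
        rw [map_sum, map_zero, ← hrel]
        refine Finset.sum_congr rfl fun i _ => ?_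
        rw [IntermediateField.smul_def, smul_eq_mul, map_mul, ← hf]) i
    have h3 : aeval x (p i) = 0 := congrArg Subtype.val hzero
    have h4 : aeval (f x) (p i) = 0 := by rw [← hf, h3, map_zero]
    exact (transcendental_iff.mp htr) (p i) h4
  have hrank : Module.rank ↥(IntermediateField.adjoin ℚ {x}) E ≤ (n : ℕ) := rank_le key
  have hfin : FiniteDimensional ↥(IntermediateField.adjoin ℚ {x}) E := by
    rw [FiniteDimensional, ← Module.rank_lt_aleph0_iff]
    exact lt_of_le_of_lt hrank Cardinal.natCast_lt_aleph0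
  exact ⟨hfin, Module.finrank_le_of_rank_le hrank⟩

/-- **Node (U_N)** (= `StmtGen` of the S28 skeleton).  The function field
`F_N = ℚ(j(q^d) : d ∣ N)` is finite over `ℚ(j)`, of degree at most `ψ(N)`. -/
theorem finrank_full_le (N : ℕ) [NeZero N] :
    FiniteDimensional ↥(IntermediateField.adjoin ℚ {jFull N}) ↥(modularFunctionFieldFull N) ∧
      Module.finrank ↥(IntermediateField.adjoin ℚ {jFull N}) ↥(modularFunctionFieldFull N)
        ≤ dedekindPsi N := by
  have htr : Transcendental ℚ jq := by
    have := H89.transcendental_jqModC ℚ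
    rwa [jqModC_rat] at this
  refine finrank_adjoin_le_of_relations (M := LaurentSeries ℚ)
    { toFun := fun y : ↥(modularFunctionFieldFull N) => (y : LaurentSeries ℚ)
      map_one' := rfl
      map_mul' := fun _ _ => rfl
      map_zero' := rfl
      map_add' := fun _ _ => rfl } (jFull N) (dedekindPsi N) htr ?_
  intro s hs
  exact exists_poly_relation N (fun i : s => ((i : ↥(modularFunctionFieldFull N)) : LaurentSeries ℚ))
    (fun i => (i : ↥(modularFunctionFieldFull N)).2) (by rwa [Fintype.card_coe])

end Fermat.Agent.S28.H81
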