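import Mathlib
import Fermat.Prelude.Def_ModularCurve_X0
import Fermat.Prelude.Def_ModularCurve_LaurentCoeff

/-!
# Frobenius on Laurent series in characteristic `l` (helper55, for S28)

`qExpand k l t = t ^ l` for every Laurent series `t` over a field (or any commutative ring)
of characteristic `l` whose coefficients are fixed by Frobenius, in particular for the
image of a Laurent series with integer coefficients.
-/

set_option autoImplicit false

noncomputable section

namespace Fermat.Agent.S28.H55

open ModularCurve HahnSeries

section general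

variable {k : Type*} [CommRing k]

/-- `coeffMap` commutes with the inclusion of power series. -/
theorem coeffMap_ofPowerSeries {R S : Type*} [CommRing R] [CommRing S] (f : R →+* S)
    (p : PowerSeries R) :
    coeffMap f (HahnSeries.ofPowerSeries ℤ R p) =
      HahnSeries.ofPowerSeries ℤ S (PowerSeries.map f p) := by
  ext m
  rw [coeffMap_coeff, PowerSeries.coeff_coe, PowerSeries.coeff_coe]
  split_ifs with h
  · simp
  · simp

/-- `qExpand` on (the image of) a power series is `PowerSeries.expand`. -/
theorem qExpand_ofPowerSeries (N : ℕ) [NeZero N] (p : PowerSeries k) :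
    qExpand k N (HahnSeries.ofPowerSeries ℤ k p) =
      HahnSeries.ofPowerSeries ℤ k (PowerSeries.expand N (NeZero.ne N) p) := by
  have hN : (0 : ℤ) < (N : ℤ) := by exact_mod_cast Nat.pos_of_ne_zero (NeZero.ne N)
  ext m
  by_cases hm : (N : ℤ) ∣ m
  · obtain ⟨j, rfl⟩ := hm
    rw [qExpand_coeff_mul, PowerSeries.coeff_coe, PowerSeries.coeff_coe]
    by_cases hj : j < 0
    · rw [if_pos hj, if_pos (mul_neg_of_pos_of_neg hN hj)]
    · rw [not_lt] at hj
      rw [if_neg (not_lt.mpr hj), if_neg (not_lt.mpr (mul_nonneg hN.le hj))]
      have : ((N : ℤ) * j).natAbs = N * j.natAbs := by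
        rw [Int.natAbs_mul, Int.natAbs_natCast]
      rw [this, PowerSeries.coeff_expand_mul]
  · rw [qExpand_coeff_of_not_dvd N _ hm, PowerSeries.coeff_coe]
    split_ifs with h
    · rfl
    · rw [not_lt] at h
      rw [PowerSeries.coeff_expand_of_not_dvd]
      intro hdvd
      apply hm
      have : (m.natAbs : ℤ) = m := Int.natAbs_of_nonneg h
      rw [← this]
      exact_mod_cast hdvd

variable (l : ℕ) [Fact l.Prime] [CharP k l]

/-- Frobenius on power series in characteristic `l`. -/
theorem powerSeries_pow_char (p : PowerSeries k) :
    p ^ l = PowerSeries.map (frobenius k l)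
      (PowerSeries.expand l (Fact.out : l.Prime).ne_zero p) :=
  (MvPowerSeries.map_frobenius_expand (σ := Unit) (R := k) l (Fact.out : l.Prime).ne_zero
    (f := p)).symm

/-- **Frobenius on Laurent series**, general form: in characteristic `l`,
`t ^ l = qExpand l (t with all coefficients raised to the l-th power)`. -/
theorem pow_char_eq_qExpand_coeffMap_frobenius [NeZero l] (t : LaurentSeries k) :
    t ^ l = qExpand k l (coeffMap (frobenius k l) t) := by
  have h1 : (HahnSeries.single t.order (1 : k) : LaurentSeries k) ^ l =
      qExpand k l (coeffMap (frobenius k l) (HahnSeries.single t.order (1 : k))) := by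
    rw [coeffMap_single, qExpand_single, HahnSeries.single_pow, one_pow, RingHom.map_one,
      nsmul_eq_mul]
  have h2 : (HahnSeries.ofPowerSeries ℤ k t.powerSeriesPart) ^ l =
      qExpand k l (coeffMap (frobenius k l) (HahnSeries.ofPowerSeries ℤ k t.powerSeriesPart)) := by
    rw [coeffMap_ofPowerSeries, qExpand_ofPowerSeries,
      ← map_pow (HahnSeries.ofPowerSeries ℤ k), powerSeries_pow_char l, PowerSeries.map_expand]
  conv_lhs => rw [← LaurentSeries.single_order_mul_powerSeriesPart t]
  conv_rhs => rw [← LaurentSeries.single_order_mul_powerSeriesPart t]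
  rw [mul_pow, map_mul, map_mul, h1, h2]

/-- If all coefficients of `t` are fixed by Frobenius then `qExpand k l t = t ^ l`. -/
theorem qExpand_eq_pow_of_frobenius_fixed [NeZero l] (t : LaurentSeries k)
    (ht : ∀ n, t.coeff n ^ l = t.coeff n) : qExpand k l t = t ^ l := by
  rw [pow_char_eq_qExpand_coeffMap_frobenius l t]
  congr 1
  ext n
  rw [coeffMap_coeff, frobenius_def, ht]

/-- **The Frobenius lemma**, ring form with an explicit `NeZero` instance. -/
theorem qExpand_eq_pow_of_int' [NeZero l] (s : LaurentSeries ℤ) :
    qExpand k l (coeffMap (Int.castRingHom k) s) = coeffMap (Int.castRingHom k) s ^ l := by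
  apply qExpand_eq_pow_of_frobenius_fixed
  intro n
  rw [coeffMap_coeff]
  have h : (frobenius k l).comp (Int.castRingHom k) = Int.castRingHom k := RingHom.ext_int _ _
  exact congrArg (fun f : ℤ →+* k => f (s.coeff n)) h

end general

/-- **The Frobenius lemma** (statement requested in #1039): for a field `k` of characteristic
`l` and a Laurent series `s` with integer coefficients, `s(q^l) = s(q)^l` over `k`. -/
theorem qExpand_eq_pow_of_int (l : ℕ) [Fact l.Prime] (k : Type*) [Field k] [CharP k l]
    (s : LaurentSeries ℤ) :
    qExpand k l (coeffMap (Int.castRingHom k) s) = coeffMap (Int.castRingHom k) s ^ l :=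
  qExpand_eq_pow_of_int' l s

end Fermat.Agent.S28.H55
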