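import Mathlib
import Fermat.Prelude.Def_ModularCurve_X0ModL

/-!
# S28: the twist `f(x) ↦ f(u x)` on Laurent series

helper20.  For a unit `u` of a commutative ring `R`, `twist u : LaurentSeries R →+* LaurentSeries R`
multiplies the coefficient of `x ^ n` by `u ^ n` (`n : ℤ`).  Basic API: coefficients, singles,
composition, injectivity, compatibility with `qExpand` (`x ↦ x ^ N`) and with `coeffMap`.
-/

set_option autoImplicit false

noncomputable section

namespace Fermat.Agent.S28.H20

open ModularCurve

variable {R S : Type*} [CommRing R] [CommRing S]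

/-- underlying function of `twist` -/
def twistFun (u : Rˣ) (f : LaurentSeries R) : LaurentSeries R where
  coeff n := ((u ^ n : Rˣ) : R) * f.coeff n
  isPWO_support' := f.isPWO_support.mono (fun n hn => by
    simp only [Function.mem_support, ne_eq] at hn ⊢
    intro h
    exact hn (by rw [h, mul_zero]))

theorem coeff_twistFun (u : Rˣ) (f : LaurentSeries R) (n : ℤ) :
    (twistFun u f).coeff n = ((u ^ n : Rˣ) : R) * f.coeff n := rfl

theorem support_twistFun (u : Rˣ) (f : LaurentSeries R) : (twistFun u f).support = f.support := by
  ext n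
  simp only [HahnSeries.mem_support, coeff_twistFun, ne_eq]
  exact not_congr (Units.mul_right_eq_zero _)

/-- The twist `f(x) ↦ f(u x)`: the coefficient of `x ^ n` is multiplied by `u ^ n`. -/
def twist (u : Rˣ) : LaurentSeries R →+* LaurentSeries R where
  toFun := twistFun u
  map_zero' := by
    ext n
    simp [coeff_twistFun]
  map_one' := by
    ext n
    rw [coeff_twistFun, HahnSeries.coeff_one]
    split_ifs with h
    · subst h; simp
    · simp
  map_add' f g := by
    ext n
    simp [coeff_twistFun, mul_add]
  map_mul' f g := by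
    ext n
    rw [coeff_twistFun, HahnSeries.coeff_mul,
      HahnSeries.coeff_mul_left' (x := twistFun u f) (y := twistFun u g) f.isPWO_support
        (support_twistFun u f).le,
      Finset.mul_sum]
    have hg : (twistFun u g).support = g.support := support_twistFun u g
    have key : ∀ (s : Set ℤ) (hs : s.IsPWO) (hgs : s = g.support),
        ∑ ij ∈ Finset.antidiagonal f.isPWO_support g.isPWO_support n,
          ((u ^ n : Rˣ) : R) * (f.coeff ij.1 * g.coeff ij.2)
        = ∑ ij ∈ Finset.antidiagonal f.isPWO_support hs n,
          (twistFun u f).coeff ij.1 * (twistFun u g).coeff ij.2 := by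
      intro s hs hgs
      subst hgs
      refine Finset.sum_congr rfl (fun ij hij => ?_)
      have hsum : ij.1 + ij.2 = n := (Finset.mem_antidiagonal.mp hij).2.2
      rw [coeff_twistFun, coeff_twistFun, ← hsum, zpow_add, Units.val_mul]
      ring
    exact key _ _ hg

@[simp]
theorem coeff_twist (u : Rˣ) (f : LaurentSeries R) (n : ℤ) :
    (twist u f).coeff n = ((u ^ n : Rˣ) : R) * f.coeff n := rfl

@[simp]
theorem twist_single (u : Rˣ) (n : ℤ) (a : R) :
    twist u (HahnSeries.single n a) = HahnSeries.single n (((u ^ n : Rˣ) : R) * a) := by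
  ext m
  rw [coeff_twist, HahnSeries.coeff_single, HahnSeries.coeff_single]
  split_ifs with h
  · subst h; rfl
  · rw [mul_zero]

@[simp]
theorem twist_one (f : LaurentSeries R) : twist (1 : Rˣ) f = f := by
  ext n
  simp

theorem twist_mul (u v : Rˣ) (f : LaurentSeries R) :
    twist (u * v) f = twist u (twist v f) := by
  ext n
  simp only [coeff_twist, mul_zpow, Units.val_mul]
  ring

theorem twist_twist_inv (u : Rˣ) (f : LaurentSeries R) : twist u (twist u⁻¹ f) = f := by
  rw [← twist_mul, mul_inv_cancel, twist_one]

theorem twist_inv_twist (u : Rˣ) (f : LaurentSeries R) : twist u⁻¹ (twist u f) = f := by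
  rw [← twist_mul, inv_mul_cancel, twist_one]

theorem twist_injective (u : Rˣ) : Function.Injective (twist u) :=
  Function.LeftInverse.injective (twist_inv_twist u)

theorem twist_pow (u : Rˣ) (m : ℕ) (f : LaurentSeries R) :
    twist (u ^ m) f = (twist u)^[m] f := by
  induction m with
  | zero => simp
  | succ m ih => rw [pow_succ', twist_mul, ih, Function.iterate_succ_apply']

/-- Twisting by a constant: `twist u (C a) = C a`. -/
theorem twist_algebraMap {K : Type*} [Field K] (u : Kˣ) (a : K) :
    twist u (algebraMap K (LaurentSeries K) a) = algebraMap K (LaurentSeries K) a := by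
  rw [algebraMap_laurentSeries_eq_single, twist_single]
  simp

/-- `twist` commutes with the substitution `x ↦ x ^ N` up to `u ↦ u ^ N`. -/
theorem twist_qExpand (u : Rˣ) (N : ℕ) [NeZero N] (f : LaurentSeries R) :
    twist u (qExpand R N f) = qExpand R N (twist (u ^ N) f) := by
  ext n
  by_cases hn : (N : ℤ) ∣ n
  · obtain ⟨m, rfl⟩ := hn
    rw [coeff_twist, qExpand_coeff_mul, qExpand_coeff_mul, coeff_twist, ← zpow_natCast,
      ← zpow_mul]
  · rw [coeff_twist, qExpand_coeff_of_not_dvd N f hn, qExpand_coeff_of_not_dvd N _ hn, mul_zero]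

/-- A twist by an `N`-th root of unity fixes the series in `x ^ N`. -/
theorem twist_qExpand_of_pow_eq_one (u : Rˣ) (N : ℕ) [NeZero N] (hu : u ^ N = 1)
    (f : LaurentSeries R) : twist u (qExpand R N f) = qExpand R N f := by
  rw [twist_qExpand, hu, twist_one]

/-- `twist` is compatible with coefficientwise ring homomorphisms. -/
theorem coeffMap_twist (φ : R →+* S) (u : Rˣ) (f : LaurentSeries R) :
    coeffMap φ (twist u f) = twist (Units.map (φ : R →* S) u) (coeffMap φ f) := by
  ext n
  simp only [coeffMap_coeff, coeff_twist, map_mul]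
  congr 1
  rw [← map_zpow]
  rfl

theorem support_twist (u : Rˣ) (f : LaurentSeries R) : (twist u f).support = f.support :=
  support_twistFun u f

theorem twist_eq_zero_iff (u : Rˣ) (f : LaurentSeries R) : twist u f = 0 ↔ f = 0 :=
  ⟨fun h => twist_injective u (by rw [h, map_zero]), fun h => by rw [h, map_zero]⟩

theorem order_twist (u : Rˣ) (f : LaurentSeries R) : (twist u f).order = f.order := by
  classical
  by_cases hf : f = 0
  · rw [hf, map_zero]
  · have hf' : twist u f ≠ 0 := fun h => hf ((twist_eq_zero_iff u f).mp h)
    rw [HahnSeries.order_of_ne hf, HahnSeries.order_of_ne hf']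
    simp only [support_twist]

/-- `twist u` as a ring automorphism (inverse `twist u⁻¹`). -/
def twistEquiv (u : Rˣ) : LaurentSeries R ≃+* LaurentSeries R :=
  { twist u with
    invFun := twist u⁻¹
    left_inv := twist_inv_twist u
    right_inv := twist_twist_inv u }

@[simp]
theorem twistEquiv_apply (u : Rˣ) (f : LaurentSeries R) : twistEquiv u f = twist u f := rfl

@[simp]
theorem twistEquiv_symm_apply (u : Rˣ) (f : LaurentSeries R) :
    (twistEquiv u).symm f = twist u⁻¹ f := rfl

/-- the order-`-1` coefficient of a twisted series -/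
theorem coeff_twist_neg_one (u : Rˣ) (f : LaurentSeries R) :
    (twist u f).coeff (-1) = ((u⁻¹ : Rˣ) : R) * f.coeff (-1) := by
  rw [coeff_twist, zpow_neg_one]

end Fermat.Agent.S28.H20
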