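import Mathlib
import Fermat.Prelude.Def_ModularCurve_X0
import Fermat.Agent.S28.Twist_helper20

set_option autoImplicit false

noncomputable section

open scoped PowerSeries.WithPiTopology
open PowerSeries Filter Topology

namespace Fermat.Agent.S28.H47

/-- The finite eta product `∏_{n < M} (1 - X^(n+1))`. -/
def etaFin (R : Type*) [CommRing R] (M : ℕ) : PowerSeries R :=
  ∏ n ∈ Finset.range M, (1 - X ^ (n + 1))

/-- The eta product `∏_{n ≥ 1} (1 - X^n)` with coefficients in `R`. -/
def etaR (R : Type*) [CommRing R] : PowerSeries R :=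
  ModularCurve.etaProd.map (Int.castRingHom R)

section Top

variable {R : Type*} [CommRing R] [TopologicalSpace R]

theorem continuous_of_coeff {S : Type*} [CommRing S] [TopologicalSpace S]
    {F : PowerSeries S → PowerSeries R}
    (h : ∀ d, Continuous fun f => coeff d (F f)) : Continuous F := by
  rw [continuous_iff_continuousAt]
  intro f
  rw [ContinuousAt, PowerSeries.WithPiTopology.tendsto_iff_coeff_tendsto]
  intro d
  exact (h d).tendsto f

theorem continuous_rescale [DiscreteTopology R] (a : R) :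
    Continuous (PowerSeries.rescale a : PowerSeries R → PowerSeries R) := by
  refine continuous_of_coeff fun d => ?_
  simp only [coeff_rescale]
  exact (continuous_of_discreteTopology (f := fun x : R => a ^ d * x)).comp
    (PowerSeries.WithPiTopology.continuous_coeff R d)

theorem continuous_expand [DiscreteTopology R] (p : ℕ) (hp : p ≠ 0) :
    Continuous (PowerSeries.expand p hp : PowerSeries R → PowerSeries R) := by
  refine continuous_of_coeff fun d => ?_
  simp only [coeff_expand]
  split_ifs with h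
  · exact PowerSeries.WithPiTopology.continuous_coeff R (d / p)
  · exact continuous_const

theorem continuous_map_intCast :
    Continuous (PowerSeries.map (Int.castRingHom R) : PowerSeries ℤ → PowerSeries R) := by
  refine continuous_of_coeff fun d => ?_
  simp only [coeff_map]
  exact (continuous_of_discreteTopology (f := fun x : ℤ => (Int.castRingHom R) x)).comp
    (PowerSeries.WithPiTopology.continuous_coeff ℤ d)

theorem tendsto_etaFin_int :
    Tendsto (fun M => etaFin ℤ M) atTop (𝓝 ModularCurve.etaProd) :=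
  (PowerSeries.WithPiTopology.multipliable_one_sub_X_pow ℤ).hasProd.tendsto_prod_nat

theorem tendsto_etaFin : Tendsto (fun M => etaFin R M) atTop (𝓝 (etaR R)) := by
  have h := ((continuous_map_intCast (R := R)).tendsto _).comp tendsto_etaFin_int
  refine h.congr fun M => ?_
  simp [etaFin, map_prod]

end Top


section Alg

/-- In a commutative domain, `∏_{b<r} (1 - ω^b T) = 1 - T^r` for a primitive `r`-th root `ω`. -/
theorem prod_one_sub_pow_mul {A : Type*} [CommRing A] [IsDomain A] {ω : A} {r : ℕ} (hr : 0 < r)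
    (hω : IsPrimitiveRoot ω r) (T : A) :
    ∏ b ∈ Finset.range r, (1 - ω ^ b * T) = 1 - T ^ r := by
  classical
  have h := hω.pow_sub_pow_eq_prod_sub_mul 1 T hr
  rw [one_pow] at h
  rw [h]
  have e : Polynomial.nthRootsFinset r (1 : A) = (Finset.range r).image (fun b => ω ^ b) := by
    rw [Polynomial.nthRootsFinset_def, hω.nthRoots_eq (one_pow r)]
    ext x
    simp
  rw [e, Finset.prod_image]
  intro a ha b hb hab
  exact hω.pow_inj (Finset.mem_range.mp ha) (Finset.mem_range.mp hb) hab

variable {R : Type*} [CommRing R] [IsDomain R]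

omit [IsDomain R] in
theorem rescale_one_sub_X_pow (a : R) (m : ℕ) :
    PowerSeries.rescale a (1 - X ^ m : PowerSeries R) = 1 - C a ^ m * X ^ m := by
  rw [map_sub, map_one, map_pow, rescale_X, mul_pow]

/-- The product of the `r` twists of `1 - X^m`. -/
theorem prod_rescale_one_sub {ζ : R} {r : ℕ} (hr : r.Prime) (hζ : IsPrimitiveRoot ζ r) (m : ℕ) :
    ∏ b ∈ Finset.range r, PowerSeries.rescale (ζ ^ b) (1 - X ^ m : PowerSeries R)
      = if r ∣ m then (1 - X ^ m) ^ r else 1 - X ^ (r * m) := by
  simp only [rescale_one_sub_X_pow]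
  split_ifs with h
  · obtain ⟨k, rfl⟩ := h
    have : ∀ b ∈ Finset.range r, (1 - C (ζ ^ b) ^ (r * k) * X ^ (r * k) : PowerSeries R)
        = 1 - X ^ (r * k) := by
      intro b _
      rw [← map_pow, ← pow_mul, mul_left_comm, pow_mul, hζ.pow_eq_one, one_pow, map_one, one_mul]
    rw [Finset.prod_congr rfl this, Finset.prod_const, Finset.card_range]
  · have hcop : m.Coprime r := ((Nat.Prime.coprime_iff_not_dvd hr).mpr h).symm
    have hω : IsPrimitiveRoot (C (ζ ^ m) : PowerSeries R) r :=
      (hζ.pow_of_coprime m hcop).map_of_injective (PowerSeries.C_injective)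
    have h2 := prod_one_sub_pow_mul hr.pos hω (X ^ m : PowerSeries R)
    rw [← pow_mul, mul_comm m r] at h2
    rw [← h2]
    refine Finset.prod_congr rfl fun b _ => ?_
    rw [← map_pow, ← map_pow, ← pow_mul, ← pow_mul, mul_comm b m]

end Alg


section Block

variable {R : Type*} [CommRing R] [IsDomain R]

omit [IsDomain R] in
theorem etaFin_zero : etaFin R 0 = 1 := by simp [etaFin]

omit [IsDomain R] in
theorem etaFin_succ (M : ℕ) : etaFin R (M + 1) = etaFin R M * (1 - X ^ (M + 1)) := by
  simp [etaFin, Finset.prod_range_succ]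

omit [IsDomain R] in
theorem etaFin_mul_succ (r M : ℕ) :
    etaFin R (r * (M + 1)) = etaFin R (r * M) * ∏ s ∈ Finset.range r, (1 - X ^ (r * M + s + 1)) := by
  rw [etaFin, mul_add, mul_one, Finset.prod_range_add]
  simp only [etaFin, add_assoc]

theorem prod_rescale_block {ζ : R} {r : ℕ} (hr : r.Prime) (hζ : IsPrimitiveRoot ζ r) (M : ℕ) :
    ∏ b ∈ Finset.range r, PowerSeries.rescale (ζ ^ b)
        (∏ s ∈ Finset.range r, (1 - X ^ (r * M + s + 1) : PowerSeries R))
      = (∏ s ∈ Finset.range (r - 1), (1 - X ^ (r * (r * M + s + 1)) : PowerSeries R))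
          * (1 - X ^ (r * (M + 1))) ^ r := by
  simp only [map_prod]
  rw [Finset.prod_comm]
  simp only [prod_rescale_one_sub hr hζ]
  obtain ⟨t, rfl⟩ : ∃ t, r = t + 1 := ⟨r - 1, (Nat.succ_pred_eq_of_pos hr.pos).symm⟩
  rw [Finset.prod_range_succ, Nat.add_sub_cancel]
  congr 1
  · refine Finset.prod_congr rfl fun s hs => ?_
    have hs' : s < t := Finset.mem_range.mp hs
    rw [if_neg]
    intro hdvd
    have h1 : (t + 1) ∣ s + 1 := by
      have h2 : (t + 1) ∣ (t + 1) * M + (s + 1) := by rwa [add_assoc] at hdvd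
      exact (Nat.dvd_add_right (dvd_mul_right _ _)).mp h2
    have := Nat.le_of_dvd (Nat.succ_pos s) h1
    omega
  · rw [if_pos ⟨M + 1, by ring⟩]
    congr 2

omit [IsDomain R] in
theorem expand_block (r : ℕ) (hr : r ≠ 0) (M : ℕ) :
    PowerSeries.expand r hr (∏ s ∈ Finset.range r, (1 - X ^ (r * M + s + 1) : PowerSeries R))
      = (∏ s ∈ Finset.range (r - 1), (1 - X ^ (r * (r * M + s + 1)) : PowerSeries R))
          * (1 - X ^ (r * r * (M + 1))) := by
  simp only [map_prod, map_sub, map_one, map_pow, expand_X, ← pow_mul]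
  obtain ⟨t, rfl⟩ : ∃ t, r = t + 1 := ⟨r - 1, (Nat.succ_pred_eq_of_pos (Nat.pos_of_ne_zero hr)).symm⟩
  rw [Finset.prod_range_succ, Nat.add_sub_cancel]
  congr 3
  ring

omit [IsDomain R] in
theorem expand_one_sub_X_pow (r : ℕ) (hr : r ≠ 0) (m : ℕ) :
    PowerSeries.expand r hr (1 - X ^ m : PowerSeries R) = 1 - X ^ (r * m) := by
  simp only [map_sub, map_one, map_pow, expand_X, ← pow_mul]

/-- The finite form of the norm identity. -/
theorem prod_rescale_etaFin {ζ : R} {r : ℕ} (hr : r.Prime) (hζ : IsPrimitiveRoot ζ r) (M : ℕ) :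
    (∏ b ∈ Finset.range r, PowerSeries.rescale (ζ ^ b) (etaFin R (r * M)))
        * PowerSeries.expand (r * r) (mul_ne_zero hr.ne_zero hr.ne_zero) (etaFin R M)
      = PowerSeries.expand r hr.ne_zero (etaFin R (r * M))
          * (PowerSeries.expand r hr.ne_zero (etaFin R M)) ^ r := by
  induction M with
  | zero => simp [etaFin_zero]
  | succ M ih =>
    rw [etaFin_mul_succ, etaFin_succ]
    simp only [map_mul, Finset.prod_mul_distrib]
    rw [prod_rescale_block hr hζ, expand_block r hr.ne_zero, expand_one_sub_X_pow,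
      expand_one_sub_X_pow, mul_pow]
    linear_combination
      ((∏ s ∈ Finset.range (r - 1), (1 - X ^ (r * (r * M + s + 1)) : PowerSeries R))
          * (1 - X ^ (r * (M + 1))) ^ r * (1 - X ^ (r * r * (M + 1)))) * ih

end Block


section Limit

variable {R : Type*} [CommRing R] [IsDomain R]

/-- **(Norm_r), eta form.** For a prime `r` and a primitive `r`-th root of unity `ζ` in a
domain `R`: `∏_{b<r} η(ζ^b X) · η(X^(r²)) = η(X^r)^(r+1)`. -/
theorem prod_rescale_etaR {ζ : R} {r : ℕ} (hr : r.Prime) (hζ : IsPrimitiveRoot ζ r) :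
    (∏ b ∈ Finset.range r, PowerSeries.rescale (ζ ^ b) (etaR R))
        * PowerSeries.expand (r * r) (mul_ne_zero hr.ne_zero hr.ne_zero) (etaR R)
      = (PowerSeries.expand r hr.ne_zero (etaR R)) ^ (r + 1) := by
  let _ : TopologicalSpace R := ⊥
  have _ : DiscreteTopology R := ⟨rfl⟩
  have h1 : Tendsto (fun M => etaFin R M) atTop (𝓝 (etaR R)) := tendsto_etaFin
  have hmul : Tendsto (fun M : ℕ => r * M) atTop atTop :=
    tendsto_atTop_mono (fun M => Nat.le_mul_of_pos_left M hr.pos) tendsto_id
  have h2 : Tendsto (fun M => etaFin R (r * M)) atTop (𝓝 (etaR R)) := h1.comp hmul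
  have hL : Tendsto (fun M => (∏ b ∈ Finset.range r, PowerSeries.rescale (ζ ^ b) (etaFin R (r * M)))
        * PowerSeries.expand (r * r) (mul_ne_zero hr.ne_zero hr.ne_zero) (etaFin R M)) atTop
      (𝓝 ((∏ b ∈ Finset.range r, PowerSeries.rescale (ζ ^ b) (etaR R))
        * PowerSeries.expand (r * r) (mul_ne_zero hr.ne_zero hr.ne_zero) (etaR R))) := by
    refine Tendsto.mul ?_ (((continuous_expand _ _).tendsto _).comp h1)
    exact tendsto_finsetProd _ fun b _ => ((continuous_rescale _).tendsto _).comp h2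
  have hR : Tendsto (fun M => PowerSeries.expand r hr.ne_zero (etaFin R (r * M))
          * (PowerSeries.expand r hr.ne_zero (etaFin R M)) ^ r) atTop
      (𝓝 (PowerSeries.expand r hr.ne_zero (etaR R)
          * (PowerSeries.expand r hr.ne_zero (etaR R)) ^ r)) :=
    Tendsto.mul (((continuous_expand _ _).tendsto _).comp h2)
      ((((continuous_expand _ _).tendsto _).comp h1).pow r)
  have hLR := hL.congr (fun M => prod_rescale_etaFin hr hζ M)
  rw [pow_succ']
  exact tendsto_nhds_unique hLR hR

end Limit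


section Delta

variable {R : Type*} [CommRing R] [IsDomain R]

/-- `D = X · η^24` as a power series over `R`. -/
def deltaPS (R : Type*) [CommRing R] : PowerSeries R := X * etaR R ^ 24

omit [IsDomain R] in
theorem deltaPS_eq_map :
    deltaPS R = (X * ModularCurve.dedekindEtaUnit).map (Int.castRingHom R) := by
  rw [deltaPS, etaR, ModularCurve.dedekindEtaUnit, map_mul, map_pow, map_X]

/-- The product of the powers `ζ^b`, `b < r`, of a primitive `r`-th root of unity (`r` prime). -/
theorem prod_pow_primitiveRoot {ζ : R} {r : ℕ} (hr : r.Prime) (hζ : IsPrimitiveRoot ζ r) :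
    ∏ b ∈ Finset.range r, ζ ^ b = (-1) ^ (r + 1) := by
  rcases hr.eq_two_or_odd' with rfl | hodd
  · have h := hζ.eq_neg_one_of_two_right
    subst h
    norm_num [Finset.prod_range_succ]
  · rw [Finset.prod_pow_eq_pow_sum]
    obtain ⟨t, rfl⟩ := hodd
    have hsum : ∑ b ∈ Finset.range (2 * t + 1), b = (2 * t + 1) * t := by
      rw [Finset.sum_range_id]
      have : (2 * t + 1) * (2 * t + 1 - 1) = (2 * t + 1) * t * 2 := by
        rw [Nat.add_sub_cancel]; ring
      rw [this, Nat.mul_div_cancel _ (by norm_num)]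
    rw [hsum, pow_mul, hζ.pow_eq_one, one_pow]
    have : 2 * t + 1 + 1 = 2 * (t + 1) := by ring
    rw [this, pow_mul, neg_one_sq, one_pow]

/-- **(Norm_r), Delta form, power series.** -/
theorem prod_rescale_deltaPS {ζ : R} {r : ℕ} (hr : r.Prime) (hζ : IsPrimitiveRoot ζ r) :
    (∏ b ∈ Finset.range r, PowerSeries.rescale (ζ ^ b) (deltaPS R))
        * PowerSeries.expand (r * r) (mul_ne_zero hr.ne_zero hr.ne_zero) (deltaPS R)
      = (-1) ^ (r + 1) * (PowerSeries.expand r hr.ne_zero (deltaPS R)) ^ (r + 1) := by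
  have hη := prod_rescale_etaR hr hζ
  simp only [deltaPS, map_mul, map_pow, rescale_X, expand_X, Finset.prod_mul_distrib,
    Finset.prod_pow, Finset.prod_const, Finset.card_range]
  rw [prod_pow_primitiveRoot hr (hζ.map_of_injective (PowerSeries.C_injective (R := R)))]
  have e : (X : PowerSeries R) ^ r * X ^ (r * r) = (X ^ r) ^ (r + 1) := by
    rw [← pow_add, ← pow_mul]; congr 1; ring
  calc (-1) ^ (r + 1) * X ^ r * (∏ b ∈ Finset.range r, PowerSeries.rescale (ζ ^ b) (etaR R)) ^ 24
        * (X ^ (r * r) * (PowerSeries.expand (r * r) (mul_ne_zero hr.ne_zero hr.ne_zero) (etaR R)) ^ 24)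
      = (-1) ^ (r + 1) * ((X : PowerSeries R) ^ r * X ^ (r * r))
          * ((∏ b ∈ Finset.range r, PowerSeries.rescale (ζ ^ b) (etaR R))
            * PowerSeries.expand (r * r) (mul_ne_zero hr.ne_zero hr.ne_zero) (etaR R)) ^ 24 := by
        ring
    _ = (-1) ^ (r + 1) * (X ^ r * (PowerSeries.expand r hr.ne_zero (etaR R)) ^ 24) ^ (r + 1) := by
        rw [hη, e]; ring

end Delta

section Laurent

open ModularCurve HahnSeries

variable {R : Type*} [CommRing R]

theorem ofPowerSeries_rescale (u : Rˣ) (f : PowerSeries R) :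
    HahnSeries.ofPowerSeries ℤ R (PowerSeries.rescale (u : R) f)
      = H20.twist u (HahnSeries.ofPowerSeries ℤ R f) := by
  ext n
  rw [H20.coeff_twist, PowerSeries.coeff_coe, PowerSeries.coeff_coe]
  split_ifs with h
  · rw [mul_zero]
  · rw [coeff_rescale]
    congr 1
    have hn : ((n.natAbs : ℕ) : ℤ) = n := Int.natAbs_of_nonneg (not_lt.mp h)
    conv_rhs => rw [← hn]
    rw [zpow_natCast, Units.val_pow_eq_pow_val]

theorem ofPowerSeries_expand (N : ℕ) [NeZero N] (f : PowerSeries R) :
    HahnSeries.ofPowerSeries ℤ R (PowerSeries.expand N (NeZero.ne N) f)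
      = qExpand R N (HahnSeries.ofPowerSeries ℤ R f) := by
  have hN : (0 : ℤ) < N := by exact_mod_cast Nat.pos_of_ne_zero (NeZero.ne N)
  ext n
  by_cases hn : (N : ℤ) ∣ n
  · obtain ⟨m, rfl⟩ := hn
    rw [qExpand_coeff_mul, PowerSeries.coeff_coe, PowerSeries.coeff_coe]
    by_cases hm : m < 0
    · rw [if_pos hm, if_pos (mul_neg_of_pos_of_neg hN hm)]
    · rw [if_neg hm, if_neg (not_lt.mpr (mul_nonneg hN.le (not_lt.mp hm))), Int.natAbs_mul,
        Int.natAbs_natCast, coeff_expand_mul]
  · rw [qExpand_coeff_of_not_dvd N _ hn, PowerSeries.coeff_coe]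
    split_ifs with h
    · rfl
    · refine coeff_expand_of_not_dvd N (NeZero.ne N) f ?_
      intro hd
      exact hn (Int.natCast_dvd.mpr hd)

/-- `D = q · η^24` as a Laurent series over `R` (same as helper31's `deltaQ`). -/
def deltaL (R : Type*) [CommRing R] : LaurentSeries R :=
  HahnSeries.ofPowerSeries ℤ R ((PowerSeries.X * ModularCurve.dedekindEtaUnit).map (Int.castRingHom R))

theorem deltaL_eq_ofPowerSeries : deltaL R = HahnSeries.ofPowerSeries ℤ R (deltaPS R) := by
  rw [deltaL, deltaPS_eq_map]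

theorem deltaL_eq_single_mul :
    deltaL R = HahnSeries.single (1 : ℤ) (1 : R)
      * HahnSeries.ofPowerSeries ℤ R (ModularCurve.dedekindEtaUnit.map (Int.castRingHom R)) := by
  rw [deltaL, map_mul, map_X, map_mul, HahnSeries.ofPowerSeries_X]

/-- **(Norm_r), Delta form, Laurent series.** For a prime `r`, a domain `R` and a unit `ζ`
which is a primitive `r`-th root of unity:
`∏_{b<r} D(ζ^b x) · D(x^(r²)) = (-1)^(r+1) · D(x^r)^(r+1)`. -/
theorem prod_twist_deltaL [IsDomain R] {ζ : Rˣ} {r : ℕ} [NeZero r] [NeZero (r * r)]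
    (hr : r.Prime) (hζ : IsPrimitiveRoot (ζ : R) r) :
    (∏ b ∈ Finset.range r, H20.twist (ζ ^ b) (deltaL R)) * qExpand R (r * r) (deltaL R)
      = (-1) ^ (r + 1) * (qExpand R r (deltaL R)) ^ (r + 1) := by
  have h := congrArg (HahnSeries.ofPowerSeries ℤ R) (prod_rescale_deltaPS hr hζ)
  simp only [map_mul, map_prod, map_pow, map_neg, map_one] at h
  rw [ofPowerSeries_expand, ofPowerSeries_expand] at h
  simp only [← Units.val_pow_eq_pow_val, ofPowerSeries_rescale] at h
  rw [deltaL_eq_ofPowerSeries]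
  exact h

end Laurent

end Fermat.Agent.S28.H47
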