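import Mathlib
import Fermat.Prelude.Def_ModularCurve_X0ModL
import Fermat.Agent.S24.JTrans_helper89
import Fermat.Agent.S28.NormR_helper47

/-!
# S28 (helper31): the formal half of the Hasse relation `(Hasse_l)`

`D = q · η^24`, `D⁻¹`, the integral series
`hasseSeries l = D · (D⁻¹(q^l) + l^13 · U_l(D⁻¹))  ∈ ℤ((q))`,
its leading term `q^(1-l)`, Lemma T over `ℤ` (a complex polynomial `P` with `P(J) ∈ ℤ((q))`
has integer coefficients) and the reduction modulo `l`:
if `G(J) = hasseSeries l` over `ℂ`, then `G` is monic integral of degree `l - 1`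
and `G(J) · D^(l-1) = 1` over every field of characteristic `l`.
-/

set_option autoImplicit false

noncomputable section

namespace Fermat.Agent.S28.H31

open ModularCurve Polynomial

universe u

/-! ### Lowest coefficients of a product of Laurent series -/

theorem coeff_mul_eq_zero_of_lt {R : Type*} [CommRing R] {x y : LaurentSeries R} {a b : ℤ}
    (hx : ∀ n < a, x.coeff n = 0) (hy : ∀ n < b, y.coeff n = 0) {n : ℤ} (hn : n < a + b) :
    (x * y).coeff n = 0 := by
  rw [HahnSeries.coeff_mul]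
  refine Finset.sum_eq_zero fun ij hij => ?_
  rw [Finset.mem_antidiagonal] at hij
  obtain ⟨h1, h2, h3⟩ := hij
  exfalso
  have ha : a ≤ ij.1 := by
    by_contra hc
    exact h1 (hx _ (not_le.mp hc))
  have hb : b ≤ ij.2 := by
    by_contra hc
    exact h2 (hy _ (not_le.mp hc))
  omega

theorem coeff_mul_add_eq {R : Type*} [CommRing R] {x y : LaurentSeries R} {a b : ℤ}
    (hx : ∀ n < a, x.coeff n = 0) (hy : ∀ n < b, y.coeff n = 0) :
    (x * y).coeff (a + b) = x.coeff a * y.coeff b := by
  rw [HahnSeries.coeff_mul]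
  have key : ∀ ij ∈ Finset.antidiagonal x.isPWO_support y.isPWO_support (a + b),
      ij = (a, b) := by
    intro ij hij
    rw [Finset.mem_antidiagonal] at hij
    obtain ⟨h1, h2, h3⟩ := hij
    have ha : a ≤ ij.1 := by
      by_contra hc
      exact h1 (hx _ (not_le.mp hc))
    have hb : b ≤ ij.2 := by
      by_contra hc
      exact h2 (hy _ (not_le.mp hc))
    ext
    · show ij.1 = a
      omega
    · show ij.2 = b
      omega
  by_cases hmem : (a, b) ∈ Finset.antidiagonal x.isPWO_support y.isPWO_support (a + b)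
  · rw [Finset.sum_eq_single_of_mem (a, b) hmem]
    intro ij hij hne
    exact absurd (key ij hij) hne
  · rw [Finset.sum_eq_zero]
    · rw [Finset.mem_antidiagonal] at hmem
      by_contra hne
      apply hmem
      refine ⟨?_, ?_, rfl⟩
      · intro h0
        apply hne
        have h0' : x.coeff a = 0 := h0
        rw [h0', zero_mul]
      · intro h0
        apply hne
        have h0' : y.coeff b = 0 := h0
        rw [h0', mul_zero]
    · intro ij hij
      rw [key ij hij] at hij
      exact absurd hij hmem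

/-! ### `D` and `D⁻¹` -/

section Formal

variable (R : Type*) [CommRing R]

/-- `D⁻¹ = q⁻¹ · η^(-24)` as a Laurent series over `R`. -/
def deltaInv : LaurentSeries R :=
  HahnSeries.single (-1 : ℤ) (1 : R) *
    HahnSeries.ofPowerSeries ℤ R (ModularCurve.dedekindEtaUnitInv.map (Int.castRingHom R))

theorem deltaL_mul_deltaInv : H47.deltaL R * deltaInv R = 1 := by
  rw [H47.deltaL_eq_single_mul, deltaInv]
  have h1 : HahnSeries.single (1 : ℤ) (1 : R) * HahnSeries.single (-1 : ℤ) (1 : R) = 1 := by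
    rw [HahnSeries.single_mul_single]
    simp
  have h2 : HahnSeries.ofPowerSeries ℤ R (dedekindEtaUnit.map (Int.castRingHom R)) *
      HahnSeries.ofPowerSeries ℤ R (dedekindEtaUnitInv.map (Int.castRingHom R)) = 1 := by
    rw [← map_mul, ← map_mul, dedekindEtaUnit_mul_inv, map_one, map_one]
  calc HahnSeries.single (1 : ℤ) (1 : R) *
          HahnSeries.ofPowerSeries ℤ R (dedekindEtaUnit.map (Int.castRingHom R)) *
        (HahnSeries.single (-1 : ℤ) (1 : R) *
          HahnSeries.ofPowerSeries ℤ R (dedekindEtaUnitInv.map (Int.castRingHom R)))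
      = (HahnSeries.single (1 : ℤ) (1 : R) * HahnSeries.single (-1 : ℤ) (1 : R)) *
        (HahnSeries.ofPowerSeries ℤ R (dedekindEtaUnit.map (Int.castRingHom R)) *
          HahnSeries.ofPowerSeries ℤ R (dedekindEtaUnitInv.map (Int.castRingHom R))) := by ring
    _ = 1 := by rw [h1, h2, one_mul]

variable {R} in
theorem map_map_intCast {S : Type*} [CommRing S] (f : R →+* S) (p : PowerSeries ℤ) :
    (p.map (Int.castRingHom R)).map f = p.map (Int.castRingHom S) := by
  rw [← RingHom.comp_apply (PowerSeries.map f) (PowerSeries.map (Int.castRingHom R)),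
    ← PowerSeries.map_comp, RingHom.ext_int (f.comp (Int.castRingHom R)) (Int.castRingHom S)]

variable {R} in
theorem coeffMap_deltaL {S : Type*} [CommRing S] (f : R →+* S) :
    coeffMap f (H47.deltaL R) = H47.deltaL S := by
  rw [H47.deltaL, H47.deltaL, coeffMap_ofPowerSeries, map_map_intCast]

variable {R} in
theorem coeffMap_deltaInv {S : Type*} [CommRing S] (f : R →+* S) :
    coeffMap f (deltaInv R) = deltaInv S := by
  rw [deltaInv, deltaInv, map_mul, coeffMap_single, map_one, coeffMap_ofPowerSeries,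
    map_map_intCast]

theorem coeff_deltaL_of_lt {n : ℤ} (hn : n < 1) : (H47.deltaL R).coeff n = 0 := by
  rw [H47.deltaL_eq_single_mul, HahnSeries.coeff_single_mul, one_mul]
  exact ofPowerSeries_coeff_of_neg _ (by omega)

theorem coeff_deltaL_one : (H47.deltaL R).coeff 1 = 1 := by
  rw [H47.deltaL_eq_single_mul, HahnSeries.coeff_single_mul, one_mul, sub_self]
  have h := HahnSeries.ofPowerSeries_apply_coeff (Γ := ℤ)
    (dedekindEtaUnit.map (Int.castRingHom R)) 0
  rw [Nat.cast_zero] at h
  rw [h, PowerSeries.coeff_map, PowerSeries.coeff_zero_eq_constantCoeff,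
    constantCoeff_dedekindEtaUnit, map_one]

theorem coeff_deltaInv_of_lt {n : ℤ} (hn : n < -1) : (deltaInv R).coeff n = 0 := by
  rw [deltaInv, HahnSeries.coeff_single_mul, one_mul]
  exact ofPowerSeries_coeff_of_neg _ (by omega)

theorem coeff_deltaInv (n : ℕ) :
    (deltaInv R).coeff ((n : ℤ) - 1) = ((PowerSeries.coeff n dedekindEtaUnitInv : ℤ) : R) := by
  rw [deltaInv, HahnSeries.coeff_single_mul, one_mul, sub_neg_eq_add, sub_add_cancel,
    HahnSeries.ofPowerSeries_apply_coeff, PowerSeries.coeff_map, eq_intCast]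

theorem coeff_deltaInv_neg_one : (deltaInv R).coeff (-1) = 1 := by
  have h := coeff_deltaInv R 0
  rw [Nat.cast_zero, zero_sub] at h
  rw [h, PowerSeries.coeff_zero_eq_constantCoeff, constantCoeff_dedekindEtaUnitInv, Int.cast_one]

end Formal

/-! ### The trace series and the integral Hasse series -/

/-- `U_l(D⁻¹)`: the power series with coefficients `n ↦ (D⁻¹).coeff (l n)`. -/
def traceInv (l : ℕ) : PowerSeries ℤ :=
  PowerSeries.mk fun n => PowerSeries.coeff (l * n + 1) ModularCurve.dedekindEtaUnitInv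

theorem coeff_ofPowerSeries_traceInv {l : ℕ} (hl : 2 ≤ l) (n : ℤ) :
    (HahnSeries.ofPowerSeries ℤ ℤ (traceInv l)).coeff n = (deltaInv ℤ).coeff ((l : ℤ) * n) := by
  rcases lt_or_ge n 0 with hn | hn
  · rw [ofPowerSeries_coeff_of_neg _ hn, coeff_deltaInv_of_lt]
    have h2 : (2 : ℤ) ≤ l := by exact_mod_cast hl
    nlinarith
  · obtain ⟨k, rfl⟩ := Int.eq_ofNat_of_zero_le hn
    have h := coeff_deltaInv ℤ (l * k + 1)
    have e : (((l * k + 1 : ℕ) : ℤ) - 1) = (l : ℤ) * (k : ℤ) := by push_cast; ring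
    rw [e] at h
    rw [h, HahnSeries.ofPowerSeries_apply_coeff, traceInv, PowerSeries.coeff_mk, Int.cast_id]

/-- The integral Hasse series `D(q) · (D⁻¹(q^l) + l^13 · U_l(D⁻¹)(q)) ∈ ℤ((q))`. -/
def hasseSeries (l : ℕ) [NeZero l] : LaurentSeries ℤ :=
  H47.deltaL ℤ * (qExpand ℤ l (deltaInv ℤ) +
    HahnSeries.C ((l : ℤ) ^ 13) * HahnSeries.ofPowerSeries ℤ ℤ (traceInv l))

theorem coeff_qExpand_deltaInv_of_lt (R : Type*) [CommRing R] (l : ℕ) [NeZero l] {n : ℤ}
    (hn : n < -(l : ℤ)) : (qExpand R l (deltaInv R)).coeff n = 0 := by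
  by_cases hd : (l : ℤ) ∣ n
  · obtain ⟨k, rfl⟩ := hd
    rw [qExpand_coeff_mul]
    apply coeff_deltaInv_of_lt
    have hl : (0 : ℤ) < l := by exact_mod_cast Nat.pos_of_ne_zero (NeZero.ne l)
    nlinarith
  · exact qExpand_coeff_of_not_dvd l _ hd

theorem coeff_qExpand_deltaInv_neg (R : Type*) [CommRing R] (l : ℕ) [NeZero l] :
    (qExpand R l (deltaInv R)).coeff (-(l : ℤ)) = 1 := by
  have e : (-(l : ℤ)) = (l : ℤ) * (-1) := by ring
  rw [e, qExpand_coeff_mul, coeff_deltaInv_neg_one]

theorem coeff_C_mul_ofPowerSeries_of_lt {R : Type*} [CommRing R] (c : R) (p : PowerSeries R)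
    {n : ℤ} (hn : n < 0) : (HahnSeries.C c * HahnSeries.ofPowerSeries ℤ R p).coeff n = 0 := by
  rw [HahnSeries.C_mul_eq_smul, HahnSeries.coeff_smul, ofPowerSeries_coeff_of_neg _ hn, smul_zero]

theorem coeff_hasseSeries_of_lt (l : ℕ) [NeZero l] {n : ℤ} (hn : n < 1 - (l : ℤ)) :
    (hasseSeries l).coeff n = 0 := by
  have hl : (0 : ℤ) < l := by exact_mod_cast Nat.pos_of_ne_zero (NeZero.ne l)
  refine coeff_mul_eq_zero_of_lt (a := 1) (b := -(l : ℤ))
    (fun m hm => coeff_deltaL_of_lt ℤ hm) (fun m hm => ?_) (by omega)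
  rw [HahnSeries.coeff_add, coeff_qExpand_deltaInv_of_lt ℤ l hm,
    coeff_C_mul_ofPowerSeries_of_lt _ _ (by omega), add_zero]

theorem coeff_hasseSeries (l : ℕ) [NeZero l] : (hasseSeries l).coeff (1 - (l : ℤ)) = 1 := by
  have hl : (0 : ℤ) < l := by exact_mod_cast Nat.pos_of_ne_zero (NeZero.ne l)
  have e : (1 - (l : ℤ)) = 1 + (-(l : ℤ)) := by ring
  rw [e, hasseSeries, coeff_mul_add_eq (a := 1) (b := -(l : ℤ))
    (fun m hm => coeff_deltaL_of_lt ℤ hm) (fun m hm => ?_)]
  · rw [coeff_deltaL_one, one_mul, HahnSeries.coeff_add, coeff_qExpand_deltaInv_neg,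
      coeff_C_mul_ofPowerSeries_of_lt _ _ (by omega), add_zero]
  · rw [HahnSeries.coeff_add, coeff_qExpand_deltaInv_of_lt ℤ l hm,
      coeff_C_mul_ofPowerSeries_of_lt _ _ (by omega), add_zero]

/-- Reduction of the Hasse series in characteristic `l`: the trace term dies. -/
theorem coeffMap_hasseSeries (l : ℕ) [NeZero l] (k : Type*) [CommRing k] [CharP k l] :
    coeffMap (Int.castRingHom k) (hasseSeries l) = H47.deltaL k * qExpand k l (deltaInv k) := by
  have h0 : coeffMap (Int.castRingHom k) (HahnSeries.C ((l : ℤ) ^ 13)) = 0 := by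
    rw [HahnSeries.C_apply, coeffMap_single]
    have : (Int.castRingHom k) ((l : ℤ) ^ 13) = 0 := by
      rw [map_pow, map_natCast, CharP.cast_eq_zero, zero_pow (by norm_num)]
    rw [this, HahnSeries.single_eq_zero]
  rw [hasseSeries, map_mul, map_add, map_mul, h0, zero_mul, add_zero, coeffMap_deltaL,
    coeffMap_qExpand, coeffMap_deltaInv]

/-! ### Polynomials in `J` with integer coefficients -/

theorem coeffMap_intCast_injective (k : Type*) [CommRing k] [CharZero k] :
    Function.Injective (coeffMap (Int.castRingHom k)) := by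
  intro x y hxy
  ext n
  have h := congrArg (fun s => s.coeff n) hxy
  simp only [coeffMap_coeff, eq_intCast] at h
  exact_mod_cast h

/-- `Q(J)` for an integral polynomial `Q`, computed over `ℤ` and then base changed. -/
theorem aeval_map_intCast (k : Type*) [Field k] (Q : ℤ[X]) :
    aeval (jqModC k) (Q.map (Int.castRingHom k)) =
      coeffMap (Int.castRingHom k) (eval₂ (Int.castRingHom (LaurentSeries ℤ)) (jqModC ℤ) Q) := by
  rw [aeval_def, eval₂_map, hom_eval₂, coeffMap_jqModC]
  congr 1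
  exact RingHom.ext_int _ _

theorem coeffMap_C_intCast (m : ℤ) :
    coeffMap (Int.castRingHom ℂ) (HahnSeries.C m) = algebraMap ℂ (LaurentSeries ℂ) (m : ℂ) := by
  rw [HahnSeries.C_apply, coeffMap_single, algebraMap_laurentSeries_eq_single, eq_intCast]

/-- **Lemma T over `ℤ`**: a complex polynomial `P` with `P(J) ∈ ℤ((q))` has integer
coefficients. -/
theorem exists_int_poly (P : ℂ[X]) (R : LaurentSeries ℤ)
    (h : aeval (jqModC ℂ) P = coeffMap (Int.castRingHom ℂ) R) :
    ∃ Q : ℤ[X], Q.map (Int.castRingHom ℂ) = P := by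
  induction' hn : P.support.card using Nat.strong_induction_on with n ih generalizing P R
  by_cases hP : P = 0
  · exact ⟨0, by simp [hP]⟩
  · have hlead := Fermat.Agent.S24.H89.coeff_aeval_jqModC_neg_natDegree ℂ P
    rw [h, coeffMap_coeff, eq_intCast] at hlead
    have hJ : coeffMap (Int.castRingHom ℂ) (jqModC ℤ) = jqModC ℂ := coeffMap_jqModC _
    have h' : aeval (jqModC ℂ) P.eraseLead = coeffMap (Int.castRingHom ℂ)
        (R - HahnSeries.C (R.coeff (-(P.natDegree : ℤ))) * jqModC ℤ ^ P.natDegree) := by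
      have e : P.eraseLead = P - C P.leadingCoeff * X ^ P.natDegree := by
        rw [eq_sub_iff_add_eq, eraseLead_add_C_mul_X_pow]
      rw [map_sub, map_mul, map_pow, hJ, ← h, e, map_sub, map_mul, aeval_C, map_pow, aeval_X,
        ← hlead, coeffMap_C_intCast]
    obtain ⟨Q', hQ'⟩ := ih _ (by rw [← hn]; exact eraseLead_support_card_lt hP) P.eraseLead _ h' rfl
    refine ⟨Q' + C (R.coeff (-(P.natDegree : ℤ))) * X ^ P.natDegree, ?_⟩
    rw [Polynomial.map_add, hQ', Polynomial.map_mul, Polynomial.map_C, Polynomial.map_pow,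
      Polynomial.map_X, eq_intCast, hlead]
    exact eraseLead_add_C_mul_X_pow P

/-- The degree and leading coefficient of `P` are read off from the lowest term of `P(J)`. -/
theorem natDegree_leadingCoeff_of_aeval (P : ℂ[X]) (R : LaurentSeries ℤ) (d : ℕ)
    (h : aeval (jqModC ℂ) P = coeffMap (Int.castRingHom ℂ) R)
    (h1 : R.coeff (-(d : ℤ)) = 1) (h0 : ∀ m : ℤ, m < -(d : ℤ) → R.coeff m = 0) :
    P.natDegree = d ∧ P.leadingCoeff = 1 := by
  have hd : (aeval (jqModC ℂ) P).coeff (-(d : ℤ)) = 1 := by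
    rw [h, coeffMap_coeff, h1, map_one]
  have hP : P ≠ 0 := by
    rintro rfl
    rw [map_zero, HahnSeries.coeff_zero] at hd
    exact zero_ne_one hd
  have hle : P.natDegree ≤ d := by
    by_contra hc
    have hlead := Fermat.Agent.S24.H89.coeff_aeval_jqModC_neg_natDegree ℂ P
    rw [h, coeffMap_coeff, h0 _ (by rw [not_le] at hc; omega), map_zero] at hlead
    exact leadingCoeff_ne_zero.mpr hP hlead.symm
  have hge : d ≤ P.natDegree := by
    by_contra hc
    have := Fermat.Agent.S24.H89.coeff_aeval_jqModC_of_lt ℂ P (m := -(d : ℤ))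
      (by rw [not_le] at hc; omega)
    rw [hd] at this
    exact one_ne_zero this
  have hdeg : P.natDegree = d := le_antisymm hle hge
  refine ⟨hdeg, ?_⟩
  rw [← Fermat.Agent.S24.H89.coeff_aeval_jqModC_neg_natDegree ℂ P, hdeg, hd]

/-- **The formal half of `(Hasse_l)`**.  If a complex polynomial `G` satisfies
`G(J) = hasseSeries l` (the analytic input), and Frobenius holds for `D⁻¹` in characteristic
`l`, then `G` comes from a monic integral polynomial of degree `l - 1` with
`G(J) · D^(l-1) = 1` over every field of characteristic `l`. -/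
theorem exists_hasse_of_complex (l : ℕ) [NeZero l] (hl : 1 ≤ l) (G : ℂ[X])
    (hG : aeval (jqModC ℂ) G = coeffMap (Int.castRingHom ℂ) (hasseSeries l))
    (hfrob : ∀ (k : Type u) [Field k] [CharP k l],
      qExpand k l (deltaInv k) = deltaInv k ^ l) :
    ∃ Q : ℤ[X], Q.map (Int.castRingHom ℂ) = G ∧ Q.Monic ∧ Q.natDegree = l - 1 ∧
      eval₂ (Int.castRingHom (LaurentSeries ℤ)) (jqModC ℤ) Q = hasseSeries l ∧
      ∀ (k : Type u) [Field k] [CharP k l],
        aeval (jqModC k) (Q.map (Int.castRingHom k)) * H47.deltaL k ^ (l - 1) = 1 := by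
  obtain ⟨Q, hQ⟩ := exists_int_poly G _ hG
  have e : (-((l - 1 : ℕ) : ℤ)) = 1 - (l : ℤ) := by
    rw [Nat.cast_sub hl]; push_cast; ring
  obtain ⟨hdeg, hlc⟩ := natDegree_leadingCoeff_of_aeval G (hasseSeries l) (l - 1) hG
    (by rw [e]; exact coeff_hasseSeries l)
    (fun m hm => coeff_hasseSeries_of_lt l (by rw [e] at hm; exact hm))
  have hinj : Function.Injective (Int.castRingHom ℂ) := Int.cast_injective
  have hQdeg : Q.natDegree = l - 1 := by
    rw [← hdeg, ← hQ, natDegree_map_eq_of_injective hinj]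
  have hQmonic : Q.Monic := by
    have h1 : (Int.castRingHom ℂ) Q.leadingCoeff = 1 := by
      rw [← leadingCoeff_map_of_injective hinj, hQ, hlc]
    apply hinj
    rw [h1, map_one]
  have hint : eval₂ (Int.castRingHom (LaurentSeries ℤ)) (jqModC ℤ) Q = hasseSeries l := by
    apply coeffMap_intCast_injective ℂ
    rw [← aeval_map_intCast, hQ, hG]
  refine ⟨Q, hQ, hQmonic, hQdeg, hint, ?_⟩
  intro k _ _
  rw [aeval_map_intCast, hint, coeffMap_hasseSeries, hfrob k]
  have h1 : H47.deltaL k * deltaInv k ^ l * H47.deltaL k ^ (l - 1)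
      = (H47.deltaL k * deltaInv k) ^ l := by
    rw [mul_pow]
    have : H47.deltaL k ^ l = H47.deltaL k * H47.deltaL k ^ (l - 1) := by
      rw [← pow_succ', Nat.sub_add_cancel hl]
    rw [this]
    ring
  rw [h1, deltaL_mul_deltaInv, one_pow]

end Fermat.Agent.S28.H31
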