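/-
S28 helper library (helper69): two operators on holomorphic periodic functions on the upper half
plane and their effect on Laurent `q`-expansions (on top of `S24/QLaurent_helper69`):

* `dil d f = (z ↦ f (d z))` :  `qL h (dil d f) = qExpand ℂ d (qL h f)`;
* `trL l f = (z ↦ ∑_{b < l} f ((z + b) / l))` (for `1`-periodic `f`):
  `(qL 1 (trL l f)).coeff j = l * (qL 1 f).coeff (l * j)`.
-/
import Mathlib
import Fermat.Agent.S24.QLaurentRN_helper69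

set_option autoImplicit false

noncomputable section

namespace Fermat.Agent.S28.H69

open ModularForm Function Complex Filter Topology
open UpperHalfPlane hiding I
open scoped Manifold Real
open Fermat.Agent.S24.H69

local notation "𝕢" => Periodic.qParam

/-! ### Composition with holomorphic self-maps of the upper half plane -/

theorem mdiff_comp_of_differentiable {f : ℍ → ℂ} (hf : MDifferentiable 𝓘(ℂ) 𝓘(ℂ) f)
    (φ : ℂ → ℂ) (hφ : Differentiable ℂ φ) (hmap : ∀ w : ℂ, 0 < w.im → 0 < (φ w).im) :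
    MDifferentiable 𝓘(ℂ) 𝓘(ℂ) (fun z : ℍ => f (ofComplex (φ (z : ℂ)))) := by
  rw [UpperHalfPlane.mdifferentiable_iff] at hf ⊢
  have hd : DifferentiableOn ℂ ((f ∘ ofComplex) ∘ φ) {z | 0 < z.im} :=
    hf.comp hφ.differentiableOn (fun w hw => hmap w hw)
  refine hd.congr fun w hw => ?_
  simp [ofComplex_apply_of_im_pos hw]

theorem isQMero_of_hasSum {h : ℕ} (hh : 0 < h) {f : ℍ → ℂ}
    (hmd : MDifferentiable 𝓘(ℂ) 𝓘(ℂ) f) (hper : ∀ z : ℍ, f ((h : ℝ) +ᵥ z) = f z) (k : ℕ)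
    (c : ℕ → ℂ) (hs : ∀ z : ℍ, HasSum (fun n : ℕ => c n * 𝕢 h z ^ n) (f z * 𝕢 h z ^ k)) :
    IsQMero h f where
  mdiff := hmd
  periodic := periodic_comp_ofComplex_of_vadd hper
  mero := ⟨k, isBoundedAtImInfty_of_hasSum_qExpansion (h := (h : ℝ)) (by exact_mod_cast hh)
    (c := c) (fun τ => by simpa [smul_eq_mul, qpowFn_apply] using hs τ)⟩

/-! ### Dilation `z ↦ d z` -/

/-- The function `z ↦ f (d z)`. -/
def dil (d : ℕ) (f : ℍ → ℂ) : ℍ → ℂ := fun z => f (ofComplex ((d : ℂ) * (z : ℂ)))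

theorem im_nat_mul_pos {d : ℕ} (hd : 0 < d) {w : ℂ} (hw : 0 < w.im) : 0 < ((d : ℂ) * w).im := by
  have : ((d : ℂ) * w).im = d * w.im := by simp
  rw [this]
  exact mul_pos (by exact_mod_cast hd) hw

theorem coe_ofComplex_mul {d : ℕ} (hd : 0 < d) (z : ℍ) :
    ((ofComplex ((d : ℂ) * (z : ℂ)) : ℍ) : ℂ) = (d : ℂ) * z := by
  rw [ofComplex_apply_of_im_pos (im_nat_mul_pos hd z.im_pos)]

theorem qParam_nat_mul (h : ℝ) (d : ℕ) (w : ℂ) : 𝕢 h ((d : ℂ) * w) = 𝕢 h w ^ d := by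
  simp only [Periodic.qParam]
  rw [← Complex.exp_nat_mul]
  congr 1
  ring

theorem mdiff_dil {d : ℕ} (hd : 0 < d) {f : ℍ → ℂ} (hf : MDifferentiable 𝓘(ℂ) 𝓘(ℂ) f) :
    MDifferentiable 𝓘(ℂ) 𝓘(ℂ) (dil d f) :=
  mdiff_comp_of_differentiable hf (fun w => (d : ℂ) * w) (by fun_prop)
    (fun _ hw => im_nat_mul_pos hd hw)

theorem dil_vadd {h : ℕ} {f : ℍ → ℂ} (hf : Periodic (f ∘ ofComplex) ((h : ℝ) : ℂ)) (d : ℕ)
    (z : ℍ) : dil d f ((h : ℝ) +ᵥ z) = dil d f z := by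
  have hp := hf.nat_mul d ((d : ℂ) * (z : ℂ))
  simp only [Function.comp_apply] at hp
  simp only [dil]
  rw [← hp]
  congr 2
  simp only [UpperHalfPlane.coe_vadd]
  ring

theorem hasSum_dil {h : ℕ} (hh : 0 < h) {f : ℍ → ℂ} (hf : IsQMero h f) {d : ℕ} (hd : 0 < d)
    {k : ℕ} (hk : IsBoundedAtImInfty (f * qpowFn h k)) (z : ℍ) :
    HasSum (fun i : ℕ =>
        (if d ∣ i then (qL h f).coeff (((i / d : ℕ) : ℤ) - k) else 0) * 𝕢 h z ^ i)
      (dil d f z * 𝕢 h z ^ (d * k)) := by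
  have h1 := hasSum_qL hh hf hk (ofComplex ((d : ℂ) * (z : ℂ)))
  rw [coe_ofComplex_mul hd, qParam_nat_mul] at h1
  have hinj : Function.Injective (fun n : ℕ => d * n) :=
    fun a b hab => Nat.eq_of_mul_eq_mul_left hd hab
  refine (hinj.hasSum_iff ?_).mp ?_
  · intro n hn
    have : ¬ d ∣ n := fun ⟨i, hi⟩ => hn ⟨i, hi.symm⟩
    simp [this]
  · convert h1 using 1
    · funext n
      simp only [Function.comp_apply]
      rw [if_pos (dvd_mul_right d n), Nat.mul_div_cancel_left n hd, pow_mul]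
    · rw [pow_mul]
      rfl

theorem isQMero_dil {h : ℕ} (hh : 0 < h) {f : ℍ → ℂ} (hf : IsQMero h f) {d : ℕ} (hd : 0 < d) :
    IsQMero h (dil d f) := by
  obtain ⟨k, hk⟩ := hf.mero
  exact isQMero_of_hasSum hh (mdiff_dil hd hf.mdiff) (dil_vadd hf.periodic d) (d * k) _
    (hasSum_dil hh hf hd hk)

/-- **Dilation**: the expansion of `z ↦ f (d z)` is the expansion of `f` with `q ↦ q^d`. -/
theorem qL_dil {h : ℕ} (hh : 0 < h) {f : ℍ → ℂ} (hf : IsQMero h f) (d : ℕ) [NeZero d] :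
    qL h (dil d f) = ModularCurve.qExpand ℂ d (qL h f) := by
  have hd : 0 < d := Nat.pos_of_ne_zero (NeZero.ne d)
  obtain ⟨k, hk⟩ := hf.mero
  rw [← single_mul_spread_eq d k (qL h f) (fun j hj => qL_coeff_of_lt hh hf hk hj)]
  exact qL_eq_of_hasSum hh (isQMero_dil hh hf hd) (d * k) _ (hasSum_dil hh hf hd hk)

/-! ### The trace `z ↦ ∑_{b < l} f ((z + b) / l)` -/

/-- The function `z ↦ ∑_{b < l} f ((z + b) / l)`. -/
def trL (l : ℕ) (f : ℍ → ℂ) : ℍ → ℂ :=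
  fun z => ∑ b ∈ Finset.range l, f (ofComplex (((z : ℂ) + b) / l))

theorem im_add_div_pos {l : ℕ} (hl : 0 < l) (b : ℕ) {w : ℂ} (hw : 0 < w.im) :
    0 < ((w + b) / l).im := by
  have h1 : (w + b) / l = (((l : ℝ)⁻¹ : ℝ) : ℂ) * (w + b) := by
    push_cast
    field_simp
  have h2 : ((((l : ℝ)⁻¹ : ℝ) : ℂ) * (w + b)).im = (l : ℝ)⁻¹ * w.im := by
    simp [Complex.mul_im]
  rw [h1, h2]
  exact mul_pos (inv_pos.mpr (by exact_mod_cast hl)) hw

theorem coe_ofComplex_div {l : ℕ} (hl : 0 < l) (b : ℕ) (z : ℍ) :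
    ((ofComplex (((z : ℂ) + b) / l) : ℍ) : ℂ) = ((z : ℂ) + b) / l := by
  rw [ofComplex_apply_of_im_pos (im_add_div_pos hl b z.im_pos)]

/-- `ζ_l = exp (2πi / l)`. -/
def zetaL (l : ℕ) : ℂ := cexp (2 * π * I / l)

/-- `q_l(z) = exp (2πi z / l)`. -/
def xL (l : ℕ) (z : ℂ) : ℂ := cexp (2 * π * I * z / l)

theorem zetaL_pow_self {l : ℕ} (hl : 0 < l) : zetaL l ^ l = 1 := by
  have hl' : (l : ℂ) ≠ 0 := by exact_mod_cast hl.ne'
  rw [zetaL, ← Complex.exp_nat_mul]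
  have : (l : ℂ) * (2 * π * I / l) = 2 * π * I := by field_simp
  rw [this, Complex.exp_two_pi_mul_I]

theorem xL_pow_self {l : ℕ} (hl : 0 < l) (z : ℂ) : xL l z ^ l = 𝕢 ((1 : ℕ) : ℝ) z := by
  have hl' : (l : ℂ) ≠ 0 := by exact_mod_cast hl.ne'
  rw [xL, Periodic.qParam, ← Complex.exp_nat_mul]
  congr 1
  push_cast
  field_simp

theorem qParam_add_div {l : ℕ} (hl : 0 < l) (b : ℕ) (z : ℂ) :
    𝕢 ((1 : ℕ) : ℝ) ((z + b) / l) = zetaL l ^ b * xL l z := by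
  have hl' : (l : ℂ) ≠ 0 := by exact_mod_cast hl.ne'
  rw [zetaL, xL, Periodic.qParam, ← Complex.exp_nat_mul, ← Complex.exp_add]
  congr 1
  push_cast
  field_simp
  ring

theorem sum_zetaL_pow {l : ℕ} (hl : 0 < l) (n : ℕ) :
    ∑ b ∈ Finset.range l, (zetaL l ^ b) ^ n = if l ∣ n then (l : ℂ) else 0 := by
  have hprim : IsPrimitiveRoot (zetaL l) l := Complex.isPrimitiveRoot_exp l hl.ne'
  have e : ∀ b : ℕ, (zetaL l ^ b) ^ n = (zetaL l ^ n) ^ b := fun b => pow_right_comm _ _ _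
  simp_rw [e]
  split_ifs with hdvd
  · have h1 : zetaL l ^ n = 1 := (hprim.pow_eq_one_iff_dvd n).mpr hdvd
    simp [h1]
  · have h1 : zetaL l ^ n ≠ 1 := fun h => hdvd ((hprim.pow_eq_one_iff_dvd n).mp h)
    rw [geom_sum_eq h1, pow_right_comm, zetaL_pow_self hl, one_pow, sub_self, zero_div]

theorem mdiff_trL {l : ℕ} (hl : 0 < l) {f : ℍ → ℂ} (hf : MDifferentiable 𝓘(ℂ) 𝓘(ℂ) f) :
    MDifferentiable 𝓘(ℂ) 𝓘(ℂ) (trL l f) := by
  have key : ∀ m : ℕ, MDifferentiable 𝓘(ℂ) 𝓘(ℂ)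
      (fun z : ℍ => ∑ b ∈ Finset.range m, f (ofComplex (((z : ℂ) + b) / l))) := by
    intro m
    induction m with
    | zero => simpa using (mdifferentiable_const : MDifferentiable 𝓘(ℂ) 𝓘(ℂ) (fun _ : ℍ => (0 : ℂ)))
    | succ m ih =>
      have h1 : MDifferentiable 𝓘(ℂ) 𝓘(ℂ) (fun z : ℍ => f (ofComplex (((z : ℂ) + m) / l))) :=
        mdiff_comp_of_differentiable hf (fun w => (w + m) / l) (by fun_prop)
          (fun _ hw => im_add_div_pos hl m hw)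
      have h2 := ih.add h1
      convert h2 using 1
      funext z
      simp [Finset.sum_range_succ]
  exact key l

theorem trL_vadd {l : ℕ} (hl : 0 < l) {f : ℍ → ℂ}
    (hf : Periodic (f ∘ ofComplex) (((1 : ℕ) : ℝ) : ℂ)) (z : ℍ) :
    trL l f ((((1 : ℕ) : ℝ)) +ᵥ z) = trL l f z := by
  have hl' : (l : ℂ) ≠ 0 := by exact_mod_cast hl.ne'
  set φ : ℕ → ℂ := fun n => f (ofComplex (((z : ℂ) + n) / l)) with hφ
  have h1 : trL l f ((((1 : ℕ) : ℝ)) +ᵥ z) = ∑ b ∈ Finset.range l, φ (b + 1) := by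
    simp only [trL, hφ]
    refine Finset.sum_congr rfl fun b _ => ?_
    congr 2
    simp only [UpperHalfPlane.coe_vadd]
    push_cast
    ring
  have h2 : φ l = φ 0 := by
    have hp := hf ((z : ℂ) / l)
    simp only [Function.comp_apply] at hp
    simp only [hφ]
    have e1 : ((z : ℂ) + (l : ℕ)) / l = (z : ℂ) / l + (((1 : ℕ) : ℝ) : ℂ) := by
      push_cast
      field_simp
    have e2 : ((z : ℂ) + ((0 : ℕ) : ℂ)) / l = (z : ℂ) / l := by simp
    rw [e1, e2, hp]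
  have h3 : ∑ b ∈ Finset.range l, φ (b + 1) + φ 0 = ∑ b ∈ Finset.range l, φ b + φ l := by
    rw [← Finset.sum_range_succ' φ l, Finset.sum_range_succ]
  rw [h1]
  have h4 : trL l f z = ∑ b ∈ Finset.range l, φ b := rfl
  rw [h4]
  rw [h2] at h3
  exact add_right_cancel h3

theorem hasSum_trL {l : ℕ} (hl : 0 < l) {f : ℍ → ℂ} (hf : IsQMero 1 f) {k₀ : ℕ}
    (hk : IsBoundedAtImInfty (f * qpowFn 1 (l * k₀))) (z : ℍ) :
    HasSum (fun i : ℕ =>
        ((l : ℂ) * (qL 1 f).coeff ((l : ℤ) * ((i : ℤ) - k₀))) * 𝕢 ((1 : ℕ) : ℝ) z ^ i)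
      (trL l f z * 𝕢 ((1 : ℕ) : ℝ) z ^ k₀) := by
  have h1 : ∀ b ∈ Finset.range l, HasSum
      (fun n : ℕ => (qL 1 f).coeff ((n : ℤ) - ((l * k₀ : ℕ) : ℤ)) *
        ((zetaL l ^ b) ^ n * xL l z ^ n))
      (f (ofComplex (((z : ℂ) + b) / l)) * 𝕢 ((1 : ℕ) : ℝ) z ^ k₀) := by
    intro b _
    have h := hasSum_qL one_pos hf hk (ofComplex (((z : ℂ) + b) / l))
    rw [coe_ofComplex_div hl, qParam_add_div hl] at h
    convert h using 1
    · funext n
      rw [mul_pow]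
    · congr 1
      have e1 : (zetaL l ^ b) ^ (l * k₀) = 1 := by
        rw [← pow_mul, mul_comm, mul_assoc, pow_mul, zetaL_pow_self hl, one_pow]
      rw [mul_pow, e1, one_mul, pow_mul, xL_pow_self hl]
  have h2 := hasSum_sum h1
  have h3 : (fun n : ℕ => ∑ b ∈ Finset.range l, (qL 1 f).coeff ((n : ℤ) - ((l * k₀ : ℕ) : ℤ)) *
        ((zetaL l ^ b) ^ n * xL l z ^ n)) =
      fun n : ℕ => if l ∣ n then
        (l : ℂ) * (qL 1 f).coeff ((n : ℤ) - ((l * k₀ : ℕ) : ℤ)) * xL l z ^ n else 0 := by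
    funext n
    rw [← Finset.mul_sum, ← Finset.sum_mul, sum_zetaL_pow hl]
    split_ifs <;> ring
  rw [h3, ← Finset.sum_mul] at h2
  replace h2 : HasSum (fun n : ℕ => if l ∣ n then
      (l : ℂ) * (qL 1 f).coeff ((n : ℤ) - ((l * k₀ : ℕ) : ℤ)) * xL l z ^ n else 0)
      (trL l f z * 𝕢 ((1 : ℕ) : ℝ) z ^ k₀) := h2
  have hinj : Function.Injective (fun i : ℕ => l * i) :=
    fun a b hab => Nat.eq_of_mul_eq_mul_left hl hab
  have h4 := (hinj.hasSum_iff (f := fun n : ℕ => if l ∣ n then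
      (l : ℂ) * (qL 1 f).coeff ((n : ℤ) - ((l * k₀ : ℕ) : ℤ)) * xL l z ^ n else 0) (by
    intro n hn
    have : ¬ l ∣ n := fun ⟨i, hi⟩ => hn ⟨i, hi.symm⟩
    simp [this])).mpr h2
  convert h4 using 1
  funext i
  simp only [Function.comp_apply]
  rw [if_pos (dvd_mul_right l i), pow_mul, xL_pow_self hl]
  congr 3
  push_cast
  ring

theorem isQMero_trL {l : ℕ} (hl : 0 < l) {f : ℍ → ℂ} (hf : IsQMero 1 f) :
    IsQMero 1 (trL l f) := by
  obtain ⟨k₀, hk₀⟩ := hf.mero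
  have hk : IsBoundedAtImInfty (f * qpowFn 1 (l * k₀)) := by
    have := IsQMero.bdd_add one_pos hk₀ (l * k₀ - k₀)
    rwa [Nat.add_sub_cancel' (Nat.le_mul_of_pos_left k₀ hl)] at this
  exact isQMero_of_hasSum one_pos (mdiff_trL hl hf.mdiff) (trL_vadd hl hf.periodic) k₀ _
    (hasSum_trL hl hf hk)

/-- **Trace**: the `n`-th coefficient of `z ↦ ∑_{b<l} f ((z+b)/l)` is `l` times the `l n`-th
coefficient of `f`. -/
theorem coeff_qL_trL {l : ℕ} (hl : 0 < l) {f : ℍ → ℂ} (hf : IsQMero 1 f) (j : ℤ) :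
    (qL 1 (trL l f)).coeff j = (l : ℂ) * (qL 1 f).coeff ((l : ℤ) * j) := by
  obtain ⟨k₀, hk₀⟩ := hf.mero
  have hk : IsBoundedAtImInfty (f * qpowFn 1 (l * k₀)) := by
    have := IsQMero.bdd_add one_pos hk₀ (l * k₀ - k₀)
    rwa [Nat.add_sub_cancel' (Nat.le_mul_of_pos_left k₀ hl)] at this
  rw [qL_eq_of_hasSum one_pos (isQMero_trL hl hf) k₀ _ (hasSum_trL hl hf hk),
    HahnSeries.coeff_single_mul, one_mul, sub_neg_eq_add]
  rcases lt_or_ge (j + k₀) 0 with hj | hj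
  · rw [ModularCurve.ofPowerSeries_coeff_of_neg _ hj, qL_coeff_of_lt one_pos hf hk, mul_zero]
    have hl' : (0 : ℤ) < l := by exact_mod_cast hl
    push_cast
    nlinarith
  · obtain ⟨i, hi⟩ := Int.eq_ofNat_of_zero_le hj
    rw [hi, HahnSeries.ofPowerSeries_apply_coeff, PowerSeries.coeff_mk]
    congr 3
    omega

end Fermat.Agent.S28.H69
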