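/-
S28 (helper69): the Hasse trace function, function level.

For a prime `l`, `hasseFun l z = Δ(z)/Δ(l z) + l^12 ∑_{b<l} Δ(z)/Δ((z+b)/l)` is holomorphic,
`SL(2,ℤ)`-invariant and meromorphic at `i∞`, hence a polynomial in `j`; its `q`-expansion is
computed by the ring homomorphism `qL 1`.
-/
import Mathlib
import Fermat.Agent.S24.CoreLemma_helper40
import Fermat.Agent.S28.QOps_helper69

set_option autoImplicit false

noncomputable section

namespace Fermat.Agent.S28.H69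

open ModularForm Function Complex Filter Topology
open UpperHalfPlane hiding I
open scoped Manifold Real MatrixGroups
open Fermat.Agent.S24.H69

local notation "𝕢" => Periodic.qParam
local notation "Δ" => ModularForm.discriminant

/-! ### `Δ` and `1/Δ` as functions of `q` -/

/-- `q ↦ q ∏ (1 - q^n)^24`. -/
def DqFun (q : ℂ) : ℂ := q * etaFun q ^ 24

theorem disc_eq_DqFun (z : ℍ) : Δ z = DqFun (𝕢 ((1 : ℕ) : ℝ) z) := by
  have hq : ‖𝕢 (1 : ℝ) (z : ℂ)‖ < 1 := Periodic.norm_qParam_lt_one one_pos z.im_pos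
  rw [Nat.cast_one, DqFun, discriminant_eq_q_prod, etaFun,
    ← (multipliable_one_sub_pow hq).tprod_pow 24]

theorem differentiableOn_DqFun : DifferentiableOn ℂ DqFun (Metric.ball 0 1) :=
  differentiableOn_id.mul (differentiableOn_etaFun.pow 24)

theorem isQNice_disc : IsQNice 1 Δ := by
  have h := isQNice_comp_qParam (h := 1) one_pos differentiableOn_DqFun
  have e : (Δ : ℍ → ℂ) = fun z : ℍ => DqFun (𝕢 ((1 : ℕ) : ℝ) z) := funext disc_eq_DqFun
  rw [e]
  exact h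

theorem isQMero_disc : IsQMero 1 Δ := IsQMero.of_nice isQNice_disc

/-- The formal `Δ = q ∏ (1 - q^n)^24` with complex coefficients. -/
def Dc : LaurentSeries ℂ :=
  HahnSeries.ofPowerSeries ℤ ℂ
    (PowerSeries.X * ModularCurve.dedekindEtaUnit.map (Int.castRingHom ℂ))

theorem qL_disc : qL 1 Δ = Dc := by
  rw [qL_of_nice one_pos isQNice_disc, Dc, ← qExpansion_discriminant, Nat.cast_one]

/-- `1/Δ`. -/
def invDisc : ℍ → ℂ := fun z => (Δ z)⁻¹

theorem invDisc_mul_qpow (z : ℍ) :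
    invDisc z * 𝕢 ((1 : ℕ) : ℝ) z ^ 1 = (etaFun (𝕢 ((1 : ℕ) : ℝ) z) ^ 24)⁻¹ := by
  have hq0 : 𝕢 ((1 : ℕ) : ℝ) (z : ℂ) ≠ 0 := Periodic.qParam_ne_zero _
  have hne : etaFun (𝕢 ((1 : ℕ) : ℝ) (z : ℂ)) ≠ 0 := etaFun_ne_zero (by
    simpa using qParam_mem_ball (h := 1) one_pos z)
  rw [invDisc, disc_eq_DqFun, DqFun, pow_one]
  field_simp

theorem isQMero_invDisc : IsQMero 1 invDisc := by
  refine isQMero_of_mul_qpow_eq (k := 1) (G := fun q => (etaFun q ^ 24)⁻¹) one_pos ?_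
    invDisc_mul_qpow
  intro q hq
  have hq' : ‖q‖ < 1 := by simpa using hq
  exact ((differentiableOn_etaFun.pow 24) q hq).inv (pow_ne_zero _ (etaFun_ne_zero hq'))

theorem invDisc_mul_disc : invDisc * Δ = 1 :=
  funext fun z => inv_mul_cancel₀ (discriminant_ne_zero z)

theorem qL_invDisc : qL 1 invDisc = Dc⁻¹ := by
  have h := qL_mul one_pos isQMero_invDisc isQMero_disc
  rw [invDisc_mul_disc, qL_one one_pos, qL_disc] at h
  exact eq_inv_of_mul_eq_one_left h.symm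

/-! ### The Hasse trace function -/

/-- `Δ(z)/Δ(l z)`. -/
def termInf (l : ℕ) (z : ℍ) : ℂ := Δ z * (Δ (ofComplex ((l : ℂ) * (z : ℂ))))⁻¹

/-- `Δ(z)/Δ((z+n)/l)`. -/
def termB (l n : ℕ) (z : ℍ) : ℂ := Δ z * (Δ (ofComplex (((z : ℂ) + n) / l)))⁻¹

/-- `Δ(z)/Δ(l z) + l^12 ∑_{b<l} Δ(z)/Δ((z+b)/l)`. -/
def hasseFun (l : ℕ) : ℍ → ℂ :=
  Δ * dil l invDisc + (fun _ => (l : ℂ) ^ 12) * (Δ * trL l invDisc)

theorem hasseFun_eq (l : ℕ) (z : ℍ) :
    hasseFun l z = termInf l z + (l : ℂ) ^ 12 * ∑ b ∈ Finset.range l, termB l b z := by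
  simp only [hasseFun, termInf, termB, Pi.add_apply, Pi.mul_apply, dil, trL, invDisc,
    Finset.mul_sum]

theorem isQMero_hasseFun {l : ℕ} (hl : 0 < l) : IsQMero 1 (hasseFun l) :=
  (isQMero_disc.mul (isQMero_dil one_pos isQMero_invDisc hl)).add one_pos
    ((IsQMero.const 1 _).mul (isQMero_disc.mul (isQMero_trL hl isQMero_invDisc)))

theorem qL_hasseFun (l : ℕ) [NeZero l] :
    qL 1 (hasseFun l) = Dc * ModularCurve.qExpand ℂ l Dc⁻¹ +
      HahnSeries.C ((l : ℂ) ^ 12) * (Dc * qL 1 (trL l invDisc)) := by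
  have hl : 0 < l := Nat.pos_of_ne_zero (NeZero.ne l)
  have h1 := isQMero_dil one_pos isQMero_invDisc hl
  have h2 := isQMero_trL hl isQMero_invDisc
  rw [hasseFun, qL_add one_pos (isQMero_disc.mul h1)
      ((IsQMero.const 1 _).mul (isQMero_disc.mul h2)),
    qL_mul one_pos isQMero_disc h1, qL_mul one_pos (IsQMero.const 1 _) (isQMero_disc.mul h2),
    qL_mul one_pos isQMero_disc h2, qL_const one_pos, qL_dil one_pos isQMero_invDisc, qL_disc,
    qL_invDisc]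

/-! ### Invariance under `S` and `T` -/

theorem disc_smul (γ : SL(2, ℤ)) (w : ℍ) :
    Δ (γ • w) = (((γ 1 0 : ℤ) : ℂ) * w + ((γ 1 1 : ℤ) : ℂ)) ^ 12 * Δ w := by
  rw [Fermat.Agent.S24.H40.discriminant_smul]
  congr 1

theorem coe_S_smul (z : ℍ) : ((ModularGroup.S • z : ℍ) : ℂ) = -1 / z := by
  rw [modular_S_smul]
  simp [neg_div, inv_neg]

theorem disc_S_smul (z : ℍ) : Δ (ModularGroup.S • z) = (z : ℂ) ^ 12 * Δ z := by
  rw [disc_smul]
  simp [ModularGroup.S]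

theorem termInf_S {l : ℕ} (hl : 0 < l) (z : ℍ) :
    termInf l (ModularGroup.S • z) = (l : ℂ) ^ 12 * termB l 0 z := by
  have hl' : (l : ℂ) ≠ 0 := by exact_mod_cast hl.ne'
  have hz : (z : ℂ) ≠ 0 := ne_zero z
  set w := ofComplex (((z : ℂ) + ((0 : ℕ) : ℂ)) / l) with hw
  have hwc : (w : ℂ) = ((z : ℂ) + ((0 : ℕ) : ℂ)) / l := coe_ofComplex_div hl 0 z
  have e : (l : ℂ) * ((ModularGroup.S • z : ℍ) : ℂ) = ((ModularGroup.S • w : ℍ) : ℂ) := by
    rw [coe_S_smul, coe_S_smul, hwc]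
    simp only [Nat.cast_zero, add_zero]
    field_simp
  rw [termInf, termB, e, ofComplex_apply, disc_S_smul, disc_S_smul, ← hw, hwc]
  have hΔz := discriminant_ne_zero z
  have hΔw := discriminant_ne_zero w
  simp only [Nat.cast_zero, add_zero]
  field_simp

theorem termB_zero_S {l : ℕ} (hl : 0 < l) (z : ℍ) :
    (l : ℂ) ^ 12 * termB l 0 (ModularGroup.S • z) = termInf l z := by
  have hl' : (l : ℂ) ≠ 0 := by exact_mod_cast hl.ne'
  have hz : (z : ℂ) ≠ 0 := ne_zero z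
  set w := ofComplex ((l : ℂ) * (z : ℂ)) with hw
  have hwc : (w : ℂ) = (l : ℂ) * z := coe_ofComplex_mul hl z
  have e : (((ModularGroup.S • z : ℍ) : ℂ) + ((0 : ℕ) : ℂ)) / l =
      ((ModularGroup.S • w : ℍ) : ℂ) := by
    rw [coe_S_smul, coe_S_smul, hwc]
    simp only [Nat.cast_zero, add_zero]
    field_simp
  rw [termInf, termB, e, ofComplex_apply, disc_S_smul, disc_S_smul, ← hw, hwc]
  have hΔz := discriminant_ne_zero z
  have hΔw := discriminant_ne_zero w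
  field_simp

theorem termB_S {l : ℕ} (hl : 0 < l) (n n' c : ℕ) (h : n * n' + 1 = c * l) (z : ℍ) :
    termB l n (ModularGroup.S • z) = termB l n' z := by
  have hl' : (l : ℂ) ≠ 0 := by exact_mod_cast hl.ne'
  have hz : (z : ℂ) ≠ 0 := ne_zero z
  have hC : (n : ℂ) * n' + 1 = c * l := by exact_mod_cast h
  set w := ofComplex (((z : ℂ) + n') / l) with hw
  have hwc : (w : ℂ) = ((z : ℂ) + n') / l := coe_ofComplex_div hl n' z
  let γ : SL(2, ℤ) := ⟨!![(n : ℤ), -(c : ℤ); (l : ℤ), -(n' : ℤ)], by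
    rw [Matrix.det_fin_two_of]
    have : (n : ℤ) * n' + 1 = c * l := by exact_mod_cast h
    linarith⟩
  have hden : (((γ 1 0 : ℤ) : ℂ) * (w : ℂ) + ((γ 1 1 : ℤ) : ℂ)) = z := by
    have h10 : γ 1 0 = (l : ℤ) := rfl
    have h11 : γ 1 1 = -(n' : ℤ) := rfl
    rw [h10, h11, hwc]
    push_cast
    field_simp
    ring
  have e : (((ModularGroup.S • z : ℍ) : ℂ) + n) / l = ((γ • w : ℍ) : ℂ) := by
    have h00 : γ 0 0 = (n : ℤ) := rfl
    have h01 : γ 0 1 = -(c : ℤ) := rfl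
    have h10 : γ 1 0 = (l : ℤ) := rfl
    have h11 : γ 1 1 = -(n' : ℤ) := rfl
    have hden' : ((l : ℂ) * (w : ℂ) + -(n' : ℂ)) = z := by
      rw [hwc]
      field_simp
      ring
    rw [coe_S_smul, coe_specialLinearGroup_apply, h00, h01, h10, h11]
    simp only [algebraMap_int_eq, eq_intCast, Int.cast_natCast, Int.cast_neg, ofReal_neg,
      ofReal_natCast]
    rw [hden', hwc]
    field_simp
    linear_combination (-1 : ℂ) * hC
  rw [termB, termB, e, ofComplex_apply, disc_smul γ w, hden, disc_S_smul, ← hw]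
  have hΔz := discriminant_ne_zero z
  have hΔw := discriminant_ne_zero w
  field_simp

/-- The involution `n ↦ -1/n` on nonzero residues mod `l`. -/
def sigmaL (l : ℕ) (n : ℕ) : ℕ := (-((n : ZMod l))⁻¹).val

section sigma

variable {l : ℕ} [Fact l.Prime]

theorem natCast_ne_zero_of_mem {n : ℕ} (hn : n ∈ Finset.Ico 1 l) : (n : ZMod l) ≠ 0 := by
  rw [Finset.mem_Ico] at hn
  rw [Ne, ZMod.natCast_eq_zero_iff]
  exact Nat.not_dvd_of_pos_of_lt hn.1 hn.2

theorem cast_sigmaL (n : ℕ) : ((sigmaL l n : ℕ) : ZMod l) = -((n : ZMod l))⁻¹ := by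
  rw [sigmaL, ZMod.natCast_zmod_val]

theorem sigmaL_mem {n : ℕ} (hn : n ∈ Finset.Ico 1 l) : sigmaL l n ∈ Finset.Ico 1 l := by
  have hne := natCast_ne_zero_of_mem hn
  rw [Finset.mem_Ico]
  refine ⟨?_, ZMod.val_lt _⟩
  rw [Nat.one_le_iff_ne_zero, sigmaL, Ne, ZMod.val_eq_zero]
  exact neg_ne_zero.mpr (inv_ne_zero hne)

theorem sigmaL_sigmaL {n : ℕ} (hn : n ∈ Finset.Ico 1 l) : sigmaL l (sigmaL l n) = n := by
  have hn' := Finset.mem_Ico.mp hn
  rw [sigmaL, cast_sigmaL, inv_neg, neg_neg, inv_inv, ZMod.val_natCast, Nat.mod_eq_of_lt hn'.2]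

theorem sigmaL_spec {n : ℕ} (hn : n ∈ Finset.Ico 1 l) : ∃ c : ℕ, n * sigmaL l n + 1 = c * l := by
  have hne := natCast_ne_zero_of_mem hn
  have h0 : ((n * sigmaL l n + 1 : ℕ) : ZMod l) = 0 := by
    push_cast
    rw [cast_sigmaL, mul_neg, mul_inv_cancel₀ hne]
    ring
  obtain ⟨c, hc⟩ := (ZMod.natCast_eq_zero_iff _ _).mp h0
  exact ⟨c, by rw [hc, mul_comm]⟩

end sigma

theorem hasseFun_S (l : ℕ) [Fact l.Prime] (z : ℍ) :
    hasseFun l (ModularGroup.S • z) = hasseFun l z := by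
  have hl : 0 < l := (Fact.out : l.Prime).pos
  have hsum : ∑ b ∈ Finset.Ico 1 l, termB l b (ModularGroup.S • z) =
      ∑ b ∈ Finset.Ico 1 l, termB l b z := by
    refine Finset.sum_nbij' (sigmaL l) (sigmaL l) (fun n hn => sigmaL_mem hn)
      (fun n hn => sigmaL_mem hn) (fun n hn => sigmaL_sigmaL hn) (fun n hn => sigmaL_sigmaL hn)
      (fun n hn => ?_)
    obtain ⟨c, hc⟩ := sigmaL_spec hn
    exact termB_S hl n (sigmaL l n) c hc z
  rw [hasseFun_eq, hasseFun_eq, termInf_S hl, Finset.range_eq_Ico,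
    Finset.sum_eq_sum_Ico_succ_bot hl, Finset.sum_eq_sum_Ico_succ_bot hl, hsum, mul_add,
    termB_zero_S hl]
  ring

theorem hasseFun_T (l : ℕ) [Fact l.Prime] (z : ℍ) :
    hasseFun l (ModularGroup.T • z) = hasseFun l z := by
  have hl : 0 < l := (Fact.out : l.Prime).pos
  have h := vadd_of_periodic_comp_ofComplex (isQMero_hasseFun hl).periodic z
  rw [modular_T_smul]
  simpa using h

theorem hasseFun_smul (l : ℕ) [Fact l.Prime] (γ : SL(2, ℤ)) (z : ℍ) :
    hasseFun l (γ • z) = hasseFun l z := by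
  have hγ : γ ∈ Subgroup.closure ({ModularGroup.S, ModularGroup.T} : Set SL(2, ℤ)) := by
    rw [SpecialLinearGroup.SL2Z_generators]
    exact Subgroup.mem_top γ
  induction hγ using Subgroup.closure_induction generalizing z with
  | mem g hg =>
    rcases hg with rfl | rfl
    · exact hasseFun_S l z
    · exact hasseFun_T l z
  | one => rw [one_smul]
  | mul g h _ _ ihg ihh => rw [mul_smul, ihg, ihh]
  | inv g _ ih =>
    have := ih (g⁻¹ • z)
    rw [smul_inv_smul] at this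
    exact this.symm

/-! ### The Hasse polynomial over `ℂ` -/

/-- The `j`-function. -/
def jF (z : ℍ) : ℂ := E₄ z ^ 3 / Δ z

theorem isQMero_jF : IsQMero 1 jF := by
  have h := isQMero_jd (d := 1) one_pos
  have e : (fun z : ℍ => E₄ (ofComplex (((1 : ℕ) : ℂ) * (z : ℂ))) ^ 3 /
      Δ (ofComplex (((1 : ℕ) : ℂ) * (z : ℂ)))) = jF := by
    funext z
    simp [jF]
  rwa [e] at h

theorem qL_jF : qL 1 jF = ModularCurve.jqModC ℂ := by
  have h := qL_jd 1
  have e : (fun z : ℍ => E₄ (ofComplex (((1 : ℕ) : ℂ) * (z : ℂ))) ^ 3 /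
      Δ (ofComplex (((1 : ℕ) : ℂ) * (z : ℂ)))) = jF := by
    funext z
    simp [jF]
  rw [e, ModularCurve.jqNModC_one] at h
  exact h

theorem qL_eval_jF (G : Polynomial ℂ) :
    qL 1 (fun z : ℍ => G.eval (jF z)) = Polynomial.aeval (ModularCurve.jqModC ℂ) G := by
  let jm : qMero 1 := ⟨jF, isQMero_jF⟩
  have h1 : ((Polynomial.aeval jm G : qMero 1) : ℍ → ℂ) = fun z : ℍ => G.eval (jF z) := by
    funext z
    have := Polynomial.aeval_algHom_apply
      ((Pi.evalAlgHom ℂ (fun _ : ℍ => ℂ) z).comp (qMero 1).val) jm G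
    simp only [AlgHom.comp_apply, Subalgebra.coe_val, Pi.evalAlgHom_apply] at this
    rw [← this, Polynomial.coe_aeval_eq_eval]
  have h2 := Polynomial.aeval_algHom_apply (qLHom 1) jm G
  rw [qLHom_apply, qLHom_apply, h1] at h2
  rw [← h2]
  show Polynomial.aeval (qL 1 jF) G = _
  rw [qL_jF]

/-- **Hasse trace identity over `ℂ`**: there is a complex polynomial `G` with
`G(j) = Δ(q)/Δ(q^l) + l^12 Δ(q) · (trace of 1/Δ)` as Laurent series. -/
theorem exists_aeval_eq (l : ℕ) [Fact l.Prime] :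
    haveI : NeZero l := ⟨(Fact.out : l.Prime).ne_zero⟩
    ∃ G : Polynomial ℂ, Polynomial.aeval (ModularCurve.jqModC ℂ) G =
      Dc * ModularCurve.qExpand ℂ l Dc⁻¹ +
        HahnSeries.C ((l : ℂ) ^ 12) * (Dc * qL 1 (trL l invDisc)) := by
  haveI : NeZero l := ⟨(Fact.out : l.Prime).ne_zero⟩
  have hl : 0 < l := (Fact.out : l.Prime).pos
  obtain ⟨k, hk⟩ := (isQMero_hasseFun hl).mero
  have hk' : IsBoundedAtImInfty (fun τ : ℍ => hasseFun l τ * 𝕢 (1 : ℝ) (τ : ℂ) ^ k) := by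
    have e : (fun τ : ℍ => hasseFun l τ * 𝕢 (1 : ℝ) (τ : ℂ) ^ k) = hasseFun l * qpowFn 1 k := by
      funext τ
      simp [qpowFn_apply]
    rw [e]
    exact hk
  obtain ⟨G, -, hG⟩ := Fermat.Agent.S24.H40.exists_polynomial_of_invariant (hasseFun l)
    (isQMero_hasseFun hl).mdiff (hasseFun_smul l) k hk'
  refine ⟨G, ?_⟩
  have e : hasseFun l = fun z : ℍ => G.eval (jF z) := funext hG
  rw [← qL_eval_jF, ← e, qL_hasseFun]

/-- Coefficients of the trace term. -/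
theorem coeff_qL_trL_invDisc {l : ℕ} (hl : 0 < l) (j : ℤ) :
    (qL 1 (trL l invDisc)).coeff j = (l : ℂ) * (Dc⁻¹).coeff ((l : ℤ) * j) := by
  rw [coeff_qL_trL hl isQMero_invDisc, qL_invDisc]

end Fermat.Agent.S28.H69
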