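/-
S28 (helper69): adapter statements for the Hasse polynomial (function level and `q`-expansions),
in the shapes consumed by the formal assembly.
-/
import Mathlib
import Fermat.Agent.S28.HasseFun_helper69

set_option autoImplicit false

noncomputable section

namespace Fermat.Agent.S28.H69

open ModularForm Function Complex Filter Topology
open UpperHalfPlane hiding I
open scoped Manifold Real MatrixGroups
open Fermat.Agent.S24.H69

local notation "Δ" => ModularForm.discriminant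

/-- The formal `Δ` with complex coefficients, in the `(X * η^24).map` shape. -/
def DeltaC : LaurentSeries ℂ :=
  HahnSeries.ofPowerSeries ℤ ℂ
    ((PowerSeries.X * ModularCurve.dedekindEtaUnit).map (Int.castRingHom ℂ))

theorem DeltaC_eq_Dc : DeltaC = Dc := by
  rw [DeltaC, Dc, map_mul, PowerSeries.map_X]

/-! ### (X1) scaling -/

theorem isQMero_comp_mul {F : ℍ → ℂ} (hF : IsQMero 1 F) {d : ℕ} (hd : 0 < d) :
    IsQMero 1 (fun z : ℍ => F (ofComplex ((d : ℂ) * z))) :=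
  isQMero_dil one_pos hF hd

theorem qL_comp_mul {F : ℍ → ℂ} (hF : IsQMero 1 F) (d : ℕ) [NeZero d] :
    qL 1 (fun z : ℍ => F (ofComplex ((d : ℂ) * z))) = ModularCurve.qExpand ℂ d (qL 1 F) :=
  qL_dil one_pos hF d

/-! ### (X2) trace -/

theorem isQMero_trace {F : ℍ → ℂ} (hF : IsQMero 1 F) {l : ℕ} (hl : 0 < l) :
    IsQMero 1 (fun z : ℍ => ∑ b ∈ Finset.range l, F (ofComplex (((z : ℂ) + b) / l))) :=
  isQMero_trL hl hF

theorem coeff_qL_trace {F : ℍ → ℂ} (hF : IsQMero 1 F) {l : ℕ} (hl : 0 < l) (n : ℤ) :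
    (qL 1 (fun z : ℍ => ∑ b ∈ Finset.range l, F (ofComplex (((z : ℂ) + b) / l)))).coeff n =
      (l : ℂ) * (qL 1 F).coeff ((l : ℤ) * n) :=
  coeff_qL_trL hl hF n

/-! ### (X3) the discriminant -/

theorem isQMero_discriminant : IsQMero 1 Δ := isQMero_disc

theorem qL_discriminant : qL 1 Δ = DeltaC := by
  rw [qL_disc, DeltaC_eq_Dc]

theorem isQMero_discriminant_inv : IsQMero 1 (fun z : ℍ => (Δ z)⁻¹) := isQMero_invDisc

theorem qL_discriminant_inv : qL 1 (fun z : ℍ => (Δ z)⁻¹) = DeltaC⁻¹ := by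
  rw [DeltaC_eq_Dc]
  exact qL_invDisc

theorem DeltaC_ne_zero : DeltaC ≠ 0 := by
  rw [← qL_discriminant]
  intro h
  have h1 := qL_mul one_pos isQMero_invDisc isQMero_disc
  rw [invDisc_mul_disc, qL_one one_pos, h, mul_zero] at h1
  exact one_ne_zero h1

theorem qL_discriminant_inv_mul :
    qL 1 (fun z : ℍ => (Δ z)⁻¹) *
      HahnSeries.ofPowerSeries ℤ ℂ
        ((PowerSeries.X * ModularCurve.dedekindEtaUnit).map (Int.castRingHom ℂ)) = 1 := by
  have h := qL_discriminant_inv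
  rw [DeltaC] at h
  rw [h]
  exact inv_mul_cancel₀ DeltaC_ne_zero

/-! ### (E1) the Hasse polynomial, function level -/

theorem exists_hasse_polynomial (l : ℕ) (hl : l.Prime) :
    ∃ G : Polynomial ℂ, ∀ z : ℍ,
      Δ z * ((Δ (ofComplex (l * z)))⁻¹ +
        (l : ℂ) ^ 12 * ∑ b ∈ Finset.range l, (Δ (ofComplex ((z + b) / l)))⁻¹) =
      G.eval (E₄ z ^ 3 / Δ z) := by
  haveI : Fact l.Prime := ⟨hl⟩
  obtain ⟨k, hk⟩ := (isQMero_hasseFun hl.pos).mero
  have hk' : IsBoundedAtImInfty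
      (fun τ : ℍ => hasseFun l τ * Periodic.qParam (1 : ℝ) (τ : ℂ) ^ k) := by
    have e : (fun τ : ℍ => hasseFun l τ * Periodic.qParam (1 : ℝ) (τ : ℂ) ^ k) =
        hasseFun l * qpowFn 1 k := by
      funext τ
      simp [qpowFn_apply]
    rw [e]
    exact hk
  obtain ⟨G, -, hG⟩ := Fermat.Agent.S24.H40.exists_polynomial_of_invariant (hasseFun l)
    (isQMero_hasseFun hl.pos).mdiff (hasseFun_smul l) k hk'
  refine ⟨G, fun z => ?_⟩
  rw [← hG z, hasseFun_eq, termInf, mul_add]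
  congr 1
  rw [Finset.mul_sum, Finset.mul_sum, Finset.mul_sum]
  refine Finset.sum_congr rfl fun b _ => ?_
  rw [termB]
  ring

/-! ### (E1 + E2) the one-shot identity of Laurent series over `ℂ` -/

/-- There are a complex polynomial `G` and a Laurent series `U = U_l(Δ⁻¹)` with
`G(j) = Δ(q) * (Δ(q^l)⁻¹ + l^13 U)`. -/
theorem exists_aeval_eq_deltaC (l : ℕ) [Fact l.Prime] :
    haveI : NeZero l := ⟨(Fact.out : l.Prime).ne_zero⟩
    ∃ (G : Polynomial ℂ) (U : LaurentSeries ℂ),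
      (∀ n : ℤ, U.coeff n = (DeltaC⁻¹).coeff ((l : ℤ) * n)) ∧
      Polynomial.aeval (ModularCurve.jqModC ℂ) G =
        DeltaC * (ModularCurve.qExpand ℂ l DeltaC⁻¹ + (l : ℂ) ^ 13 • U) := by
  haveI : NeZero l := ⟨(Fact.out : l.Prime).ne_zero⟩
  have hl : 0 < l := (Fact.out : l.Prime).pos
  have hl' : (l : ℂ) ≠ 0 := by exact_mod_cast hl.ne'
  obtain ⟨G, hG⟩ := exists_aeval_eq l
  refine ⟨G, HahnSeries.C ((l : ℂ)⁻¹) * qL 1 (trL l invDisc), fun n => ?_, ?_⟩
  · rw [HahnSeries.C_mul_eq_smul, HahnSeries.coeff_smul, coeff_qL_trL_invDisc hl, DeltaC_eq_Dc,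
      smul_eq_mul, ← mul_assoc, inv_mul_cancel₀ hl', one_mul]
  · rw [hG, DeltaC_eq_Dc, mul_add]
    congr 1
    have e : (HahnSeries.C ((l : ℂ) ^ 12) : LaurentSeries ℂ) =
        HahnSeries.C ((l : ℂ) ^ 13) * HahnSeries.C ((l : ℂ)⁻¹) := by
      rw [← map_mul]
      congr 1
      field_simp
    rw [← HahnSeries.C_mul_eq_smul, e]
    ring

end Fermat.Agent.S28.H69
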