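import Mathlib
import Fermat.Agent.S28.HasseFormal_helper31
import Fermat.Agent.S28.QAffine_helper69
import Fermat.Agent.S28.Frobenius_helper55

/-!
# S28 (helper31): the Hasse relation `(Hasse_l)`

For a prime `l` there is a monic `G ∈ ℤ[X]` of degree `l - 1` with
`G(J) = D(q) · (D⁻¹(q^l) + l^13 · U_l(D⁻¹)(q))` in `ℤ((q))`, hence
`G(J) · D^(l-1) = 1` over every field of characteristic `l`
(`J = jqModC`, `D = q · η^24 = H47.deltaL`).

Analytic input: `H69.exists_aeval_eq_deltaC` (function level + expansions, helper69);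
Frobenius: `H55.qExpand_eq_pow_of_int` (helper55); formal part: `HasseFormal_helper31`.
-/

set_option autoImplicit false

noncomputable section

namespace Fermat.Agent.S28.H31

open ModularCurve Polynomial

universe u

theorem DeltaC_eq_deltaL : H69.DeltaC = H47.deltaL ℂ := rfl

theorem DeltaC_inv_eq_deltaInv : H69.DeltaC⁻¹ = deltaInv ℂ := by
  rw [DeltaC_eq_deltaL]
  exact inv_eq_of_mul_eq_one_right (deltaL_mul_deltaInv ℂ)

/-- The analytic input in integral form: some complex polynomial `G` has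
`G(J) = hasseSeries l ⊗ ℂ`. -/
theorem exists_aeval_eq_hasseSeries (l : ℕ) [NeZero l] (hl : l.Prime) :
    ∃ G : ℂ[X], aeval (jqModC ℂ) G = coeffMap (Int.castRingHom ℂ) (hasseSeries l) := by
  have : Fact l.Prime := ⟨hl⟩
  obtain ⟨G, U, hU, hG⟩ := H69.exists_aeval_eq_deltaC l
  refine ⟨G, ?_⟩
  rw [hG, hasseSeries, map_mul, map_add, coeffMap_deltaL, coeffMap_qExpand, coeffMap_deltaInv,
    DeltaC_inv_eq_deltaInv, DeltaC_eq_deltaL]
  congr 2
  ext n
  rw [HahnSeries.coeff_smul, hU, DeltaC_inv_eq_deltaInv, coeffMap_coeff, HahnSeries.C_mul_eq_smul,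
    HahnSeries.coeff_smul, coeff_ofPowerSeries_traceInv hl.two_le,
    ← coeffMap_deltaInv (Int.castRingHom ℂ), coeffMap_coeff]
  simp

/-- Frobenius for `D⁻¹` in characteristic `l`: `D⁻¹(q^l) = D⁻¹(q)^l`. -/
theorem qExpand_deltaInv (l : ℕ) [NeZero l] (hl : l.Prime) (k : Type*) [Field k] [CharP k l] :
    qExpand k l (deltaInv k) = deltaInv k ^ l := by
  have : Fact l.Prime := ⟨hl⟩
  rw [← coeffMap_deltaInv (Int.castRingHom k)]
  exact H55.qExpand_eq_pow_of_int l k (deltaInv ℤ)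

/-- **(Hasse_l), integral form**: a monic `G ∈ ℤ[X]` of degree `l - 1` with
`G(J) = hasseSeries l` in `ℤ((q))`. -/
theorem exists_hasse_int (l : ℕ) [NeZero l] (hl : l.Prime) :
    ∃ G : ℤ[X], G.Monic ∧ G.natDegree = l - 1 ∧
      eval₂ (Int.castRingHom (LaurentSeries ℤ)) (jqModC ℤ) G = hasseSeries l := by
  obtain ⟨G, hG⟩ := exists_aeval_eq_hasseSeries l hl
  obtain ⟨Q, -, hm, hd, hint, -⟩ := exists_hasse_of_complex.{0} l hl.one_le G hG
    (fun k _ _ => qExpand_deltaInv l hl k)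
  exact ⟨Q, hm, hd, hint⟩

/-- **(Hasse_l)**: for a prime `l` there is a monic integral polynomial `G` of degree `l - 1`
such that `G(J) · D^(l-1) = 1` over every field of characteristic `l`. -/
theorem exists_hasse (l : ℕ) (hl : l.Prime) :
    ∃ G : ℤ[X], G.Monic ∧ G.natDegree = l - 1 ∧
      ∀ (k : Type u) [Field k] [CharP k l],
        aeval (jqModC k) (G.map (Int.castRingHom k)) * H47.deltaL k ^ (l - 1) = 1 := by
  have : NeZero l := ⟨hl.ne_zero⟩
  obtain ⟨G, hG⟩ := exists_aeval_eq_hasseSeries l hl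
  obtain ⟨Q, -, hm, hd, -, h⟩ := exists_hasse_of_complex.{u} l hl.one_le G hG
    (fun k _ _ => qExpand_deltaInv l hl k)
  exact ⟨Q, hm, hd, h⟩

/-- **(Hasse_l) over a field of characteristic `l`**. -/
theorem exists_hasse_field (l : ℕ) [Fact l.Prime] (k : Type u) [Field k] [CharP k l] :
    ∃ G : k[X], G.Monic ∧ G.natDegree = l - 1 ∧
      aeval (jqModC k) G * H47.deltaL k ^ (l - 1) = 1 := by
  obtain ⟨Q, hm, hd, h⟩ := exists_hasse.{u} l Fact.out
  exact ⟨Q.map (Int.castRingHom k), hm.map _, by rw [hm.natDegree_map, hd], h k⟩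

end Fermat.Agent.S28.H31
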