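import Mathlib
import Fermat.Prelude.Def_ModularCurve_JqCoeff

set_option autoImplicit false

noncomputable section

open PowerSeries ModularCurve

namespace Fermat.Agent.S28.H54

/-! ### First four coefficients -/

/-- `T4 f a b c d` : the power series `f` is `a + b X + c X^2 + d X^3 + O(X^4)`. -/
def T4 {R : Type*} [CommRing R] (f : PowerSeries R) (a b c d : R) : Prop :=
  PowerSeries.coeff 0 f = a ∧ PowerSeries.coeff 1 f = b ∧ PowerSeries.coeff 2 f = c ∧
    PowerSeries.coeff 3 f = d

theorem T4.mul {R : Type*} [CommRing R] {f g : PowerSeries R} {a b c d a' b' c' d' : R}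
    (hf : T4 f a b c d) (hg : T4 g a' b' c' d') :
    T4 (f * g) (a * a') (a * b' + b * a') (a * c' + b * b' + c * a')
      (a * d' + b * c' + c * b' + d * a') := by
  obtain ⟨h0, h1, h2, h3⟩ := hf
  obtain ⟨g0, g1, g2, g3⟩ := hg
  refine ⟨?_, ?_, ?_, ?_⟩
  · rw [PowerSeries.coeff_mul]
    simp [h0, g0]
  · rw [PowerSeries.coeff_mul, Finset.Nat.antidiagonal_succ]
    simp [h0, g0, h1, g1]
    try ring
  · rw [PowerSeries.coeff_mul]
    simp [Finset.Nat.antidiagonal_succ, h0, g0, h1, g1, h2, g2]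
    try ring
  · rw [PowerSeries.coeff_mul]
    simp [Finset.Nat.antidiagonal_succ, h0, g0, h1, g1, h2, g2, h3, g3]
    try ring

theorem T4.congr {R : Type*} [CommRing R] {f : PowerSeries R} {a b c d a' b' c' d' : R}
    (hf : T4 f a b c d) (ha : a = a') (hb : b = b') (hc : c = c') (hd : d = d') :
    T4 f a' b' c' d' := by
  subst ha hb hc hd; exact hf

theorem T4.map {R S : Type*} [CommRing R] [CommRing S] (φ : R →+* S) {f : PowerSeries R}
    {a b c d : R} (hf : T4 f a b c d) : T4 (f.map φ) (φ a) (φ b) (φ c) (φ d) := by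
  obtain ⟨h0, h1, h2, h3⟩ := hf
  refine ⟨?_, ?_, ?_, ?_⟩ <;> simp [PowerSeries.coeff_map, *]


/-! ### The eta product -/

theorem etaProd_eq_pentagonalSeries : etaProd = PowerSeries.pentagonalSeries ℤ := by
  rw [etaProd]
  exact PowerSeries.WithPiTopology.tprod_one_sub_X_pow ℤ

theorem pentagonal_ne_three (k : ℤ) : pentagonal k ≠ 3 := by
  intro h
  have h2 := two_mul_natCast_pentagonal k
  rw [h] at h2
  push_cast at h2
  have hk1 : -2 < k := by
    by_contra hcon
    have h1 : k ≤ -2 := not_lt.mp hcon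
    nlinarith [mul_nonneg (show (0 : ℤ) ≤ -2 - k by linarith) (show (0 : ℤ) ≤ -k by linarith)]
  have hk2 : k < 3 := by
    by_contra hcon
    have h1 : 3 ≤ k := not_lt.mp hcon
    nlinarith [mul_nonneg (show (0 : ℤ) ≤ k - 3 by linarith) (show (0 : ℤ) ≤ k by linarith)]
  interval_cases k <;> norm_num at h2

theorem T4_pentagonalSeries (R : Type*) [CommRing R] :
    T4 (PowerSeries.pentagonalSeries R) 1 (-1) (-1) 0 := by
  refine ⟨?_, ?_, ?_, ?_⟩
  · have h := PowerSeries.coeff_pentagonalSeries_pentagonal R 0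
    have h0 : pentagonal 0 = 0 := by decide
    rw [h0] at h
    rw [h]; simp
  · have h := PowerSeries.coeff_pentagonalSeries_pentagonal R 1
    have h0 : pentagonal 1 = 1 := by decide
    rw [h0] at h
    rw [h]; simp
  · have h := PowerSeries.coeff_pentagonalSeries_pentagonal R (-1)
    have h0 : pentagonal (-1) = 2 := by decide
    rw [h0] at h
    rw [h]; simp
  · apply PowerSeries.coeff_pentagonalSeries_eq_zero
    rintro ⟨k, hk⟩
    exact pentagonal_ne_three k hk

theorem T4_etaProd : T4 etaProd 1 (-1) (-1) 0 := by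
  rw [etaProd_eq_pentagonalSeries]
  exact T4_pentagonalSeries ℤ

theorem map_pentagonalSeries {R S : Type*} [CommRing R] [CommRing S] (φ : R →+* S) :
    (PowerSeries.pentagonalSeries R).map φ = PowerSeries.pentagonalSeries S := by
  ext n
  rw [PowerSeries.coeff_map]
  by_cases h : n ∈ Set.range pentagonal
  · obtain ⟨k, rfl⟩ := h
    rw [PowerSeries.coeff_pentagonalSeries_pentagonal, PowerSeries.coeff_pentagonalSeries_pentagonal]
    simp
  · rw [PowerSeries.coeff_pentagonalSeries_eq_zero R h,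
      PowerSeries.coeff_pentagonalSeries_eq_zero S h, map_zero]

/-- `(1 - X - X^2 + O(X^4))^24 = 1 - 24 X + 252 X^2 - 1472 X^3 + O(X^4)`. -/
theorem T4.pow24 {R : Type*} [CommRing R] {f : PowerSeries R} (hf : T4 f 1 (-1) (-1) 0) :
    T4 (f ^ 24) 1 (-24) 252 (-1472) := by
  have h2 : T4 (f ^ 2) 1 (-2) (-1) 2 := by
    have := hf.mul hf
    rw [← pow_two] at this
    exact this.congr (by ring) (by ring) (by ring) (by ring)
  have h3 : T4 (f ^ 3) 1 (-3) 0 5 := by
    have := h2.mul hf
    rw [← pow_succ] at this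
    exact this.congr (by ring) (by ring) (by ring) (by ring)
  have h6 : T4 (f ^ 6) 1 (-6) 9 10 := by
    have := h3.mul h3
    rw [← pow_add] at this
    exact this.congr (by ring) (by ring) (by ring) (by ring)
  have h12 : T4 (f ^ 12) 1 (-12) 54 (-88) := by
    have := h6.mul h6
    rw [← pow_add] at this
    exact this.congr (by ring) (by ring) (by ring) (by ring)
  have h24 : T4 (f ^ 24) 1 (-24) 252 (-1472) := by
    have := h12.mul h12
    rw [← pow_add] at this
    exact this.congr (by ring) (by ring) (by ring) (by ring)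
  exact h24

/-! ### The Eisenstein series -/

theorem T4_eisenstein4 : T4 eisenstein4 1 240 2160 6720 := by
  refine ⟨?_, ?_, ?_, ?_⟩
  · simp [eisenstein4, PowerSeries.coeff_mk]
  · simp [eisenstein4, PowerSeries.coeff_mk]
  · rw [eisenstein4, PowerSeries.coeff_mk]
    have h : Nat.divisors 2 = {1, 2} := by decide
    rw [if_neg (by norm_num), h]
    norm_num
  · rw [eisenstein4, PowerSeries.coeff_mk]
    have h : Nat.divisors 3 = {1, 3} := by decide
    rw [if_neg (by norm_num), h]
    norm_num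

theorem T4_eisenstein4_cube : T4 (eisenstein4 ^ 3) 1 720 179280 16954560 := by
  have h2 := T4_eisenstein4.mul T4_eisenstein4
  have h3 := h2.mul T4_eisenstein4
  rw [← pow_two, ← pow_succ] at h3
  exact h3.congr (by norm_num) (by norm_num) (by norm_num) (by norm_num)

/-! ### The numerator of `j` -/

theorem jNum_mul_etaProd_pow : jNum * etaProd ^ 24 = eisenstein4 ^ 3 := by
  have h := dedekindEtaUnit_mul_inv
  rw [dedekindEtaUnit] at h
  rw [jNum, mul_assoc, mul_comm dedekindEtaUnitInv, h, mul_one]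

/-- `q * j = 1 + 744 q + 196884 q^2 + 21493760 q^3 + O(q^4)`. -/
theorem T4_jNum : T4 jNum 1 744 196884 21493760 := by
  have hE := T4_eisenstein4_cube
  have hη := T4_etaProd.pow24
  have hJ : T4 jNum (PowerSeries.coeff 0 jNum) (PowerSeries.coeff 1 jNum)
      (PowerSeries.coeff 2 jNum) (PowerSeries.coeff 3 jNum) := ⟨rfl, rfl, rfl, rfl⟩
  have hm := hJ.mul hη
  rw [jNum_mul_etaProd_pow] at hm
  obtain ⟨m0, m1, m2, m3⟩ := hm
  obtain ⟨e0, e1, e2, e3⟩ := hE
  rw [e0] at m0
  rw [e1] at m1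
  rw [e2] at m2
  rw [e3] at m3
  refine ⟨by linarith, by linarith, by linarith, by linarith⟩

theorem coeff_jNum_one : PowerSeries.coeff 1 jNum = 744 := T4_jNum.2.1

theorem coeff_jNum_two : PowerSeries.coeff 2 jNum = 196884 := T4_jNum.2.2.1

theorem coeff_jNum_three : PowerSeries.coeff 3 jNum = 21493760 := T4_jNum.2.2.2


/-! ### (Coef_l) -/

theorem not_dvd_of_odd (l : ℕ) (hl : l.Prime) (h2 : l ≠ 2) :
    ¬ ((l : ℤ) ∣ PowerSeries.coeff 2 jNum ∧ (l : ℤ) ∣ PowerSeries.coeff 3 jNum) := by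
  rw [coeff_jNum_two, coeff_jNum_three]
  rintro ⟨h1, h3⟩
  have h1' : l ∣ 196884 := by exact_mod_cast h1
  have h3' : l ∣ 21493760 := by exact_mod_cast h3
  have h4 : l ∣ Nat.gcd 196884 21493760 := Nat.dvd_gcd h1' h3'
  have h5 : Nat.gcd 196884 21493760 = 4 := by norm_num
  rw [h5] at h4
  have h6 : l ∣ 2 := by
    have h7 : l ∣ 2 * 2 := h4
    rcases (Nat.Prime.dvd_mul hl).mp h7 with h | h <;> exact h
  exact h2 ((Nat.prime_dvd_prime_iff_eq hl Nat.prime_two).mp h6)

theorem sq_eq_one_of_two_eq_zero {A : Type*} [CommRing A] [IsDomain A] (h2 : (2 : A) = 0)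
    {y : A} (hy : y ^ 2 = 1) : y = 1 := by
  have h : (y - 1) ^ 2 = 0 := by
    calc (y - 1) ^ 2 = y ^ 2 - 1 + 2 * (1 - y) := by ring
      _ = 0 := by rw [hy, h2]; ring
  have h' : y - 1 = 0 := by
    exact pow_eq_zero_iff (two_ne_zero) |>.mp h
  exact sub_eq_zero.mp h'

theorem exists_coeff_jNum_odd : ∃ n : ℕ, 2 ≤ n ∧ ¬ (2 : ℤ) ∣ PowerSeries.coeff n jNum := by
  by_contra hcon
  push Not at hcon
  let φ : ℤ →+* ZMod 2 := Int.castRingHom (ZMod 2)
  have hJ : jNum.map φ = 1 := by
    ext n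
    rw [PowerSeries.coeff_map, PowerSeries.coeff_one]
    rcases Nat.lt_or_ge n 2 with hn | hn
    · interval_cases n
      · rw [T4_jNum.1]; simp
      · rw [coeff_jNum_one]; decide
    · rw [if_neg (by omega)]
      exact (ZMod.intCast_zmod_eq_zero_iff_dvd _ 2).mpr (hcon n hn)
  have hE : eisenstein4.map φ = 1 := by
    ext n
    rw [PowerSeries.coeff_map, PowerSeries.coeff_one, eisenstein4, PowerSeries.coeff_mk]
    by_cases hn : n = 0
    · simp [hn]
    · rw [if_neg hn, if_neg hn, map_mul]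
      have h240 : φ 240 = 0 := by decide
      rw [h240, zero_mul]
  have hη : (etaProd.map φ) ^ 24 = 1 := by
    have h := congrArg (PowerSeries.map φ) jNum_mul_etaProd_pow
    rw [map_mul, map_pow, map_pow, hJ, hE, one_mul, one_pow] at h
    exact h
  have h2 : (2 : PowerSeries (ZMod 2)) = 0 := by
    have h20 : (2 : ZMod 2) = 0 := by decide
    have h2C : (2 : PowerSeries (ZMod 2)) = PowerSeries.C (2 : ZMod 2) := by
      rw [map_ofNat]
    rw [h2C, h20, map_zero]
  have h3 : (etaProd.map φ) ^ 3 = 1 := by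
    apply sq_eq_one_of_two_eq_zero h2
    apply sq_eq_one_of_two_eq_zero h2
    apply sq_eq_one_of_two_eq_zero h2
    rw [← pow_mul, ← pow_mul, ← pow_mul]
    exact hη
  have hT : T4 (etaProd.map φ) 1 (-1) (-1) 0 := by
    have h := T4_etaProd.map φ
    exact h.congr (by simp) (by simp) (by simp) (by simp)
  have h3' := (hT.mul hT).mul hT
  rw [← pow_two, ← pow_succ, h3] at h3'
  have h4 := h3'.2.1
  rw [PowerSeries.coeff_one] at h4
  revert h4
  decide

/-- **(Coef_l), integral form**: for every prime `l` some coefficient `c(n - 1)`, `n ≥ 2`, of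
`q * j = jNum` is not divisible by `l`. -/
theorem exists_coeff_jNum_ne (l : ℕ) (hl : l.Prime) :
    ∃ n : ℕ, 2 ≤ n ∧ ¬ (l : ℤ) ∣ PowerSeries.coeff n jNum := by
  by_cases h2 : l = 2
  · subst h2
    exact_mod_cast exists_coeff_jNum_odd
  · by_contra hcon
    push Not at hcon
    exact not_dvd_of_odd l hl h2 ⟨hcon 2 le_rfl, hcon 3 (by norm_num)⟩

theorem coeff_jqModC (k : Type*) [CommRing k] (n : ℕ) :
    (jqModC k).coeff ((n : ℤ) - 1) = ((PowerSeries.coeff n jNum : ℤ) : k) := by
  rw [jqModC, HahnSeries.coeff_single_mul, one_mul, sub_neg_eq_add, sub_add_cancel,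
    HahnSeries.ofPowerSeries_apply_coeff, PowerSeries.coeff_map]
  rfl

/-- **(Coef_l), coefficient form**: over any domain, `j` has a nonzero coefficient in positive
degree. -/
theorem exists_coeff_jqModC_ne (k : Type*) [CommRing k] [IsDomain k] :
    ∃ n : ℤ, 1 ≤ n ∧ (jqModC k).coeff n ≠ 0 := by
  obtain ⟨p, hp⟩ := CharP.exists k
  rcases CharP.char_is_prime_or_zero k p with hp' | hp'
  · obtain ⟨n, hn, hnd⟩ := exists_coeff_jNum_ne p hp'
    refine ⟨(n : ℤ) - 1, by omega, ?_⟩
    rw [coeff_jqModC]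
    intro h
    exact hnd ((CharP.intCast_eq_zero_iff k p _).mp h)
  · subst hp'
    have := CharP.charP_to_charZero k
    refine ⟨1, le_rfl, ?_⟩
    have h := coeff_jqModC k 2
    norm_num at h
    rw [h, coeff_jNum_two]
    norm_num

/-- **(Coef_l)**: over any domain (any characteristic), `j ≠ q⁻¹ + const`. -/
theorem jqModC_ne (k : Type*) [CommRing k] [IsDomain k] (z0 : k) :
    jqModC k ≠ HahnSeries.single (-1 : ℤ) 1 + HahnSeries.C z0 := by
  intro h
  obtain ⟨n, hn, hne⟩ := exists_coeff_jqModC_ne k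
  apply hne
  rw [h, HahnSeries.coeff_add, HahnSeries.coeff_single_of_ne (by omega), HahnSeries.C_apply,
    HahnSeries.coeff_single_of_ne (by omega), add_zero]

end Fermat.Agent.S28.H54
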