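import Mathlib

/-!
# S28, step B1 (helper43): the abstract core of prime-level Igusa (`IG_r`)

`k` algebraically closed, `L ⊇ k` a field, `J ∈ L` transcendental ("`J(q)`"), `s : L →ₐ[k] L`
("`q ↦ q ^ r`"), `t b : L →ₐ[k] L` ("`q ↦ ζ ^ b q`").  From
* `s J` integral over `k[J]` (modular equation),
* `G(J) * D ^ n = 1` (Hasse polynomial), `s (s D) * ∏ b, t b D = c * s D ^ (r + 1)` (norm relation),
* the pole-order input `hdeg` and the final coefficient input `hfin`,
we get `s J ∉ k(J)`.
-/

set_option autoImplicit false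

open Polynomial

namespace Fermat.Agent.S28.H43

section Core

variable {k L : Type*} [Field k] [Field L] [Algebra k L]

/-- If `s J ∈ k(J)` is integral over `k[J]` (witnessed by a monic bivariate polynomial) and `J` is
transcendental, then `s J` is a polynomial in `J`. -/
theorem exists_poly_of_mem_adjoin_of_integral {J y : L} (hJ : Transcendental k J)
    (hy : y ∈ IntermediateField.adjoin k {J})
    (hint : ∃ Q : (k[X])[X], Q.Monic ∧ Q.eval₂ ((aeval J : k[X] →ₐ[k] L) : k[X] →+* L) y = 0) :
    ∃ P : k[X], y = aeval J P := by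
  classical
  have hinj : Function.Injective (aeval J : k[X] →ₐ[k] L) :=
    transcendental_iff_injective.mp hJ
  set φ : RatFunc k →ₐ[k] L := RatFunc.liftAlgHom (aeval J)
    (nonZeroDivisors_le_comap_nonZeroDivisors_of_injective _ hinj) with hφ
  have hφinj : Function.Injective φ := RatFunc.liftAlgHom_injective _ hinj
  have hφalg : ∀ p : k[X], φ (algebraMap k[X] (RatFunc k) p) = aeval J p := by
    intro p
    have := RatFunc.liftAlgHom_apply_div (φ := (aeval J : k[X] →ₐ[k] L))
      (hφ := nonZeroDivisors_le_comap_nonZeroDivisors_of_injective _ hinj) p 1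
    simpa using this
  obtain ⟨a, b, hab⟩ := (IntermediateField.mem_adjoin_simple_iff k y).mp hy
  set f : RatFunc k := algebraMap k[X] (RatFunc k) a / algebraMap k[X] (RatFunc k) b with hf
  have hfy : φ f = y := by
    rw [hf, map_div₀, hφalg, hφalg, hab]
  obtain ⟨Q, hQm, hQ⟩ := hint
  have hfint : IsIntegral k[X] f := by
    refine ⟨Q, hQm, hφinj ?_⟩
    have hcomp : ((φ : RatFunc k →+* L).comp (algebraMap k[X] (RatFunc k))) =
        ((aeval J : k[X] →ₐ[k] L) : k[X] →+* L) := by
      apply RingHom.ext
      intro p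
      exact hφalg p
    rw [map_zero]
    show (φ : RatFunc k →+* L) (eval₂ (algebraMap k[X] (RatFunc k)) f Q) = 0
    rw [Polynomial.hom_eval₂, hcomp]
    show eval₂ ((aeval J : k[X] →ₐ[k] L) : k[X] →+* L) (φ f) Q = 0
    rw [hfy]
    exact hQ
  obtain ⟨P, hP⟩ := IsIntegrallyClosed.isIntegral_iff.mp hfint
  exact ⟨P, by rw [← hfy, ← hP, hφalg]⟩

/-- A monic polynomial over an algebraically closed field all of whose roots equal `a`
is `(X - C a) ^ natDegree`. -/
theorem eq_X_sub_C_pow_of_unique_root [IsAlgClosed k] {Q : k[X]} (hQ : Q.Monic) {a : k}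
    (h : ∀ w, Q.IsRoot w → w = a) : Q = (X - C a) ^ Q.natDegree := by
  have hs : Q.Splits := IsAlgClosed.splits Q
  have h2 : Q.roots = Multiset.replicate Q.natDegree a := by
    rw [Multiset.eq_replicate]
    exact ⟨splits_iff_card_roots.mp hs, fun w hw => h w (isRoot_of_mem_roots hw)⟩
  conv_lhs => rw [hs.eq_prod_roots_of_monic hQ, h2]
  simp [Multiset.map_replicate, Multiset.prod_replicate]

/-- A monic polynomial of degree `r` with `r` distinct roots `x b` evaluates as the product. -/
theorem eval_eq_prod_of_roots {Q : L[X]} (hQ : Q.Monic) {r : ℕ} (hdeg : Q.natDegree = r)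
    (x : Fin r → L) (hx : Function.Injective x) (hroot : ∀ b, Q.IsRoot (x b)) (z : L) :
    Q.eval z = ∏ b, (z - x b) := by
  classical
  have hQ0 : Q ≠ 0 := hQ.ne_zero
  set m : Multiset L := (Finset.univ : Finset (Fin r)).val.map x with hm
  have hnd : m.Nodup := Multiset.Nodup.map hx (Finset.univ : Finset (Fin r)).nodup
  have hle : m ≤ Q.roots := by
    rw [Multiset.le_iff_subset hnd]
    intro a ha
    obtain ⟨b, -, rfl⟩ := Multiset.mem_map.mp ha
    exact (mem_roots hQ0).mpr (hroot b)
  have hdvd : (m.map fun a => X - C a).prod ∣ Q :=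
    (Multiset.prod_X_sub_C_dvd_iff_le_roots hQ0 m).mpr hle
  have hmon : (m.map fun a => X - C a).prod.Monic :=
    monic_multiset_prod_of_monic _ _ (fun a _ => monic_X_sub_C a)
  have hdeg' : (m.map fun a => X - C a).prod.natDegree = r := by
    rw [natDegree_multiset_prod_X_sub_C_eq_card, hm, Multiset.card_map]
    simp
  have heq : Q = (m.map fun a => X - C a).prod :=
    eq_of_monic_of_dvd_of_natDegree_le hmon hQ hdvd (by rw [hdeg, hdeg'])
  rw [heq, eval_multiset_prod, hm, Multiset.map_map, Multiset.map_map]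
  simp [Finset.prod]

/-- Swapping a finite product with a product over a multiset. -/
theorem prod_multiset_map_prod_comm {ι α M : Type*} [CommMonoid M] (S : Finset ι)
    (m : Multiset α) (f : ι → α → M) :
    ∏ b ∈ S, (m.map (f b)).prod = (m.map fun z => ∏ b ∈ S, f b z).prod := by
  induction m using Multiset.induction_on with
  | empty => simp
  | cons a m ih => simp [Finset.prod_mul_distrib, ih]

/-- **Abstract core of prime-level Igusa.** -/
theorem not_mem_adjoin_of_hasse [IsAlgClosed k]
    (r : ℕ) (hr2 : 2 ≤ r) (hr : (r : k) ≠ 0)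
    (J D : L) (hJ : Transcendental k J)
    (s : L →ₐ[k] L) (t : Fin r → (L →ₐ[k] L))
    (hts : ∀ b, t b (s J) = s J)
    (hinj : Function.Injective fun b => t b J)
    (hint : ∃ Q : (k[X])[X], Q.Monic ∧
      Q.eval₂ ((aeval J : k[X] →ₐ[k] L) : k[X] →+* L) (s J) = 0)
    (hdeg : ∀ P : k[X], s J = aeval J P → P.Monic ∧ P.natDegree = r)
    (G : k[X]) (hG : G.Monic) (hGdeg : G.natDegree ≠ 0) (n : ℕ)
    (hHasse : aeval J G * D ^ n = 1)
    (c : k)
    (hNorm : s (s D) * ∏ b, t b D = algebraMap k L c * s D ^ (r + 1))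
    (hfin : ∀ z0 : k, s (J - algebraMap k L z0) ≠ (J - algebraMap k L z0) ^ r) :
    s J ∉ IntermediateField.adjoin k {J} := by
  classical
  intro hmem
  obtain ⟨P, hP⟩ := exists_poly_of_mem_adjoin_of_integral hJ hmem hint
  obtain ⟨hPm, hPdeg⟩ := hdeg P hP
  have hsinj : Function.Injective s := s.injective
  have hsJ : Transcendental k (s J) := fun halg =>
    hJ ((isAlgebraic_algHom_iff s hsinj).mp halg)
  -- the twists are roots of `P(Y) - s J`
  have hroot : ∀ b, aeval (t b J) P = s J := by
    intro b
    rw [aeval_algHom_apply, ← hP, hts]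
  have hPdeg' : (P.map (algebraMap k L)).natDegree = r := by
    rw [natDegree_map, hPdeg]
  have hr0 : 0 < r := by omega
  set Q : L[X] := P.map (algebraMap k L) - C (s J) with hQdef
  have hQm : Q.Monic := by
    apply (hPm.map _).sub_of_left
    refine lt_of_le_of_lt degree_C_le ?_
    rw [degree_eq_natDegree (hPm.map _).ne_zero, hPdeg']
    exact_mod_cast hr0
  have hQdeg : Q.natDegree = r := by rw [hQdef, natDegree_sub_C, hPdeg']
  have hprod : ∀ z : k, algebraMap k L (P.eval z) - s J = ∏ b, (algebraMap k L z - t b J) := by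
    intro z
    have hQroot : ∀ b, Q.IsRoot (t b J) := by
      intro b
      show Q.eval (t b J) = 0
      rw [hQdef, eval_sub, eval_C, eval_map, ← aeval_def, hroot, sub_self]
    have h := eval_eq_prod_of_roots hQm hQdeg (fun b => t b J) hinj hQroot (algebraMap k L z)
    rw [← h, hQdef, eval_sub, eval_C, eval_map, ← aeval_def, aeval_algebraMap_apply]
    simp
  -- the Hasse relation transported by any `k`-algebra endomorphism
  have hH : ∀ ψ : L →ₐ[k] L, aeval (ψ J) G * ψ D ^ n = 1 := by
    intro ψ
    have h := congrArg ψ hHasse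
    rwa [map_mul, map_pow, map_one, ← aeval_algHom_apply] at h
  have hss : s (s J) = aeval (s J) P := by
    rw [aeval_algHom_apply, ← hP]
  -- the key identity in `L`
  have hkey : aeval (s J) (G.comp P) * (∏ b, aeval (t b J) G) * algebraMap k L (c ^ n)
      = aeval (s J) G ^ (r + 1) := by
    have h1 : aeval (s (s J)) G * s (s D) ^ n = 1 := hH (s.comp s)
    have h2 : ∀ b, aeval (t b J) G * t b D ^ n = 1 := fun b => hH (t b)
    have h3 := hH s
    have h4 : (∏ b, aeval (t b J) G) * (∏ b, t b D) ^ n = 1 := by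
      rw [← Finset.prod_pow, ← Finset.prod_mul_distrib]
      exact Finset.prod_eq_one (fun b _ => h2 b)
    have h5 : aeval (s (s J)) G * (∏ b, aeval (t b J) G) *
        (algebraMap k L c ^ n * s D ^ ((r + 1) * n)) = 1 := by
      rw [pow_mul, ← mul_pow, ← hNorm, mul_pow]
      calc aeval (s (s J)) G * (∏ b, aeval (t b J) G) * (s (s D) ^ n * (∏ b, t b D) ^ n)
          = (aeval (s (s J)) G * s (s D) ^ n) *
              ((∏ b, aeval (t b J) G) * (∏ b, t b D) ^ n) := by ring
        _ = 1 := by rw [h4, mul_one, h1]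
    have h6 : aeval (s J) G ^ (r + 1) * s D ^ ((r + 1) * n) = 1 := by
      rw [mul_comm (r + 1) n, pow_mul, ← mul_pow, h3, one_pow]
    rw [aeval_comp, ← hss, map_pow]
    calc aeval (s (s J)) G * (∏ b, aeval (t b J) G) * algebraMap k L c ^ n
        = aeval (s (s J)) G * (∏ b, aeval (t b J) G) * algebraMap k L c ^ n *
            (aeval (s J) G ^ (r + 1) * s D ^ ((r + 1) * n)) := by rw [h6, mul_one]
      _ = (aeval (s (s J)) G * (∏ b, aeval (t b J) G) *
            (algebraMap k L c ^ n * s D ^ ((r + 1) * n))) * aeval (s J) G ^ (r + 1) := by ring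
      _ = aeval (s J) G ^ (r + 1) := by rw [h5, one_mul]
  -- express the product over the twists through the roots of `G`
  have hGs : G.Splits := IsAlgClosed.splits G
  have hGprod : G = (G.roots.map (X - C ·)).prod := hGs.eq_prod_roots_of_monic hG
  set R : k[X] := (G.roots.map fun z => C ((-1 : k) ^ r) * (C (P.eval z) - X)).prod with hR
  have hG' : ∀ y : L, aeval y G = (G.roots.map fun z => y - algebraMap k L z).prod := by
    intro y
    conv_lhs => rw [hGprod]
    rw [map_multiset_prod, Multiset.map_map]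
    congr 1
    apply Multiset.map_congr rfl
    intro z _
    simp
  have hRval : ∏ b, aeval (t b J) G = aeval (s J) R := by
    simp_rw [hG']
    rw [prod_multiset_map_prod_comm, hR, map_multiset_prod, Multiset.map_map]
    congr 1
    apply Multiset.map_congr rfl
    intro z _
    have h1 : ∏ b : Fin r, (t b J - algebraMap k L z) =
        (-1) ^ r * ∏ b : Fin r, (algebraMap k L z - t b J) := by
      have h := Finset.prod_neg (s := (Finset.univ : Finset (Fin r)))
        (fun b => algebraMap k L z - t b J)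
      rw [Finset.card_univ, Fintype.card_fin] at h
      rw [← h]
      exact Finset.prod_congr rfl (fun b _ => by ring)
    rw [h1, ← hprod z]
    simp
  have hpoly : G.comp P * R * C (c ^ n) = G ^ (r + 1) := by
    apply transcendental_iff_injective.mp hsJ
    have e1 : aeval (s J) (G.comp P * R * C (c ^ n)) =
        aeval (s J) (G.comp P) * aeval (s J) R * algebraMap k L (c ^ n) := by
      rw [map_mul, map_mul, aeval_C]
    have e2 : aeval (s J) (G ^ (r + 1)) = aeval (s J) G ^ (r + 1) := map_pow _ _ _
    rw [e1, e2, ← hRval]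
    exact hkey
  -- the root argument
  have hG0 : G ≠ 0 := hG.ne_zero
  have hstep : ∀ w : k, G.IsRoot (P.eval w) → G.IsRoot w := by
    intro w hw
    have h := congrArg (eval w) hpoly
    rw [eval_mul, eval_mul, eval_comp, eval_pow] at h
    rw [IsRoot.def] at hw ⊢
    rw [hw, zero_mul, zero_mul] at h
    exact (pow_eq_zero_iff (by omega)).mp h.symm
  have hPsurj : ∀ z : k, ∃ w, P.eval w = z := by
    intro z
    have hdP : 0 < P.degree := by
      rw [degree_eq_natDegree hPm.ne_zero, hPdeg]
      exact_mod_cast hr0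
    have hd : (P - C z).degree ≠ 0 := by
      rw [degree_sub_C hdP]
      exact hdP.ne'
    obtain ⟨w, hw⟩ := IsAlgClosed.exists_root (P - C z) hd
    exact ⟨w, by simpa [sub_eq_zero] using hw⟩
  set Z : Finset k := G.roots.toFinset with hZ
  have hZmem : ∀ w, w ∈ Z ↔ G.IsRoot w := by
    intro w
    simp [hZ, mem_roots hG0]
  have hZne : Z.Nonempty := by
    obtain ⟨x, hx⟩ := IsAlgClosed.exists_root G (by
      rw [degree_eq_natDegree hG0]
      exact_mod_cast hGdeg)
    exact ⟨x, (hZmem x).mpr hx⟩
  choose g hg using hPsurj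
  have hgZ : Set.MapsTo g Z Z := by
    intro z hz
    have hz' := (hZmem z).mp hz
    apply (hZmem (g z)).mpr
    apply hstep
    rw [hg]
    exact hz'
  have hginj : Set.InjOn g Z := by
    intro a _ b _ hab
    rw [← hg a, ← hg b, hab]
  have hgsurj : Set.SurjOn g Z Z := Finset.surjOn_of_injOn_of_card_le g hgZ hginj le_rfl
  have huniq : ∀ z ∈ Z, ∀ w, P.eval w = z → w = g z := by
    intro z hz w hw
    have hwZ : w ∈ Z := by
      apply (hZmem w).mpr
      apply hstep
      rw [hw]
      exact (hZmem z).mp hz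
    obtain ⟨z', hz', rfl⟩ := hgsurj hwZ
    rw [hg] at hw
    rw [hw]
  have hshape : ∀ z ∈ Z, P = (X - C (g z)) ^ r + C z := by
    intro z hz
    have hdP : 0 < P.degree := by
      rw [degree_eq_natDegree hPm.ne_zero, hPdeg]
      exact_mod_cast hr0
    have hm : (P - C z).Monic := hPm.sub_of_left (lt_of_le_of_lt degree_C_le hdP)
    have hdg : (P - C z).natDegree = r := by rw [natDegree_sub_C, hPdeg]
    have h := eq_X_sub_C_pow_of_unique_root hm (a := g z)
      (fun w hw => huniq z hz w (by simpa [sub_eq_zero] using hw))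
    rw [hdg] at h
    rw [← h]
    ring
  have hconst : ∀ z1 ∈ Z, ∀ z2 ∈ Z, z1 = z2 := by
    intro z1 h1 z2 h2
    have e1 := hshape z1 h1
    have e2 := hshape z2 h2
    have hd : derivative ((X - C (g z1)) ^ r + C z1) =
        derivative ((X - C (g z2)) ^ r + C z2) := by rw [← e1, ← e2]
    simp only [derivative_add, derivative_C, add_zero, derivative_X_sub_C_pow] at hd
    have h := congrArg (eval (g z1)) hd
    simp only [eval_mul, eval_C, eval_pow, eval_sub, eval_X, sub_self] at h
    rw [zero_pow (by omega), mul_zero] at h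
    have h0 : (g z1 - g z2) ^ (r - 1) = 0 := by
      rcases mul_eq_zero.mp h.symm with h' | h'
      · exact absurd h' hr
      · exact h'
    have hgg : g z1 = g z2 := sub_eq_zero.mp ((pow_eq_zero_iff (by omega)).mp h0)
    rw [← hg z1, ← hg z2, hgg]
  obtain ⟨z0, hz0⟩ := hZne
  have hgz0 : g z0 = z0 := hconst _ (hgZ hz0) _ hz0
  have hPshape := hshape z0 hz0
  rw [hgz0] at hPshape
  apply hfin z0
  rw [map_sub, AlgHom.commutes, hP, hPshape]
  simp [aeval_def]

end Core

end Fermat.Agent.S28.H43
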