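import Mathlib
import Fermat.Prelude.Def_ModularCurve_X0ModL
import Fermat.Agent.S28.IGCore_helper43

/-!
# S28, step B1 (helper43): prime-level Igusa `IG_r` for `J = jqModC k`

`igusa_prime`: for `k` algebraically closed, `r ≥ 2` invertible in `k`, `ζ` a primitive `r`-th root
of unity, the twists `t b` (`q ↦ ζ ^ b q`), the modular equation (`hint`), the Hasse polynomial
(`hHasse`), the norm relation (`hNorm`) and one nonzero positive coefficient of `J` (`hCoef`):
`J(q ^ r) ∉ k(J)`.
-/

set_option autoImplicit false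

open Polynomial ModularCurve

namespace Fermat.Agent.S28.H43

section Laurent

variable (k : Type*) [Field k]

/-- Coefficients of a polynomial in `J`. -/
theorem coeff_aeval_jqModC (P : k[X]) (m : ℤ) :
    (aeval (jqModC k) P).coeff m =
      ∑ i ∈ Finset.range (P.natDegree + 1), P.coeff i * ((jqModC k) ^ i).coeff m := by
  rw [aeval_eq_sum_range, HahnSeries.coeff_sum]
  refine Finset.sum_congr rfl (fun i _ => ?_)
  rw [Algebra.smul_def, algebraMap_laurentSeries_eq_single, HahnSeries.coeff_single_zero_mul]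

theorem coeff_aeval_jqModC_of_lt (P : k[X]) {m : ℤ} (hm : m < -(P.natDegree : ℤ)) :
    (aeval (jqModC k) P).coeff m = 0 := by
  rw [coeff_aeval_jqModC]
  refine Finset.sum_eq_zero (fun i hi => ?_)
  have hi' := Finset.mem_range.mp hi
  rw [coeff_jqModC_pow_of_lt k (b := i) (m := m) (by omega), mul_zero]

theorem coeff_aeval_jqModC_natDegree (P : k[X]) :
    (aeval (jqModC k) P).coeff (-(P.natDegree : ℤ)) = P.leadingCoeff := by
  rw [coeff_aeval_jqModC, Finset.sum_range_succ, coeff_jqModC_pow_self, mul_one,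
    Finset.sum_eq_zero, zero_add]
  · rfl
  · intro i hi
    have hi' := Finset.mem_range.mp hi
    rw [coeff_jqModC_pow_of_lt k (b := i) (by omega), mul_zero]

/-- `J` is transcendental over `k`. -/
theorem transcendental_jqModC : Transcendental k (jqModC k) := by
  rw [transcendental_iff]
  intro P hP
  by_contra hP0
  have h := coeff_aeval_jqModC_natDegree k P
  rw [hP, HahnSeries.coeff_zero] at h
  exact hP0 (leadingCoeff_eq_zero.mp h.symm)

/-- Pole-order input: if `J(q ^ r) = P(J)` then `P` is monic of degree `r`. -/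
theorem monic_natDegree_of_qExpand_eq (r : ℕ) [NeZero r] (P : k[X])
    (h : qExpand k r (jqModC k) = aeval (jqModC k) P) : P.Monic ∧ P.natDegree = r := by
  have hrpos : (0 : ℤ) < r := by exact_mod_cast Nat.pos_of_ne_zero (NeZero.ne r)
  have hcoef_r : (qExpand k r (jqModC k)).coeff (-(r : ℤ)) = 1 := by
    have h1 := qExpand_coeff_mul r (jqModC k) (-1)
    rwa [show (r : ℤ) * (-1) = -(r : ℤ) by ring, coeff_jqModC_neg_one] at h1
  have hlt : ∀ m : ℤ, m < -(r : ℤ) → (qExpand k r (jqModC k)).coeff m = 0 := by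
    intro m hm
    by_cases hd : (r : ℤ) ∣ m
    · obtain ⟨j, rfl⟩ := hd
      rw [qExpand_coeff_mul]
      apply coeff_jqModC_of_lt
      nlinarith
    · exact qExpand_coeff_of_not_dvd r _ hd
  have hP0 : P ≠ 0 := by
    rintro rfl
    rw [map_zero] at h
    rw [h, HahnSeries.coeff_zero] at hcoef_r
    exact zero_ne_one hcoef_r
  have hlc : P.leadingCoeff ≠ 0 := leadingCoeff_ne_zero.mpr hP0
  have h1 : ¬ (-(P.natDegree : ℤ) < -(r : ℤ)) := by
    intro hlt'
    have h2 := hlt _ hlt'
    rw [h, coeff_aeval_jqModC_natDegree] at h2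
    exact hlc h2
  have h2 : ¬ (-(r : ℤ) < -(P.natDegree : ℤ)) := by
    intro hlt'
    have h3 := coeff_aeval_jqModC_of_lt k P hlt'
    rw [← h, hcoef_r] at h3
    exact one_ne_zero h3
  have hdeg : P.natDegree = r := by omega
  refine ⟨?_, hdeg⟩
  have h3 := coeff_aeval_jqModC_natDegree k P
  rw [← h, hdeg, hcoef_r] at h3
  exact h3.symm

end Laurent

section PowerSeriesLemma

theorem exists_one_add_pow (A : Type*) [CommRing A] (y : A) (r : ℕ) :
    ∃ c : A, (1 + y) ^ r = 1 + r * y + y ^ 2 * c := by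
  induction r with
  | zero => exact ⟨0, by simp⟩
  | succ r ih =>
    obtain ⟨c, hc⟩ := ih
    exact ⟨r + c + c * y, by rw [pow_succ, hc]; push_cast; ring⟩

variable {k : Type*} [Field k]

/-- A power series `w = 1 + ...` with `w(q ^ r) = w ^ r` (coefficientwise) and `r ≠ 0` in `k`
is `1`. -/
theorem powerSeries_eq_one_of_pow (w : PowerSeries k) (hw0 : PowerSeries.constantCoeff w = 1)
    (r : ℕ) (hr2 : 2 ≤ r) (hr : (r : k) ≠ 0)
    (h : ∀ n : ℕ, PowerSeries.coeff n (w ^ r) =
      if r ∣ n then PowerSeries.coeff (n / r) w else 0) :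
    w = 1 := by
  have key : ∀ n : ℕ, 1 ≤ n → PowerSeries.coeff n w = 0 := by
    intro n
    induction n using Nat.strong_induction_on with
    | _ n ih =>
      intro hn
      have hdvd : (PowerSeries.X : PowerSeries k) ^ n ∣ w - 1 := by
        rw [PowerSeries.X_pow_dvd_iff]
        intro m hm
        rcases Nat.eq_zero_or_pos m with rfl | hmpos
        · rw [map_sub, PowerSeries.coeff_zero_eq_constantCoeff_apply, hw0,
            PowerSeries.coeff_one, if_pos rfl, sub_self]
        · rw [map_sub, ih m hm hmpos, PowerSeries.coeff_one, if_neg (by omega), sub_zero]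
      obtain ⟨g, hg⟩ := hdvd
      have hw : w = 1 + PowerSeries.X ^ n * g := by rw [← hg]; ring
      obtain ⟨c, hc⟩ := exists_one_add_pow (PowerSeries k) (PowerSeries.X ^ n * g) r
      have hcoef : PowerSeries.coeff n (w ^ r) = r * PowerSeries.coeff 0 g := by
        have e1 : PowerSeries.coeff n ((r : PowerSeries k) * (PowerSeries.X ^ n * g)) =
            r * PowerSeries.coeff 0 g := by
          rw [show ((r : PowerSeries k) * (PowerSeries.X ^ n * g)) =
            PowerSeries.X ^ n * ((r : PowerSeries k) * g) by ring]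
          rw [PowerSeries.coeff_X_pow_mul', if_pos le_rfl, Nat.sub_self,
            ← map_natCast (PowerSeries.C (R := k)) r, PowerSeries.coeff_C_mul]
        have e2 : PowerSeries.coeff n ((PowerSeries.X ^ n * g) ^ 2 * c) = 0 := by
          rw [show (PowerSeries.X ^ n * g) ^ 2 * c = PowerSeries.X ^ (2 * n) * (g ^ 2 * c) by ring]
          rw [PowerSeries.coeff_X_pow_mul', if_neg (by omega)]
        rw [hw, hc, map_add, map_add, PowerSeries.coeff_one, if_neg (by omega), zero_add, e1, e2,
          add_zero]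
      have hgn : PowerSeries.coeff 0 g = PowerSeries.coeff n w := by
        rw [hw, map_add, PowerSeries.coeff_one, if_neg (by omega), zero_add,
          PowerSeries.coeff_X_pow_mul', if_pos le_rfl, Nat.sub_self]
      have hrhs : (if r ∣ n then PowerSeries.coeff (n / r) w else 0) = 0 := by
        split_ifs with hd
        · exact ih (n / r) (Nat.div_lt_self (by omega) (by omega))
            (Nat.div_pos (Nat.le_of_dvd (by omega) hd) (by omega))
        · rfl
      have h' := h n
      rw [hcoef, hrhs, hgn] at h'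
      rcases mul_eq_zero.mp h' with h'' | h''
      · exact absurd h'' hr
      · exact h''
  ext n
  rcases Nat.eq_zero_or_pos n with rfl | hn
  · rw [PowerSeries.coeff_zero_eq_constantCoeff_apply, hw0, PowerSeries.coeff_one, if_pos rfl]
  · rw [key n hn, PowerSeries.coeff_one, if_neg (by omega)]

end PowerSeriesLemma

section Final

variable (k : Type*) [Field k]

/-- `J - z0 = q⁻¹ * w` with `w = jNum - z0 * X`. -/
theorem jqModC_sub_eq (z0 : k) :
    jqModC k - algebraMap k (LaurentSeries k) z0 =
      HahnSeries.single (-1 : ℤ) 1 * HahnSeries.ofPowerSeries ℤ k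
        (jNum.map (Int.castRingHom k) - PowerSeries.C z0 * PowerSeries.X) := by
  rw [map_sub, map_mul, HahnSeries.ofPowerSeries_C, HahnSeries.ofPowerSeries_X, mul_sub, jqModC,
    algebraMap_laurentSeries_eq_single, HahnSeries.C_apply, HahnSeries.single_mul_single,
    HahnSeries.single_mul_single]
  simp

/-- Final coefficient input: `J(q ^ r) - z0 = (J - z0) ^ r` is impossible as soon as `J` has a
nonzero coefficient in positive degree. -/
theorem qExpand_sub_ne_pow (r : ℕ) [NeZero r] (hr2 : 2 ≤ r) (hr : (r : k) ≠ 0)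
    (hCoef : ∃ n : ℤ, 0 < n ∧ (jqModC k).coeff n ≠ 0) (z0 : k) :
    qExpand k r (jqModC k - algebraMap k (LaurentSeries k) z0) ≠
      (jqModC k - algebraMap k (LaurentSeries k) z0) ^ r := by
  intro h
  set w : PowerSeries k := jNum.map (Int.castRingHom k) - PowerSeries.C z0 * PowerSeries.X with hw
  have hv := jqModC_sub_eq k z0
  rw [← hw] at hv
  have hw0 : PowerSeries.constantCoeff w = 1 := by
    rw [hw, map_sub, map_mul, PowerSeries.constantCoeff_X, mul_zero, sub_zero,
      ← PowerSeries.coeff_zero_eq_constantCoeff_apply, PowerSeries.coeff_map,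
      PowerSeries.coeff_zero_eq_constantCoeff_apply, constantCoeff_jNum]
    simp
  -- coefficients of `v = q⁻¹ w`
  have hvcoef : ∀ j : ℕ, (jqModC k - algebraMap k (LaurentSeries k) z0).coeff ((j : ℤ) - 1) =
      PowerSeries.coeff j w := by
    intro j
    rw [hv, HahnSeries.coeff_single_mul, one_mul, show (j : ℤ) - 1 - (-1) = (j : ℤ) by ring,
      HahnSeries.ofPowerSeries_apply_coeff]
  have hpow : ∀ n : ℕ, ((jqModC k - algebraMap k (LaurentSeries k) z0) ^ r).coeff
      ((n : ℤ) - r) = PowerSeries.coeff n (w ^ r) := by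
    intro n
    rw [hv, mul_pow, HahnSeries.single_pow, one_pow, ← map_pow, HahnSeries.coeff_single_mul,
      one_mul, show (n : ℤ) - r - r • (-1 : ℤ) = (n : ℤ) by simp,
      HahnSeries.ofPowerSeries_apply_coeff]
  have hrpos : 0 < r := by omega
  have hmain : ∀ n : ℕ, PowerSeries.coeff n (w ^ r) =
      if r ∣ n then PowerSeries.coeff (n / r) w else 0 := by
    intro n
    rw [← hpow n, ← h]
    split_ifs with hd
    · obtain ⟨j, rfl⟩ := hd
      rw [Nat.mul_div_cancel_left j hrpos, ← hvcoef j,
        show ((r * j : ℕ) : ℤ) - r = (r : ℤ) * ((j : ℤ) - 1) by push_cast; ring,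
        qExpand_coeff_mul]
    · apply qExpand_coeff_of_not_dvd
      intro hd'
      apply hd
      have h2 : (r : ℤ) ∣ (n : ℤ) := by
        have h3 := dvd_add hd' (dvd_refl (r : ℤ))
        rwa [sub_add_cancel] at h3
      exact_mod_cast h2
  have hw1 := powerSeries_eq_one_of_pow w hw0 r hr2 hr hmain
  obtain ⟨n, hn, hne⟩ := hCoef
  apply hne
  have hJ : jqModC k = HahnSeries.single (-1 : ℤ) 1 + algebraMap k (LaurentSeries k) z0 := by
    rw [← sub_eq_iff_eq_add, hv, hw1, (HahnSeries.ofPowerSeries ℤ k).map_one, mul_one]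
  rw [hJ, algebraMap_laurentSeries_eq_single, HahnSeries.coeff_add,
    HahnSeries.coeff_single_of_ne (by omega), HahnSeries.coeff_single_of_ne (by omega), add_zero]

variable {k}

/-- **Prime-level Igusa `IG_r`.**  `t b` is the twist `q ↦ ζ ^ b q`, characterised
coefficientwise by `ht`. -/
theorem igusa_prime [IsAlgClosed k] (r : ℕ) [NeZero r] (hr2 : 2 ≤ r) (hr : (r : k) ≠ 0)
    (ζ : k) (hζ : IsPrimitiveRoot ζ r)
    (t : Fin r → (LaurentSeries k →ₐ[k] LaurentSeries k))
    (ht : ∀ (b : Fin r) (x : LaurentSeries k) (m : ℤ),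
      ((t b) x).coeff m = (ζ ^ (b : ℕ)) ^ m * x.coeff m)
    (hint : ∃ Q : (k[X])[X], Q.Monic ∧
      Q.eval₂ ((aeval (jqModC k) : k[X] →ₐ[k] LaurentSeries k) : k[X] →+* LaurentSeries k)
        (qExpand k r (jqModC k)) = 0)
    (D : LaurentSeries k) (G : k[X]) (hG : G.Monic) (hGdeg : G.natDegree ≠ 0) (n : ℕ)
    (hHasse : aeval (jqModC k) G * D ^ n = 1)
    (c : k)
    (hNorm : qExpand k r (qExpand k r D) * ∏ b, t b D =
      algebraMap k (LaurentSeries k) c * qExpand k r D ^ (r + 1))
    (hCoef : ∃ n : ℤ, 0 < n ∧ (jqModC k).coeff n ≠ 0) :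
    qExpand k r (jqModC k) ∉ IntermediateField.adjoin k {jqModC k} := by
  have hζ0 : ζ ≠ 0 := hζ.ne_zero (NeZero.ne r)
  have hts : ∀ b, t b (qExpandAlgHomC k r (jqModC k)) = qExpandAlgHomC k r (jqModC k) := by
    intro b
    ext m
    rw [ht, qExpandAlgHomC_apply]
    by_cases hd : (r : ℤ) ∣ m
    · obtain ⟨j, rfl⟩ := hd
      have h1 : (ζ ^ (b : ℕ)) ^ ((r : ℤ) * j) = 1 := by
        rw [zpow_mul, zpow_natCast, ← pow_mul, mul_comm, pow_mul, hζ.pow_eq_one, one_pow,
          one_zpow]
      rw [h1, one_mul]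
    · rw [qExpand_coeff_of_not_dvd r _ hd, mul_zero]
  have hinj : Function.Injective fun b => t b (jqModC k) := by
    intro b b' hbb
    have h1 := congrArg (fun x : LaurentSeries k => x.coeff (-1)) hbb
    simp only [ht, coeff_jqModC_neg_one, mul_one, zpow_neg, zpow_one] at h1
    have h2 : ζ ^ (b : ℕ) = ζ ^ (b' : ℕ) := inv_injective h1
    exact Fin.ext (hζ.pow_inj b.isLt b'.isLt h2)
  exact not_mem_adjoin_of_hasse r hr2 hr (jqModC k) D (transcendental_jqModC k)
    (qExpandAlgHomC k r) t hts hinj hint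
    (fun P hP => monic_natDegree_of_qExpand_eq k r P hP) G hG hGdeg n hHasse c hNorm
    (fun z0 => qExpand_sub_ne_pow k r hr2 hr hCoef z0)

end Final

end Fermat.Agent.S28.H43
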