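import Mathlib
import Fermat.Prelude.Def_ModularCurve_X0ModL
import Fermat.Agent.S28.IGLaurent_helper43
import Fermat.Agent.S28.Twist_helper20
import Fermat.Agent.S28.NormR_helper47
import Fermat.Agent.S28.CoefL_helper54

/-!
# S28, node `IG k p`: final instantiation of the prime-level Igusa statement (helper43)

`igusa_prime` (abstract Laurent-series form, `IGLaurent_helper43`) is wired to the concrete
pieces on main:

* the twist `H20.twist` (helper20),
* the norm relation for `D = q η^24`, `H47.prod_twist_deltaL` (helper47),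
* the coefficient fact `H54.exists_coeff_jqModC_ne` (helper54).

What remains as hypotheses are exactly the two nodes proved elsewhere:

* the modular equation (only the integrality part is used: a monic `Φ ∈ k[X][Y]` with
  `Φ(J(x), J(x^p)) = 0`),
* the Hasse relation `G(J) · D^n = 1` with `G` monic of positive degree.
-/

open Polynomial ModularCurve

namespace Fermat.Agent.S28.H43

section Instantiation

variable {k : Type*} [Field k]

/-- The twist by a unit, as a `k`-algebra endomorphism of `k((x))`. -/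
noncomputable def twistAlgHom (u : kˣ) : LaurentSeries k →ₐ[k] LaurentSeries k :=
  { H20.twist u with
    commutes' := fun a => H20.twist_algebraMap u a }

theorem twistAlgHom_apply (u : kˣ) (f : LaurentSeries k) : twistAlgHom u f = H20.twist u f := rfl

/-- **`IG_p` from (integrality part of) the modular equation and a Hasse relation**, over an
algebraically closed field in which `p ≠ 0`. -/
theorem igusa_of_hasse [IsAlgClosed k] (p : ℕ) (hp : p.Prime) (hpk : (p : k) ≠ 0)
    (hMod : ∃ Φ : Polynomial (Polynomial k), Φ.Monic ∧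
      (Φ.map (Polynomial.aeval (jqModC k)).toRingHom).eval
        (@qExpand k _ p ⟨hp.ne_zero⟩ (jqModC k)) = 0)
    (G : k[X]) (hG : G.Monic) (hGdeg : G.natDegree ≠ 0) (n : ℕ)
    (hHasse : aeval (jqModC k) G * H47.deltaL k ^ n = 1) :
    (@qExpand k _ p ⟨hp.ne_zero⟩ (jqModC k)) ∉ IntermediateField.adjoin k {jqModC k} := by
  haveI : NeZero p := ⟨hp.ne_zero⟩
  haveI : NeZero (p * p) := ⟨mul_ne_zero hp.ne_zero hp.ne_zero⟩
  haveI : NeZero (p : k) := ⟨hpk⟩
  -- a primitive `p`-th root of unity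
  obtain ⟨ζ, hζroot⟩ := IsAlgClosed.exists_root (cyclotomic p k)
    (by rw [degree_cyclotomic]; exact_mod_cast (Nat.totient_pos.mpr hp.pos).ne')
  have hζ : IsPrimitiveRoot ζ p := Polynomial.isRoot_cyclotomic_iff.mp hζroot
  have hζ0 : ζ ≠ 0 := hζ.ne_zero hp.ne_zero
  set ζu : kˣ := Units.mk0 ζ hζ0 with hζu
  have hζu' : IsPrimitiveRoot ((ζu : kˣ) : k) p := by simpa [hζu] using hζ
  -- the hypotheses of `igusa_prime`
  have ht : ∀ (b : Fin p) (x : LaurentSeries k) (m : ℤ),
      ((twistAlgHom (ζu ^ (b : ℕ))) x).coeff m = (ζ ^ (b : ℕ)) ^ m * x.coeff m := by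
    intro b x m
    rw [twistAlgHom_apply, H20.coeff_twist, Units.val_zpow_eq_zpow_val, Units.val_pow_eq_pow_val,
      hζu, Units.val_mk0]
  have hint : ∃ Q : (k[X])[X], Q.Monic ∧
      Q.eval₂ ((aeval (jqModC k) : k[X] →ₐ[k] LaurentSeries k) : k[X] →+* LaurentSeries k)
        (qExpand k p (jqModC k)) = 0 := by
    obtain ⟨Φ, hΦ, hΦ0⟩ := hMod
    refine ⟨Φ, hΦ, ?_⟩
    rw [Polynomial.eval_map] at hΦ0
    exact hΦ0
  have hNorm : qExpand k p (qExpand k p (H47.deltaL k)) *
      ∏ b : Fin p, twistAlgHom (ζu ^ (b : ℕ)) (H47.deltaL k) =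
      algebraMap k (LaurentSeries k) ((-1) ^ (p + 1)) * qExpand k p (H47.deltaL k) ^ (p + 1) := by
    have h := H47.prod_twist_deltaL (R := k) (ζ := ζu) hp hζu'
    rw [qExpand_qExpand, mul_comm, map_pow, map_neg, map_one, ← h]
    congr 1
    exact Fin.prod_univ_eq_prod_range (fun b => H20.twist (ζu ^ b) (H47.deltaL k)) p
  have hCoef : ∃ n : ℤ, 0 < n ∧ (jqModC k).coeff n ≠ 0 := by
    obtain ⟨n, hn, hne⟩ := H54.exists_coeff_jqModC_ne k
    exact ⟨n, by omega, hne⟩
  exact igusa_prime p hp.two_le hpk ζ hζ (fun b => twistAlgHom (ζu ^ (b : ℕ))) ht hint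
    (H47.deltaL k) G hG hGdeg n hHasse ((-1) ^ (p + 1)) hNorm hCoef

/-- **`IG k p` in characteristic `l`, `p ≠ l`**: consumer form (the conclusion is literally the
`hIG` hypothesis of the tower lemma `psi_le`), with the Hasse relation in the shape
`G` monic of degree `l - 1`, exponent `l - 1`. -/
theorem igusa_of_char [IsAlgClosed k] (l : ℕ) (hl : l.Prime) [CharP k l]
    (hHasse : ∃ G : Polynomial k, G.Monic ∧ G.natDegree = l - 1 ∧
      aeval (jqModC k) G * H47.deltaL k ^ (l - 1) = 1)
    (p : ℕ) (hp : p.Prime) (hpl : p ≠ l)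
    (hMod : ∃ Φ : Polynomial (Polynomial k), Φ.Monic ∧
      (Φ.map (Polynomial.aeval (jqModC k)).toRingHom).eval
        (@qExpand k _ p ⟨hp.ne_zero⟩ (jqModC k)) = 0) :
    (@qExpand k _ p ⟨hp.ne_zero⟩ (jqModC k)) ∉ IntermediateField.adjoin k {jqModC k} := by
  obtain ⟨G, hG, hGdeg, hH⟩ := hHasse
  have hpk : (p : k) ≠ 0 := by
    intro h
    have hdvd : l ∣ p := (CharP.cast_eq_zero_iff k l p).mp h
    rcases (Nat.dvd_prime hp).mp hdvd with h1 | h1
    · exact hl.one_lt.ne' h1
    · exact hpl h1.symm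
  refine igusa_of_hasse p hp hpk hMod G hG ?_ (l - 1) hH
  rw [hGdeg]
  have := hl.two_le
  omega

end Instantiation

end Fermat.Agent.S28.H43
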