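import Mathlib
import Fermat.Agent.S24.Phi_helper20
import Fermat.Agent.S28.Twist_helper20

/-!
# S28: the modular equation over `ℂ` in `q`-expansion form

helper20.  For `r ≥ 1` the functions `z ↦ j ((z + b) / r)` lie in `RN r`, and their
`q_r`-expansions are the twists `J(ζ_r^b x)` of the formal `j`-series.  Hence a pointwise
modular equation `Φ(j(z), Y) = (Y - j(rz)) ∏_{b<r} (Y - j((z+b)/r))` becomes the identity
`Φ(J(x^r), Y) = (Y - J(x^(r²))) ∏_{b<r} (Y - J(ζ_r^b x))` in `ℂ((x))[Y]` (`modEq_laurent`).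
-/

set_option autoImplicit false
set_option linter.unusedSectionVars false

open Filter Topology UpperHalfPlane CongruenceSubgroup ModularForm Function
open scoped MatrixGroups ModularForm Manifold Real

noncomputable section

namespace Fermat.Agent.S28.H20

open Fermat.Agent.S24 Fermat.Agent.S24.H31 ModularCurve

/-! ### The conjugates `z ↦ j ((z + b) / r)` -/

/-- `z ↦ j ((z + b) / r)` -/
def conjB (r b : ℕ) (z : ℍ) : ℂ := jFun (ofComplex (((z : ℂ) + (b : ℂ)) / (r : ℂ)))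

/-- the matrix `S * T ^ b = [[0, -1], [1, b]]` -/
def gB (b : ℕ) : SL(2, ℤ) := ⟨!![0, -1; 1, (b : ℤ)], by rw [Matrix.det_fin_two_of]; ring⟩

theorem im_add_div_pos {r : ℕ} (hr : 0 < r) (b : ℕ) (z : ℍ) :
    0 < (((z : ℂ) + (b : ℂ)) / (r : ℂ)).im := by
  have hr' : (0 : ℝ) < r := by exact_mod_cast hr
  have h : (((z : ℂ) + (b : ℂ)) / (r : ℂ)).im = z.im / r := by
    rw [Complex.div_natCast_im]
    simp
  rw [h]
  exact div_pos z.im_pos hr'

theorem coe_ofComplex_add_div {r : ℕ} (hr : 0 < r) (b : ℕ) (z : ℍ) :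
    ((ofComplex (((z : ℂ) + (b : ℂ)) / (r : ℂ)) : ℍ) : ℂ) = ((z : ℂ) + (b : ℂ)) / (r : ℂ) := by
  rw [ofComplex_apply_of_im_pos (im_add_div_pos hr b z)]

theorem add_natCast_ne_zero (b : ℕ) (z : ℍ) : (z : ℂ) + (b : ℂ) ≠ 0 := by
  intro h
  have := congrArg Complex.im h
  simp at this
  exact z.im_pos.ne' this

theorem conjB_eq {r : ℕ} (hr : 0 < r) (b : ℕ) (z : ℍ) : conjB r b z = jdFun r (gB b • z) := by
  have hrC : (r : ℂ) ≠ 0 := by exact_mod_cast hr.ne'
  have hzb := add_natCast_ne_zero b z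
  have hclaim : ofComplex ((r : ℂ) * ((gB b • z : ℍ) : ℂ))
      = ModularGroup.S • ofComplex (((z : ℂ) + (b : ℂ)) / (r : ℂ)) := by
    apply UpperHalfPlane.ext
    rw [H23.coe_ofComplex_natCast_mul hr, H23.coe_SL_smul ModularGroup.S,
      coe_ofComplex_add_div hr, H23.coe_SL_smul (gB b)]
    simp only [gB, ModularGroup.S]
    simp
    field_simp
  show H23.J _ = H23.J _
  rw [hclaim, H23.J_smul]

theorem conjB_eq_translate {r : ℕ} (hr : 0 < r) (b : ℕ) :
    conjB r b = translate (gB b)⁻¹ (jdFun r) := by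
  funext z
  rw [translate_apply, inv_inv, conjB_eq hr]

theorem isWH_conjB {r : ℕ} (hr : 0 < r) (b : ℕ) : IsWH r (conjB r b) := by
  rw [conjB_eq_translate hr]
  exact (S24.H20.isWH_jdFun r r hr dvd_rfl).translate _

theorem conjB_eq_Jabd (r b : ℕ) : conjB r b = H23.Jabd 1 b r := by
  funext z
  simp [conjB, H23.Jabd, H23.J, jFun]

theorem isBoundedAtImInfty_conjB {r : ℕ} (hr : 0 < r) (b : ℕ) :
    IsBoundedAtImInfty
      (fun z : ℍ => conjB r b z * Complex.exp (2 * π * Complex.I * ((1 : ℕ) : ℂ) * z)) := by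
  have h := H23.isBoundedAtImInfty_Jabd (a := 1) (d := r) one_pos (by exact_mod_cast hr) b
  rw [conjB_eq_Jabd]
  simpa using h

theorem coeff_jqModC_of_lt (K : Type*) [CommRing K] {m : ℤ} (hm : m < -1) :
    (jqModC K).coeff m = 0 := by
  rw [jqModC, HahnSeries.coeff_single_mul, ofPowerSeries_coeff_of_neg _ (by omega), mul_zero]

section Expansion

variable (r : ℕ) [NeZero r]

/-- `ζ_r = exp (2πi / r)` as a unit of `ℂ` -/
def zetaC : ℂˣ := Units.mk0 (Complex.exp (2 * π * Complex.I / r)) (Complex.exp_ne_zero _)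

theorem coe_zetaC : ((zetaC r : ℂˣ) : ℂ) = Complex.exp (2 * π * Complex.I / r) := rfl

theorem isPrimitiveRoot_zetaC : IsPrimitiveRoot (zetaC r) r := by
  rw [← IsPrimitiveRoot.coe_units_iff]
  exact Complex.isPrimitiveRoot_exp r (NeZero.ne r)

/-- `z ↦ j ((z + b) / r)` as an element of `RN r` -/
def conjR (b : ℕ) : RN r := ⟨conjB r b, isWH_conjB (NeZero.pos r) b⟩

theorem coe_conjR (b : ℕ) : (conjR r b : ℍ → ℂ) = conjB r b := rfl

theorem qParam_one_ofComplex_add_div (b : ℕ) (z : ℍ) :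
    Periodic.qParam 1 ((ofComplex (((z : ℂ) + (b : ℂ)) / (r : ℂ)) : ℍ) : ℂ)
      = (((zetaC r) ^ b : ℂˣ) : ℂ) * Periodic.qParam (r : ℝ) z := by
  have hrC : (r : ℂ) ≠ 0 := by exact_mod_cast NeZero.ne r
  rw [coe_ofComplex_add_div (NeZero.pos r), Units.val_pow_eq_pow_val, coe_zetaC,
    Periodic.qParam, Periodic.qParam, ← Complex.exp_nat_mul, ← Complex.exp_add]
  congr 1
  push_cast
  field_simp
  ring

theorem hasSum_conjB (b : ℕ) (z : ℍ) :
    HasSum (fun k : ℕ => (twist ((zetaC r) ^ b) (jqModC ℂ)).coeff ((k : ℤ) - r)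
        • Periodic.qParam (r : ℝ) z ^ k)
      ((conjB r b * S24.H20.uPow 1) z) := by
  set u : ℂˣ := (zetaC r) ^ b with hu
  set q : ℂ := Periodic.qParam (r : ℝ) z with hq
  have hr1 : 1 ≤ r := NeZero.pos r
  have h := H74.hasSum_jqModC (ofComplex (((z : ℂ) + (b : ℂ)) / (r : ℂ)))
  rw [qParam_one_ofComplex_add_div r b z] at h
  have h2 := h.mul_right (((u⁻¹ : ℂˣ) : ℂ) * q ^ (r - 1))
  have hval : (u : ℂ) * q * (E₄ (ofComplex (((z : ℂ) + (b : ℂ)) / (r : ℂ))) ^ 3 /
      ModularForm.discriminant (ofComplex (((z : ℂ) + (b : ℂ)) / (r : ℂ))))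
        * (((u⁻¹ : ℂˣ) : ℂ) * q ^ (r - 1)) = (conjB r b * S24.H20.uPow 1) z := by
    have e1 : (conjB r b * S24.H20.uPow 1) z = conjB r b z * q ^ r := by
      rw [Pi.mul_apply, S24.H20.uPow_eq_qParam_pow r 1 z, one_mul]
    have e2 : q ^ r = q * q ^ (r - 1) := by
      rw [← pow_succ']
      congr 1
      omega
    rw [e1, e2]
    show _ = jFun _ * _
    unfold jFun
    have hu1 : (u : ℂ) * ((u⁻¹ : ℂˣ) : ℂ) = 1 := by simp
    linear_combination (q * q ^ (r - 1) * (E₄ (ofComplex (((z : ℂ) + (b : ℂ)) / (r : ℂ))) ^ 3 /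
      ModularForm.discriminant (ofComplex (((z : ℂ) + (b : ℂ)) / (r : ℂ))))) * hu1
  rw [hval] at h2
  have hinj : Function.Injective (fun n : ℕ => n + (r - 1)) := add_left_injective _
  rw [← hinj.hasSum_iff]
  · have hfun : ((fun k : ℕ => (twist u (jqModC ℂ)).coeff ((k : ℤ) - r) • q ^ k) ∘
        fun n : ℕ => n + (r - 1))
        = fun i : ℕ => (jqModC ℂ).coeff ((i : ℤ) - 1) * ((u : ℂ) * q) ^ i
            * (((u⁻¹ : ℂˣ) : ℂ) * q ^ (r - 1)) := by
      funext n
      simp only [Function.comp_apply, coeff_twist, smul_eq_mul]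
      have hidx : ((n + (r - 1) : ℕ) : ℤ) - r = (n : ℤ) - 1 := by
        push_cast [Nat.cast_sub hr1]
        ring
      rw [hidx, pow_add, mul_pow, zpow_sub_one, zpow_natCast, Units.val_mul,
        Units.val_pow_eq_pow_val]
      ring
    rw [hfun]
    exact h2
  · intro k hk
    have hk' : k < r - 1 := by
      by_contra hcon
      exact hk ⟨k - (r - 1), by simp only; omega⟩
    have : ((k : ℤ) - r) < -1 := by omega
    rw [coeff_twist, coeff_jqModC_of_lt ℂ this, mul_zero, zero_smul]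

theorem Ex_conjR (b : ℕ) :
    S24.H20.Ex r (conjR r b) = twist ((zetaC r) ^ b) (jqModC ℂ) := by
  have hr : (0 : ℝ) < r := by exact_mod_cast NeZero.pos r
  have hnice : S24.H20.IsNiceN r ((conjR r b : ℍ → ℂ) * S24.H20.uPow 1) :=
    S24.H20.isNiceN_mul_uPow (conjR r b).2 (isBoundedAtImInfty_conjB (NeZero.pos r) b)
  rw [S24.H20.Ex_apply, S24.H20.exFun_eq r (conjR r b) hnice, S24.H20.Laur]
  have hcoeff : ∀ k : ℕ, (qExpansion (r : ℝ) ((conjR r b : ℍ → ℂ) * S24.H20.uPow 1)).coeff k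
      = (twist ((zetaC r) ^ b) (jqModC ℂ)).coeff ((k : ℤ) - r) := fun k =>
    (S24.H20.qExpansion_coeff_unique' hr hnice.analyticAt (fun τ => hasSum_conjB r b τ) k).symm
  ext n
  rw [HahnSeries.coeff_single_mul, one_mul]
  rcases lt_or_ge (n + r) 0 with hneg | hpos
  · rw [ofPowerSeries_coeff_of_neg _ (by push_cast; omega), coeff_twist,
      coeff_jqModC_of_lt ℂ (by have := NeZero.pos r; omega), mul_zero]
  · obtain ⟨k, hk⟩ := Int.eq_ofNat_of_zero_le hpos
    have h1 : n - -((1 * r : ℕ) : ℤ) = (k : ℤ) := by push_cast; omega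
    have h2 : (k : ℤ) - r = n := by omega
    rw [h1, HahnSeries.ofPowerSeries_apply_coeff, hcoeff k, h2]

/-- `j` as an element of `RN r` -/
def jR : RN r := S24.H20.jdR r 1 (one_dvd r)

theorem coe_jR_apply (z : ℍ) : (jR r : ℍ → ℂ) z = jFun z := by
  show jdFun 1 z = jFun z
  simp [jdFun]

theorem Ex_jR : S24.H20.Ex r (jR r) = qExpand ℂ r (jqModC ℂ) := by
  have h := S24.H20.Ex_eq_of_coe_eq_jdFun r 1 (jR r) rfl
  rw [h, jqNModC_one]

theorem Ex_jdR_self :
    S24.H20.Ex r (S24.H20.jdR r r dvd_rfl) = qExpand ℂ (r * r) (jqModC ℂ) := by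
  have h := S24.H20.Ex_eq_of_coe_eq_jdFun r r (S24.H20.jdR r r dvd_rfl) rfl
  rw [h, jqNModC, qExpand_qExpand]

end Expansion

section PolyIdentity

open Polynomial

variable (r : ℕ) [NeZero r]

/-- evaluation at `z` as a ring hom `RN r →+* ℂ` -/
def evR (z : ℍ) : RN r →+* ℂ :=
  (Pi.evalRingHom (fun _ : ℍ => ℂ) z).comp (RN r).val.toRingHom

theorem evR_apply (z : ℍ) (f : RN r) : evR r z f = (f : ℍ → ℂ) z := rfl

theorem poly_ext_of_evR {P Q : (RN r)[X]} (h : ∀ z, P.map (evR r z) = Q.map (evR r z)) :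
    P = Q := by
  ext n : 1
  apply Subtype.ext
  funext z
  have := congrArg (fun p => p.coeff n) (h z)
  simpa only [coeff_map, evR_apply] using this

/-- The modular equation in `(RN r)[Y]`, from its pointwise form. -/
theorem modEq_RN (Φ : ℂ[X][X])
    (hΦ : ∀ z : ℍ, Φ.map (evalRingHom (jFun z))
      = (X - C (jdFun r z)) * ∏ b ∈ Finset.range r, (X - C (conjB r b z))) :
    Φ.map (aeval (jR r)).toRingHom
      = (X - C (S24.H20.jdR r r dvd_rfl)) * ∏ b ∈ Finset.range r, (X - C (conjR r b)) := by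
  apply poly_ext_of_evR
  intro z
  rw [Polynomial.map_map]
  have h1 : (evR r z).comp (aeval (jR r)).toRingHom = evalRingHom (jFun z) := by
    apply Polynomial.ringHom_ext
    · intro a
      simp only [RingHom.coe_comp, Function.comp_apply, AlgHom.toRingHom_eq_coe, RingHom.coe_coe,
        aeval_C, coe_evalRingHom, eval_C, evR_apply]
      rfl
    · simp only [RingHom.coe_comp, Function.comp_apply, AlgHom.toRingHom_eq_coe, RingHom.coe_coe,
        aeval_X, coe_evalRingHom, eval_X, evR_apply, coe_jR_apply]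
  rw [h1, hΦ z]
  simp only [Polynomial.map_mul, Polynomial.map_sub, Polynomial.map_X, Polynomial.map_C,
    Polynomial.map_prod, evR_apply]
  rfl

/-- **The modular equation over `ℂ` in `q`-expansion form**, from its pointwise form:
`Φ(J(x^r), Y) = (Y - J(x^(r²))) ∏_{b<r} (Y - J(ζ^b x))` in `ℂ((x))[Y]`. -/
theorem modEq_laurent (Φ : ℂ[X][X])
    (hΦ : ∀ z : ℍ, Φ.map (evalRingHom (jFun z))
      = (X - C (jdFun r z)) * ∏ b ∈ Finset.range r, (X - C (conjB r b z))) :
    Φ.map (aeval (qExpand ℂ r (jqModC ℂ))).toRingHom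
      = (X - C (qExpand ℂ (r * r) (jqModC ℂ)))
        * ∏ b ∈ Finset.range r, (X - C (twist ((zetaC r) ^ b) (jqModC ℂ))) := by
  have h := congrArg (Polynomial.map (S24.H20.Ex r)) (modEq_RN r Φ hΦ)
  rw [Polynomial.map_map] at h
  have h1 : (S24.H20.Ex r).comp (aeval (R := ℂ) (jR r)).toRingHom
      = (aeval (R := ℂ) (qExpand ℂ r (jqModC ℂ))).toRingHom := by
    apply Polynomial.ringHom_ext
    · intro a
      simp only [RingHom.coe_comp, Function.comp_apply, AlgHom.toRingHom_eq_coe, RingHom.coe_coe,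
        aeval_C, S24.H20.Ex_algebraMap]
    · simp only [RingHom.coe_comp, Function.comp_apply, AlgHom.toRingHom_eq_coe, RingHom.coe_coe,
        aeval_X, Ex_jR]
  rw [h1] at h
  rw [h]
  simp only [Polynomial.map_mul, Polynomial.map_sub, Polynomial.map_X, Polynomial.map_C,
    Polynomial.map_prod, Ex_jdR_self, Ex_conjR]

end PolyIdentity

end Fermat.Agent.S28.H20
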