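import Mathlib
import Fermat.Agent.S28.ModEqC_helper20
import Fermat.Agent.S24.JTrans_helper89

/-!
# S28: the modular equation over any field with a primitive `r`-th root of unity

helper20.  From a pointwise modular equation over `ℂ`
(`Φ(j(z), Y) = (Y - j(rz)) ∏_{b<r} (Y - j((z+b)/r))`, `Φ` monic) we get, for every field `k` and
every primitive `r`-th root of unity `ζ : kˣ`, a monic `Ψ ∈ k[X][Y]` of the same degree with
`Ψ(J(x^r), Y) = (Y - J(x^(r²))) ∏_{b<r} (Y - J(ζ^b x))` in `k((x))[Y]` (`exists_modEq_of`).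

Steps: `modEq_laurent` (analytic, over `ℂ`), Lemma T (`lemmaT`: integrality of the coefficients
over `ℤ[ζ_r]`), descent to `ℤ[ζ_r]` (`exists_modEq_descent`), base change (`modEq_baseChange`).
-/

set_option autoImplicit false
set_option linter.unusedSectionVars false

open Polynomial

noncomputable section

namespace Fermat.Agent.S28.H20

open Fermat.Agent.S24 ModularCurve

/-! ### Compatibilities of `coeffMap` -/

section CoeffMap

variable {A S : Type*} [CommRing A] [CommRing S] (φ : A →+* S)

omit [CommRing S] in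
theorem algebraMap_laurentSeries_eq_single' (a : A) :
    algebraMap A (LaurentSeries A) a = HahnSeries.single 0 a := by
  have h1 : algebraMap A (PowerSeries A) a = PowerSeries.C a := by
    simp
  rw [HahnSeries.algebraMap_apply', h1, HahnSeries.ofPowerSeries_C]
  rfl

theorem coeffMap_algebraMap (a : A) :
    coeffMap φ (algebraMap A (LaurentSeries A) a) = algebraMap S (LaurentSeries S) (φ a) := by
  rw [algebraMap_laurentSeries_eq_single', algebraMap_laurentSeries_eq_single', coeffMap_single]

theorem coeffMap_injective' (hφ : Function.Injective φ) : Function.Injective (coeffMap φ) := by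
  intro x y h
  ext k
  have hk := congrArg (fun z : LaurentSeries S => z.coeff k) h
  simp only [coeffMap_coeff] at hk
  exact hφ hk

/-- `coeffMap φ ∘ aeval y = aeval (coeffMap φ y) ∘ map φ` on polynomials -/
theorem coeffMap_comp_aeval (y : LaurentSeries A) :
    (coeffMap φ).comp (aeval (R := A) y).toRingHom
      = ((aeval (R := S) (coeffMap φ y)).toRingHom).comp (mapRingHom φ) := by
  apply Polynomial.ringHom_ext
  · intro a
    simp only [RingHom.coe_comp, Function.comp_apply, AlgHom.toRingHom_eq_coe, RingHom.coe_coe,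
      aeval_C, coe_mapRingHom, map_C, coeffMap_algebraMap]
  · simp only [RingHom.coe_comp, Function.comp_apply, AlgHom.toRingHom_eq_coe, RingHom.coe_coe,
      aeval_X, coe_mapRingHom, map_X]

theorem map_aeval_map_coeffMap (y : LaurentSeries A) (P : A[X][X]) :
    (P.map (aeval (R := A) y).toRingHom).map (coeffMap φ)
      = (P.map (mapRingHom φ)).map (aeval (R := S) (coeffMap φ y)).toRingHom := by
  rw [Polynomial.map_map, Polynomial.map_map, coeffMap_comp_aeval]

end CoeffMap

/-! ### The right-hand side of the modular equation -/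

section Rhs

variable (R : Type*) [CommRing R] (r : ℕ) [NeZero r]

/-- `(Y - J(x^(r²))) ∏_{b<r} (Y - J(u^b x))` in `R((x))[Y]`. -/
def modRhs (u : Rˣ) : (LaurentSeries R)[X] :=
  (X - C (qExpand R (r * r) (jqModC R)))
    * ∏ b ∈ Finset.range r, (X - C (twist (u ^ b) (jqModC R)))

variable {R}

theorem modRhs_map {S : Type*} [CommRing S] (φ : R →+* S) (u : Rˣ) :
    (modRhs R r u).map (coeffMap φ) = modRhs S r (Units.map (φ : R →* S) u) := by
  simp only [modRhs, Polynomial.map_mul, Polynomial.map_sub, Polynomial.map_X, Polynomial.map_C,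
    Polynomial.map_prod, coeffMap_qExpand, coeffMap_jqModC, coeffMap_twist, map_pow]

end Rhs

/-! ### Lemma T: a polynomial whose value at `J(x^r)` has coefficients in a subring has
coefficients in that subring -/

section LemmaT

variable {A : Type*} [CommRing A] {K : Type*} [Field K] (φ : A →+* K) (r : ℕ) [NeZero r]

theorem aeval_qExpand_jqModC (P : K[X]) :
    aeval (qExpand K r (jqModC K)) P = qExpand K r (aeval (jqModC K) P) := by
  have h := Polynomial.aeval_algHom_apply (qExpandAlgHomC K r) (jqModC K) P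
  simpa only [qExpandAlgHomC_apply] using h

theorem coeff_aeval_qExpand_jqModC (P : K[X]) :
    (aeval (qExpand K r (jqModC K)) P).coeff ((r : ℤ) * (-(P.natDegree : ℤ)))
      = P.leadingCoeff := by
  rw [aeval_qExpand_jqModC, qExpand_coeff_mul, H89.coeff_aeval_jqModC_neg_natDegree]

theorem lemmaT : ∀ (n : ℕ) (P : K[X]), P.natDegree ≤ n →
    (∃ s : LaurentSeries A, coeffMap φ s = aeval (qExpand K r (jqModC K)) P) →
    ∃ P' : A[X], P'.map φ = P := by
  intro n
  induction n with
  | zero =>
    intro P hP ⟨s, hs⟩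
    have hlead := coeff_aeval_qExpand_jqModC (K := K) r P
    rw [← hs, coeffMap_coeff] at hlead
    have hP0 : P.natDegree = 0 := Nat.le_zero.mp hP
    refine ⟨C (s.coeff ((r : ℤ) * (-(P.natDegree : ℤ)))), ?_⟩
    rw [Polynomial.map_C, hlead]
    rw [Polynomial.leadingCoeff, hP0]
    exact (Polynomial.eq_C_of_natDegree_eq_zero hP0).symm
  | succ n ih =>
    intro P hP ⟨s, hs⟩
    have hlead := coeff_aeval_qExpand_jqModC (K := K) r P
    rw [← hs, coeffMap_coeff] at hlead
    set a' : A := s.coeff ((r : ℤ) * (-(P.natDegree : ℤ))) with ha'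
    -- the polynomial with the leading term removed
    have hdeg : P.eraseLead.natDegree ≤ n := by
      have := Polynomial.eraseLead_natDegree_le P
      omega
    have hsum : P.eraseLead + monomial P.natDegree P.leadingCoeff = P :=
      Polynomial.eraseLead_add_monomial_natDegree_leadingCoeff P
    have hs1 : coeffMap φ (s - algebraMap A (LaurentSeries A) a'
          * (qExpand A r (jqModC A)) ^ P.natDegree)
        = aeval (qExpand K r (jqModC K)) P.eraseLead := by
      have e1 : aeval (qExpand K r (jqModC K)) P.eraseLead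
          = aeval (qExpand K r (jqModC K)) P
            - aeval (qExpand K r (jqModC K)) (monomial P.natDegree P.leadingCoeff) := by
        rw [← map_sub]
        congr 1
        rw [eq_sub_iff_add_eq]
        exact hsum
      rw [e1, map_sub, hs, map_mul, map_pow, coeffMap_algebraMap, coeffMap_qExpand,
        coeffMap_jqModC, hlead, aeval_monomial]
    obtain ⟨P1, hP1⟩ := ih P.eraseLead hdeg ⟨_, hs1⟩
    refine ⟨P1 + monomial P.natDegree a', ?_⟩
    rw [Polynomial.map_add, hP1, Polynomial.map_monomial, hlead]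
    exact hsum

end LemmaT

/-! ### Descent and base change -/

section Descent

variable (r : ℕ) [NeZero r]

/-- Descent of the modular equation along an injective ring hom `φ : A →+* K`. -/
theorem exists_modEq_descent {A : Type*} [CommRing A] {K : Type*} [Field K] (φ : A →+* K)
    (hφ : Function.Injective φ) (u : Aˣ) (Φ : K[X][X]) (hmonic : Φ.Monic)
    (hΦ : Φ.map (aeval (R := K) (qExpand K r (jqModC K))).toRingHom
      = modRhs K r (Units.map (φ : A →* K) u)) :
    ∃ ΦA : A[X][X], ΦA.Monic ∧ ΦA.natDegree = Φ.natDegree ∧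
      ΦA.map (aeval (R := A) (qExpand A r (jqModC A))).toRingHom = modRhs A r u := by
  have hlift : Φ ∈ Polynomial.lifts (mapRingHom φ) := by
    rw [Polynomial.lifts_iff_coeff_lifts]
    intro i
    have hi : aeval (qExpand K r (jqModC K)) (Φ.coeff i)
        = coeffMap φ ((modRhs A r u).coeff i) := by
      have h := congrArg (fun p => p.coeff i) hΦ
      simp only [coeff_map] at h
      rw [← modRhs_map, coeff_map] at h
      exact h
    obtain ⟨P', hP'⟩ := lemmaT φ r (Φ.coeff i).natDegree (Φ.coeff i) le_rfl ⟨_, hi.symm⟩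
    exact ⟨P', hP'⟩
  obtain ⟨ΦA, hmap, hdeg, hmon⟩ := Polynomial.lifts_and_natDegree_eq_and_monic hlift hmonic
  refine ⟨ΦA, hmon, hdeg, ?_⟩
  apply Polynomial.map_injective (coeffMap φ) (coeffMap_injective' φ hφ)
  rw [map_aeval_map_coeffMap, coeffMap_qExpand, coeffMap_jqModC, modRhs_map]
  rw [show ΦA.map (mapRingHom φ) = Φ from hmap]
  exact hΦ

/-- Base change of the modular equation along any ring hom. -/
theorem modEq_baseChange {A B : Type*} [CommRing A] [CommRing B] (ψ : A →+* B) (u : Aˣ)
    (ΦA : A[X][X])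
    (h : ΦA.map (aeval (R := A) (qExpand A r (jqModC A))).toRingHom = modRhs A r u) :
    (ΦA.map (mapRingHom ψ)).map (aeval (R := B) (qExpand B r (jqModC B))).toRingHom
      = modRhs B r (Units.map (ψ : A →* B) u) := by
  have h' := congrArg (Polynomial.map (coeffMap ψ)) h
  rw [map_aeval_map_coeffMap, coeffMap_qExpand, coeffMap_jqModC, modRhs_map] at h'
  exact h'

end Descent

/-! ### The ring `ℤ[ζ_r]` -/

section Cyclo

variable (r : ℕ) [NeZero r]

theorem isPrimitiveRoot_coe_zetaC : IsPrimitiveRoot ((zetaC r : ℂˣ) : ℂ) r :=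
  Complex.isPrimitiveRoot_exp r (NeZero.ne r)

theorem isIntegral_zetaC : IsIntegral ℤ ((zetaC r : ℂˣ) : ℂ) :=
  (isPrimitiveRoot_coe_zetaC r).isIntegral (NeZero.pos r)

/-- the abstract ring `ℤ[ζ_r]` -/
abbrev CycRing : Type := AdjoinRoot (minpoly ℤ ((zetaC r : ℂˣ) : ℂ))

/-- the embedding `ℤ[ζ_r] → ℂ` -/
def cycEmb : CycRing r →+* ℂ :=
  (Subalgebra.val (Algebra.adjoin ℤ {((zetaC r : ℂˣ) : ℂ)})).toRingHom.comp
    (AdjoinRoot.Minpoly.toAdjoin ℤ ((zetaC r : ℂˣ) : ℂ)).toRingHom

theorem cycEmb_injective : Function.Injective (cycEmb r) :=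
  Subtype.val_injective.comp (minpoly.ToAdjoin.injective (isIntegral_zetaC r))

theorem cycEmb_root : cycEmb r (AdjoinRoot.root _) = ((zetaC r : ℂˣ) : ℂ) := by
  rw [← AdjoinRoot.mk_X]
  exact AdjoinRoot.Minpoly.coe_toAdjoin_mk_X

theorem root_pow_eq_one : (AdjoinRoot.root (minpoly ℤ ((zetaC r : ℂˣ) : ℂ))) ^ r = 1 := by
  apply cycEmb_injective r
  rw [map_pow, cycEmb_root, map_one]
  exact (isPrimitiveRoot_coe_zetaC r).pow_eq_one

/-- `ζ_r` as a unit of `ℤ[ζ_r]` -/
def cycUnit : (CycRing r)ˣ :=
  Units.ofPowEqOne (AdjoinRoot.root _) r (root_pow_eq_one r) (NeZero.ne r)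

theorem map_cycEmb_cycUnit : Units.map (cycEmb r : CycRing r →* ℂ) (cycUnit r) = zetaC r := by
  apply Units.ext
  show cycEmb r (AdjoinRoot.root _) = _
  exact cycEmb_root r

/-- the specialisation `ℤ[ζ_r] → k`, `ζ_r ↦ ζ` -/
def cycSpec {k : Type*} [Field k] (ζ : k) (hζ : IsPrimitiveRoot ζ r) : CycRing r →+* k :=
  AdjoinRoot.lift (Int.castRingHom k) ζ (by
    rw [← Polynomial.cyclotomic_eq_minpoly (isPrimitiveRoot_coe_zetaC r) (NeZero.pos r),
      Polynomial.eval₂_eq_eval_map, Polynomial.map_cyclotomic_int]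
    exact hζ.isRoot_cyclotomic (NeZero.pos r))

theorem cycSpec_root {k : Type*} [Field k] (ζ : k) (hζ : IsPrimitiveRoot ζ r) :
    cycSpec r ζ hζ (AdjoinRoot.root _) = ζ :=
  AdjoinRoot.lift_root _

theorem map_cycSpec_cycUnit {k : Type*} [Field k] (ζ : kˣ) (hζ : IsPrimitiveRoot (ζ : k) r) :
    Units.map (cycSpec r (ζ : k) hζ : CycRing r →* k) (cycUnit r) = ζ := by
  apply Units.ext
  show cycSpec r (ζ : k) hζ (AdjoinRoot.root _) = _
  exact cycSpec_root r _ _

end Cyclo

/-! ### The modular equation over any field with a primitive `r`-th root of unity -/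

section Final

variable (r : ℕ) [NeZero r]

/-- **(Mod_r), from the pointwise modular equation over `ℂ`.** -/
theorem exists_modEq_of (Φ : ℂ[X][X]) (hmonic : Φ.Monic)
    (hΦ : ∀ z : UpperHalfPlane, Φ.map (evalRingHom (H31.jFun z))
      = (X - C (H31.jdFun r z)) * ∏ b ∈ Finset.range r, (X - C (conjB r b z)))
    (k : Type*) [Field k] (ζ : kˣ) (hζ : IsPrimitiveRoot ζ r) :
    ∃ Ψ : k[X][X], Ψ.Monic ∧ Ψ.natDegree = Φ.natDegree ∧
      Ψ.map (aeval (R := k) (qExpand k r (jqModC k))).toRingHom
        = (X - C (qExpand k (r * r) (jqModC k)))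
          * ∏ b ∈ Finset.range r, (X - C (twist (ζ ^ b) (jqModC k))) := by
  have h1 : Φ.map (aeval (R := ℂ) (qExpand ℂ r (jqModC ℂ))).toRingHom
      = modRhs ℂ r (Units.map (cycEmb r : CycRing r →* ℂ) (cycUnit r)) := by
    rw [map_cycEmb_cycUnit]
    exact modEq_laurent r Φ hΦ
  obtain ⟨ΦA, hmon, hdeg, hA⟩ :=
    exists_modEq_descent r (cycEmb r) (cycEmb_injective r) (cycUnit r) Φ hmonic h1
  have hk := modEq_baseChange r (cycSpec r (ζ : k) (IsPrimitiveRoot.coe_units_iff.mpr hζ))
    (cycUnit r) ΦA hA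
  rw [map_cycSpec_cycUnit r ζ (IsPrimitiveRoot.coe_units_iff.mpr hζ)] at hk
  refine ⟨ΦA.map (mapRingHom _), hmon.map _, ?_, hk⟩
  rw [hmon.natDegree_map, hdeg]

end Final

end Fermat.Agent.S28.H20
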