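import Mathlib
import Fermat.Agent.S24.Defs_helper31
import Fermat.Agent.S24.ConjFun_helper23
import Fermat.Agent.S24.CoreLemma_helper94

/-!
# S28, analytic input (Mod_r): the modular equation of prime level over `ℂ` (function level)

For a prime `r` the `r + 1` functions `j(rz)`, `j((z+b)/r)` (`0 ≤ b < r`) are permuted by
`SL(2,ℤ)`; the coefficients of `∏ (Y - f_i(z))` are holomorphic, invariant and of moderate growth,
hence polynomials in `j(z)`.

Main results: `conjFun`, `exists_perm_conjFun`, `conjFun_injective`, `exists_modEq`,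
`exists_modEq'`, `tendsto_conjFun_none`, `tendsto_conjFun_some`.
-/

set_option autoImplicit false

open Filter Topology UpperHalfPlane CongruenceSubgroup ModularForm
open scoped MatrixGroups ModularForm Manifold Real

noncomputable section

namespace Fermat.Agent.S28.H85

open Fermat.Agent.S24 Fermat.Agent.S24.H31 Fermat.Agent.S24.H23

/-- Möbius identity: if `δ * ([[a, b], [0, d]] * g) = [[a', b'], [0, d']]` then
`J((a · gz + b)/d) = J((a' z + b')/d')`. -/
theorem Jabd_smul_eq (g δ : SL(2, ℤ)) {a b d a' b' d' : ℤ} (ha : 0 < a) (hd : 0 < d)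
    (ha' : 0 < a') (hd' : 0 < d')
    (h : (δ : Matrix (Fin 2) (Fin 2) ℤ) * (!![a, b; 0, d] * (g : Matrix (Fin 2) (Fin 2) ℤ)) =
      !![a', b'; 0, d']) (z : ℍ) :
    Jabd a b d (g • z) = Jabd a' b' d' z := by
  have e00 : δ 0 0 * (a * g 0 0 + b * g 1 0) + δ 0 1 * (d * g 1 0) = a' := by
    have := congrFun (congrFun h 0) 0
    rw [Matrix.mul_apply, Fin.sum_univ_two, Matrix.mul_apply, Matrix.mul_apply,
      Fin.sum_univ_two, Fin.sum_univ_two] at this
    simpa using this
  have e01 : δ 0 0 * (a * g 0 1 + b * g 1 1) + δ 0 1 * (d * g 1 1) = b' := by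
    have := congrFun (congrFun h 0) 1
    rw [Matrix.mul_apply, Fin.sum_univ_two, Matrix.mul_apply, Matrix.mul_apply,
      Fin.sum_univ_two, Fin.sum_univ_two] at this
    simpa using this
  have e10 : δ 1 0 * (a * g 0 0 + b * g 1 0) + δ 1 1 * (d * g 1 0) = 0 := by
    have := congrFun (congrFun h 1) 0
    rw [Matrix.mul_apply, Fin.sum_univ_two, Matrix.mul_apply, Matrix.mul_apply,
      Fin.sum_univ_two, Fin.sum_univ_two] at this
    simpa using this
  have e11 : δ 1 0 * (a * g 0 1 + b * g 1 1) + δ 1 1 * (d * g 1 1) = d' := by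
    have := congrFun (congrFun h 1) 1
    rw [Matrix.mul_apply, Fin.sum_univ_two, Matrix.mul_apply, Matrix.mul_apply,
      Fin.sum_univ_two, Fin.sum_univ_two] at this
    simpa using this
  have c00 := congrArg (Int.cast : ℤ → ℂ) e00
  have c01 := congrArg (Int.cast : ℤ → ℂ) e01
  have c10 := congrArg (Int.cast : ℤ → ℂ) e10
  have c11 := congrArg (Int.cast : ℤ → ℂ) e11
  push_cast at c00 c01 c10 c11
  have key : δ • ofComplex (((a : ℂ) * ((g • z : ℍ) : ℂ) + b) / d) =
      ofComplex (((a' : ℂ) * z + b') / d') := by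
    apply UpperHalfPlane.ext
    rw [coe_SL_smul, coe_ofComplex_abd ha hd, coe_ofComplex_abd ha' hd', coe_SL_smul]
    have hden1 := SL_denom_ne_zero g z
    have hden2 := SL_denom_ne_zero δ (ofComplex (((a : ℂ) * ((g • z : ℍ) : ℂ) + b) / d))
    rw [coe_ofComplex_abd ha hd, coe_SL_smul] at hden2
    have hdz : (d : ℂ) ≠ 0 := by exact_mod_cast hd.ne'
    have hd'z : (d' : ℂ) ≠ 0 := by exact_mod_cast hd'.ne'
    rw [div_eq_div_iff hden2 hd'z]
    have hW' : (((g 0 0 : ℤ) : ℂ) * (z : ℂ) + ((g 0 1 : ℤ) : ℂ)) /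
        (((g 1 0 : ℤ) : ℂ) * (z : ℂ) + ((g 1 1 : ℤ) : ℂ)) *
        (((g 1 0 : ℤ) : ℂ) * (z : ℂ) + ((g 1 1 : ℤ) : ℂ)) =
        ((g 0 0 : ℤ) : ℂ) * (z : ℂ) + ((g 0 1 : ℤ) : ℂ) := div_mul_cancel₀ _ hden1
    generalize (((g 0 0 : ℤ) : ℂ) * (z : ℂ) + ((g 0 1 : ℤ) : ℂ)) /
        (((g 1 0 : ℤ) : ℂ) * (z : ℂ) + ((g 1 1 : ℤ) : ℂ)) = W at hW' hden2 ⊢
    apply mul_right_cancel₀ hden1
    apply mul_right_cancel₀ hdz
    have hWd : ((a : ℂ) * W + b) / d * d = (a : ℂ) * W + b := div_mul_cancel₀ _ hdz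
    generalize ((a : ℂ) * W + b) / d = V at hWd hden2 ⊢
    linear_combination (((δ 0 0 : ℤ) : ℂ) * d' - ((a' : ℂ) * z + b') * (δ 1 0 : ℤ)) *
      (((g 1 0 : ℤ) : ℂ) * (z : ℂ) + ((g 1 1 : ℤ) : ℂ)) * hWd +
      (((δ 0 0 : ℤ) : ℂ) * d' - ((a' : ℂ) * z + b') * (δ 1 0 : ℤ)) * (a : ℂ) * hW' +
      (d' : ℂ) * (z : ℂ) * c00 + (d' : ℂ) * c01 - ((a' : ℂ) * z + b') * (z : ℂ) * c10 -
      ((a' : ℂ) * z + b') * c11
  rw [Jabd, Jabd, ← key, H23.J_smul]

/-- The `r + 1` conjugates of `j(rz)`: `j(rz)` and `j((z+b)/r)`, `0 ≤ b < r`. -/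
def conjFun (r : ℕ) : Option (Fin r) → ℍ → ℂ
  | none => fun z => jFun (ofComplex ((r : ℂ) * z))
  | some b => fun z => jFun (ofComplex (((z : ℂ) + ((b : ℕ) : ℂ)) / r))

theorem conjFun_none (r : ℕ) (z : ℍ) : conjFun r none z = jFun (ofComplex ((r : ℂ) * z)) := rfl

theorem conjFun_none' (r : ℕ) (z : ℍ) : conjFun r none z = jdFun r z := rfl

theorem conjFun_some (r : ℕ) (b : Fin r) (z : ℍ) :
    conjFun r (some b) z = jFun (ofComplex (((z : ℂ) + ((b : ℕ) : ℂ)) / r)) := rfl

theorem conjFun_none_eq_Jabd (r : ℕ) (z : ℍ) : conjFun r none z = Jabd r 0 1 z := by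
  have h : ((r : ℂ) * (z : ℂ)) = ((((r : ℕ) : ℤ) : ℂ) * z + ((0 : ℤ) : ℂ)) / ((1 : ℤ) : ℂ) := by
    simp
  rw [conjFun_none, h]
  rfl

theorem conjFun_some_eq_Jabd (r : ℕ) (b : Fin r) (z : ℍ) :
    conjFun r (some b) z = Jabd 1 ((b : ℕ) : ℤ) r z := by
  have h : (((z : ℂ) + ((b : ℕ) : ℂ)) / r) =
      (((1 : ℤ) : ℂ) * z + ((((b : ℕ) : ℤ)) : ℂ)) / (((r : ℕ) : ℤ) : ℂ) := by
    simp
  rw [conjFun_some, h]
  rfl

/-- `J((r z + b)/1) = J(rz)`. -/
theorem Jabd_r_b_one (r : ℕ) (hr : 0 < r) (b : ℤ) (z : ℍ) : Jabd r b 1 z = Jabd r 0 1 z := by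
  have hr' : (0 : ℤ) < r := by exact_mod_cast hr
  have h := Jabd_smul_eq 1 (ModularGroup.T ^ b) (a := r) (b := 0) (d := 1) (a' := r) (b' := b)
    (d' := 1) hr' one_pos hr' one_pos (by
      rw [ModularGroup.coe_T_zpow]
      ext i j
      fin_cases i <;> fin_cases j <;> simp [Matrix.mul_apply, Fin.sum_univ_two]) z
  rw [one_smul] at h
  exact h.symm

/-- `J((z + b)/r)` only depends on `b` modulo `r`. -/
theorem Jabd_one_b_r (r : ℕ) (hr : 0 < r) (b : ℤ) (z : ℍ) :
    Jabd 1 b r z = Jabd 1 (b % r) r z := by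
  have hr' : (0 : ℤ) < r := by exact_mod_cast hr
  have h := Jabd_smul_eq 1 (ModularGroup.T ^ (b / r)) (a := 1) (b := b % r) (d := r) (a' := 1)
    (b' := b) (d' := r) one_pos hr' one_pos hr' (by
      rw [ModularGroup.coe_T_zpow]
      ext i j
      fin_cases i <;> fin_cases j <;> simp [Matrix.mul_apply, Fin.sum_univ_two]
      have := Int.emod_add_mul_ediv b r
      linarith) z
  rw [one_smul] at h
  exact h.symm

/-- Every `J((a z + b)/d)` with `a d = r` prime is one of the `r + 1` conjugates. -/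
theorem exists_conjFun_eq_Jabd (r : ℕ) (hr : r.Prime) {a d : ℤ} (ha : 0 < a) (hd : 0 < d)
    (had : a * d = r) (b : ℤ) : ∃ i : Option (Fin r), ∀ z : ℍ, Jabd a b d z = conjFun r i z := by
  have hr0 : 0 < r := hr.pos
  have hnat : a.natAbs * d.natAbs = r := by
    have := congrArg Int.natAbs had
    rwa [Int.natAbs_mul, Int.natAbs_natCast] at this
  have hdvd : a.natAbs ∣ r := Dvd.intro _ hnat
  rcases (Nat.dvd_prime hr).mp hdvd with h1 | h1
  · -- `a = 1`, `d = r`
    have ha1 : a = 1 := by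
      have : (a.natAbs : ℤ) = a := Int.natAbs_of_nonneg ha.le
      rw [h1] at this
      exact_mod_cast this.symm
    have hdr : d = r := by rw [ha1, one_mul] at had; exact had
    subst ha1
    subst hdr
    have hmod0 : 0 ≤ b % (r : ℤ) := Int.emod_nonneg _ (by exact_mod_cast hr0.ne')
    have hmodlt : b % (r : ℤ) < r := Int.emod_lt_of_pos _ (by exact_mod_cast hr0)
    refine ⟨some ⟨(b % (r : ℤ)).toNat, by
      have := Int.toNat_of_nonneg hmod0
      omega⟩, fun z => ?_⟩
    rw [conjFun_some_eq_Jabd, Jabd_one_b_r r hr0 b z]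
    congr 1
    simp [Int.toNat_of_nonneg hmod0]
  · -- `a = r`, `d = 1`
    have har : a = r := by
      have : (a.natAbs : ℤ) = a := Int.natAbs_of_nonneg ha.le
      rw [h1] at this
      exact this.symm
    have hd1 : d = 1 := by
      rw [har] at had
      have hr' : (r : ℤ) ≠ 0 := by exact_mod_cast hr0.ne'
      exact mul_left_cancel₀ hr' (by rw [had, mul_one])
    subst har
    subst hd1
    refine ⟨none, fun z => ?_⟩
    rw [conjFun_none_eq_Jabd, Jabd_r_b_one r hr0 b z]

/-- A translate of `J((a z + b)/d)`, `a d = r` prime, is one of the `r + 1` conjugates. -/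
theorem exists_conjFun_eq_Jabd_smul (r : ℕ) (hr : r.Prime) {a d : ℤ} (ha : 0 < a) (hd : 0 < d)
    (had : a * d = r) (b : ℤ) (g : SL(2, ℤ)) :
    ∃ i : Option (Fin r), ∀ z : ℍ, Jabd a b d (g • z) = conjFun r i z := by
  have hdetM : (!![a, b; 0, d] * (g : Matrix (Fin 2) (Fin 2) ℤ)).det = r := by
    rw [Matrix.det_mul, g.det_coe, Matrix.det_fin_two_of, mul_one, mul_zero, sub_zero, had]
  have hpos : 0 < (!![a, b; 0, d] * (g : Matrix (Fin 2) (Fin 2) ℤ)).det := by
    rw [hdetM]; exact_mod_cast hr.pos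
  obtain ⟨δ, a', b', d', ha', hd', hδ⟩ := exists_hermite _ hpos
  have had' : a' * d' = r := by
    have h1 := congrArg Matrix.det hδ
    rw [Matrix.det_mul, δ.det_coe, one_mul, hdetM, Matrix.det_fin_two_of, mul_zero,
      sub_zero] at h1
    exact h1.symm
  obtain ⟨i, hi⟩ := exists_conjFun_eq_Jabd r hr ha' hd' had' b'
  exact ⟨i, fun z => by rw [Jabd_smul_eq g δ ha hd ha' hd' hδ z, hi z]⟩

theorem exists_conjFun_smul (r : ℕ) (hr : r.Prime) (i : Option (Fin r)) (g : SL(2, ℤ)) :
    ∃ i' : Option (Fin r), ∀ z : ℍ, conjFun r i (g • z) = conjFun r i' z := by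
  have hr' : (0 : ℤ) < r := by exact_mod_cast hr.pos
  cases i with
  | none =>
    obtain ⟨i', hi'⟩ := exists_conjFun_eq_Jabd_smul r hr hr' one_pos (mul_one _) 0 g
    exact ⟨i', fun z => by rw [conjFun_none_eq_Jabd, hi' z]⟩
  | some b =>
    obtain ⟨i', hi'⟩ := exists_conjFun_eq_Jabd_smul r hr one_pos hr' (one_mul _) (b : ℕ) g
    exact ⟨i', fun z => by rw [conjFun_some_eq_Jabd, hi' z]⟩

/-- The `r + 1` conjugates are pairwise distinct functions. -/
theorem conjFun_injective (r : ℕ) (hr : r.Prime) : Function.Injective (conjFun r) := by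
  have hr' : (0 : ℤ) < r := by exact_mod_cast hr.pos
  have hne : ∀ b : Fin r, conjFun r none ≠ conjFun r (some b) := by
    intro b h
    have h1 := mul_eq_mul_of_Jabd_eq hr' one_pos one_pos hr' 0 ((b : ℕ) : ℤ) (fun z => by
      rw [← conjFun_none_eq_Jabd, ← conjFun_some_eq_Jabd, h])
    have h2 : r * r = 1 := by exact_mod_cast h1
    have h3 : r = 1 := Nat.eq_one_of_mul_eq_one_left h2
    exact hr.one_lt.ne' h3
  intro i i' h
  cases i with
  | none =>
    cases i' with
    | none => rfl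
    | some b => exact absurd h (hne b)
  | some b =>
    cases i' with
    | none => exact absurd h.symm (hne b)
    | some b' =>
      congr 1
      have t1 := tendsto_Jabd_mul_exp one_pos hr' ((b : ℕ) : ℤ)
      have t2 := tendsto_Jabd_mul_exp one_pos hr' ((b' : ℕ) : ℤ)
      have heq : (fun z : ℍ => Jabd 1 ((b : ℕ) : ℤ) r z *
          Complex.exp (2 * π * Complex.I * (((1 : ℤ) : ℂ) * z / ((r : ℤ) : ℂ)))) =
          fun z : ℍ => Jabd 1 ((b' : ℕ) : ℤ) r z *
          Complex.exp (2 * π * Complex.I * (((1 : ℤ) : ℂ) * z / ((r : ℤ) : ℂ))) := by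
        funext z
        rw [← conjFun_some_eq_Jabd, ← conjFun_some_eq_Jabd, h]
      rw [heq] at t1
      have hlim := tendsto_nhds_unique t1 t2
      rw [Complex.exp_eq_exp_iff_exists_int] at hlim
      obtain ⟨n, hn⟩ := hlim
      have hrC : ((r : ℤ) : ℂ) ≠ 0 := by exact_mod_cast hr.pos.ne'
      have hπ : (2 * π * Complex.I : ℂ) ≠ 0 := Complex.two_pi_I_ne_zero
      have h4 : (((b' : ℕ) : ℤ) : ℂ) = (((b : ℕ) : ℤ) : ℂ) + n * ((r : ℤ) : ℂ) := by
        have h5 : (2 * π * Complex.I) * ((((b' : ℕ) : ℤ) : ℂ) / ((r : ℤ) : ℂ)) =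
            (2 * π * Complex.I) * ((((b : ℕ) : ℤ) : ℂ) / ((r : ℤ) : ℂ) + n) := by
          linear_combination hn
        have h6 := mul_left_cancel₀ hπ h5
        field_simp at h6
        linear_combination h6
      have h7 : ((b' : ℕ) : ℤ) = ((b : ℕ) : ℤ) + n * (r : ℤ) := by exact_mod_cast h4
      have hb := b.isLt
      have hb' := b'.isLt
      have hn0 : n = 0 := by
        by_contra hne0
        rcases lt_or_gt_of_ne hne0 with hlt | hgt
        · have : n ≤ -1 := by omega
          nlinarith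
        · have : 1 ≤ n := by omega
          nlinarith
      rw [hn0, zero_mul, add_zero] at h7
      exact Fin.ext (by exact_mod_cast h7.symm)

/-- `SL(2,ℤ)` permutes the `r + 1` conjugates. -/
theorem exists_perm_conjFun (r : ℕ) (hr : r.Prime) (g : SL(2, ℤ)) :
    ∃ σ : Equiv.Perm (Option (Fin r)), ∀ (i : Option (Fin r)) (z : ℍ),
      conjFun r i (g • z) = conjFun r (σ i) z := by
  choose f hf using fun i => exists_conjFun_smul r hr i g
  have hinj : Function.Injective f := by
    intro i i' h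
    apply conjFun_injective r hr
    funext z
    have h1 := hf i (g⁻¹ • z)
    have h2 := hf i' (g⁻¹ • z)
    rw [smul_inv_smul] at h1 h2
    rw [h1, h2, h]
  exact ⟨Equiv.ofBijective f (Finite.injective_iff_bijective.mp hinj), fun i z => hf i z⟩

/-! ### Symmetric functions of the conjugates -/

open Polynomial in
/-- The polynomial `∏ i ∈ s, (Y - f_i(z))`. -/
def conjPoly (r : ℕ) (s : Finset (Option (Fin r))) (z : ℍ) : Polynomial ℂ :=
  ∏ i ∈ s, (Polynomial.X - Polynomial.C (conjFun r i z))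

theorem mdiff_conjFun (r : ℕ) (hr : 0 < r) (i : Option (Fin r)) : MDiff (conjFun r i) := by
  have hr' : (0 : ℤ) < r := by exact_mod_cast hr
  cases i with
  | none =>
    have : conjFun r none = Jabd r 0 1 := funext (conjFun_none_eq_Jabd r)
    rw [this]
    exact mdiff_Jabd hr' one_pos 0
  | some b =>
    have : conjFun r (some b) = Jabd 1 ((b : ℕ) : ℤ) r := funext (conjFun_some_eq_Jabd r b)
    rw [this]
    exact mdiff_Jabd one_pos hr' _

theorem isBoundedAtImInfty_conjFun (r : ℕ) (hr : 0 < r) (i : Option (Fin r)) :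
    IsBoundedAtImInfty (fun z : ℍ => conjFun r i z *
      Complex.exp (2 * π * Complex.I * (r : ℕ) * z)) := by
  have hr' : (0 : ℤ) < r := by exact_mod_cast hr
  cases i with
  | none =>
    have h := isBoundedAtImInfty_Jabd hr' one_pos 0
    simp only [Int.toNat_natCast] at h
    refine h.congr_left (fun z => ?_)
    rw [conjFun_none_eq_Jabd]
  | some b =>
    have h := isBoundedAtImInfty_Jabd one_pos hr' ((b : ℕ) : ℤ)
    have h1 : ((1 : ℤ).toNat) = 1 := rfl
    rw [h1] at h
    have h2 := MeroAtInfty.mono (f := Jabd 1 ((b : ℕ) : ℤ) r) (m := 1) (m' := r) hr h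
    refine h2.congr_left (fun z => ?_)
    rw [conjFun_some_eq_Jabd]

theorem conjPoly_insert (r : ℕ) {a : Option (Fin r)} {s : Finset (Option (Fin r))}
    (ha : a ∉ s) (z : ℍ) :
    conjPoly r (insert a s) z =
      (Polynomial.X - Polynomial.C (conjFun r a z)) * conjPoly r s z := by
  rw [conjPoly, Finset.prod_insert ha, conjPoly]

theorem coeff_conjPoly_insert_zero (r : ℕ) {a : Option (Fin r)} {s : Finset (Option (Fin r))}
    (ha : a ∉ s) (z : ℍ) :
    (conjPoly r (insert a s) z).coeff 0 = -(conjFun r a z * (conjPoly r s z).coeff 0) := by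
  rw [conjPoly_insert r ha, sub_mul, Polynomial.coeff_sub, Polynomial.coeff_X_mul_zero,
    Polynomial.coeff_C_mul, zero_sub]

theorem coeff_conjPoly_insert_succ (r : ℕ) {a : Option (Fin r)} {s : Finset (Option (Fin r))}
    (ha : a ∉ s) (z : ℍ) (k : ℕ) :
    (conjPoly r (insert a s) z).coeff (k + 1) =
      (conjPoly r s z).coeff k - conjFun r a z * (conjPoly r s z).coeff (k + 1) := by
  rw [conjPoly_insert r ha, sub_mul, Polynomial.coeff_sub, Polynomial.coeff_X_mul,
    Polynomial.coeff_C_mul]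

theorem mdiff_coeff_conjPoly (r : ℕ) (hr : 0 < r) (s : Finset (Option (Fin r))) :
    ∀ k : ℕ, MDiff (fun z : ℍ => (conjPoly r s z).coeff k) := by
  induction s using Finset.induction_on with
  | empty =>
    intro k
    simp only [conjPoly, Finset.prod_empty]
    exact mdifferentiable_const
  | insert a s ha ih =>
    intro k
    cases k with
    | zero =>
      have h : (fun z : ℍ => (conjPoly r (insert a s) z).coeff 0) =
          fun z : ℍ => -(conjFun r a z * (conjPoly r s z).coeff 0) :=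
        funext (coeff_conjPoly_insert_zero r ha)
      rw [h]
      exact ((mdiff_conjFun r hr a).mul (ih 0)).neg
    | succ k =>
      have h : (fun z : ℍ => (conjPoly r (insert a s) z).coeff (k + 1)) =
          fun z : ℍ => (conjPoly r s z).coeff k -
            conjFun r a z * (conjPoly r s z).coeff (k + 1) :=
        funext fun z => coeff_conjPoly_insert_succ r ha z k
      rw [h]
      exact (ih k).sub ((mdiff_conjFun r hr a).mul (ih (k + 1)))

theorem cexp_nat_add (m n : ℕ) (z : ℍ) :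
    Complex.exp (2 * π * Complex.I * ((m + n : ℕ) : ℂ) * z) =
      Complex.exp (2 * π * Complex.I * (m : ℂ) * z) *
        Complex.exp (2 * π * Complex.I * (n : ℂ) * z) := by
  rw [← Complex.exp_add]
  congr 1
  push_cast
  ring

theorem isBoundedAtImInfty_coeff_conjPoly (r : ℕ) (hr : 0 < r) (s : Finset (Option (Fin r))) :
    ∀ k : ℕ, IsBoundedAtImInfty (fun z : ℍ => (conjPoly r s z).coeff k *
      Complex.exp (2 * π * Complex.I * ((r * s.card : ℕ) : ℂ) * z)) := by
  induction s using Finset.induction_on with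
  | empty =>
    intro k
    simp only [conjPoly, Finset.prod_empty, Finset.card_empty, mul_zero, Nat.cast_zero,
      zero_mul, Complex.exp_zero, mul_one]
    exact Filter.const_boundedAtFilter _ _
  | insert a s ha ih =>
    intro k
    have hcard : r * (insert a s).card = r * s.card + r := by
      rw [Finset.card_insert_of_notMem ha]; ring
    have hE := isBoundedAtImInfty_exp_nat r
    have hfa := isBoundedAtImInfty_conjFun r hr a
    cases k with
    | zero =>
      have h := (hfa.mul (ih 0)).neg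
      refine h.congr_left (fun z => ?_)
      simp only [Pi.neg_apply, Pi.mul_apply]
      rw [coeff_conjPoly_insert_zero r ha, hcard, cexp_nat_add]
      ring
    | succ k =>
      have h1 : IsBoundedAtImInfty (fun z : ℍ => ((conjPoly r s z).coeff k *
          Complex.exp (2 * π * Complex.I * ((r * s.card : ℕ) : ℂ) * z)) *
          Complex.exp (2 * π * Complex.I * (r : ℕ) * z)) := (ih k).mul hE
      have h2 := hfa.mul (ih (k + 1))
      have h := h1.add h2.neg
      refine h.congr_left (fun z => ?_)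
      simp only [Pi.add_apply, Pi.neg_apply, Pi.mul_apply]
      rw [coeff_conjPoly_insert_succ r ha, hcard, cexp_nat_add]
      ring

theorem conjPoly_univ_smul (r : ℕ) (hr : r.Prime) (g : SL(2, ℤ)) (z : ℍ) :
    conjPoly r Finset.univ (g • z) = conjPoly r Finset.univ z := by
  obtain ⟨σ, hσ⟩ := exists_perm_conjFun r hr g
  simp only [conjPoly]
  rw [← Equiv.prod_comp σ (fun i => Polynomial.X - Polynomial.C (conjFun r i z))]
  refine Finset.prod_congr rfl (fun i _ => ?_)
  rw [hσ i z]

/-- Each coefficient of `∏ i, (Y - f_i(z))` is a polynomial in `j(z)`. -/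
theorem exists_coeff_poly (r : ℕ) (hr : r.Prime) (k : ℕ) :
    ∃ P : Polynomial ℂ, P.natDegree ≤ r * (r + 1) ∧
      ∀ z : ℍ, (conjPoly r Finset.univ z).coeff k = P.eval (jFun z) := by
  have hb := isBoundedAtImInfty_coeff_conjPoly r hr.pos Finset.univ k
  have hcard : (Finset.univ : Finset (Option (Fin r))).card = r + 1 := by
    rw [Finset.card_univ, Fintype.card_option, Fintype.card_fin]
  rw [hcard] at hb
  exact H94.invariant_eq_polynomial_of_bounded
    (fun z : ℍ => (conjPoly r Finset.univ z).coeff k)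
    (mdiff_coeff_conjPoly r hr.pos Finset.univ k)
    (fun γ z => by simp only [conjPoly_univ_smul r hr γ z]) (r * (r + 1)) hb

/-- **The modular equation of prime level `r` over `ℂ`** (function level): there is
`Φ ∈ ℂ[X][Y]`, monic of degree `r + 1` in `Y`, with
`Φ(j(z), Y) = (Y - j(rz)) ∏_{b<r} (Y - j((z+b)/r))` for all `z`. -/
theorem exists_modEq (r : ℕ) (hr : r.Prime) :
    ∃ Φ : Polynomial (Polynomial ℂ), Φ.Monic ∧ Φ.natDegree = r + 1 ∧
      (∀ k : ℕ, (Φ.coeff k).natDegree ≤ r * (r + 1)) ∧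
      ∀ z : ℍ, Φ.map (Polynomial.evalRingHom (jFun z)) =
        ∏ i : Option (Fin r), (Polynomial.X - Polynomial.C (conjFun r i z)) := by
  choose P hPdeg hP using fun k => exists_coeff_poly r hr k
  have hdeg : (∑ k ∈ Finset.range (r + 1),
      Polynomial.C (P k) * (Polynomial.X : Polynomial (Polynomial ℂ)) ^ k).degree <
      ((r + 1 : ℕ) : WithBot ℕ) := by
    refine (Polynomial.degree_sum_le _ _).trans_lt ?_
    rw [Finset.sup_lt_iff (WithBot.bot_lt_coe _)]
    intro k hk
    exact (Polynomial.degree_C_mul_X_pow_le k (P k)).trans_lt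
      (by exact_mod_cast Finset.mem_range.mp hk)
  have hcard : (Finset.univ : Finset (Option (Fin r))).card = r + 1 := by
    rw [Finset.card_univ, Fintype.card_option, Fintype.card_fin]
  refine ⟨Polynomial.X ^ (r + 1) + ∑ k ∈ Finset.range (r + 1),
      Polynomial.C (P k) * Polynomial.X ^ k, Polynomial.monic_X_pow_add hdeg, ?_, ?_, ?_⟩
  · rw [Polynomial.natDegree_add_eq_left_of_degree_lt
      (by rw [Polynomial.degree_X_pow]; exact hdeg), Polynomial.natDegree_X_pow]
  · intro k
    rw [Polynomial.coeff_add, Polynomial.coeff_X_pow, Polynomial.finsetSum_coeff]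
    simp only [Polynomial.coeff_C_mul_X_pow]
    by_cases hk : k = r + 1
    · subst hk
      simp
    · rw [if_neg hk, zero_add]
      by_cases hk' : k ∈ Finset.range (r + 1)
      · rw [Finset.sum_eq_single k (fun b _ hb => if_neg (Ne.symm hb))
          (fun h => absurd hk' h), if_pos rfl]
        exact hPdeg k
      · rw [Finset.sum_eq_zero (fun b hb => if_neg (fun h : k = b => hk' (h ▸ hb)))]
        simp
  · intro z
    have hmonic : (conjPoly r Finset.univ z).Monic := Polynomial.monic_prod_X_sub_C _ _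
    have hnat : (conjPoly r Finset.univ z).natDegree = r + 1 := by
      rw [conjPoly, Polynomial.natDegree_finsetProd_X_sub_C_eq_card, hcard]
    have h1 := hmonic.as_sum
    rw [hnat] at h1
    change _ = conjPoly r Finset.univ z
    rw [h1, Polynomial.map_add, Polynomial.map_pow, Polynomial.map_X, Polynomial.map_sum]
    congr 1
    refine Finset.sum_congr rfl (fun k _ => ?_)
    rw [Polynomial.map_mul, Polynomial.map_pow, Polynomial.map_X, Polynomial.map_C,
      Polynomial.coe_evalRingHom, hP k z]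

/-- Coefficientwise form of `exists_modEq`. -/
theorem exists_modEq' (r : ℕ) (hr : r.Prime) :
    ∃ Φ : Polynomial (Polynomial ℂ), Φ.Monic ∧ Φ.natDegree = r + 1 ∧
      (∀ k : ℕ, (Φ.coeff k).natDegree ≤ r * (r + 1)) ∧
      ∀ (k : ℕ) (z : ℍ), (Φ.coeff k).eval (jFun z) =
        (∏ i : Option (Fin r), (Polynomial.X - Polynomial.C (conjFun r i z))).coeff k := by
  obtain ⟨Φ, h1, h2, h3, h4⟩ := exists_modEq r hr
  refine ⟨Φ, h1, h2, h3, fun k z => ?_⟩
  rw [← h4 z, Polynomial.coeff_map, Polynomial.coe_evalRingHom]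

/-- Leading term of `j(rz)` at `i∞`. -/
theorem tendsto_conjFun_none (r : ℕ) (hr : 0 < r) :
    Tendsto (fun z : ℍ => conjFun r none z *
      Complex.exp (2 * π * Complex.I * ((r : ℂ) * z))) atImInfty (𝓝 1) := by
  have hr' : (0 : ℤ) < r := by exact_mod_cast hr
  refine (tendsto_Jabd hr' one_pos 0).congr (fun z => ?_)
  rw [conjFun_none_eq_Jabd]
  congr 2
  simp

/-- Leading term of `j((z+b)/r)` at `i∞`. -/
theorem tendsto_conjFun_some (r : ℕ) (hr : 0 < r) (b : Fin r) :
    Tendsto (fun z : ℍ => conjFun r (some b) z *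
      Complex.exp (2 * π * Complex.I * (((z : ℂ) + ((b : ℕ) : ℂ)) / r))) atImInfty (𝓝 1) := by
  have hr' : (0 : ℤ) < r := by exact_mod_cast hr
  refine (tendsto_Jabd one_pos hr' ((b : ℕ) : ℤ)).congr (fun z => ?_)
  rw [conjFun_some_eq_Jabd]
  congr 2
  simp

end Fermat.Agent.S28.H85
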