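import Mathlib
import Fermat.Agent.S28.ModEqF_helper20
import Fermat.Agent.S28.ModEq_helper85

/-!
# S28: (Mod_r) — the modular equation of prime level `r` over any field with a primitive
`r`-th root of unity, in `q`-expansion form

helper20.  `exists_modEq`: for a prime `r`, a field `k` and a primitive `r`-th root of unity
`ζ : kˣ` there is a monic `Φ ∈ k[X][Y]` of `Y`-degree `r + 1` with
`Φ(J(x^r), Y) = (Y - J(x^(r²))) ∏_{b<r} (Y - J(ζ^b x))` in `k((x))[Y]`,
where `J = jqModC k`, `J(x^m) = qExpand k m J` and `J(u x) = twist u J`.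

Inputs: helper85's function-level modular equation over `ℂ` (`H85.exists_modEq`) and
`exists_modEq_of` (`q`-expansion of the conjugates, Lemma T, descent to `ℤ[ζ_r]`, base change).
-/

set_option autoImplicit false

open Polynomial

noncomputable section

namespace Fermat.Agent.S28.H20

open Fermat.Agent.S24 ModularCurve

/-- **(Mod_r).**  The modular equation of prime level `r` in `q`-expansion form, over any field
with a primitive `r`-th root of unity. -/
theorem exists_modEq (r : ℕ) [NeZero r] (hr : r.Prime) (k : Type*) [Field k] (ζ : kˣ)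
    (hζ : IsPrimitiveRoot ζ r) :
    ∃ Φ : k[X][X], Φ.Monic ∧ Φ.natDegree = r + 1 ∧
      Φ.map (aeval (R := k) (qExpand k r (jqModC k))).toRingHom
        = (X - C (qExpand k (r * r) (jqModC k)))
          * ∏ b ∈ Finset.range r, (X - C (twist (ζ ^ b) (jqModC k))) := by
  obtain ⟨Φ, hmonic, hdeg, -, hΦ⟩ := H85.exists_modEq r hr
  have hΦ' : ∀ z : UpperHalfPlane, Φ.map (evalRingHom (H31.jFun z))
      = (X - C (H31.jdFun r z)) * ∏ b ∈ Finset.range r, (X - C (conjB r b z)) := by
    intro z
    rw [hΦ z, Fintype.prod_option,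
      ← Fin.prod_univ_eq_prod_range (fun b => (X - C (conjB r b z) : ℂ[X])) r]
    rfl
  obtain ⟨Ψ, h1, h2, h3⟩ := exists_modEq_of r Φ hmonic hΦ' k ζ hζ
  exact ⟨Ψ, h1, h2.trans hdeg, h3⟩

end Fermat.Agent.S28.H20
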