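import Mathlib
import Fermat.Prelude.Def_ModularCurve_X0ModL
import Fermat.Agent.S24.Cosets_helper35

set_option autoImplicit false
set_option linter.unusedSectionVars false
set_option linter.unusedVariables false
set_option linter.style.haveILetI false

/-!
# The tower lower bound `ψ(N) ≤ [k(j(q^d) : d ∣ N) : k(j)]` by degree counting (helper50)

`k` is any field, `L = k((q))`, `x_d = J(q^d)`.  For each prime `p ∣ N` we are given a bivariate
polynomial `Φ`, monic of degree `p + 1` in the outer variable, with `Φ(x_1, x_p) = 0` and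
`Φ(x_p, x_1) = 0`, and we are given `x_p ∉ k(x_1)`.  Then
`dedekindPsi N ≤ [k(x_d : d ∣ N) : k(x_1)]`.

No roots of unity, no conjugates, no algebraic closure: the only analytic-free input is that
`1, y, …, y^(p-1)` are linearly independent over `k((q^p))` when `ord y` is prime to `p`.
-/

namespace Fermat.Agent.S28.H50

open ModularCurve Polynomial IntermediateField

noncomputable section

/-! ### The substitutions `q ↦ q^d` -/

section Basic

variable (k : Type*) [Field k]

/-- `V k d` is the substitution `q ↦ q^d` (the identity for `d = 0`), as a `k`-algebra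
endomorphism of `k((q))`. -/
def V (d : ℕ) : LaurentSeries k →ₐ[k] LaurentSeries k :=
  if h : d = 0 then AlgHom.id k _ else @qExpandAlgHomC k _ d ⟨h⟩

theorem V_apply (d : ℕ) [NeZero d] (f : LaurentSeries k) : V k d f = qExpand k d f := by
  unfold V
  rw [dif_neg (NeZero.ne d)]
  rfl

theorem V_injective (d : ℕ) : Function.Injective (V k d) :=
  (V k d).toRingHom.injective

theorem V_V (a b : ℕ) (ha : a ≠ 0) (hb : b ≠ 0) (f : LaurentSeries k) :
    V k a (V k b f) = V k (a * b) f := by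
  haveI : NeZero a := ⟨ha⟩
  haveI : NeZero b := ⟨hb⟩
  rw [V_apply, V_apply, V_apply, qExpand_qExpand]

theorem V_one (f : LaurentSeries k) : V k 1 f = f := by
  rw [V_apply, qExpand_one_apply]

theorem order_V (d : ℕ) (hd : d ≠ 0) (f : LaurentSeries k) :
    (V k d f).order = (d : ℤ) * f.order := by
  haveI : NeZero d := ⟨hd⟩
  rcases eq_or_ne f 0 with rfl | hf
  · simp
  have hVf : V k d f ≠ 0 := fun h => hf ((V_injective k d) (by rw [h, map_zero]))
  apply le_antisymm
  · apply HahnSeries.order_le_of_coeff_ne_zero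
    rw [V_apply, qExpand_coeff_mul]
    exact fun h => hf (HahnSeries.coeff_order_eq_zero.mp h)
  · rw [HahnSeries.le_order_iff_forall hVf]
    intro j hj
    rw [V_apply]
    by_cases hdj : (d : ℤ) ∣ j
    · obtain ⟨m, rfl⟩ := hdj
      rw [qExpand_coeff_mul]
      apply HahnSeries.coeff_eq_zero_of_lt_order
      have hdpos : (0 : ℤ) < d := by exact_mod_cast Nat.pos_of_ne_zero hd
      exact lt_of_mul_lt_mul_left hj hdpos.le
    · exact qExpand_coeff_of_not_dvd d f hdj

/-- `xj k d = J(q^d)`. -/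
def xj (d : ℕ) : LaurentSeries k := V k d (jqModC k)

theorem xj_eq (d : ℕ) [NeZero d] : xj k d = qExpand k d (jqModC k) := V_apply k d _

theorem xj_one : xj k 1 = jqModC k := V_one k _

theorem V_xj (a b : ℕ) (ha : a ≠ 0) (hb : b ≠ 0) : V k a (xj k b) = xj k (a * b) :=
  V_V k a b ha hb _

theorem jq_ne_zero : jqModC k ≠ 0 := jqModC_ne_zero_of_nontrivial k

theorem order_jq : (jqModC k).order = -1 := by
  apply le_antisymm
  · apply HahnSeries.order_le_of_coeff_ne_zero
    rw [coeff_jqModC_neg_one]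
    exact one_ne_zero
  · rw [HahnSeries.le_order_iff_forall (jq_ne_zero k)]
    intro j hj
    exact coeff_jqModC_of_lt k hj

theorem xj_ne_zero (d : ℕ) : xj k d ≠ 0 := fun h =>
  jq_ne_zero k ((V_injective k d) (by rw [map_zero]; exact h))

theorem order_xj (d : ℕ) (hd : d ≠ 0) : (xj k d).order = -(d : ℤ) := by
  rw [xj, order_V k d hd, order_jq]; ring

theorem xj_injective {a b : ℕ} (ha : a ≠ 0) (hb : b ≠ 0) (h : xj k a = xj k b) : a = b := by
  have := congrArg HahnSeries.order h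
  rw [order_xj k a ha, order_xj k b hb] at this
  omega

end Basic

/-! ### (L1): independence of `1, y, …, y^(p-1)` over `k((q^p))` -/

section L1

variable (k : Type*) [Field k]

theorem L1 (p : ℕ) (hp : p ≠ 0) (y : LaurentSeries k) (hy : y ≠ 0)
    (hcop : IsCoprime y.order (p : ℤ)) (c : ℕ → LaurentSeries k)
    (h : ∑ i ∈ Finset.range p, V k p (c i) * y ^ i = 0) : ∀ i < p, c i = 0 := by
  classical
  by_contra hcon
  push Not at hcon
  obtain ⟨i₁, hi₁, hci₁⟩ := hcon
  set S := (Finset.range p).filter (fun i => c i ≠ 0) with hS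
  have hSne : S.Nonempty := ⟨i₁, by rw [hS, Finset.mem_filter, Finset.mem_range]; exact ⟨hi₁, hci₁⟩⟩
  set o : ℕ → ℤ := fun i => (p : ℤ) * (c i).order + (i : ℤ) * y.order with ho
  have hord : ∀ i, c i ≠ 0 → (V k p (c i) * y ^ i).order = o i := by
    intro i hi
    have h1 : V k p (c i) ≠ 0 := fun h0 => hi ((V_injective k p) (by rw [h0, map_zero]))
    rw [HahnSeries.order_mul h1 (pow_ne_zero _ hy), order_V k p hp, HahnSeries.order_pow]
    simp [ho]
  have hne : ∀ i, c i ≠ 0 → V k p (c i) * y ^ i ≠ 0 := by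
    intro i hi
    have h1 : V k p (c i) ≠ 0 := fun h0 => hi ((V_injective k p) (by rw [h0, map_zero]))
    exact mul_ne_zero h1 (pow_ne_zero _ hy)
  have hdist : ∀ i j, i < p → j < p → o i = o j → i = j := by
    intro i j hi hj hij
    simp only [ho] at hij
    have hdvd : (p : ℤ) ∣ ((j : ℤ) - i) * y.order :=
      ⟨(c i).order - (c j).order, by linear_combination -hij⟩
    have hdvd' : (p : ℤ) ∣ (j : ℤ) - i := hcop.symm.dvd_of_dvd_mul_right hdvd
    exact Nat.ModEq.eq_of_lt_of_lt ((Nat.modEq_iff_dvd).mpr hdvd') hi hj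
  obtain ⟨i₀, hi₀S, hmin⟩ := Finset.exists_min_image S o hSne
  have hi₀ : i₀ < p ∧ c i₀ ≠ 0 := by
    rw [hS, Finset.mem_filter, Finset.mem_range] at hi₀S
    exact hi₀S
  have hcoeff := congrArg (fun z : LaurentSeries k => z.coeff (o i₀)) h
  simp only [HahnSeries.coeff_sum, HahnSeries.coeff_zero] at hcoeff
  rw [Finset.sum_eq_single i₀] at hcoeff
  · rw [← hord i₀ hi₀.2] at hcoeff
    exact hne i₀ hi₀.2 (HahnSeries.coeff_order_eq_zero.mp hcoeff)
  · intro i hi hii₀
    rw [Finset.mem_range] at hi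
    by_cases hci : c i = 0
    · rw [hci, map_zero, zero_mul, HahnSeries.coeff_zero]
    · apply HahnSeries.coeff_eq_zero_of_lt_order
      rw [hord i hci]
      have hiS : i ∈ S := by rw [hS, Finset.mem_filter, Finset.mem_range]; exact ⟨hi, hci⟩
      exact lt_of_le_of_ne (hmin i hiS) (fun heq => hii₀ (hdist i i₀ hi hi₀.1 heq.symm))
  · intro hnot
    exact absurd (Finset.mem_range.mpr hi₀.1) hnot

/-- Polynomial form of (L1): a nonzero polynomial of degree `< p` with coefficients in the image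
of `V k p` does not vanish at `y` when `ord y` is prime to `p`. -/
theorem L1_poly (p : ℕ) (hp : p ≠ 0) (y : LaurentSeries k) (hy : y ≠ 0)
    (hcop : IsCoprime y.order (p : ℤ)) (a : Polynomial (LaurentSeries k))
    (hdeg : a.natDegree < p) (h : (a.map (V k p).toRingHom).eval y = 0) : a = 0 := by
  have hdeg' : (a.map (V k p).toRingHom).natDegree < p :=
    lt_of_le_of_lt natDegree_map_le hdeg
  rw [eval_eq_sum_range' hdeg'] at h
  simp only [coeff_map] at h
  have h0 := L1 k p hp y hy hcop (fun i => a.coeff i) h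
  refine Polynomial.ext fun i => ?_
  by_cases hi : i < p
  · simpa using h0 i hi
  · rw [coeff_eq_zero_of_natDegree_lt (lt_of_lt_of_le hdeg (not_lt.mp hi))]
    simp

end L1

/-! ### (L2): the key irreducibility statement -/

section L2

variable (k : Type*) [Field k]

/-- `Φ` with its inner variable specialised to `y`. -/
def spec (Φ : Polynomial (Polynomial k)) (y : LaurentSeries k) : Polynomial (LaurentSeries k) :=
  Φ.map (Polynomial.aeval y : Polynomial k →ₐ[k] LaurentSeries k).toRingHom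

variable {k}

theorem spec_map_V (Φ : Polynomial (Polynomial k)) (y : LaurentSeries k) (d : ℕ) :
    (spec k Φ y).map (V k d).toRingHom = spec k Φ (V k d y) := by
  unfold spec
  rw [Polynomial.map_map]
  congr 1
  have h : (V k d).comp (Polynomial.aeval y) = Polynomial.aeval (V k d y) :=
    (Polynomial.aeval_algHom (V k d) y).symm
  rw [← h]
  rfl

theorem spec_monic {Φ : Polynomial (Polynomial k)} (hΦ : Φ.Monic) (y : LaurentSeries k) :
    (spec k Φ y).Monic := hΦ.map _

theorem spec_natDegree {Φ : Polynomial (Polynomial k)} (hΦ : Φ.Monic) (y : LaurentSeries k) :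
    (spec k Φ y).natDegree = Φ.natDegree := hΦ.natDegree_map _

theorem spec_eval_V (Φ : Polynomial (Polynomial k)) (y z : LaurentSeries k) (d : ℕ)
    (h : (spec k Φ y).eval z = 0) : (spec k Φ (V k d y)).eval (V k d z) = 0 := by
  rw [← spec_map_V]
  have := Polynomial.eval_map_apply (p := spec k Φ y) (V k d).toRingHom z
  rw [h, map_zero] at this
  exact this

theorem isCoprime_order_xj {p d : ℕ} (hd : d ≠ 0) (hcop : Nat.Coprime d p) :
    IsCoprime (xj k d).order (p : ℤ) := by
  rw [order_xj k d hd]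
  exact (Nat.isCoprime_iff_coprime.mpr hcop).neg_left

theorem L2 (p d : ℕ) (hp : 2 ≤ p) (hd : d ≠ 0) (hcop : Nat.Coprime d p)
    (Φ : Polynomial (Polynomial k)) (hΦ : Φ.Monic) (hdeg : Φ.natDegree = p + 1)
    (h1 : (spec k Φ (xj k d)).eval (xj k (p * d)) = 0)
    (h2 : (spec k Φ (xj k (p * d))).eval (xj k d) = 0) :
    ∃ g : Polynomial (LaurentSeries k), g.Monic ∧ g.natDegree = p ∧ Irreducible g ∧
      spec k Φ (xj k d) = (X - C (xj k (p * d))) * g := by
  have hp0 : p ≠ 0 := by omega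
  obtain ⟨g, hg⟩ : X - C (xj k (p * d)) ∣ spec k Φ (xj k d) := dvd_iff_isRoot.mpr h1
  have hmon : (spec k Φ (xj k d)).Monic := spec_monic hΦ _
  have hgmon : g.Monic := by
    rw [hg] at hmon
    exact (monic_X_sub_C _).of_mul_monic_left hmon
  have hgdeg : g.natDegree = p := by
    have := congrArg natDegree hg
    rw [spec_natDegree hΦ, hdeg, (monic_X_sub_C _).natDegree_mul hgmon, natDegree_X_sub_C] at this
    omega
  have hVg : (g.map (V k p).toRingHom).eval (xj k d) = 0 := by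
    have hmap := congrArg (Polynomial.map (V k p).toRingHom) hg
    rw [spec_map_V, Polynomial.map_mul, Polynomial.map_sub, map_X, map_C] at hmap
    have hev := congrArg (Polynomial.eval (xj k d)) hmap
    have e1 : (V k p) (xj k d) = xj k (p * d) := V_xj k p d hp0 hd
    have e2 : (V k p).toRingHom (xj k (p * d)) = xj k (p * (p * d)) :=
      V_xj k p (p * d) hp0 (mul_ne_zero hp0 hd)
    rw [e1, h2, e2, eval_mul, eval_sub, eval_X, eval_C] at hev
    rcases mul_eq_zero.mp hev.symm with h | h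
    · exfalso
      have hdd := xj_injective k hd (mul_ne_zero hp0 (mul_ne_zero hp0 hd)) (sub_eq_zero.mp h)
      have h4 : 2 * (2 * d) ≤ p * (p * d) := Nat.mul_le_mul hp (Nat.mul_le_mul hp le_rfl)
      omega
    · exact h
  have hcopZ : IsCoprime (xj k d).order (p : ℤ) := isCoprime_order_xj hd hcop
  refine ⟨g, hgmon, hgdeg, ?_, hg⟩
  rw [hgmon.irreducible_iff_natDegree]
  refine ⟨?_, ?_⟩
  · intro h
    rw [h, natDegree_one] at hgdeg
    omega
  · intro a b ha hb hab
    by_contra hcon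
    push Not at hcon
    have hsum : a.natDegree + b.natDegree = p := by
      rw [← hgdeg, ← hab, ha.natDegree_mul hb]
    have hev : (a.map (V k p).toRingHom).eval (xj k d) * (b.map (V k p).toRingHom).eval (xj k d)
        = 0 := by
      rw [← eval_mul, ← Polynomial.map_mul, hab]
      exact hVg
    rcases mul_eq_zero.mp hev with h | h
    · exact ha.ne_zero (L1_poly k p hp0 (xj k d) (xj_ne_zero k d) hcopZ a (by omega) h)
    · exact hb.ne_zero (L1_poly k p hp0 (xj k d) (xj_ne_zero k d) hcopZ b (by omega) h)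

end L2

/-! ### (L3): the dichotomy -/

section L3

variable {k : Type*} [Field k]

theorem exists_spec_lift (E : IntermediateField k (LaurentSeries k))
    (Φ : Polynomial (Polynomial k)) {y : LaurentSeries k} (hy : y ∈ E) :
    ∃ f₀ : Polynomial E, f₀.map (algebraMap E (LaurentSeries k)) = spec k Φ y ∧
      (Φ.Monic → f₀.Monic) := by
  refine ⟨Φ.map (Polynomial.aeval (⟨y, hy⟩ : E) : Polynomial k →ₐ[k] E).toRingHom, ?_,
    fun h => h.map _⟩
  unfold spec
  rw [Polynomial.map_map]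
  congr 1
  have h : E.val.comp (Polynomial.aeval (⟨y, hy⟩ : E)) = Polynomial.aeval (E.val ⟨y, hy⟩) :=
    (Polynomial.aeval_algHom E.val ⟨y, hy⟩).symm
  have h' : (Polynomial.aeval (E.val ⟨y, hy⟩) : Polynomial k →ₐ[k] LaurentSeries k)
      = Polynomial.aeval y := rfl
  rw [← h', ← h]
  rfl

theorem isIntegral_of_spec (E : IntermediateField k (LaurentSeries k))
    (Φ : Polynomial (Polynomial k)) (hΦ : Φ.Monic) {y z : LaurentSeries k} (hy : y ∈ E)
    (h : (spec k Φ y).eval z = 0) : IsIntegral E z := by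
  obtain ⟨f₀, hf₀, hmon⟩ := exists_spec_lift E Φ hy
  refine ⟨f₀, hmon hΦ, ?_⟩
  rw [eval₂_eq_eval_map, hf₀]
  exact h

theorem L3 (p d : ℕ) (hp : 2 ≤ p) (hd : d ≠ 0) (hcop : Nat.Coprime d p)
    (Φ : Polynomial (Polynomial k)) (hΦ : Φ.Monic) (hdeg : Φ.natDegree = p + 1)
    (h1 : (spec k Φ (xj k d)).eval (xj k (p * d)) = 0)
    (h2 : (spec k Φ (xj k (p * d))).eval (xj k d) = 0)
    (E : IntermediateField k (LaurentSeries k)) (hE : xj k d ∈ E) :
    xj k (p * d) ∈ E ∨ (minpoly E (xj k (p * d))).natDegree = p + 1 := by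
  obtain ⟨g, hgmon, hgdeg, hgirr, hfac⟩ := L2 p d hp hd hcop Φ hΦ hdeg h1 h2
  obtain ⟨f₀, hf₀, hmon⟩ := exists_spec_lift E Φ hE
  have hint : IsIntegral E (xj k (p * d)) := isIntegral_of_spec E Φ hΦ hE h1
  set m := minpoly E (xj k (p * d)) with hm
  have hmdvd : m ∣ f₀ := minpoly.dvd E _ (by
    rw [Polynomial.aeval_def, eval₂_eq_eval_map, hf₀]; exact h1)
  have hmdvd' : m.map (algebraMap E (LaurentSeries k)) ∣ (X - C (xj k (p * d))) * g := by
    rw [← hfac, ← hf₀]
    exact Polynomial.map_dvd _ hmdvd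
  have hroot : X - C (xj k (p * d)) ∣ m.map (algebraMap E (LaurentSeries k)) :=
    dvd_iff_isRoot.mpr (by
      rw [IsRoot, eval_map, ← Polynomial.aeval_def]; exact minpoly.aeval E _)
  obtain ⟨h, hh⟩ := hroot
  have hmmon : (m.map (algebraMap E (LaurentSeries k))).Monic := (minpoly.monic hint).map _
  have hhmon : h.Monic := by
    rw [hh] at hmmon
    exact (monic_X_sub_C _).of_mul_monic_left hmmon
  have hhdvd : h ∣ g := by
    rw [hh] at hmdvd'
    exact (mul_dvd_mul_iff_left (X_sub_C_ne_zero _)).mp hmdvd'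
  have hnd : m.natDegree = 1 + h.natDegree := by
    have := congrArg natDegree hh
    rw [(minpoly.monic hint).natDegree_map, (monic_X_sub_C _).natDegree_mul hhmon,
      natDegree_X_sub_C] at this
    exact this
  rcases hgirr.dvd_iff.mp hhdvd with hu | hassoc
  · left
    have h1' : h = 1 := hhmon.eq_one_of_isUnit hu
    have hm1 : m.natDegree = 1 := by rw [hnd, h1', natDegree_one]
    obtain ⟨e, he⟩ := minpoly.natDegree_eq_one_iff.mp hm1
    rw [← he]
    exact e.2
  · right
    have hgh : g = h := eq_of_monic_of_associated hgmon hhmon hassoc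
    rw [hnd, ← hgh, hgdeg, add_comm]

end L3

/-! ### Relative degrees -/

section Rel

variable {k : Type*} [Field k] {L : Type*} [Field L] [Algebra k L]

theorem relfinrank_sup_simple (A : IntermediateField k L) (y : L) (hy : IsIntegral A y) :
    A.relfinrank (A ⊔ k⟮y⟯) = (minpoly A y).natDegree := by
  have hle : A ≤ A ⊔ k⟮y⟯ := le_sup_left
  rw [relfinrank_eq_finrank_of_le hle]
  have : extendScalars hle = A⟮y⟯ := by
    apply restrictScalars_injective k
    rw [extendScalars_restrictScalars, restrictScalars_adjoin_eq_sup]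
  rw [this, adjoin.finrank hy]

theorem relfinrank_sup_adjoin_ne_zero (A : IntermediateField k L) (S : Set L) (hS : S.Finite)
    (hint : ∀ y ∈ S, IsIntegral A y) : A.relfinrank (A ⊔ adjoin k S) ≠ 0 := by
  have hle : A ≤ A ⊔ adjoin k S := le_sup_left
  rw [relfinrank_eq_finrank_of_le hle]
  have : extendScalars hle = adjoin A S := by
    apply restrictScalars_injective k
    rw [extendScalars_restrictScalars, restrictScalars_adjoin_eq_sup]
  rw [this]
  haveI := hS.to_subtype
  haveI : FiniteDimensional A (adjoin A S) := finiteDimensional_adjoin hint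
  exact Module.finrank_pos.ne'

end Rel

/-! ### Degrees over subfields of `k((q^p))` -/

section DegP

variable {k : Type*} [Field k]

/-- If `E ⊆ k((q^p))` and `ord y` is prime to `p`, then `[E(y) : E] ≥ p`. -/
theorem le_natDegree_minpoly (p : ℕ) (hp : p ≠ 0) (E : IntermediateField k (LaurentSeries k))
    (hE : ∀ e ∈ E, ∃ e', V k p e' = e) (y : LaurentSeries k) (hy : y ≠ 0)
    (hcop : IsCoprime y.order (p : ℤ)) (hint : IsIntegral E y) :
    p ≤ (minpoly E y).natDegree := by
  by_contra hcon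
  push Not at hcon
  set m := minpoly E y with hm
  have hmmon : (m.map (algebraMap E (LaurentSeries k))).Monic := (minpoly.monic hint).map _
  have hlift : m.map (algebraMap E (LaurentSeries k)) ∈ Polynomial.lifts (V k p).toRingHom := by
    rw [Polynomial.lifts_iff_coeff_lifts]
    intro n
    rw [coeff_map]
    obtain ⟨e', he'⟩ := hE _ (m.coeff n).2
    exact ⟨e', he'⟩
  obtain ⟨a, ha, hadeg, hamon⟩ := Polynomial.lifts_and_natDegree_eq_and_monic hlift hmmon
  have hadeg' : a.natDegree < p := by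
    rw [hadeg, (minpoly.monic hint).natDegree_map]
    exact hcon
  have hev : (a.map (V k p).toRingHom).eval y = 0 := by
    rw [ha, eval_map, ← Polynomial.aeval_def]
    exact minpoly.aeval E y
  exact hamon.ne_zero (L1_poly k p hp y hy hcop a hadeg' hev)

end DegP

/-! ### (L4): both degrees of `k(x_1, x_p)` are `p + 1` -/

section L4

variable {k : Type*} [Field k]

theorem modEq_at (p d : ℕ) (hp0 : p ≠ 0) (hd : d ≠ 0) (Φ : Polynomial (Polynomial k))
    (h1 : (spec k Φ (xj k 1)).eval (xj k p) = 0)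
    (h2 : (spec k Φ (xj k p)).eval (xj k 1) = 0) :
    (spec k Φ (xj k d)).eval (xj k (p * d)) = 0 ∧
      (spec k Φ (xj k (p * d))).eval (xj k d) = 0 := by
  have e1 : V k d (xj k 1) = xj k d := by rw [V_xj k d 1 hd one_ne_zero, mul_one]
  have e2 : V k d (xj k p) = xj k (p * d) := by rw [V_xj k d p hd hp0, mul_comm]
  have a1 := spec_eval_V Φ _ _ d h1
  have a2 := spec_eval_V Φ _ _ d h2
  rw [e1, e2] at a1 a2
  exact ⟨a1, a2⟩

theorem L4a (p : ℕ) (hp : 2 ≤ p) (Φ : Polynomial (Polynomial k)) (hΦ : Φ.Monic)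
    (hdeg : Φ.natDegree = p + 1)
    (h1 : (spec k Φ (xj k 1)).eval (xj k p) = 0)
    (h2 : (spec k Φ (xj k p)).eval (xj k 1) = 0)
    (hIG : xj k p ∉ k⟮xj k 1⟯) :
    (k⟮xj k 1⟯).relfinrank (k⟮xj k 1⟯ ⊔ k⟮xj k p⟯) = p + 1 := by
  have h1' : (spec k Φ (xj k 1)).eval (xj k (p * 1)) = 0 := by rw [mul_one]; exact h1
  have h2' : (spec k Φ (xj k (p * 1))).eval (xj k 1) = 0 := by rw [mul_one]; exact h2
  have hmem : xj k 1 ∈ k⟮xj k 1⟯ := mem_adjoin_simple_self k _
  have hint : IsIntegral (k⟮xj k 1⟯) (xj k p) := isIntegral_of_spec _ Φ hΦ hmem h1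
  rw [relfinrank_sup_simple _ _ hint]
  rcases L3 p 1 hp one_ne_zero (Nat.coprime_one_left p) Φ hΦ hdeg h1' h2' _ hmem with h | h
  · rw [mul_one] at h
    exact absurd h hIG
  · rw [mul_one] at h
    exact h

theorem adjoin_xj_le_range (p d : ℕ) (hp0 : p ≠ 0) (hd : d ≠ 0) :
    ∀ e ∈ k⟮xj k (p * d)⟯, ∃ e', e' ∈ k⟮xj k d⟯ ∧ V k p e' = e := by
  intro e he
  have hmap : (k⟮xj k d⟯).map (V k p) = k⟮xj k (p * d)⟯ := by
    rw [adjoin_map, Set.image_singleton, V_xj k p d hp0 hd]
  rw [← hmap, IntermediateField.mem_map] at he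
  exact he

theorem L4b (p : ℕ) (hp : 2 ≤ p) (Φ : Polynomial (Polynomial k)) (hΦ : Φ.Monic)
    (hdeg : Φ.natDegree = p + 1)
    (h1 : (spec k Φ (xj k 1)).eval (xj k p) = 0)
    (h2 : (spec k Φ (xj k p)).eval (xj k 1) = 0)
    (hIG : xj k p ∉ k⟮xj k 1⟯) :
    (k⟮xj k p⟯).relfinrank (k⟮xj k p⟯ ⊔ k⟮xj k 1⟯) = p + 1 := by
  have hp0 : p ≠ 0 := by omega
  have h1' : (spec k Φ (xj k 1)).eval (xj k (p * 1)) = 0 := by rw [mul_one]; exact h1
  have h2' : (spec k Φ (xj k (p * 1))).eval (xj k 1) = 0 := by rw [mul_one]; exact h2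
  set E := k⟮xj k p⟯ with hE
  have hmem : xj k p ∈ E := mem_adjoin_simple_self k _
  have hint : IsIntegral E (xj k 1) := isIntegral_of_spec _ Φ hΦ hmem h2
  rw [relfinrank_sup_simple _ _ hint]
  have hrange : ∀ e ∈ E, ∃ e', e' ∈ k⟮xj k 1⟯ ∧ V k p e' = e := by
    have := adjoin_xj_le_range (k := k) p 1 hp0 one_ne_zero
    rw [mul_one] at this
    exact this
  have hrange' : ∀ e ∈ E, ∃ e', V k p e' = e := fun e he => by
    obtain ⟨e', _, h⟩ := hrange e he
    exact ⟨e', h⟩
  have hcopZ : IsCoprime (xj k 1).order (p : ℤ) :=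
    isCoprime_order_xj one_ne_zero (Nat.coprime_one_left p)
  have hge : p ≤ (minpoly E (xj k 1)).natDegree :=
    le_natDegree_minpoly p hp0 E hrange' _ (xj_ne_zero k 1) hcopZ hint
  obtain ⟨g, hgmon, hgdeg, hgirr, hfac⟩ :=
    L2 p 1 hp one_ne_zero (Nat.coprime_one_left p) Φ hΦ hdeg h1' h2'
  -- push the factorisation through `V k p`
  have hfacV : spec k Φ (xj k p) = (X - C (xj k (p * p))) * g.map (V k p).toRingHom := by
    have hmap := congrArg (Polynomial.map (V k p).toRingHom) hfac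
    rw [spec_map_V, Polynomial.map_mul, Polynomial.map_sub, map_X, map_C] at hmap
    have e1 : (V k p) (xj k 1) = xj k p := by rw [V_xj k p 1 hp0 one_ne_zero, mul_one]
    have e2 : (V k p).toRingHom (xj k (p * 1)) = xj k (p * p) := by
      rw [mul_one]; exact V_xj k p p hp0 hp0
    rw [e1, e2] at hmap
    exact hmap
  obtain ⟨f₀, hf₀, hmon⟩ := exists_spec_lift E Φ hmem
  set m := minpoly E (xj k 1) with hm
  have hmdvd : m ∣ f₀ := minpoly.dvd E _ (by
    rw [Polynomial.aeval_def, eval₂_eq_eval_map, hf₀]; exact h2)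
  have hf₀deg : f₀.natDegree = p + 1 := by
    have := congrArg natDegree hf₀
    rw [(hmon hΦ).natDegree_map, spec_natDegree hΦ, hdeg] at this
    exact this
  have hle : m.natDegree ≤ p + 1 := by
    rw [← hf₀deg]
    exact natDegree_le_of_dvd hmdvd (hmon hΦ).ne_zero
  by_contra hne
  have hmdeg : m.natDegree = p := by omega
  obtain ⟨c, hc⟩ := hmdvd
  have hmmon : m.Monic := minpoly.monic hint
  have hcmon : c.Monic := by
    have := hmon hΦ
    rw [hc] at this
    exact hmmon.of_mul_monic_left this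
  have hcdeg : c.natDegree = 1 := by
    have := congrArg natDegree hc
    rw [hf₀deg, hmmon.natDegree_mul hcmon, hmdeg] at this
    omega
  have hceq := hcmon.eq_X_add_C hcdeg
  set e : E := -(c.coeff 0) with he
  have hroot : f₀.eval e = 0 := by
    rw [hc, eval_mul, hceq, eval_add, eval_X, eval_C, he]
    simp
  have hroot' : (spec k Φ (xj k p)).eval (e : LaurentSeries k) = 0 := by
    rw [← hf₀]
    have := Polynomial.eval_map_apply (p := f₀) (algebraMap E (LaurentSeries k)) e
    rw [hroot, map_zero] at this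
    exact this
  rw [hfacV, eval_mul, eval_sub, eval_X, eval_C] at hroot'
  rcases mul_eq_zero.mp hroot' with h | h
  · -- `x_{p^2} ∈ k(x_p)`, hence `x_p ∈ k(x_1)`
    have hmem2 : xj k (p * p) ∈ E := by
      rw [← sub_eq_zero.mp h]; exact e.2
    obtain ⟨z, hz, hVz⟩ := hrange _ hmem2
    have : z = xj k p := (V_injective k p) (by rw [hVz, V_xj k p p hp0 hp0])
    exact hIG (this ▸ hz)
  · -- `g` would have a root
    obtain ⟨e', he'⟩ := hrange' _ e.2
    rw [← he'] at h
    have h' : (V k p).toRingHom (g.eval e') = 0 := by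
      rw [← Polynomial.eval_map_apply]; exact h
    have hroot_g : g.IsRoot e' := (map_eq_zero _).mp h'
    have hdeg1 := degree_eq_one_of_irreducible_of_root hgirr hroot_g
    have hnd1 : g.natDegree = 1 := natDegree_eq_of_degree_eq_some hdeg1
    omega

end L4

/-! ### The tower induction -/

section Tower

variable (k : Type*) [Field k]

/-- `κ(N) = k(x_d : d ∣ N)`. -/
def kap (N : ℕ) : IntermediateField k (LaurentSeries k) :=
  adjoin k (xj k '' (N.divisors : Set ℕ))

variable {k}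

theorem xj_mem_kap {d N : ℕ} (hN : N ≠ 0) (hd : d ∣ N) : xj k d ∈ kap k N :=
  subset_adjoin k _ ⟨d, by simpa using ⟨hd, hN⟩, rfl⟩

theorem kap_mono {M N : ℕ} (hN : N ≠ 0) (h : M ∣ N) : kap k M ≤ kap k N := by
  apply adjoin.mono
  apply Set.image_mono
  intro d hd
  simp only [Finset.mem_coe, Nat.mem_divisors] at hd ⊢
  exact ⟨hd.1.trans h, hN⟩

theorem kap_one : kap k 1 = k⟮xj k 1⟯ := by simp [kap]

theorem K1_le_kap (N : ℕ) (hN : N ≠ 0) : k⟮xj k 1⟯ ≤ kap k N :=
  adjoin_simple_le_iff.mpr (xj_mem_kap hN (one_dvd N))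

theorem kap_eq_full (N : ℕ) [NeZero N] : kap k N = modularFunctionFieldFullC k N := by
  unfold kap modularFunctionFieldFullC
  congr 1
  ext x
  simp only [Set.mem_image, Finset.mem_coe, Nat.mem_divisors, divisorExpansionsC,
    Set.mem_ofPred_eq]
  constructor
  · rintro ⟨d, ⟨hd, hN⟩, rfl⟩
    haveI : NeZero d := ⟨ne_zero_of_dvd_ne_zero hN hd⟩
    exact ⟨d, inferInstance, hd, xj_eq k d⟩
  · rintro ⟨d, hne, hd, rfl⟩
    exact ⟨d, ⟨hd, NeZero.ne N⟩, (@xj_eq k _ d hne)⟩

theorem step (p M : ℕ) (hp : p.Prime) (hM : M ≠ 0)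
    (Φ : Polynomial (Polynomial k)) (hΦ : Φ.Monic) (hdeg : Φ.natDegree = p + 1)
    (h1 : (spec k Φ (xj k 1)).eval (xj k p) = 0)
    (h2 : (spec k Φ (xj k p)).eval (xj k 1) = 0)
    (hIG : xj k p ∉ k⟮xj k 1⟯)
    (hfin : (k⟮xj k 1⟯).relfinrank (kap k M) ≠ 0) :
    (k⟮xj k 1⟯).relfinrank (kap k (p * M)) ≠ 0 ∧
    (if p ∣ M then p else p + 1) * (k⟮xj k 1⟯).relfinrank (kap k M)
      ≤ (k⟮xj k 1⟯).relfinrank (kap k (p * M)) := by
  have hp2 : 2 ≤ p := hp.two_le
  have hp0 : p ≠ 0 := hp.ne_zero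
  have hN : p * M ≠ 0 := mul_ne_zero hp0 hM
  set K1 := k⟮xj k 1⟯ with hK1
  set Kp := k⟮xj k p⟯ with hKp
  set κM := kap k M with hκM
  set κN := kap k (p * M) with hκN
  have hK1M : K1 ≤ κM := K1_le_kap M hM
  have hMN : κM ≤ κN := kap_mono hN (Dvd.intro_left p rfl)
  have hK1N : K1 ≤ κN := hK1M.trans hMN
  have hxpN : xj k p ∈ κN := xj_mem_kap hN (Dvd.intro M rfl)
  have hKpN : Kp ≤ κN := adjoin_simple_le_iff.mpr hxpN
  -- divisors of `p * M`
  have hdiv : ∀ d'', d'' ∣ p * M → d'' ∣ M ∨ ∃ d, d ∣ M ∧ d'' = p * d := by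
    intro d'' h
    by_cases hpd : p ∣ d''
    · obtain ⟨d, rfl⟩ := hpd
      exact Or.inr ⟨d, Nat.dvd_of_mul_dvd_mul_left hp.pos h, rfl⟩
    · exact Or.inl (Nat.Coprime.dvd_of_dvd_mul_left ((hp.coprime_iff_not_dvd.mpr hpd).symm) h)
  -- integrality of the generators of `κN` over `κM`
  have hgen_int : ∀ y ∈ xj k '' (↑(p * M).divisors : Set ℕ), IsIntegral κM y := by
    rintro y ⟨d'', hd'', rfl⟩
    have hd''N : d'' ∣ p * M := (Nat.mem_divisors.mp hd'').1
    rcases hdiv d'' hd''N with h | ⟨d, hd, rfl⟩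
    · have hmem : xj k d'' ∈ κM := xj_mem_kap hM h
      exact isIntegral_algebraMap (x := (⟨_, hmem⟩ : κM))
    · have hd0 : d ≠ 0 := ne_zero_of_dvd_ne_zero hM hd
      exact isIntegral_of_spec κM Φ hΦ (xj_mem_kap hM hd) (modEq_at p d hp0 hd0 Φ h1 h2).1
  -- finiteness
  have hfinMN : κM.relfinrank κN ≠ 0 := by
    have := relfinrank_sup_adjoin_ne_zero κM _ ((Finset.finite_toSet _).image (xj k)) hgen_int
    rwa [show κM ⊔ adjoin k (xj k '' ↑(p * M).divisors) = κN from sup_eq_right.mpr hMN] at this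
  have hDN : K1.relfinrank κN = K1.relfinrank κM * κM.relfinrank κN :=
    (relfinrank_mul_relfinrank hK1M hMN).symm
  have hDN0 : K1.relfinrank κN ≠ 0 := by rw [hDN]; exact mul_ne_zero hfin hfinMN
  -- the two degrees `p + 1`
  set K1p := K1 ⊔ Kp with hK1p
  have hK1pN : K1p ≤ κN := sup_le hK1N hKpN
  have hc1 : K1.relfinrank K1p = p + 1 := L4a p hp2 Φ hΦ hdeg h1 h2 hIG
  have hc2 : Kp.relfinrank K1p = p + 1 := by
    rw [hK1p, sup_comm]; exact L4b p hp2 Φ hΦ hdeg h1 h2 hIG
  have hKpN_eq : Kp.relfinrank κN = K1.relfinrank κN := by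
    rw [← relfinrank_mul_relfinrank (le_sup_right : Kp ≤ K1p) hK1pN,
      ← relfinrank_mul_relfinrank (le_sup_left : K1 ≤ K1p) hK1pN, hc1, hc2]
  -- the image of `κM` under `V k p`
  set W := κM.map (V k p) with hW
  have hKp_map : K1.map (V k p) = Kp := by
    rw [hK1, adjoin_map, Set.image_singleton, V_xj k p 1 hp0 one_ne_zero, mul_one]
  have hKpW : Kp ≤ W := by rw [← hKp_map]; exact IntermediateField.map_mono _ hK1M
  have hWN : W ≤ κN := by
    rw [hW, hκM, kap, adjoin_map, adjoin_le_iff]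
    rintro y ⟨_, ⟨d, hd, rfl⟩, rfl⟩
    have hdM : d ∣ M := (Nat.mem_divisors.mp hd).1
    have hd0 : d ≠ 0 := ne_zero_of_dvd_ne_zero hM hdM
    rw [V_xj k p d hp0 hd0]
    exact xj_mem_kap hN (Nat.mul_dvd_mul_left p hdM)
  have hd1 : Kp.relfinrank W = K1.relfinrank κM := by
    rw [← hKp_map, hW, relfinrank_map_map]
  have hxpW : xj k p ∈ W := hKpW (mem_adjoin_simple_self k _)
  have hintW : IsIntegral W (xj k 1) := isIntegral_of_spec W Φ hΦ hxpW h2
  have hWrange : ∀ e ∈ W, ∃ e', V k p e' = e := by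
    intro e he
    rw [hW, IntermediateField.mem_map] at he
    obtain ⟨x, _, hx⟩ := he
    exact ⟨x, hx⟩
  set B := W ⊔ k⟮xj k 1⟯ with hB
  have hBN : B ≤ κN := sup_le hWN hK1N
  have he1 : p ≤ W.relfinrank B := by
    rw [hB, relfinrank_sup_simple _ _ hintW]
    exact le_natDegree_minpoly p hp0 W hWrange _ (xj_ne_zero k 1)
      (isCoprime_order_xj one_ne_zero (Nat.coprime_one_left p)) hintW
  have hf : K1.relfinrank κN = K1.relfinrank κM * (W.relfinrank B * B.relfinrank κN) := by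
    rw [← hKpN_eq, ← relfinrank_mul_relfinrank hKpW hWN, hd1,
      relfinrank_mul_relfinrank (le_sup_left : W ≤ B) hBN]
  have hBN0 : B.relfinrank κN ≠ 0 := by
    intro h0
    rw [h0, mul_zero, mul_zero] at hf
    exact hDN0 hf
  have hstar : p * K1.relfinrank κM ≤ K1.relfinrank κN := by
    rw [hf]
    calc p * K1.relfinrank κM = K1.relfinrank κM * (p * 1) := by ring
      _ ≤ K1.relfinrank κM * (W.relfinrank B * B.relfinrank κN) :=
          Nat.mul_le_mul_left _ (Nat.mul_le_mul he1 (Nat.one_le_iff_ne_zero.mpr hBN0))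
  refine ⟨hDN0, ?_⟩
  split_ifs with hpM
  · exact hstar
  · have hnot : ¬ κN ≤ κM := by
      intro hle
      have h1' : κM.relfinrank κN = 1 := relfinrank_eq_one_iff.mpr hle
      rw [hDN, h1', mul_one] at hstar
      have h2' : 2 * K1.relfinrank κM ≤ K1.relfinrank κM :=
        le_trans (Nat.mul_le_mul_right _ hp2) hstar
      omega
    have hex : ∃ d, d ∣ M ∧ xj k (p * d) ∉ κM := by
      by_contra hcon
      push Not at hcon
      apply hnot
      rw [hκN, kap, adjoin_le_iff]
      rintro y ⟨d'', hd'', rfl⟩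
      rcases hdiv d'' (Nat.mem_divisors.mp hd'').1 with h | ⟨d, hd, rfl⟩
      · exact xj_mem_kap hM h
      · exact hcon d hd
    obtain ⟨d, hdM, hnotmem⟩ := hex
    have hd0 : d ≠ 0 := ne_zero_of_dvd_ne_zero hM hdM
    have hcop : Nat.Coprime d p := by
      rw [Nat.coprime_comm, hp.coprime_iff_not_dvd]
      exact fun h => hpM (h.trans hdM)
    obtain ⟨e1, e2⟩ := modEq_at p d hp0 hd0 Φ h1 h2
    have hxdM : xj k d ∈ κM := xj_mem_kap hM hdM
    have hintd : IsIntegral κM (xj k (p * d)) := isIntegral_of_spec κM Φ hΦ hxdM e1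
    have hdegd : (minpoly κM (xj k (p * d))).natDegree = p + 1 := by
      rcases L3 p d hp2 hd0 hcop Φ hΦ hdeg e1 e2 κM hxdM with h | h
      · exact absurd h hnotmem
      · exact h
    set C := κM ⊔ k⟮xj k (p * d)⟯ with hC
    have hCN : C ≤ κN :=
      sup_le hMN (adjoin_simple_le_iff.mpr (xj_mem_kap hN (Nat.mul_dvd_mul_left p hdM)))
    have hMC : κM.relfinrank C = p + 1 := by
      rw [hC, relfinrank_sup_simple _ _ hintd, hdegd]
    have hsplit : κM.relfinrank κN = (p + 1) * C.relfinrank κN := by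
      rw [← relfinrank_mul_relfinrank (le_sup_left : κM ≤ C) hCN, hMC]
    have hCN0 : C.relfinrank κN ≠ 0 := by
      intro h0
      rw [h0, mul_zero] at hsplit
      exact hfinMN hsplit
    rw [hDN, hsplit]
    calc (p + 1) * K1.relfinrank κM = K1.relfinrank κM * ((p + 1) * 1) := by ring
      _ ≤ K1.relfinrank κM * ((p + 1) * C.relfinrank κN) :=
          Nat.mul_le_mul_left _ (Nat.mul_le_mul_left _ (Nat.one_le_iff_ne_zero.mpr hCN0))

theorem main (N : ℕ) (hN : N ≠ 0)
    (hMod : ∀ p, p.Prime → p ∣ N → ∃ Φ : Polynomial (Polynomial k), Φ.Monic ∧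
      Φ.natDegree = p + 1 ∧ (spec k Φ (xj k 1)).eval (xj k p) = 0 ∧
      (spec k Φ (xj k p)).eval (xj k 1) = 0)
    (hIG : ∀ p, p.Prime → p ∣ N → xj k p ∉ k⟮xj k 1⟯) :
    (k⟮xj k 1⟯).relfinrank (kap k N) ≠ 0 ∧
      dedekindPsi N ≤ (k⟮xj k 1⟯).relfinrank (kap k N) := by
  induction N using Nat.strong_induction_on with
  | _ N ih =>
    by_cases h1 : N = 1
    · subst h1
      rw [kap_one, relfinrank_self, dedekindPsi_one]
      exact ⟨one_ne_zero, le_rfl⟩
    · obtain ⟨p, hpp, M, rfl⟩ : ∃ p, p.Prime ∧ ∃ M, N = p * M :=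
        ⟨N.minFac, Nat.minFac_prime h1, Nat.minFac_dvd N⟩
      have hM0 : M ≠ 0 := by rintro rfl; exact hN (mul_zero p)
      have hMlt : M < p * M := lt_mul_of_one_lt_left (Nat.pos_of_ne_zero hM0) hpp.one_lt
      have hMN : M ∣ p * M := Dvd.intro_left p rfl
      obtain ⟨hfin, hpsi⟩ := ih M hMlt hM0 (fun r hr hrM => hMod r hr (hrM.trans hMN))
        (fun r hr hrM => hIG r hr (hrM.trans hMN))
      obtain ⟨Φ, hΦ, hdeg, e1, e2⟩ := hMod p hpp (Dvd.intro M rfl)
      obtain ⟨hfinN, hle⟩ :=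
        step p M hpp hM0 Φ hΦ hdeg e1 e2 (hIG p hpp (Dvd.intro M rfl)) hfin
      refine ⟨hfinN, le_trans ?_ hle⟩
      split_ifs with hpM
      · rw [Fermat.Agent.S24.H35.dedekindPsi_prime_mul_of_dvd hpp hM0 hpM]
        exact Nat.mul_le_mul_left _ hpsi
      · rw [Fermat.Agent.S24.H35.dedekindPsi_prime_mul_of_not_dvd hpp hM0 hpM]
        exact Nat.mul_le_mul_left _ hpsi

end Tower

/-! ### The public interface -/

section Interface

/-- The modular equation at `p` over `k`, in the weak form used by the tower argument: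
a bivariate `Φ`, monic of degree `p + 1` in the outer variable, with
`Φ(j(q), j(q^p)) = 0` and `Φ(j(q^p), j(q)) = 0` (inner variable first). -/
def ModEq2 (k : Type*) [Field k] (p : ℕ) [NeZero p] : Prop :=
  ∃ Φ : Polynomial (Polynomial k), Φ.Monic ∧ Φ.natDegree = p + 1 ∧
    (Φ.map (Polynomial.aeval (jqModC k)).toRingHom).eval (qExpand k p (jqModC k)) = 0 ∧
    (Φ.map (Polynomial.aeval (qExpand k p (jqModC k))).toRingHom).eval (jqModC k) = 0

/-- Prime-level Igusa: `j(q^p) ∉ k(j(q))`. -/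
def IgusaPrime (k : Type*) [Field k] (p : ℕ) [NeZero p] : Prop :=
  qExpand k p (jqModC k) ∉ IntermediateField.adjoin k {jqModC k}

variable (k : Type*) [Field k] (N : ℕ) [NeZero N]

theorem relfinrank_ne_zero_and_psi_le
    (hMod : ∀ p (hp : p.Prime), p ∣ N → @ModEq2 k _ p ⟨hp.ne_zero⟩)
    (hIG : ∀ p (hp : p.Prime), p ∣ N → @IgusaPrime k _ p ⟨hp.ne_zero⟩) :
    (IntermediateField.adjoin k {jqModC k}).relfinrank (modularFunctionFieldFullC k N) ≠ 0 ∧
    dedekindPsi N ≤
      (IntermediateField.adjoin k {jqModC k}).relfinrank (modularFunctionFieldFullC k N) := by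
  have h := main (k := k) N (NeZero.ne N)
    (fun p hp hpN => by
      haveI : NeZero p := ⟨hp.ne_zero⟩
      obtain ⟨Φ, hΦ, hdeg, e1, e2⟩ := hMod p hp hpN
      refine ⟨Φ, hΦ, hdeg, ?_, ?_⟩
      · rw [xj_one, xj_eq]; exact e1
      · rw [xj_one, xj_eq]; exact e2)
    (fun p hp hpN => by
      haveI : NeZero p := ⟨hp.ne_zero⟩
      rw [xj_one, xj_eq]
      exact hIG p hp hpN)
  rw [xj_one, kap_eq_full] at h
  exact h

/-- **The tower lower bound.** -/
theorem psi_le
    (hMod : ∀ p (hp : p.Prime), p ∣ N → @ModEq2 k _ p ⟨hp.ne_zero⟩)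
    (hIG : ∀ p (hp : p.Prime), p ∣ N → @IgusaPrime k _ p ⟨hp.ne_zero⟩) :
    dedekindPsi N ≤
      (IntermediateField.adjoin k {jqModC k}).relfinrank (modularFunctionFieldFullC k N) :=
  (relfinrank_ne_zero_and_psi_le k N hMod hIG).2

theorem relfinrank_ne_zero
    (hMod : ∀ p (hp : p.Prime), p ∣ N → @ModEq2 k _ p ⟨hp.ne_zero⟩)
    (hIG : ∀ p (hp : p.Prime), p ∣ N → @IgusaPrime k _ p ⟨hp.ne_zero⟩) :
    (IntermediateField.adjoin k {jqModC k}).relfinrank (modularFunctionFieldFullC k N) ≠ 0 :=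
  (relfinrank_ne_zero_and_psi_le k N hMod hIG).1

end Interface

end

end Fermat.Agent.S28.H50
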