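import Mathlib
import Fermat.Agent.S28.Tower_helper50
import Fermat.Agent.S28.ModEq_helper20
import Fermat.Agent.S28.IGFinal_helper43

set_option autoImplicit false
set_option linter.unusedSectionVars false
set_option linter.unusedVariables false
set_option linter.style.haveILetI false

/-!
# The tower lower bound in characteristic `l ∤ N`, from the Hasse relation alone (helper50)

Glue of three landed pieces:

* `H20.exists_modEq` (product form of the modular equation over a field with a primitive root of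
  unity) gives the two-identity form `H50.ModEq2`;
* `H43.igusa_of_char` (prime-level Igusa from a Hasse relation) gives `H50.IgusaPrime`;
* `H50.psi_le` (tower induction).

Result: over an algebraically closed field `k` of characteristic `l ∤ N` carrying a Hasse relation
`G(J) * Δ^(l-1) = 1`, the field `k(j(q^d) : d ∣ N)` is finite over `k(j)` of degree at least
`dedekindPsi N`.
-/

namespace Fermat.Agent.S28.H50

open ModularCurve Polynomial IntermediateField

noncomputable section

/-- From the product form of the modular equation to the two-identity form. -/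
theorem modEq2_of_product (k : Type*) [Field k] (r : ℕ) [NeZero r] (ζ : kˣ)
    (h : ∃ Φ : Polynomial (Polynomial k), Φ.Monic ∧ Φ.natDegree = r + 1 ∧
      Φ.map (Polynomial.aeval (R := k) (qExpand k r (jqModC k))).toRingHom
        = (X - C (qExpand k (r * r) (jqModC k)))
          * ∏ b ∈ Finset.range r, (X - C (H20.twist (ζ ^ b) (jqModC k)))) :
    ModEq2 k r := by
  obtain ⟨Φ, hm, hdeg, hΦ⟩ := h
  have hr0 : r ≠ 0 := NeZero.ne r
  have hΦ' : spec k Φ (xj k r) = (X - C (xj k (r * r)))
      * ∏ b ∈ Finset.range r, (X - C (H20.twist (ζ ^ b) (jqModC k))) := by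
    haveI : NeZero (r * r) := ⟨mul_ne_zero hr0 hr0⟩
    rw [xj_eq, xj_eq]
    exact hΦ
  have h1 : (spec k Φ (xj k 1)).eval (xj k r) = 0 := by
    apply V_injective k r
    rw [map_zero]
    have h := Polynomial.eval_map_apply (p := spec k Φ (xj k 1)) (V k r).toRingHom (xj k r)
    have e1 : (V k r) (xj k 1) = xj k r := by rw [V_xj k r 1 hr0 one_ne_zero, mul_one]
    have e2 : (V k r).toRingHom (xj k r) = xj k (r * r) := V_xj k r r hr0 hr0
    rw [spec_map_V, e1, e2, hΦ', eval_mul, eval_sub, eval_X, eval_C, sub_self, zero_mul] at h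
    exact h.symm
  have h2 : (spec k Φ (xj k r)).eval (xj k 1) = 0 := by
    rw [hΦ', eval_mul, eval_prod]
    apply mul_eq_zero_of_right
    apply Finset.prod_eq_zero (Finset.mem_range.mpr (Nat.pos_of_ne_zero hr0))
    rw [pow_zero, H20.twist_one, eval_sub, eval_X, eval_C, xj_one, sub_self]
  refine ⟨Φ, hm, hdeg, ?_, ?_⟩
  · have := h1
    rw [xj_one, xj_eq] at this
    exact this
  · have := h2
    rw [xj_one, xj_eq] at this
    exact this

/-- `ModEq2` over any field with a primitive `r`-th root of unity (`r` prime). -/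
theorem modEq2_of_primitiveRoot (k : Type*) [Field k] (r : ℕ) [NeZero r] (hr : r.Prime) (ζ : kˣ)
    (hζ : IsPrimitiveRoot ζ r) : ModEq2 k r :=
  modEq2_of_product k r ζ (H20.exists_modEq r hr k ζ hζ)

/-- `ModEq2` over an algebraically closed field in which the prime `r` is invertible. -/
theorem modEq2_of_isAlgClosed (k : Type*) [Field k] [IsAlgClosed k] (r : ℕ) (hr : r.Prime)
    (hrk : (r : k) ≠ 0) : @ModEq2 k _ r ⟨hr.ne_zero⟩ := by
  haveI : NeZero r := ⟨hr.ne_zero⟩
  haveI : NeZero (r : k) := ⟨hrk⟩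
  obtain ⟨ζ, hζroot⟩ := IsAlgClosed.exists_root (cyclotomic r k)
    (by rw [degree_cyclotomic]; exact_mod_cast (Nat.totient_pos.mpr hr.pos).ne')
  have hζ : IsPrimitiveRoot ζ r := Polynomial.isRoot_cyclotomic_iff.mp hζroot
  have hζ0 : ζ ≠ 0 := hζ.ne_zero hr.ne_zero
  have hζu : IsPrimitiveRoot (Units.mk0 ζ hζ0) r := by
    rw [← IsPrimitiveRoot.coe_units_iff]
    exact hζ
  exact modEq2_of_primitiveRoot k r hr (Units.mk0 ζ hζ0) hζu

/-- **The tower lower bound in characteristic `l ∤ N`** over an algebraically closed field, from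
the Hasse relation. -/
theorem relfinrank_ne_zero_and_psi_le_of_hasse (k : Type*) [Field k] [IsAlgClosed k] (l : ℕ)
    (hl : l.Prime) [CharP k l] (N : ℕ) [NeZero N] (hlN : ¬ l ∣ N)
    (hHasse : ∃ G : Polynomial k, G.Monic ∧ G.natDegree = l - 1 ∧
      Polynomial.aeval (jqModC k) G * H47.deltaL k ^ (l - 1) = 1) :
    (IntermediateField.adjoin k {jqModC k}).relfinrank (modularFunctionFieldFullC k N) ≠ 0 ∧
    dedekindPsi N ≤
      (IntermediateField.adjoin k {jqModC k}).relfinrank (modularFunctionFieldFullC k N) := by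
  have hpl : ∀ p, p.Prime → p ∣ N → p ≠ l := fun p _ hpN h => hlN (h ▸ hpN)
  have hpk : ∀ p, p.Prime → p ∣ N → (p : k) ≠ 0 := by
    intro p hp hpN h
    have hdvd : l ∣ p := (CharP.cast_eq_zero_iff k l p).mp h
    rcases (Nat.dvd_prime hp).mp hdvd with h1 | h1
    · exact hl.one_lt.ne' h1
    · exact hpl p hp hpN h1.symm
  have hMod : ∀ p (hp : p.Prime), p ∣ N → @ModEq2 k _ p ⟨hp.ne_zero⟩ :=
    fun p hp hpN => modEq2_of_isAlgClosed k p hp (hpk p hp hpN)
  have hIG : ∀ p (hp : p.Prime), p ∣ N → @IgusaPrime k _ p ⟨hp.ne_zero⟩ := by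
    intro p hp hpN
    obtain ⟨Φ, hm, -, e1, -⟩ := hMod p hp hpN
    exact H43.igusa_of_char l hl hHasse p hp (hpl p hp hpN) ⟨Φ, hm, e1⟩
  exact relfinrank_ne_zero_and_psi_le k N hMod hIG

theorem psi_le_of_hasse (k : Type*) [Field k] [IsAlgClosed k] (l : ℕ)
    (hl : l.Prime) [CharP k l] (N : ℕ) [NeZero N] (hlN : ¬ l ∣ N)
    (hHasse : ∃ G : Polynomial k, G.Monic ∧ G.natDegree = l - 1 ∧
      Polynomial.aeval (jqModC k) G * H47.deltaL k ^ (l - 1) = 1) :
    dedekindPsi N ≤
      (IntermediateField.adjoin k {jqModC k}).relfinrank (modularFunctionFieldFullC k N) :=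
  (relfinrank_ne_zero_and_psi_le_of_hasse k l hl N hlN hHasse).2

end

end Fermat.Agent.S28.H50
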