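import Mathlib
import Fermat.Agent.S28.PsiChar_helper50
import Fermat.Agent.S28.Hasse_helper31

set_option autoImplicit false

/-!
# The tower lower bound in characteristic `l ∤ N`, unconditionally (helper50)

`H50.relfinrank_ne_zero_and_psi_le_of_hasse` with the Hasse relation `H31.exists_hasse_field`
plugged in: over every algebraically closed field `k` of characteristic `l ∤ N`, the field
`k(j(q^d) : d ∣ N)` is finite over `k(j)` of degree at least `dedekindPsi N`.
-/

namespace Fermat.Agent.S28.H50

open ModularCurve

universe u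

/-- **(L_N)** over an algebraically closed field of characteristic `l ∤ N`: finiteness and the
lower bound `ψ(N) ≤ [k(j(q^d) : d ∣ N) : k(j)]`. -/
theorem relfinrank_ne_zero_and_psi_le_char (k : Type u) [Field k] [IsAlgClosed k] (l : ℕ)
    [Fact l.Prime] [CharP k l] (N : ℕ) [NeZero N] (hlN : ¬ l ∣ N) :
    (IntermediateField.adjoin k {jqModC k}).relfinrank (modularFunctionFieldFullC k N) ≠ 0 ∧
    dedekindPsi N ≤
      (IntermediateField.adjoin k {jqModC k}).relfinrank (modularFunctionFieldFullC k N) :=
  relfinrank_ne_zero_and_psi_le_of_hasse k l Fact.out N hlN (H31.exists_hasse_field l k)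

/-- **(L_N)**: `ψ(N) ≤ [k(j(q^d) : d ∣ N) : k(j)]` over an algebraically closed field of
characteristic `l ∤ N`. -/
theorem psi_le_char (k : Type u) [Field k] [IsAlgClosed k] (l : ℕ)
    [Fact l.Prime] [CharP k l] (N : ℕ) [NeZero N] (hlN : ¬ l ∣ N) :
    dedekindPsi N ≤
      (IntermediateField.adjoin k {jqModC k}).relfinrank (modularFunctionFieldFullC k N) :=
  (relfinrank_ne_zero_and_psi_le_char k l N hlN).2

/-- The instance used by the assembly: `k = AlgebraicClosure (ZMod l)`. -/
theorem psi_le_algebraicClosure_zmod (l : ℕ) [Fact l.Prime] (N : ℕ) [NeZero N] (hlN : ¬ l ∣ N) :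
    dedekindPsi N ≤
      (IntermediateField.adjoin (AlgebraicClosure (ZMod l))
          {jqModC (AlgebraicClosure (ZMod l))}).relfinrank
        (modularFunctionFieldFullC (AlgebraicClosure (ZMod l)) N) :=
  psi_le_char (AlgebraicClosure (ZMod l)) l N hlN

end Fermat.Agent.S28.H50
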