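/-
S28 helper library (helper95): the abstract core of the "Gauss valuation" step.

Setting: `F` a field, `V ⊆ F` a subring, `π ∈ V`, `red : V →+* κ` (κ a domain) with
`red π = 0`, `ker red ⊆ π V`, and every nonzero element of `F` of the form `π ^ m * u` with
`red u ≠ 0` (so `V` is a discrete valuation ring of `F` with uniformiser `π`).

Main results (Mathlib only):
* `IsGauss.mem_of_isIntegral` : `V` is integrally closed in `F`;
* `IsGauss.integral_of_mul`   : if `F` is finite over a subfield `K₀` with a family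
  `x : Fin [F:K₀] → V` whose reductions are independent over `red (V ∩ K₀)`, and `R ⊆ V ∩ K₀`
  is a subring integrally closed in `K₀` with `R ∩ π V = π R`, then the integral closure `B`
  of `R` in `F` satisfies `B ⊆ V` and `B ∩ π V = π B`.
-/
import Mathlib

set_option autoImplicit false

namespace Fermat.Agent.S28.H95

open Polynomial

section Core

variable {F κ : Type*} [Field F] [CommRing κ] [IsDomain κ]
variable (V : Subring F) (π : V) (red : V →+* κ)

/-- `V` is a "Gauss valuation ring" of `F` with uniformiser `π` and reduction map `red`. -/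
def IsGauss : Prop :=
  (π : F) ≠ 0 ∧ red π = 0 ∧ (∀ v : V, red v = 0 → ∃ w : V, v = π * w) ∧
    ∀ x : F, x ≠ 0 → ∃ (m : ℤ) (u : V), red u ≠ 0 ∧ x = (π : F) ^ m * u

variable {V π red}

theorem IsGauss.exists_inv (h : IsGauss V π red) (u : V) (hu : red u ≠ 0) :
    ∃ u' : V, u * u' = 1 ∧ red u' ≠ 0 := by
  obtain ⟨hπ0, hπ, hker, hval⟩ := h
  have hu0 : (u : F) ≠ 0 := by
    intro h0
    apply hu
    have : u = 0 := Subtype.ext h0
    rw [this, map_zero]
  obtain ⟨m, u', hu', hm⟩ := hval (u : F)⁻¹ (inv_ne_zero hu0)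
  have key : (1 : F) = (π : F) ^ m * (u' * u) := by
    rw [← mul_assoc, ← hm, inv_mul_cancel₀ hu0]
  rcases lt_trichotomy m 0 with hneg | rfl | hpos
  · exfalso
    obtain ⟨k, rfl⟩ : ∃ k : ℕ, m = -((k + 1 : ℕ) : ℤ) := ⟨(-m - 1).toNat, by omega⟩
    have h2 : ((π ^ (k + 1) : V) : F) = ((u' * u : V) : F) := by
      push_cast
      rw [zpow_neg, zpow_natCast] at key
      have hpk : (π : F) ^ (k + 1) ≠ 0 := pow_ne_zero _ hπ0
      field_simp at key
      push_cast at key
      exact key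
    have h3 : π ^ (k + 1) = u' * u := Subtype.ext h2
    have h4 := congrArg red h3
    rw [map_pow, hπ, zero_pow (Nat.succ_ne_zero k), map_mul] at h4
    exact mul_ne_zero hu' hu h4.symm
  · refine ⟨u', ?_, hu'⟩
    apply Subtype.ext
    push_cast
    rw [zpow_zero, one_mul] at key
    rw [mul_comm]
    exact key.symm
  · exfalso
    obtain ⟨k, rfl⟩ : ∃ k : ℕ, m = ((k + 1 : ℕ) : ℤ) := ⟨(m - 1).toNat, by omega⟩
    have h3 : (1 : V) = π ^ (k + 1) * (u' * u) := by
      apply Subtype.ext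
      push_cast
      rw [zpow_natCast] at key
      exact key
    have h4 := congrArg red h3
    rw [map_one, map_mul, map_pow, hπ, zero_pow (Nat.succ_ne_zero k), zero_mul] at h4
    exact one_ne_zero h4

/-- `V` is a valuation ring: `x ∈ V` or `x⁻¹ ∈ π V`. -/
theorem IsGauss.mem_or_inv (h : IsGauss V π red) (x : F) :
    x ∈ V ∨ ∃ w : V, x⁻¹ = (π : F) * w := by
  by_cases hx : x = 0
  · left; rw [hx]; exact V.zero_mem
  obtain ⟨m, u, hu, hm⟩ := h.2.2.2 x hx
  rcases le_or_gt 0 m with hm0 | hm0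
  · left
    obtain ⟨k, rfl⟩ : ∃ k : ℕ, m = (k : ℤ) := ⟨m.toNat, by omega⟩
    rw [hm, zpow_natCast]
    exact V.mul_mem (V.pow_mem π.2 k) u.2
  · right
    obtain ⟨k, rfl⟩ : ∃ k : ℕ, m = -((k + 1 : ℕ) : ℤ) := ⟨(-m - 1).toNat, by omega⟩
    obtain ⟨u', huu', -⟩ := h.exists_inv u hu
    have huu'F : (u : F) * u' = 1 := by
      have := congrArg (Subtype.val) huu'
      simpa using this
    refine ⟨π ^ k * u', ?_⟩
    rw [hm, zpow_neg, zpow_natCast, mul_inv, inv_inv]
    push_cast
    rw [inv_eq_of_mul_eq_one_right huu'F]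
    ring

/-- `V` is integrally closed in `F`. -/
theorem IsGauss.mem_of_isIntegral (h : IsGauss V π red) {y : F} (hy : IsIntegral V y) : y ∈ V := by
  by_cases hy0 : y = 0
  · rw [hy0]; exact V.zero_mem
  rcases h.mem_or_inv y with hyV | ⟨w, hw⟩
  · exact hyV
  exfalso
  obtain ⟨p, hp, hpy⟩ := hy
  have : Invertible y := invertibleOfNonzero hy0
  have h1 := Polynomial.eval₂_reverse_mul_pow (algebraMap V F) y p
  rw [hpy, invOf_eq_inv] at h1
  have h2 : eval₂ (algebraMap V F) y⁻¹ p.reverse = 0 := by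
    rcases mul_eq_zero.mp h1 with h2 | h2
    · exact h2
    · exact absurd h2 (pow_ne_zero _ hy0)
  set z : V := π * w with hz
  have hzF : (algebraMap V F) z = y⁻¹ := by
    rw [hw]; rfl
  rw [← hzF, Polynomial.eval₂_at_apply] at h2
  have h3 : p.reverse.eval z = 0 := by
    apply Subtype.ext
    exact h2
  have h4 := Polynomial.divX_mul_X_add p.reverse
  have h5 : (p.reverse.divX.eval z) * z + 1 = 0 := by
    have := congrArg (Polynomial.eval z) h4
    rw [Polynomial.eval_add, Polynomial.eval_mul, Polynomial.eval_X, Polynomial.eval_C,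
      Polynomial.coeff_zero_reverse, hp.leadingCoeff, h3] at this
    exact this
  have h6 := congrArg red h5
  rw [map_add, map_mul, hz, map_mul, h.2.1, zero_mul, mul_zero, zero_add, map_one, map_zero] at h6
  exact one_ne_zero h6

/-- Scaling: a nonzero finite family in `F` can be multiplied by a power of `π` so that all
members lie in `V` and one of them has nonzero reduction. -/
theorem IsGauss.exists_scale (h : IsGauss V π red) {ι : Type*} [Fintype ι] (c : ι → F)
    (hc : ∃ i, c i ≠ 0) :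
    ∃ (m : ℤ) (c' : ι → V), (∀ i, (c' i : F) = (π : F) ^ m * c i) ∧ ∃ i, red (c' i) ≠ 0 := by
  classical
  obtain ⟨hπ0, hπ, hker, hval⟩ := h
  have hval' : ∀ i, ∃ (m : ℤ) (u : V), c i ≠ 0 → (red u ≠ 0 ∧ c i = (π : F) ^ m * u) := by
    intro i
    by_cases hi : c i = 0
    · exact ⟨0, 0, fun h => absurd hi h⟩
    · obtain ⟨m, u, h1, h2⟩ := hval _ hi
      exact ⟨m, u, fun _ => ⟨h1, h2⟩⟩
  choose e u he using hval'
  obtain ⟨j, hj⟩ := hc
  have hS : (Finset.univ.filter fun i => c i ≠ 0).Nonempty := ⟨j, by simp [hj]⟩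
  obtain ⟨i₀, hi₀, hmin⟩ := Finset.exists_min_image _ e hS
  have hi₀' : c i₀ ≠ 0 := by simpa using hi₀
  refine ⟨-e i₀, fun i => if c i = 0 then 0 else π ^ (e i - e i₀).toNat * u i, ?_, i₀, ?_⟩
  · intro i
    by_cases hi : c i = 0
    · simp [hi]
    · have hle : e i₀ ≤ e i := hmin i (by simp [hi])
      dsimp only
      rw [if_neg hi]
      push_cast
      conv_rhs => rw [(he i hi).2]
      rw [← mul_assoc, ← zpow_add₀ hπ0, ← zpow_natCast, Int.toNat_of_nonneg (by omega)]
      congr 2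
      ring
  · dsimp only
    rw [if_neg hi₀', sub_self, Int.toNat_zero, pow_zero, one_mul]
    exact (he i₀ hi₀').1

end Core

section Lattice

variable {K₀ F κ : Type*} [Field K₀] [Field F] [Algebra K₀ F] [CommRing κ] [IsDomain κ]
variable {V : Subring F} {π : V} {red : V →+* κ}

/-- Independence of the reductions over `red (V ∩ K₀)` gives `K₀`-linear independence. -/
theorem IsGauss.linearIndependent (h : IsGauss V π red) (π₀ : K₀)
    (hπ₀ : algebraMap K₀ F π₀ = π) {n : ℕ} (x : Fin n → V)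
    (hind : ∀ c : Fin n → V, (∀ i, (c i : F) ∈ (algebraMap K₀ F).range) →
      ∑ i, red (c i) * red (x i) = 0 → ∀ i, red (c i) = 0) :
    LinearIndependent K₀ (fun i => (x i : F)) := by
  rw [Fintype.linearIndependent_iff]
  intro g hg
  by_contra hne
  push_neg at hne
  obtain ⟨j, hj⟩ := hne
  have hc : ∃ i, (fun i => algebraMap K₀ F (g i)) i ≠ 0 :=
    ⟨j, fun h0 => hj ((algebraMap K₀ F).injective (by rw [map_zero]; exact h0))⟩
  obtain ⟨m, c', hc', i₀, hi₀⟩ := h.exists_scale _ hc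
  have hmem : ∀ i, (c' i : F) ∈ (algebraMap K₀ F).range := fun i =>
    ⟨π₀ ^ m * g i, by rw [map_mul, map_zpow₀, hπ₀, hc']⟩
  have hsum : ∑ i, c' i * x i = 0 := by
    apply Subtype.ext
    push_cast
    simp_rw [hc']
    have : ∀ i, (π : F) ^ m * algebraMap K₀ F (g i) * (x i : F) = (π : F) ^ m * (g i • (x i : F)) := by
      intro i
      rw [Algebra.smul_def, mul_assoc]
    simp_rw [this]
    rw [← Finset.mul_sum, hg, mul_zero]
  have h2 := congrArg red hsum
  rw [map_sum, map_zero] at h2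
  simp_rw [map_mul] at h2
  exact hi₀ (hind c' hmem h2 i₀)

/-- Every element of `V` has coordinates in `V ∩ K₀` with respect to the family `x`. -/
theorem IsGauss.exists_repr (h : IsGauss V π red) (π₀ : K₀)
    (hπ₀ : algebraMap K₀ F π₀ = π) {n : ℕ} (x : Fin n → V)
    (hind : ∀ c : Fin n → V, (∀ i, (c i : F) ∈ (algebraMap K₀ F).range) →
      ∑ i, red (c i) * red (x i) = 0 → ∀ i, red (c i) = 0)
    (hfin : Module.finrank K₀ F = n) (hn : 0 < n) (y : V) :
    ∃ g : Fin n → K₀, (∀ i, algebraMap K₀ F (g i) ∈ V) ∧ (y : F) = ∑ i, g i • (x i : F) := by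
  have hli := h.linearIndependent π₀ hπ₀ x hind
  haveI : Nonempty (Fin n) := ⟨⟨0, hn⟩⟩
  let b := basisOfLinearIndependentOfCardEqFinrank hli (by simp [hfin])
  have hb : ∀ i, b i = (x i : F) := fun i => by
    simp [b]
  refine ⟨fun i => b.repr (y : F) i, ?_, ?_⟩
  swap
  · conv_lhs => rw [← b.sum_repr (y : F)]
    simp_rw [hb]
  -- membership of the coordinates
  set g : Fin n → K₀ := fun i => b.repr (y : F) i with hg
  have hy : (y : F) = ∑ i, g i • (x i : F) := by
    conv_lhs => rw [← b.sum_repr (y : F)]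
    simp_rw [hb]
    rfl
  by_cases hzero : ∀ i, g i = 0
  · intro i
    show algebraMap K₀ F (g i) ∈ V
    rw [hzero i, map_zero]
    exact V.zero_mem
  push_neg at hzero
  obtain ⟨j, hj⟩ := hzero
  have hc : ∃ i, (fun i => algebraMap K₀ F (g i)) i ≠ 0 :=
    ⟨j, fun h0 => hj ((algebraMap K₀ F).injective (by rw [map_zero]; exact h0))⟩
  obtain ⟨m, c', hc', i₀, hi₀⟩ := h.exists_scale _ hc
  have hmem : ∀ i, (c' i : F) ∈ (algebraMap K₀ F).range := fun i =>
    ⟨π₀ ^ m * g i, by rw [map_mul, map_zpow₀, hπ₀, hc']⟩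
  rcases le_or_gt m 0 with hm | hm
  · -- `g i = π ^ (-m) * c' i`
    intro i
    show algebraMap K₀ F (g i) ∈ V
    obtain ⟨k, rfl⟩ : ∃ k : ℕ, m = -(k : ℤ) := ⟨(-m).toNat, by omega⟩
    have : algebraMap K₀ F (g i) = (π : F) ^ k * (c' i : F) := by
      rw [hc', zpow_neg, zpow_natCast, ← mul_assoc, mul_inv_cancel₀ (pow_ne_zero _ h.1), one_mul]
    rw [this]
    exact V.mul_mem (V.pow_mem π.2 k) (c' i).2
  · exfalso
    obtain ⟨k, rfl⟩ : ∃ k : ℕ, m = ((k + 1 : ℕ) : ℤ) := ⟨(m - 1).toNat, by omega⟩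
    have hsum : π ^ (k + 1) * y = ∑ i, c' i * x i := by
      apply Subtype.ext
      push_cast
      simp_rw [hc']
      have : ∀ i, (π : F) ^ ((k + 1 : ℕ) : ℤ) * algebraMap K₀ F (g i) * (x i : F) =
          (π : F) ^ (k + 1) * (g i • (x i : F)) := by
        intro i
        rw [Algebra.smul_def, mul_assoc, zpow_natCast]
      simp_rw [this]
      rw [← Finset.mul_sum, ← hy]
    have h2 := congrArg red hsum
    rw [map_mul, map_pow, h.2.1, zero_pow (Nat.succ_ne_zero k), zero_mul, map_sum] at h2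
    simp_rw [map_mul] at h2
    exact hi₀ (hind c' hmem h2.symm i₀)

end Lattice

section Integral

variable {K₀ F κ : Type*} [Field K₀] [Field F] [Algebra K₀ F] [CommRing κ] [IsDomain κ]
variable {V : Subring F} {π : V} {red : V →+* κ}

/-- Every element of `V` is integral over `V ∩ K₀`. -/
theorem IsGauss.isIntegral_comap (h : IsGauss V π red) (π₀ : K₀)
    (hπ₀ : algebraMap K₀ F π₀ = π) {n : ℕ} (x : Fin n → V)
    (hind : ∀ c : Fin n → V, (∀ i, (c i : F) ∈ (algebraMap K₀ F).range) →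
      ∑ i, red (c i) * red (x i) = 0 → ∀ i, red (c i) = 0)
    (hfin : Module.finrank K₀ F = n) (hn : 0 < n) (w : V) :
    IsIntegral (V.comap (algebraMap K₀ F)) (w : F) := by
  set A0 : Subring K₀ := V.comap (algebraMap K₀ F) with hA0
  let N : Submodule A0 F := Submodule.span A0 (Set.range fun i => (x i : F))
  have hNV : ∀ v : F, v ∈ N ↔ v ∈ V := by
    intro v
    constructor
    · intro hv
      induction hv using Submodule.span_induction with
      | mem v hv =>
        obtain ⟨i, rfl⟩ := hv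
        exact (x i).2
      | zero => exact V.zero_mem
      | add a b _ _ ha hb => exact V.add_mem ha hb
      | smul a v _ hv =>
        rw [Algebra.smul_def]
        exact V.mul_mem a.2 hv
    · intro hv
      obtain ⟨g, hgV, hg⟩ := h.exists_repr π₀ hπ₀ x hind hfin hn ⟨v, hv⟩
      rw [show v = ∑ i, g i • (x i : F) from hg]
      refine Submodule.sum_mem _ fun i _ => ?_
      have : g i • (x i : F) = (⟨g i, hgV i⟩ : A0) • (x i : F) := rfl
      rw [this]
      exact Submodule.smul_mem _ _ (Submodule.subset_span ⟨i, rfl⟩)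
  refine isIntegral_of_smul_mem_submodule N ?_ (Submodule.fg_span (Set.finite_range _)) (w : F) ?_
  · intro hbot
    have hli := h.linearIndependent π₀ hπ₀ x hind
    have h0 : (x ⟨0, hn⟩ : F) ∈ N := Submodule.subset_span ⟨_, rfl⟩
    rw [hbot, Submodule.mem_bot] at h0
    exact hli.ne_zero ⟨0, hn⟩ h0
  · intro v hv
    rw [hNV] at hv ⊢
    exact V.mul_mem w.2 hv

/-- The minimal polynomial over `K₀` of an element of `V` has coefficients in `V`. -/
theorem IsGauss.coeff_minpoly_mem (h : IsGauss V π red) (π₀ : K₀)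
    (hπ₀ : algebraMap K₀ F π₀ = π) {n : ℕ} (x : Fin n → V)
    (hind : ∀ c : Fin n → V, (∀ i, (c i : F) ∈ (algebraMap K₀ F).range) →
      ∑ i, red (c i) * red (x i) = 0 → ∀ i, red (c i) = 0)
    (hfin : Module.finrank K₀ F = n) (hn : 0 < n) (w : V) (i : ℕ) :
    algebraMap K₀ F ((minpoly K₀ (w : F)).coeff i) ∈ V := by
  set A0 : Subring K₀ := V.comap (algebraMap K₀ F) with hA0
  obtain ⟨p, hp, hpw⟩ := h.isIntegral_comap π₀ hπ₀ x hind hfin hn w
  have hdvd : minpoly K₀ (w : F) ∣ p.map (algebraMap A0 K₀) := by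
    apply minpoly.dvd
    rw [Polynomial.aeval_def, Polynomial.eval₂_map]
    exact hpw
  have hfd : FiniteDimensional K₀ F := Module.finite_of_finrank_pos (by omega)
  have hmon : (minpoly K₀ (w : F)).Monic := minpoly.monic (IsIntegral.of_finite K₀ _)
  have hl := integralClosure.mem_lifts_of_monic_of_dvd_map K₀ hp hmon hdvd
  rw [Polynomial.lifts_iff_coeff_lifts] at hl
  obtain ⟨z, hz⟩ := hl i
  have hzint : IsIntegral A0 (z : K₀) := z.2
  have hzV : IsIntegral V (algebraMap K₀ F (z : K₀)) :=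
    hzint.map_of_comp_eq ((algebraMap K₀ F).restrict A0 V fun a ha => ha) (algebraMap K₀ F)
      (by ext; rfl)
  rw [← hz]
  exact h.mem_of_isIntegral hzV

/-- **Main abstract statement.**  Let `R ⊆ V ∩ K₀` be integrally closed in `K₀` with
`R ∩ π V = π R`.  If `y ∈ F` is integral over `R` then `y ∈ V`, and if moreover `y = π w` with
`w ∈ V` then `w` is integral over `R`. -/
theorem IsGauss.integral_of_mul (h : IsGauss V π red) (π₀ : K₀)
    (hπ₀ : algebraMap K₀ F π₀ = π) {n : ℕ} (x : Fin n → V)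
    (hind : ∀ c : Fin n → V, (∀ i, (c i : F) ∈ (algebraMap K₀ F).range) →
      ∑ i, red (c i) * red (x i) = 0 → ∀ i, red (c i) = 0)
    (hfin : Module.finrank K₀ F = n) (hn : 0 < n)
    (R : Subring K₀) (hRV : ∀ a ∈ R, algebraMap K₀ F a ∈ V)
    (hRic : ∀ a : K₀, IsIntegral R a → a ∈ R)
    (hRπ : ∀ a b : K₀, a ∈ R → algebraMap K₀ F b ∈ V → a = π₀ * b → b ∈ R)
    (y : F) (hy : IsIntegral R y) :
    y ∈ V ∧ ∀ w : V, y = (π : F) * w → IsIntegral R (w : F) := by
  have hyV : IsIntegral V y :=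
    hy.map_of_comp_eq ((algebraMap K₀ F).restrict R V hRV) (RingHom.id F) (by ext; rfl)
  refine ⟨h.mem_of_isIntegral hyV, ?_⟩
  intro w hw
  have hfd : FiniteDimensional K₀ F := Module.finite_of_finrank_pos (by omega)
  have hπ₀0 : π₀ ≠ 0 := by
    intro h0
    apply h.1
    rw [← hπ₀, h0, map_zero]
  have hpow : ∀ (k : ℕ) (a b : K₀), a ∈ R → algebraMap K₀ F b ∈ V → a = π₀ ^ k * b → b ∈ R := by
    intro k
    induction k with
    | zero =>
      intro a b ha _ hab
      rw [pow_zero, one_mul] at hab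
      rwa [← hab]
    | succ k ih =>
      intro a b ha hb hab
      have hb' : algebraMap K₀ F (π₀ ^ k * b) ∈ V := by
        rw [map_mul, map_pow, hπ₀]
        exact V.mul_mem (V.pow_mem π.2 k) hb
      exact ih _ b (hRπ a (π₀ ^ k * b) ha hb' (by rw [hab]; ring)) hb rfl
  set μ := minpoly K₀ (w : F) with hμ
  set ν := minpoly K₀ y with hν
  have hμmon : μ.Monic := minpoly.monic (IsIntegral.of_finite K₀ _)
  have hνmon : ν.Monic := minpoly.monic (IsIntegral.of_finite K₀ _)
  have hνR : ∀ i, ν.coeff i ∈ R := by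
    obtain ⟨p, hp, hpy⟩ := hy
    have hdvd : ν ∣ p.map (algebraMap R K₀) := by
      apply minpoly.dvd
      rw [Polynomial.aeval_def, Polynomial.eval₂_map]
      exact hpy
    have hl := integralClosure.mem_lifts_of_monic_of_dvd_map K₀ hp hνmon hdvd
    rw [Polynomial.lifts_iff_coeff_lifts] at hl
    intro i
    obtain ⟨z, hz⟩ := hl i
    rw [← hz]
    exact hRic _ z.2
  have hs1 : (ν.scaleRoots π₀⁻¹).Monic := (Polynomial.monic_scaleRoots_iff _).mpr hνmon
  have hs2 : (μ.scaleRoots π₀).Monic := (Polynomial.monic_scaleRoots_iff _).mpr hμmon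
  have h1 : μ ∣ ν.scaleRoots π₀⁻¹ := by
    apply minpoly.dvd
    have hwy : (w : F) = algebraMap K₀ F π₀⁻¹ * y := by
      rw [hw, map_inv₀, hπ₀, inv_mul_cancel_left₀ h.1]
    rw [hwy, Polynomial.aeval_def, Polynomial.scaleRoots_eval₂_mul, ← Polynomial.aeval_def,
      minpoly.aeval, mul_zero]
  have h2 : ν ∣ μ.scaleRoots π₀ := by
    apply minpoly.dvd
    rw [hw, ← hπ₀, Polynomial.aeval_def, Polynomial.scaleRoots_eval₂_mul, ← Polynomial.aeval_def,
      minpoly.aeval, mul_zero]
  have hdeg : μ.natDegree = ν.natDegree := by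
    apply le_antisymm
    · have := Polynomial.natDegree_le_of_dvd h1 hs1.ne_zero
      rwa [Polynomial.natDegree_scaleRoots] at this
    · have := Polynomial.natDegree_le_of_dvd h2 hs2.ne_zero
      rwa [Polynomial.natDegree_scaleRoots] at this
  have hμeq : ν.scaleRoots π₀⁻¹ = μ :=
    Polynomial.eq_of_monic_of_dvd_of_natDegree_le hμmon hs1 h1
      (by rw [Polynomial.natDegree_scaleRoots, hdeg])
  have hμR : ∀ i, μ.coeff i ∈ R := by
    intro i
    by_cases hi : i ≤ ν.natDegree
    · have hV : algebraMap K₀ F (μ.coeff i) ∈ V :=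
        h.coeff_minpoly_mem π₀ hπ₀ x hind hfin hn w i
      have hc : ν.coeff i = π₀ ^ (ν.natDegree - i) * μ.coeff i := by
        rw [← hμeq, Polynomial.coeff_scaleRoots, inv_pow]
        field_simp
      exact hpow (ν.natDegree - i) _ _ (hνR i) hV hc
    · rw [Polynomial.coeff_eq_zero_of_natDegree_lt (by omega)]
      exact R.zero_mem
  have hl : μ ∈ Polynomial.lifts (algebraMap R K₀) :=
    (Polynomial.lifts_iff_coeff_lifts μ).mpr fun i => ⟨⟨μ.coeff i, hμR i⟩, rfl⟩
  obtain ⟨q, hq, -, hqmon⟩ := Polynomial.lifts_and_natDegree_eq_and_monic hl hμmon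
  refine ⟨q, hqmon, ?_⟩
  have hq2 : eval₂ (algebraMap R F) (w : F) q
      = Polynomial.aeval (w : F) (q.map (algebraMap R K₀)) := by
    rw [Polynomial.aeval_def, Polynomial.eval₂_map]
    rfl
  rw [hq2, hq, minpoly.aeval]

end Integral

section Wrapper

variable {F κ : Type*} [Field F] [CommRing κ] [IsDomain κ]

/-- The main statement for a subfield `K₀ ⊆ F` and a subring `R ⊆ F` (shape of board #1063). -/
theorem integral_of_mul (V : Subring F) (π : V) (hπ0 : (π : F) ≠ 0) (red : V →+* κ)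
    (hπ : red π = 0) (hker : ∀ v : V, red v = 0 → ∃ w : V, v = π * w)
    (hval : ∀ x : F, x ≠ 0 → ∃ (m : ℤ) (u : V), red u ≠ 0 ∧ x = (π : F) ^ m * u)
    (K₀ : Subfield F) (hπK : (π : F) ∈ K₀) (R : Subring F) (hRV : R ≤ V)
    (hRK : R ≤ K₀.toSubring) (hRic : ∀ a ∈ K₀, IsIntegral R a → a ∈ R)
    (hRπ : ∀ (w : V), ((π : F) * w) ∈ R → (w : F) ∈ R) (n : ℕ)
    (hfin : Module.finrank K₀ F = n) (hn : 0 < n) (x : Fin n → V)
    (hind : ∀ c : Fin n → V, (∀ i, (c i : F) ∈ K₀) → ∑ i, red (c i) * red (x i) = 0 →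
      ∀ i, red (c i) = 0) :
    ∀ y : F, IsIntegral R y → y ∈ V ∧ ∀ w : V, y = (π : F) * w → IsIntegral R (w : F) := by
  intro y hy
  have hG : IsGauss V π red := ⟨hπ0, hπ, hker, hval⟩
  let R₀ : Subring K₀ := R.comap K₀.subtype
  let φ : R →+* R₀ :=
    { toFun := fun r => ⟨⟨(r : F), hRK r.2⟩, r.2⟩
      map_one' := rfl
      map_mul' := fun _ _ => rfl
      map_zero' := rfl
      map_add' := fun _ _ => rfl }
  let φ' : R₀ →+* R :=
    { toFun := fun r => ⟨((r : K₀) : F), r.2⟩
      map_one' := rfl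
      map_mul' := fun _ _ => rfl
      map_zero' := rfl
      map_add' := fun _ _ => rfl }
  have hy₀ : IsIntegral R₀ y := hy.map_of_comp_eq φ (RingHom.id F) (by ext; rfl)
  have key := hG.integral_of_mul (K₀ := K₀) (⟨(π : F), hπK⟩ : K₀) rfl x
    (fun c hc => hind c fun i => by
      obtain ⟨a, ha⟩ := hc i
      rw [← ha]
      exact a.2)
    hfin hn R₀ (fun a ha => hRV ha)
    (fun a ha => by
      have h1 : IsIntegral R ((a : K₀) : F) :=
        ha.map_of_comp_eq φ' (algebraMap K₀ F) (by ext; rfl)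
      exact hRic _ a.2 h1)
    (fun a b ha hb hab => by
      have h1 : (π : F) * ((⟨(b : F), hb⟩ : V) : F) ∈ R := by
        have h2 : ((a : K₀) : F) ∈ R := ha
        have h3 : ((a : K₀) : F) = (π : F) * (b : F) := by
          have := congrArg (fun t : K₀ => (t : F)) hab
          simpa using this
        rw [← h3]
        exact h2
      exact hRπ ⟨(b : F), hb⟩ h1)
    y hy₀
  refine ⟨key.1, fun w hw => ?_⟩
  exact (key.2 w hw).map_of_comp_eq φ' (RingHom.id F) (by ext; rfl)

/-- Integral elements over a subring of `V` lie in `V` (shape for the middle chart). -/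
theorem mem_of_isIntegral_of_le (V : Subring F) (π : V) (hπ0 : (π : F) ≠ 0) (red : V →+* κ)
    (hπ : red π = 0) (hker : ∀ v : V, red v = 0 → ∃ w : V, v = π * w)
    (hval : ∀ x : F, x ≠ 0 → ∃ (m : ℤ) (u : V), red u ≠ 0 ∧ x = (π : F) ^ m * u)
    (R : Subring F) (hRV : R ≤ V) (y : F) (hy : IsIntegral R y) : y ∈ V := by
  have hG : IsGauss V π red := ⟨hπ0, hπ, hker, hval⟩
  exact hG.mem_of_isIntegral (hy.map_of_comp_eq (Subring.inclusion hRV) (RingHom.id F) (by ext; rfl))

end Wrapper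

end Fermat.Agent.S28.H95
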