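import Mathlib
import Fermat.Agent.S24.CoverRam_helper98
import Fermat.Agent.S24.CoverAsm_helper31
import Fermat.Agent.S24.ValSpec_helper90
import Fermat.Agent.S24.PhiData_helper69
import Fermat.Agent.S24.Finite_helper89
import Fermat.Agent.S24.LinDisj_helper31
import Fermat.Agent.S24.JTrans_helper89
import Fermat.Prelude.Def_ModularCurve_IgusaScheme

/-!
# S28, WP-C: the degree of the modular function field over `ℚ(j)` is at most `ψ(N)`

* `finrank_bar` : `[Kbar(j_d : d ∣ N) : Kbar(j)] = ψ(N)` (the degree theorem of S24);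
* `exists_polynomial_relation` : more than `ψ(N)` elements of `modularFunctionFieldFull N`
  satisfy a nontrivial linear relation with coefficients in `ℚ[j]`;
* `finrank_full_le` : `[ℚ(j_d : d ∣ N) : ℚ(j)] ≤ ψ(N)`.
-/

set_option autoImplicit false

open IntermediateField
open scoped MatrixGroups
open ModularCurve CongruenceSubgroup
open ModularCurve.IgusaScheme (jFull coe_jFull)

namespace Fermat.Agent.S28.H98

/-- A nontrivial linear relation among the coefficientwise images of Laurent series descends
(any finite index type). -/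
theorem exists_relation_of_coeffMap_fintype {K C : Type*} [Field K] [Field C] (φ : K →+* C)
    {ι : Type*} [Fintype ι] (u : ι → LaurentSeries K) (c : ι → C) (hc : c ≠ 0)
    (h : ∑ k, c k • coeffMap φ (u k) = 0) :
    ∃ a : ι → K, a ≠ 0 ∧ ∑ k, a k • u k = 0 := by
  classical
  let e := Fintype.equivFin ι
  have hc' : (fun k => c (e.symm k)) ≠ 0 := by
    intro h0
    apply hc
    funext i
    have := congrFun h0 (e i)
    simpa using this
  have h' : ∑ k, c (e.symm k) • coeffMap φ (u (e.symm k)) = 0 := by
    rw [← h]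
    exact Equiv.sum_comp e.symm (fun i => c i • coeffMap φ (u i))
  obtain ⟨a, ha, hsum⟩ := S24.H31.exists_relation_of_coeffMap φ (fun k => u (e.symm k))
    (fun k => c (e.symm k)) hc' h'
  refine ⟨fun i => a (e i), ?_, ?_⟩
  · intro h0
    apply ha
    funext k
    have := congrFun h0 (e.symm k)
    simpa using this
  · rw [← hsum]
    exact (Equiv.sum_comp e.symm (fun i => a (e i) • u i)).symm.trans (by simp)

/-- the algebra scalar multiplication on Laurent series is the coefficientwise one -/
theorem algebraMap_mul_eq_smul {K : Type*} [Field K] (c : K) (y : LaurentSeries K) :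
    algebraMap K (LaurentSeries K) c * y = c • y := by
  rw [algebraMap_laurentSeries_eq_single]
  exact HahnSeries.C_mul_eq_smul

/-- `j` is transcendental over `ℚ`. -/
theorem transcendental_jq : Transcendental ℚ jq := by
  have h := S24.H89.transcendental_jqModC ℚ
  rwa [jqModC_rat] at h

/-- **(U0)** the degree theorem of S24. -/
theorem finrank_bar (N : ℕ) [NeZero N] :
    FiniteDimensional (AlgebraicClosure ℚ)⟮S24.H98.jBar N⟯ ↥(modularFunctionFieldBar N) ∧
      Module.finrank (AlgebraicClosure ℚ)⟮S24.H98.jBar N⟯ ↥(modularFunctionFieldBar N)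
        = dedekindPsi N := by
  obtain ⟨P⟩ := S24.H69.nonempty_phiData N
  let C : S24.H98.AnalyticCover N :=
    S24.H31.analyticCoverOf (S24.H90.valSpec N) P (S24.H89.finite_FN P)
  refine ⟨C.finite, ?_⟩
  rw [C.finrank_eq (S24.H89.transcendental_jBar N _), ← Nat.card_eq_fintype_card]
  exact S24.H35.card_quotient_Gamma0 N (NeZero.ne N)

/-- **(U2)** more than `ψ(N)` elements of the modular function field over `ℚ` satisfy a
nontrivial linear relation with coefficients in `ℚ[j]`. -/
theorem exists_polynomial_relation (N : ℕ) [NeZero N] {ι : Type*} [Fintype ι]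
    (x : ι → LaurentSeries ℚ) (hx : ∀ i, x i ∈ modularFunctionFieldFull N)
    (hcard : dedekindPsi N < Fintype.card ι) :
    ∃ P : ι → Polynomial ℚ, P ≠ 0 ∧ ∑ i, Polynomial.aeval jq (P i) * x i = 0 := by
  classical
  obtain ⟨hfd, hrank⟩ := finrank_bar N
  have hα : Transcendental (AlgebraicClosure ℚ) (S24.H98.jBar N) :=
    S24.H89.transcendental_jBar N _
  -- the images of the `x i` in the function field over `Kbar`
  let X : ι → ↥(modularFunctionFieldBar N) := fun i =>
    ⟨coeffEmb (AlgebraicClosure ℚ) (x i), coeffEmb_mem_laurentBaseChange _ (hx i)⟩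
  have hdep : ¬ LinearIndependent (AlgebraicClosure ℚ)⟮S24.H98.jBar N⟯ X := by
    intro hli
    have := hli.fintype_card_le_finrank
    omega
  obtain ⟨g, hg, i₀, hi₀⟩ := Fintype.not_linearIndependent_iff.mp hdep
  -- numerators and denominators
  have hfrac : ∀ i, ∃ r s : Polynomial (AlgebraicClosure ℚ), s ≠ 0 ∧
      ((g i : ↥(modularFunctionFieldBar N))) * Polynomial.aeval (S24.H98.jBar N) s
        = Polynomial.aeval (S24.H98.jBar N) r := by
    intro i
    obtain ⟨r, s, hrs⟩ := (IntermediateField.mem_adjoin_simple_iff (AlgebraicClosure ℚ) _).mp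
      (g i).2
    by_cases hs : Polynomial.aeval (S24.H98.jBar N) s = 0
    · refine ⟨0, 1, one_ne_zero, ?_⟩
      rw [hrs, hs, div_zero]; simp
    · refine ⟨r, s, fun h => hs (by rw [h, map_zero]), ?_⟩
      rw [hrs, div_mul_cancel₀ _ hs]
  choose r s hs hrs using hfrac
  let P : ι → Polynomial (AlgebraicClosure ℚ) := fun i => r i * ∏ j ∈ Finset.univ.erase i, s j
  have hPi : ∀ i, Polynomial.aeval (S24.H98.jBar N) (P i)
      = (g i : ↥(modularFunctionFieldBar N)) * Polynomial.aeval (S24.H98.jBar N) (∏ j, s j) := by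
    intro i
    rw [← Finset.mul_prod_erase Finset.univ s (Finset.mem_univ i)]
    simp only [P, map_mul]
    rw [← hrs i]; ring
  have hD : Polynomial.aeval (S24.H98.jBar N) (∏ j, s j) ≠ 0 := by
    intro h
    exact Finset.prod_ne_zero_iff.mpr (fun j _ => hs j) (transcendental_iff.mp hα _ h)
  have hP0 : P i₀ ≠ 0 := by
    intro h
    have h1 := hPi i₀
    rw [h, map_zero] at h1
    rcases mul_eq_zero.mp h1.symm with h2 | h2
    · exact hi₀ (Subtype.ext h2)
    · exact hD h2
  have hrel : ∑ i, Polynomial.aeval (S24.H98.jBar N) (P i) * X i = 0 := by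
    have h1 : ∑ i, Polynomial.aeval (S24.H98.jBar N) (P i) * X i
        = Polynomial.aeval (S24.H98.jBar N) (∏ j, s j) * ∑ i, g i • X i := by
      rw [Finset.mul_sum]
      refine Finset.sum_congr rfl fun i _ => ?_
      rw [hPi i, IntermediateField.smul_def, smul_eq_mul]
      ring
    rw [h1, hg, mul_zero]
  -- pass to Laurent series over `Kbar`
  have hrel' : ∑ i, Polynomial.aeval (coeffEmb (AlgebraicClosure ℚ) jq) (P i)
      * coeffEmb (AlgebraicClosure ℚ) (x i) = 0 := by
    have h1 := congrArg (fun y : ↥(modularFunctionFieldBar N) =>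
      (y : LaurentSeries (AlgebraicClosure ℚ))) hrel
    simp only [AddSubmonoidClass.coe_finset_sum, MulMemClass.coe_mul, ZeroMemClass.coe_zero] at h1
    rw [← h1]
    refine Finset.sum_congr rfl fun i _ => ?_
    congr 1
    exact Polynomial.aeval_algHom_apply (modularFunctionFieldBar N).val (S24.H98.jBar N)
      (P i)
  -- expand in monomials
  set n : ℕ := (Finset.univ.sup fun i => (P i).natDegree) + 1 with hn
  have hdeg : ∀ i, (P i).natDegree < n := fun i =>
    Nat.lt_succ_of_le (Finset.le_sup (f := fun i => (P i).natDegree) (Finset.mem_univ i))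
  have hexp : ∑ p : ι × Fin n, (P p.1).coeff p.2 •
      coeffMap (algebraMap ℚ (AlgebraicClosure ℚ)) (jq ^ (p.2 : ℕ) * x p.1) = 0 := by
    rw [← hrel', Fintype.sum_prod_type]
    refine Finset.sum_congr rfl fun i _ => ?_
    rw [Polynomial.aeval_eq_sum_range' (hdeg i), Finset.sum_mul, Finset.sum_range]
    refine Finset.sum_congr rfl fun k _ => ?_
    rw [Algebra.smul_def, mul_assoc, algebraMap_mul_eq_smul, map_mul, map_pow]
    rfl
  have hc : (fun p : ι × Fin n => (P p.1).coeff p.2) ≠ 0 := by
    intro h0
    have := congrFun h0 (i₀, ⟨(P i₀).natDegree, hdeg i₀⟩)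
    simp only [Pi.zero_apply] at this
    exact hP0 (Polynomial.leadingCoeff_eq_zero.mp this)
  obtain ⟨a, ha, hsum⟩ := exists_relation_of_coeffMap_fintype
    (algebraMap ℚ (AlgebraicClosure ℚ)) (fun p : ι × Fin n => jq ^ (p.2 : ℕ) * x p.1) _ hc hexp
  -- the polynomials over `ℚ`
  refine ⟨fun i => ∑ k : Fin n, Polynomial.monomial (k : ℕ) (a (i, k)), ?_, ?_⟩
  · intro h0
    apply ha
    funext p
    obtain ⟨i, k⟩ := p
    have h1 := congrArg (fun Q : Polynomial ℚ => Q.coeff (k : ℕ)) (congrFun h0 i)
    simp only [Pi.zero_apply, Polynomial.finset_sum_coeff, Polynomial.coeff_monomial,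
      Polynomial.coeff_zero] at h1
    rw [Finset.sum_eq_single k (fun b _ hb => if_neg fun h => hb (Fin.ext h))
      (fun h => absurd (Finset.mem_univ k) h), if_pos rfl] at h1
    exact h1
  · rw [← hsum, Fintype.sum_prod_type]
    refine Finset.sum_congr rfl fun i _ => ?_
    rw [map_sum, Finset.sum_mul]
    refine Finset.sum_congr rfl fun k _ => ?_
    rw [Polynomial.aeval_monomial, mul_assoc, algebraMap_mul_eq_smul]

/-- ring homomorphisms commute with the evaluation of rational polynomials, whatever the
`ℚ`-algebra structures are -/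
theorem map_aeval_rat {A B : Type*} [Ring A] [Ring B] [Algebra ℚ A] [Algebra ℚ B] (f : A →+* B)
    (a : A) (P : Polynomial ℚ) : f (Polynomial.aeval a P) = Polynomial.aeval (f a) P := by
  rw [Polynomial.aeval_def, Polynomial.aeval_def, Polynomial.hom_eval₂]
  congr 1
  exact Subsingleton.elim _ _

theorem coe_aeval_full (N : ℕ) [NeZero N] (y : ↥(modularFunctionFieldFull N))
    (P : Polynomial ℚ) :
    ((Polynomial.aeval y P : ↥(modularFunctionFieldFull N)) : LaurentSeries ℚ)
      = Polynomial.aeval (y : LaurentSeries ℚ) P :=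
  map_aeval_rat (SubringClass.subtype (modularFunctionFieldFull N)) y P

theorem transcendental_jFull (N : ℕ) [NeZero N] : Transcendental ℚ (jFull N) := by
  rintro ⟨p, hp, hp0⟩
  refine transcendental_jq ⟨p, hp, ?_⟩
  have h := coe_aeval_full N (jFull N) p
  rw [hp0] at h
  exact h.symm

/-- **(U1)** the degree of the modular function field over `ℚ(j)` is at most `ψ(N)`. -/
theorem finrank_full_le (N : ℕ) [NeZero N] :
    FiniteDimensional ℚ⟮jFull N⟯ ↥(modularFunctionFieldFull N) ∧
      Module.finrank ℚ⟮jFull N⟯ ↥(modularFunctionFieldFull N) ≤ dedekindPsi N := by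
  classical
  have key : ∀ s : Finset ↥(modularFunctionFieldFull N),
      LinearIndependent ℚ⟮jFull N⟯ (fun i : s => (i : ↥(modularFunctionFieldFull N))) →
        s.card ≤ dedekindPsi N := by
    intro s hli
    by_contra hlt
    have hlt' := not_le.mp hlt
    obtain ⟨P, hP, hsum⟩ := exists_polynomial_relation N (ι := s)
      (fun i => ((i : ↥(modularFunctionFieldFull N)) : LaurentSeries ℚ)) (fun i => i.1.2)
      (by simpa using hlt')
    let g : s → ℚ⟮jFull N⟯ := fun i =>
      Polynomial.aeval (AdjoinSimple.gen ℚ (jFull N)) (P i)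
    have hgcoe : ∀ i, ((g i : ↥(modularFunctionFieldFull N)) : LaurentSeries ℚ)
        = Polynomial.aeval jq (P i) := by
      intro i
      have h1 : ((g i : ℚ⟮jFull N⟯) : ↥(modularFunctionFieldFull N))
          = Polynomial.aeval (jFull N) (P i) := by
        have := map_aeval_rat (SubringClass.subtype ℚ⟮jFull N⟯) (AdjoinSimple.gen ℚ (jFull N))
          (P i)
        exact this
      rw [h1]
      exact coe_aeval_full N (jFull N) (P i)
    have hg : ∑ i, g i • (i : ↥(modularFunctionFieldFull N)) = 0 := by
      apply Subtype.ext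
      rw [AddSubmonoidClass.coe_finset_sum, ZeroMemClass.coe_zero, ← hsum]
      refine Finset.sum_congr rfl fun i _ => ?_
      rw [IntermediateField.smul_def, smul_eq_mul, MulMemClass.coe_mul, hgcoe]
    have hzero := Fintype.linearIndependent_iff.mp hli g hg
    apply hP
    funext i
    have h1 := hgcoe i
    rw [hzero i] at h1
    have h2 : Polynomial.aeval jq (P i) = 0 := by
      rw [← h1]; rfl
    exact transcendental_iff.mp transcendental_jq _ h2
  have hrank : Module.rank ℚ⟮jFull N⟯ ↥(modularFunctionFieldFull N) ≤ (dedekindPsi N : ℕ) :=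
    rank_le key
  have hfin : FiniteDimensional ℚ⟮jFull N⟯ ↥(modularFunctionFieldFull N) :=
    Module.rank_lt_aleph0_iff.mp (lt_of_le_of_lt hrank (Cardinal.nat_lt_aleph0 _))
  refine ⟨hfin, ?_⟩
  have h2 := Module.finrank_eq_rank ℚ⟮jFull N⟯ ↥(modularFunctionFieldFull N)
  rw [← h2] at hrank
  exact_mod_cast hrank

end Fermat.Agent.S28.H98
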