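import Mathlib
import Fermat.Prelude.Def_ModularCurve_IgusaScheme
import Fermat.Prelude.Def_ModularCurve_X0ModL

/-!
S28, valuation part (helper36), file A: the residue map `Zl -> ZMod l`, the coefficientwise
reduction on Laurent series over `Zl`, and the generic division lemma.
-/

set_option autoImplicit false

noncomputable section

namespace Fermat.Agent.S28.H36

/-- Generic division lemma: if `ker red ⊆ π R` and `π ^ B ∤ r` then `r = π ^ m * r₀`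
with `red r₀ ≠ 0`. -/
theorem exists_pow_mul_of_bound {R S : Type*} [CommRing R] [CommRing S] (red : R →+* S) (π : R)
    (hker : ∀ r, red r = 0 → ∃ r', r = π * r') :
    ∀ (B : ℕ) (r : R), ¬ π ^ B ∣ r → ∃ (m : ℕ) (r₀ : R), r = π ^ m * r₀ ∧ red r₀ ≠ 0 := by
  intro B
  induction B with
  | zero => intro r hB; exact absurd (by simp) hB
  | succ B ih =>
    intro r hB
    by_cases h : red r = 0
    · obtain ⟨r', rfl⟩ := hker r h
      have h' : ¬ π ^ B ∣ r' := fun hd => hB (by rw [pow_succ']; exact mul_dvd_mul_left π hd)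
      obtain ⟨m, r₀, rfl, h0⟩ := ih r' h'
      exact ⟨m + 1, r₀, by ring, h0⟩
    · exact ⟨0, r, by simp, h⟩

/-- `ℤ_(ℓ)` as a type. -/
abbrev Zl (ℓ : ℕ) : Type := ↥(GaloisRep.ratLocalizedAt ℓ)

section ZlSec

variable (ℓ : ℕ) [Fact ℓ.Prime]

theorem den_ne_zero_zmod (x : Zl ℓ) : (((x : ℚ).den : ℕ) : ZMod ℓ) ≠ 0 := by
  intro h
  rw [ZMod.natCast_eq_zero_iff] at h
  have hc : ((x : ℚ).den).Coprime ℓ := x.2
  have := Nat.Coprime.eq_one_of_dvd hc.symm h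
  exact (Fact.out : ℓ.Prime).ne_one this

/-- The residue map `ℤ_(ℓ) → 𝔽_ℓ`. -/
def resZl : Zl ℓ →+* ZMod ℓ where
  toFun x := ((x : ℚ) : ZMod ℓ)
  map_one' := by simp
  map_zero' := by simp
  map_add' x y := by
    show (((x + y : Zl ℓ) : ℚ) : ZMod ℓ) = _
    rw [Subring.coe_add]
    exact Rat.cast_add_of_ne_zero (den_ne_zero_zmod ℓ x) (den_ne_zero_zmod ℓ y)
  map_mul' x y := by
    show (((x * y : Zl ℓ) : ℚ) : ZMod ℓ) = _
    rw [Subring.coe_mul]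
    exact Rat.cast_mul_of_ne_zero (den_ne_zero_zmod ℓ x) (den_ne_zero_zmod ℓ y)

theorem resZl_apply (x : Zl ℓ) : resZl ℓ x = ((x : ℚ) : ZMod ℓ) := rfl

omit [Fact ℓ.Prime] in
theorem intCast_mem_Zl (m : ℤ) : (m : ℚ) ∈ GaloisRep.ratLocalizedAt ℓ := by
  show ((m : ℚ).den).Coprime ℓ
  simp

omit [Fact ℓ.Prime] in
theorem inv_natCast_mem_Zl {d : ℕ} (hd : d.Coprime ℓ) : ((d : ℚ))⁻¹ ∈ GaloisRep.ratLocalizedAt ℓ := by
  show (((d : ℚ))⁻¹.den).Coprime ℓ
  rcases Nat.eq_zero_or_pos d with rfl | hpos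
  · simp
  · rw [Rat.inv_natCast_den_of_pos hpos]; exact hd

/-- kernel of the residue map is generated by `ℓ`. -/
theorem resZl_eq_zero (x : Zl ℓ) (hx : resZl ℓ x = 0) : ∃ y : Zl ℓ, x = (ℓ : Zl ℓ) * y := by
  rw [resZl_apply, Rat.cast_def, div_eq_zero_iff] at hx
  rcases hx with hx | hx
  · rw [ZMod.intCast_zmod_eq_zero_iff_dvd] at hx
    obtain ⟨m, hm⟩ := hx
    refine ⟨⟨(m : ℚ) * ((x : ℚ).den : ℚ)⁻¹,
      Subring.mul_mem _ (intCast_mem_Zl ℓ m) (inv_natCast_mem_Zl ℓ x.2)⟩, Subtype.ext ?_⟩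
    show (x : ℚ) = (ℓ : ℚ) * ((m : ℚ) * ((x : ℚ).den : ℚ)⁻¹)
    calc (x : ℚ) = ((x : ℚ).num : ℚ) / ((x : ℚ).den : ℚ) := (Rat.num_div_den _).symm
      _ = (ℓ : ℚ) * ((m : ℚ) * ((x : ℚ).den : ℚ)⁻¹) := by rw [hm]; push_cast; ring
  · exact absurd hx (den_ne_zero_zmod ℓ x)

theorem resZl_natCast_self : resZl ℓ (ℓ : Zl ℓ) = 0 := by
  rw [map_natCast]; exact ZMod.natCast_self ℓ

/-- bound for divisibility by powers of `ℓ` in `ℤ_(ℓ)`. -/
theorem not_pow_dvd_Zl (x : Zl ℓ) (hx : x ≠ 0) : ¬ (ℓ : Zl ℓ) ^ ((x : ℚ).num.natAbs) ∣ x := by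
  rintro ⟨y, hy⟩
  set B := (x : ℚ).num.natAbs with hB
  have hxq : (x : ℚ) ≠ 0 := fun h => hx (Subtype.ext h)
  have h1 : (x : ℚ) = (ℓ : ℚ) ^ B * (y : ℚ) := by
    have := congrArg (Subtype.val) hy
    simpa using this
  have h2 : ((x : ℚ).num : ℚ) * ((y : ℚ).den : ℚ) = (ℓ : ℚ) ^ B * ((y : ℚ).num : ℚ) * ((x : ℚ).den : ℚ) := by
    have hx' : (x : ℚ) = ((x : ℚ).num : ℚ) / ((x : ℚ).den : ℚ) := (Rat.num_div_den _).symm
    have hy' : (y : ℚ) = ((y : ℚ).num : ℚ) / ((y : ℚ).den : ℚ) := (Rat.num_div_den _).symm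
    have hxd : ((x : ℚ).den : ℚ) ≠ 0 := by exact_mod_cast (x : ℚ).den_ne_zero
    have hyd : ((y : ℚ).den : ℚ) ≠ 0 := by exact_mod_cast (y : ℚ).den_ne_zero
    rw [hx', hy'] at h1
    field_simp at h1
    linarith [h1]
  have h3 : (x : ℚ).num * ((y : ℚ).den : ℤ) = (ℓ : ℤ) ^ B * (y : ℚ).num * ((x : ℚ).den : ℤ) := by
    exact_mod_cast h2
  have hcop : IsCoprime ((ℓ : ℤ) ^ B) (((y : ℚ).den : ℕ) : ℤ) := by
    apply IsCoprime.pow_left
    rw [Int.isCoprime_iff_gcd_eq_one, Int.gcd_natCast_natCast]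
    exact (Nat.Coprime.symm y.2)
  have h4 : (ℓ : ℤ) ^ B ∣ (x : ℚ).num := by
    apply hcop.dvd_of_dvd_mul_right
    rw [h3]
    exact ⟨(y : ℚ).num * ((x : ℚ).den : ℤ), by ring⟩
  have hnum : (x : ℚ).num ≠ 0 := Rat.num_ne_zero.mpr hxq
  have h5 : ℓ ^ B ≤ B := by
    have := Int.natAbs_dvd_natAbs.mpr h4
    rw [Int.natAbs_pow, Int.natAbs_natCast] at this
    exact Nat.le_of_dvd (Int.natAbs_pos.mpr hnum) this
  exact absurd h5 (not_le.mpr (Nat.lt_pow_self (Fact.out : ℓ.Prime).one_lt))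

end ZlSec

section LaurentZl

variable (ℓ : ℕ) [Fact ℓ.Prime]

/-- coefficientwise inclusion `ℤ_(ℓ)((q)) → ℚ((q))`. -/
def ιA : LaurentSeries (Zl ℓ) →+* LaurentSeries ℚ :=
  ModularCurve.coeffMap (GaloisRep.ratLocalizedAt ℓ).subtype

/-- coefficientwise reduction `ℤ_(ℓ)((q)) → 𝔽_ℓ((q))`. -/
def redA : LaurentSeries (Zl ℓ) →+* LaurentSeries (ZMod ℓ) :=
  ModularCurve.coeffMap (resZl ℓ)

omit [Fact ℓ.Prime] in
theorem ιA_coeff (a : LaurentSeries (Zl ℓ)) (k : ℤ) : (ιA ℓ a).coeff k = ((a.coeff k : Zl ℓ) : ℚ) := rfl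

theorem redA_coeff (a : LaurentSeries (Zl ℓ)) (k : ℤ) : (redA ℓ a).coeff k = resZl ℓ (a.coeff k) := rfl

omit [Fact ℓ.Prime] in
theorem ιA_injective : Function.Injective (ιA ℓ) := by
  intro a b h
  ext k
  have := congrArg (fun x => x.coeff k) h
  simp only [ιA_coeff] at this
  exact_mod_cast this

theorem natCast_mul_coeff {R : Type*} [CommRing R] (m : ℕ) (a : LaurentSeries R) (k : ℤ) :
    ((m : LaurentSeries R) * a).coeff k = (m : R) * a.coeff k := by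
  rw [← map_natCast (HahnSeries.C (Γ := ℤ) (R := R)) m, HahnSeries.C_mul_eq_smul,
    HahnSeries.coeff_smul, smul_eq_mul]

theorem redA_eq_zero (a : LaurentSeries (Zl ℓ)) (ha : redA ℓ a = 0) :
    ∃ a', a = (ℓ : LaurentSeries (Zl ℓ)) * a' := by
  classical
  have hc : ∀ k, ∃ y : Zl ℓ, a.coeff k = (ℓ : Zl ℓ) * y := fun k => resZl_eq_zero ℓ _ (by
    have := congrArg (fun x => x.coeff k) ha
    simpa [redA_coeff] using this)
  let f : ZeroHom (Zl ℓ) (Zl ℓ) :=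
    ⟨fun c => if h : c ≠ 0 ∧ ∃ y : Zl ℓ, c = (ℓ : Zl ℓ) * y then h.2.choose else 0, by simp⟩
  refine ⟨a.map f, HahnSeries.ext (funext fun k => ?_)⟩
  rw [natCast_mul_coeff, HahnSeries.map_coeff]
  show a.coeff k = (ℓ : Zl ℓ) *
    (if h : a.coeff k ≠ 0 ∧ ∃ y : Zl ℓ, a.coeff k = (ℓ : Zl ℓ) * y then h.2.choose else 0)
  by_cases h0 : a.coeff k = 0
  · rw [dif_neg (by simp [h0]), h0, mul_zero]
  · rw [dif_pos ⟨h0, hc k⟩]
    exact (hc k).choose_spec

theorem redA_natCast_self : redA ℓ (ℓ : LaurentSeries (Zl ℓ)) = 0 := by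
  rw [map_natCast]
  have : ((ℓ : ℕ) : ZMod ℓ) = 0 := ZMod.natCast_self ℓ
  rw [← map_natCast (HahnSeries.C (Γ := ℤ) (R := ZMod ℓ)) ℓ, this, map_zero]

theorem not_pow_dvd_A (a : LaurentSeries (Zl ℓ)) (ha : a ≠ 0) :
    ∃ B : ℕ, ¬ (ℓ : LaurentSeries (Zl ℓ)) ^ B ∣ a := by
  obtain ⟨k, hk⟩ : ∃ k, a.coeff k ≠ 0 := by
    by_contra h
    exact ha (HahnSeries.ext (funext fun k => by
      by_contra hk
      exact h ⟨k, hk⟩))
  have key : ∀ B : ℕ, (ℓ : LaurentSeries (Zl ℓ)) ^ B ∣ a → (ℓ : Zl ℓ) ^ B ∣ a.coeff k := by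
    rintro B ⟨a', ha'⟩
    refine ⟨a'.coeff k, ?_⟩
    have : a.coeff k = ((ℓ : LaurentSeries (Zl ℓ)) ^ B * a').coeff k := by rw [← ha']
    rw [this, ← Nat.cast_pow, natCast_mul_coeff, Nat.cast_pow]
  exact ⟨_, fun h => not_pow_dvd_Zl ℓ (a.coeff k) hk (key _ h)⟩

/-- normal form in `ℤ_(ℓ)((q))`. -/
theorem exists_pow_mul_A (a : LaurentSeries (Zl ℓ)) (ha : a ≠ 0) :
    ∃ (m : ℕ) (a₀ : LaurentSeries (Zl ℓ)),
      a = (ℓ : LaurentSeries (Zl ℓ)) ^ m * a₀ ∧ redA ℓ a₀ ≠ 0 := by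
  obtain ⟨B, hB⟩ := not_pow_dvd_A ℓ a ha
  exact exists_pow_mul_of_bound (redA ℓ) _ (redA_eq_zero ℓ) B a hB

end LaurentZl

section Loc

variable {A 𝕃 kt : Type*} [CommRing A] [Field 𝕃] [Field kt] (ι : A →+* 𝕃) (red : A →+* kt)

/-- elements with nonzero reduction. -/
def Mred : Submonoid A where
  carrier := {a | red a ≠ 0}
  one_mem' := by simp
  mul_mem' := by
    intro a b ha hb
    show red (a * b) ≠ 0
    rw [map_mul]
    exact mul_ne_zero ha hb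

/-- the localization at the kernel of the reduction. -/
abbrev OLoc : Type _ := Localization (Mred red)

variable (hι : Function.Injective ι)

/-- the embedding of the localization in the ambient field. -/
def ιO : OLoc red →+* 𝕃 :=
  IsLocalization.lift (M := Mred red) (g := ι) (fun y => by
    have hy : red (y : A) ≠ 0 := y.2
    have : (y : A) ≠ 0 := fun h => hy (by rw [h, map_zero])
    exact IsUnit.mk0 _ (fun h => this (hι (by rw [h, map_zero]))))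

/-- the reduction on the localization. -/
def redO : OLoc red →+* kt :=
  IsLocalization.lift (M := Mred red) (g := red) (fun y => IsUnit.mk0 _ y.2)

theorem ιO_algebraMap (a : A) : ιO ι red hι (algebraMap A (OLoc red) a) = ι a :=
  IsLocalization.lift_eq _ a

theorem redO_algebraMap (a : A) : redO red (algebraMap A (OLoc red) a) = red a :=
  IsLocalization.lift_eq _ a

theorem exists_rep (z : OLoc red) : ∃ (a s : A), red s ≠ 0 ∧
    z * algebraMap A (OLoc red) s = algebraMap A (OLoc red) a := by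
  obtain ⟨a, s, rfl⟩ := IsLocalization.exists_mk'_eq (Mred red) z
  exact ⟨a, s, s.2, IsLocalization.mk'_spec _ a s⟩

theorem isUnit_algebraMap_of_red_ne {s : A} (hs : red s ≠ 0) :
    IsUnit (algebraMap A (OLoc red) s) :=
  IsLocalization.map_units (OLoc red) (⟨s, hs⟩ : Mred red)

theorem ιO_injective : Function.Injective (ιO ι red hι) := by
  rw [injective_iff_map_eq_zero]
  intro z hz
  obtain ⟨a, s, hs, h⟩ := exists_rep red z
  have h1 := congrArg (ιO ι red hι) h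
  rw [map_mul, ιO_algebraMap, ιO_algebraMap, hz, zero_mul] at h1
  have ha : a = 0 := hι (by rw [← h1, map_zero])
  rw [ha, map_zero] at h
  exact (isUnit_algebraMap_of_red_ne red hs).mul_left_eq_zero.mp h

theorem redO_eq_zero (π : A) (hker : ∀ a, red a = 0 → ∃ a', a = π * a') (z : OLoc red)
    (hz : redO red z = 0) : ∃ z', z = algebraMap A (OLoc red) π * z' := by
  obtain ⟨a, s, hs, h⟩ := exists_rep red z
  have h1 := congrArg (redO red) h
  rw [map_mul, redO_algebraMap, redO_algebraMap, hz, zero_mul] at h1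
  obtain ⟨a', rfl⟩ := hker a h1.symm
  obtain ⟨u, hu⟩ := isUnit_algebraMap_of_red_ne red hs
  refine ⟨algebraMap A (OLoc red) a' * ↑u⁻¹, ?_⟩
  have : z = algebraMap A (OLoc red) (π * a') * ↑u⁻¹ := by
    rw [← h, ← hu, mul_assoc, Units.mul_inv, mul_one]
  rw [this, map_mul, mul_assoc]

theorem isUnit_of_redO_ne (z : OLoc red) (hz : redO red z ≠ 0) : IsUnit z := by
  obtain ⟨a, s, hs, h⟩ := exists_rep red z
  have h1 := congrArg (redO red) h
  rw [map_mul, redO_algebraMap, redO_algebraMap] at h1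
  have ha : red a ≠ 0 := by rw [← h1]; exact mul_ne_zero hz hs
  have : IsUnit (z * algebraMap A (OLoc red) s) := by
    rw [h]; exact isUnit_algebraMap_of_red_ne red ha
  exact isUnit_of_mul_isUnit_left this

theorem exists_pow_mul_ιO (π : A)
    (hnf : ∀ a, a ≠ 0 → ∃ (m : ℕ) (a₀ : A), a = π ^ m * a₀ ∧ red a₀ ≠ 0)
    (x : 𝕃) (g h : A) (hh : h ≠ 0) (hx : x * ι h = ι g) :
    ∃ (n : ℕ) (z : OLoc red), ιO ι red hι z = ι π ^ n * x := by
  obtain ⟨m, h₀, rfl, hh₀⟩ := hnf h hh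
  obtain ⟨u, hu⟩ := isUnit_algebraMap_of_red_ne red hh₀
  refine ⟨m, algebraMap A (OLoc red) g * ↑u⁻¹, ?_⟩
  have h₀ne : ι h₀ ≠ 0 := fun h0 => hh₀ (by rw [hι (h0.trans (map_zero ι).symm), map_zero])
  have hu' : ιO ι red hι (↑u⁻¹ : OLoc red) * ι h₀ = 1 := by
    rw [← ιO_algebraMap ι red hι h₀, ← map_mul, ← hu, Units.inv_mul, map_one]
  rw [map_mul, ιO_algebraMap, ← hx, map_mul, map_pow]
  have : ιO ι red hι (↑u⁻¹ : OLoc red) = (ι h₀)⁻¹ := eq_inv_of_mul_eq_one_left hu'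
  rw [this]
  field_simp

end Loc

end Fermat.Agent.S28.H36
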