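import Mathlib
import Fermat.Agent.S28.GaussA_helper36

/-!
S28, valuation part (helper36), file B: abstract Gauss data, the scaling (free module) lemma,
integrality over the valuation ring, and the two-ring minimal polynomial argument.
-/

set_option autoImplicit false

noncomputable section

namespace Fermat.Agent.S28.H36

open Polynomial

/-- change of coefficient ring for integral elements. -/
theorem isIntegralElem_of_range_le {R₁ R₂ S : Type*} [CommRing R₁] [CommRing R₂] [CommRing S]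
    (f₁ : R₁ →+* S) (f₂ : R₂ →+* S) (hle : ∀ r, f₁ r ∈ f₂.range) {y : S}
    (hy : f₁.IsIntegralElem y) : f₂.IsIntegralElem y := by
  obtain ⟨p, hp, hpy⟩ := hy
  have hl : p.map f₁ ∈ Polynomial.lifts f₂ :=
    (Polynomial.lifts_iff_coeff_lifts _).mpr fun i => by rw [coeff_map]; exact hle _
  obtain ⟨q, hq, -, hqm⟩ := Polynomial.lifts_and_natDegree_eq_and_monic hl (hp.map f₁)
  refine ⟨q, hqm, ?_⟩
  rw [Polynomial.eval₂_eq_eval_map, hq, ← Polynomial.eval₂_eq_eval_map]
  exact hpy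

/-- an element integral over two integrally closed rings with the same fraction field is
integral over any ring containing the intersection. -/
theorem isIntegralElem_of_two {R₁ R₂ R₀ K S : Type*} [CommRing R₁] [CommRing R₂] [CommRing R₀]
    [Field K] [Field S] [IsDomain R₁] [IsDomain R₂] [Algebra R₁ K] [Algebra R₂ K]
    [IsFractionRing R₁ K] [IsFractionRing R₂ K] [IsIntegrallyClosed R₁] [IsIntegrallyClosed R₂]
    [Algebra K S] (f₀ : R₀ →+* K)
    (hr : ∀ c : K, c ∈ (algebraMap R₁ K).range → c ∈ (algebraMap R₂ K).range → c ∈ f₀.range)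
    (y : S) (h₁ : ((algebraMap K S).comp (algebraMap R₁ K)).IsIntegralElem y)
    (h₂ : ((algebraMap K S).comp (algebraMap R₂ K)).IsIntegralElem y) :
    ((algebraMap K S).comp f₀).IsIntegralElem y := by
  have e₁ : IsIntegral K y ∧ ∃ q : R₁[X], minpoly K y = q.map (algebraMap R₁ K) := by
    letI : Algebra R₁ S := ((algebraMap K S).comp (algebraMap R₁ K)).toAlgebra
    haveI : IsScalarTower R₁ K S := IsScalarTower.of_algebraMap_eq' rfl
    have h₁' : IsIntegral R₁ y := h₁
    exact ⟨h₁'.tower_top, minpoly R₁ y, minpoly.isIntegrallyClosed_eq_field_fractions' K h₁'⟩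
  have e₂ : ∃ q : R₂[X], minpoly K y = q.map (algebraMap R₂ K) := by
    letI : Algebra R₂ S := ((algebraMap K S).comp (algebraMap R₂ K)).toAlgebra
    haveI : IsScalarTower R₂ K S := IsScalarTower.of_algebraMap_eq' rfl
    have h₂' : IsIntegral R₂ y := h₂
    exact ⟨minpoly R₂ y, minpoly.isIntegrallyClosed_eq_field_fractions' K h₂'⟩
  obtain ⟨hyK, q₁, hq₁⟩ := e₁
  obtain ⟨q₂, hq₂⟩ := e₂
  have hl : minpoly K y ∈ Polynomial.lifts f₀ :=
    (Polynomial.lifts_iff_coeff_lifts _).mpr fun i => by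
      refine hr _ ?_ ?_
      · rw [hq₁, coeff_map]; exact ⟨_, rfl⟩
      · rw [hq₂, coeff_map]; exact ⟨_, rfl⟩
  obtain ⟨q, hq, -, hqm⟩ := Polynomial.lifts_and_natDegree_eq_and_monic hl (minpoly.monic hyK)
  refine ⟨q, hqm, ?_⟩
  rw [← Polynomial.eval₂_map, hq]
  exact minpoly.aeval K y

section Abs

variable {O 𝕃 kt F : Type*} [CommRing O] [Field 𝕃] [Field kt] [Field F]

/-- abstract Gauss valuation data: a ring `O` with an embedding `ι` in a field, a reduction
`red` with kernel `π O`, such that elements with nonzero reduction are units, and every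
element of the field `F` (embedded by `φ`) becomes integral after multiplication by a power
of `π`. -/
structure IsGauss (ι : O →+* 𝕃) (red : O →+* kt) (π : O) (φ : F →+* 𝕃) : Prop where
  inj : Function.Injective ι
  ker : ∀ z, red z = 0 → ∃ z', z = π * z'
  red_pi : red π = 0
  unit : ∀ u, red u ≠ 0 → IsUnit u
  pow : ∀ x : F, ∃ (n : ℕ) (z : O), ι z = ι π ^ n * φ x
  pi_ne : ι π ≠ 0

variable {ι : O →+* 𝕃} {red : O →+* kt} {π : O} {φ : F →+* 𝕃}

namespace IsGauss

theorem normal_form (h : IsGauss ι red π φ) (x : F) (hx : x ≠ 0) :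
    ∃ (a b : ℕ) (u : O), red u ≠ 0 ∧ ι π ^ a * φ x = ι π ^ b * ι u := by
  obtain ⟨n, z, hz⟩ := h.pow x
  obtain ⟨n', z', hz'⟩ := h.pow x⁻¹
  have hφx : φ x ≠ 0 := (_root_.map_ne_zero φ).mpr hx
  have hπ := h.pi_ne
  have hzz : z * z' = π ^ (n + n') := h.inj (by
    rw [map_mul, hz, hz', map_pow, map_inv₀, pow_add]; field_simp)
  have hnd : ¬ π ^ (n + n' + 1) ∣ z := by
    rintro ⟨w, hw⟩
    have h1 : π * (w * z') = 1 := h.inj (by
      have := congrArg ι hzz
      rw [hw, map_mul, map_mul, map_pow, map_pow] at this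
      rw [map_mul, map_mul, map_one]
      have hp : ι π ^ (n + n') ≠ 0 := pow_ne_zero _ hπ
      apply mul_left_cancel₀ hp
      calc ι π ^ (n + n') * (ι π * (ι w * ι z')) = ι π ^ (n + n' + 1) * ι w * ι z' := by ring
        _ = ι π ^ (n + n') := this
        _ = ι π ^ (n + n') * 1 := (mul_one _).symm)
    have h2 := congrArg red h1
    rw [map_mul, h.red_pi, zero_mul, map_one] at h2
    exact zero_ne_one h2
  obtain ⟨m, u, rfl, hu⟩ := exists_pow_mul_of_bound red π h.ker _ z hnd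
  exact ⟨n, m, u, hu, by rw [← hz, map_mul, map_pow]⟩

theorem mem_or_inv (h : IsGauss ι red π φ) (x : F) (hx : x ≠ 0) :
    (∃ z, ι z = φ x) ∨ (∃ z, ι z = φ x⁻¹ ∧ red z = 0) := by
  obtain ⟨a, b, u, hu, hab⟩ := h.normal_form x hx
  have hπ := h.pi_ne
  have hφx : φ x ≠ 0 := (_root_.map_ne_zero φ).mpr hx
  rcases le_or_gt a b with hle | hlt
  · left
    refine ⟨π ^ (b - a) * u, ?_⟩
    rw [map_mul, map_pow]
    have : ι π ^ b = ι π ^ a * ι π ^ (b - a) := by rw [← pow_add, Nat.add_sub_cancel' hle]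
    rw [this, mul_assoc] at hab
    exact (mul_left_cancel₀ (pow_ne_zero _ hπ) hab).symm
  · right
    obtain ⟨v, rfl⟩ := h.unit u hu
    refine ⟨π ^ (a - b) * ↑v⁻¹, ?_, ?_⟩
    · have hv1 : ι (↑v⁻¹ : O) * ι (v : O) = 1 := by rw [← map_mul, Units.inv_mul, map_one]
      have hv : ι (↑v⁻¹ : O) = (ι (v : O))⁻¹ := eq_inv_of_mul_eq_one_left hv1
      have hvne : ι (v : O) ≠ 0 := right_ne_zero_of_mul_eq_one hv1
      have : ι π ^ a = ι π ^ b * ι π ^ (a - b) := by rw [← pow_add, Nat.add_sub_cancel' hlt.le]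
      rw [this, mul_assoc] at hab
      have hab' := mul_left_cancel₀ (pow_ne_zero _ hπ) hab
      rw [map_mul, map_pow, hv, map_inv₀, ← hab']
      have hp : ι π ^ (a - b) ≠ 0 := pow_ne_zero _ hπ
      field_simp
    · rw [map_mul, map_pow, h.red_pi, zero_pow (by omega), zero_mul]

/-- integrally closed: a root of a monic polynomial with integral coefficients is integral. -/
theorem mem_of_monic (h : IsGauss ι red π φ) (p : F[X]) (hp : p.Monic)
    (hc : ∀ i, ∃ w, ι w = φ (p.coeff i)) (b : F) (hb : p.eval b = 0) : ∃ z, ι z = φ b := by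
  classical
  by_cases hb0 : b = 0
  · exact ⟨0, by rw [hb0, map_zero, map_zero]⟩
  rcases h.mem_or_inv b hb0 with hz | ⟨z, hz, -⟩
  · exact hz
  choose w hw using hc
  have hd0 : p.natDegree ≠ 0 := by
    intro h0
    have : p = 1 := Polynomial.eq_one_of_monic_natDegree_zero hp h0
    rw [this, eval_one] at hb
    exact one_ne_zero hb
  obtain ⟨e, he⟩ : ∃ e, p.natDegree = e + 1 := Nat.exists_eq_succ_of_ne_zero hd0
  have hlead : p.coeff (e + 1) = 1 := by rw [← he]; exact hp.coeff_natDegree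
  set β := φ b with hβdef
  have hβ : β ≠ 0 := (_root_.map_ne_zero φ).mpr hb0
  have hzβ : ι z = β⁻¹ := by rw [hz, map_inv₀]
  have hsum : β ^ (e + 1) = - ∑ i ∈ Finset.range (e + 1), ι (w i) * β ^ i := by
    have h0 := hb
    rw [eval_eq_sum_range, he, Finset.sum_range_succ, hlead, one_mul] at h0
    have h1 := congrArg φ h0
    rw [map_zero, map_add, map_pow, map_sum] at h1
    rw [← hβdef] at h1
    have h2 : ∑ i ∈ Finset.range (e + 1), ι (w i) * β ^ i
        = ∑ i ∈ Finset.range (e + 1), φ (p.coeff i * b ^ i) :=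
      Finset.sum_congr rfl fun i _ => by rw [map_mul, map_pow, hw]
    rw [h2]
    exact eq_neg_of_add_eq_zero_right h1
  have key : ∀ i ∈ Finset.range (e + 1),
      ι (w i) * β ^ i = β ^ e * (ι (w i) * (β⁻¹) ^ (e - i)) := by
    intro i hi
    have hie : i ≤ e := Nat.lt_succ_iff.mp (Finset.mem_range.mp hi)
    have : β ^ e = β ^ i * β ^ (e - i) := by rw [← pow_add, Nat.add_sub_cancel' hie]
    rw [this, inv_pow]
    have hp' : β ^ (e - i) ≠ 0 := pow_ne_zero _ hβ
    field_simp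
  refine ⟨- ∑ i ∈ Finset.range (e + 1), w i * z ^ (e - i), ?_⟩
  rw [map_neg, map_sum]
  have h3 : ∑ i ∈ Finset.range (e + 1), ι (w i * z ^ (e - i))
      = ∑ i ∈ Finset.range (e + 1), ι (w i) * (β⁻¹) ^ (e - i) :=
    Finset.sum_congr rfl fun i _ => by rw [map_mul, map_pow, hzβ]
  rw [h3]
  rw [Finset.sum_congr rfl key, ← Finset.mul_sum, pow_succ] at hsum
  have hpe : β ^ e ≠ 0 := pow_ne_zero _ hβ
  apply mul_left_cancel₀ hpe
  rw [hsum]; ring

section Module

variable {K₀ : Type*} [Field K₀] [Algebra K₀ F] {κ : Type*} [Field κ] [Algebra κ kt]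

/-- scaling lemma: coefficients of an integral combination are integral. -/
theorem coeff_mem (h : IsGauss ι red π φ) (pK : K₀) (hpK : φ (algebraMap K₀ F pK) = ι π)
    (hκ : ∀ (c : K₀) (z : O), ι z = φ (algebraMap K₀ F c) → red z ∈ (algebraMap κ kt).range)
    {n : ℕ} (x : Fin n → F) (zx : Fin n → O) (hzx : ∀ i, ι (zx i) = φ (x i))
    (hli : LinearIndependent κ (fun i => red (zx i)))
    (c : Fin n → K₀) (zy : O) (hzy : ι zy = φ (∑ i, c i • x i)) :
    ∀ i, ∃ w, ι w = φ (algebraMap K₀ F (c i)) := by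
  classical
  have hex : ∃ m : ℕ, ∀ i, ∃ w, ι w = ι π ^ m * φ (algebraMap K₀ F (c i)) := by
    choose ni wi hwi using fun i => h.pow (algebraMap K₀ F (c i))
    refine ⟨∑ i, ni i, fun i => ⟨π ^ (∑ j, ni j - ni i) * wi i, ?_⟩⟩
    have hle : ni i ≤ ∑ j, ni j :=
      Finset.single_le_sum (fun _ _ => Nat.zero_le _) (Finset.mem_univ i)
    rw [map_mul, map_pow, hwi, ← mul_assoc, ← pow_add, Nat.sub_add_cancel hle]
  have hM : ∀ i, ∃ w, ι w = ι π ^ (Nat.find hex) * φ (algebraMap K₀ F (c i)) := Nat.find_spec hex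
  rcases Nat.eq_zero_or_pos (Nat.find hex) with h0 | hpos
  · intro i
    obtain ⟨w, hw⟩ := hM i
    exact ⟨w, by rw [hw, h0, pow_zero, one_mul]⟩
  · exfalso
    obtain ⟨M', hM'⟩ : ∃ M', Nat.find hex = M' + 1 := Nat.exists_eq_succ_of_ne_zero hpos.ne'
    have hnot : ¬ ∀ i, ∃ w, ι w = ι π ^ M' * φ (algebraMap K₀ F (c i)) :=
      Nat.find_min hex (by omega)
    rw [not_forall] at hnot
    obtain ⟨i₀, hi₀⟩ := hnot
    rw [hM'] at hM
    choose w hw using hM
    have hred : red (w i₀) ≠ 0 := by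
      intro hr
      obtain ⟨w', hw'⟩ := h.ker _ hr
      apply hi₀
      refine ⟨w', ?_⟩
      have := hw i₀
      rw [hw', map_mul, pow_succ, mul_assoc] at this
      apply mul_left_cancel₀ h.pi_ne
      rw [this]; ring
    have hsum : π ^ (M' + 1) * zy = ∑ i, w i * zx i := h.inj (by
      rw [map_mul, map_pow, hzy, map_sum, map_sum, Finset.mul_sum]
      refine Finset.sum_congr rfl fun i _ => ?_
      rw [map_mul, hw, hzx, Algebra.smul_def, map_mul]; ring)
    have hredsum : ∑ i, red (w i) * red (zx i) = 0 := by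
      have := congrArg red hsum
      rw [map_mul, map_pow, h.red_pi, zero_pow (Nat.succ_ne_zero M'), zero_mul, map_sum] at this
      rw [this]
      exact Finset.sum_congr rfl fun i _ => (map_mul red _ _).symm
    have hmem : ∀ i, red (w i) ∈ (algebraMap κ kt).range := fun i =>
      hκ (pK ^ (M' + 1) * c i) (w i) (by rw [hw, map_mul, map_mul, map_pow, map_pow, hpK])
    choose g hg using hmem
    have := Fintype.linearIndependent_iff.mp hli g (by
      rw [← hredsum]
      exact Finset.sum_congr rfl fun i _ => by rw [Algebra.smul_def, hg])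
    exact hred (by rw [← hg, this i₀, map_zero])

theorem linearIndependent_of_red (h : IsGauss ι red π φ) (pK : K₀)
    (hpK : φ (algebraMap K₀ F pK) = ι π)
    (hκ : ∀ (c : K₀) (z : O), ι z = φ (algebraMap K₀ F c) → red z ∈ (algebraMap κ kt).range)
    {n : ℕ} (x : Fin n → F) (zx : Fin n → O) (hzx : ∀ i, ι (zx i) = φ (x i))
    (hli : LinearIndependent κ (fun i => red (zx i))) : LinearIndependent K₀ x := by
  rw [Fintype.linearIndependent_iff]
  intro c hc i₁
  by_contra hne
  have hpK0 : pK ≠ 0 := by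
    rintro rfl
    rw [map_zero, map_zero] at hpK
    exact h.pi_ne hpK.symm
  obtain ⟨n', z', hz'⟩ := h.pow (algebraMap K₀ F (c i₁))⁻¹
  have hsum' : ∑ i, ((pK ^ (n' + 1))⁻¹ * c i) • x i = 0 := by
    have : ∀ i, ((pK ^ (n' + 1))⁻¹ * c i) • x i = (pK ^ (n' + 1))⁻¹ • (c i • x i) :=
      fun i => mul_smul _ _ _
    rw [Finset.sum_congr rfl fun i _ => this i, ← Finset.smul_sum, hc, smul_zero]
  obtain ⟨w, hw⟩ := h.coeff_mem pK hpK hκ x zx hzx hli (fun i => (pK ^ (n' + 1))⁻¹ * c i) 0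
    (by rw [hsum', map_zero, map_zero]) i₁
  have hcne : φ (algebraMap K₀ F (c i₁)) ≠ 0 :=
    (_root_.map_ne_zero φ).mpr ((_root_.map_ne_zero (algebraMap K₀ F)).mpr hne)
  have hπ := h.pi_ne
  have h1 : π * (w * z') = 1 := h.inj (by
    rw [map_mul, map_mul, hw, hz', map_one, map_mul, map_inv₀, map_pow, map_mul, map_inv₀,
      map_pow, hpK, map_inv₀]
    field_simp
    rw [pow_succ]; ring)
  have h2 := congrArg red h1
  rw [map_mul, h.red_pi, zero_mul, map_one] at h2
  exact zero_ne_one h2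

theorem exists_coeffs (h : IsGauss ι red π φ) (pK : K₀) (hpK : φ (algebraMap K₀ F pK) = ι π)
    (hκ : ∀ (c : K₀) (z : O), ι z = φ (algebraMap K₀ F c) → red z ∈ (algebraMap κ kt).range)
    [FiniteDimensional K₀ F] {n : ℕ} (hn : Module.finrank K₀ F ≤ n)
    (x : Fin n → F) (zx : Fin n → O) (hzx : ∀ i, ι (zx i) = φ (x i))
    (hli : LinearIndependent κ (fun i => red (zx i))) (y : F) (zy : O) (hzy : ι zy = φ y) :
    ∃ c : Fin n → K₀, y = ∑ i, c i • x i ∧ ∀ i, ∃ w, ι w = φ (algebraMap K₀ F (c i)) := by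
  have hli' := h.linearIndependent_of_red pK hpK hκ x zx hzx hli
  have hcard : Fintype.card (Fin n) = Module.finrank K₀ F :=
    le_antisymm hli'.fintype_card_le_finrank (by simpa using hn)
  have hspan : Submodule.span K₀ (Set.range x) = ⊤ :=
    hli'.span_eq_top_of_card_eq_finrank' hcard
  have hy : y ∈ Submodule.span K₀ (Set.range x) := by rw [hspan]; trivial
  obtain ⟨c, hc⟩ := (Submodule.mem_span_range_iff_exists_fun K₀).mp hy
  exact ⟨c, hc.symm, h.coeff_mem pK hpK hκ x zx hzx hli c zy (by rw [hc]; exact hzy)⟩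

variable (K₀) in
/-- the valuation ring of `K₀` cut out by the data. -/
def valSub (h : IsGauss ι red π φ) : ValuationSubring K₀ where
  carrier := {c | ∃ w, ι w = φ (algebraMap K₀ F c)}
  mul_mem' := by
    rintro a b ⟨wa, ha⟩ ⟨wb, hb⟩
    exact ⟨wa * wb, by rw [map_mul, ha, hb, map_mul, map_mul]⟩
  one_mem' := ⟨1, by simp⟩
  add_mem' := by
    rintro a b ⟨wa, ha⟩ ⟨wb, hb⟩
    exact ⟨wa + wb, by rw [map_add, ha, hb, map_add, map_add]⟩
  zero_mem' := ⟨0, by simp⟩
  neg_mem' := by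
    rintro a ⟨wa, ha⟩
    exact ⟨-wa, by rw [map_neg, ha, map_neg, map_neg]⟩
  mem_or_inv_mem' := by
    intro c
    by_cases hc : c = 0
    · left; exact ⟨0, by simp [hc]⟩
    · rcases h.mem_or_inv (algebraMap K₀ F c) ((_root_.map_ne_zero _).mpr hc) with
        ⟨z, hz⟩ | ⟨z, hz, -⟩
      · left; exact ⟨z, hz⟩
      · right; exact ⟨z, by rw [hz, map_inv₀, map_inv₀, map_inv₀]⟩

theorem mem_valSub (h : IsGauss ι red π φ) (c : K₀) :
    c ∈ h.valSub K₀ ↔ ∃ w, ι w = φ (algebraMap K₀ F c) := Iff.rfl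

/-- every integral element of `F` is integral over the valuation ring of `K₀`. -/
theorem isIntegral_valSub (h : IsGauss ι red π φ) (pK : K₀)
    (hpK : φ (algebraMap K₀ F pK) = ι π)
    (hκ : ∀ (c : K₀) (z : O), ι z = φ (algebraMap K₀ F c) → red z ∈ (algebraMap κ kt).range)
    [FiniteDimensional K₀ F] {n : ℕ} (hn : Module.finrank K₀ F ≤ n)
    (x : Fin n → F) (zx : Fin n → O) (hzx : ∀ i, ι (zx i) = φ (x i))
    (hli : LinearIndependent κ (fun i => red (zx i))) (y : F) (zy : O) (hzy : ι zy = φ y) :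
    ((algebraMap K₀ F).comp (algebraMap ↥(h.valSub K₀) K₀)).IsIntegralElem y := by
  classical
  letI : Algebra ↥(h.valSub K₀) F :=
    ((algebraMap K₀ F).comp (algebraMap ↥(h.valSub K₀) K₀)).toAlgebra
  haveI : IsScalarTower ↥(h.valSub K₀) K₀ F := IsScalarTower.of_algebraMap_eq' rfl
  let S : Subalgebra ↥(h.valSub K₀) F :=
    { carrier := {y | ∃ z, ι z = φ y}
      mul_mem' := by
        rintro a b ⟨wa, ha⟩ ⟨wb, hb⟩
        exact ⟨wa * wb, by rw [map_mul, ha, hb, map_mul]⟩
      one_mem' := ⟨1, by simp⟩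
      add_mem' := by
        rintro a b ⟨wa, ha⟩ ⟨wb, hb⟩
        exact ⟨wa + wb, by rw [map_add, ha, hb, map_add]⟩
      zero_mem' := ⟨0, by simp⟩
      algebraMap_mem' := fun a => a.2 }
  have hS : Subalgebra.toSubmodule S = Submodule.span ↥(h.valSub K₀) (Set.range x) := by
    apply le_antisymm
    · rintro y ⟨zy, hzy⟩
      obtain ⟨c, hc, hcm⟩ := h.exists_coeffs pK hpK hκ hn x zx hzx hli y zy hzy
      rw [hc]
      refine Submodule.sum_mem _ fun i _ => ?_
      have : c i • x i = (⟨c i, hcm i⟩ : ↥(h.valSub K₀)) • x i := by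
        rw [Algebra.smul_def, Algebra.smul_def]; rfl
      rw [this]
      exact Submodule.smul_mem _ _ (Submodule.subset_span ⟨i, rfl⟩)
    · rw [Submodule.span_le]
      rintro _ ⟨i, rfl⟩
      exact ⟨zx i, hzx i⟩
  have hfg : (Subalgebra.toSubmodule S).FG := by
    rw [hS]; exact Submodule.fg_span (Set.finite_range x)
  exact IsIntegral.of_mem_of_fg S hfg y ⟨zy, hzy⟩

/-- the core statement: an integral element with zero reduction is `π` times an element
integral over the small ring. -/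
theorem core (h : IsGauss ι red π φ) (pK : K₀) (hpK : φ (algebraMap K₀ F pK) = ι π)
    (hκ : ∀ (c : K₀) (z : O), ι z = φ (algebraMap K₀ F c) → red z ∈ (algebraMap κ kt).range)
    [FiniteDimensional K₀ F] {n : ℕ} (hn : Module.finrank K₀ F ≤ n)
    (x : Fin n → F) (zx : Fin n → O) (hzx : ∀ i, ι (zx i) = φ (x i))
    (hli : LinearIndependent κ (fun i => red (zx i)))
    {R₂ R₀ : Type*} [CommRing R₂] [IsDomain R₂] [IsIntegrallyClosed R₂] [CommRing R₀]
    [Algebra R₂ K₀] [IsFractionRing R₂ K₀] (f₀ : R₀ →+* K₀)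
    (hr : ∀ c : K₀, c ∈ h.valSub K₀ → c ∈ (algebraMap R₂ K₀).range → c ∈ f₀.range)
    (hpinv : pK⁻¹ ∈ (algebraMap R₂ K₀).range)
    (b : F) (hb : ((algebraMap K₀ F).comp (algebraMap R₂ K₀)).IsIntegralElem b)
    (z : O) (hz : ι z = φ b) (hrz : red z = 0) :
    ∃ b' : F, ((algebraMap K₀ F).comp f₀).IsIntegralElem b' ∧ b = algebraMap K₀ F pK * b' := by
  obtain ⟨z', rfl⟩ := h.ker z hrz
  have hπ := h.pi_ne
  have hpK0 : pK ≠ 0 := by
    rintro rfl
    rw [map_zero, map_zero] at hpK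
    exact hπ hpK.symm
  have hpKF : algebraMap K₀ F pK ≠ 0 := (_root_.map_ne_zero _).mpr hpK0
  refine ⟨algebraMap K₀ F pK⁻¹ * b, ?_, ?_⟩
  · have hz' : ι z' = φ (algebraMap K₀ F pK⁻¹ * b) := by
      rw [map_mul, ← hz, map_inv₀, map_inv₀, hpK, map_mul]
      field_simp
    have int1 := h.isIntegral_valSub pK hpK hκ hn x zx hzx hli _ z' hz'
    have int2 : ((algebraMap K₀ F).comp (algebraMap R₂ K₀)).IsIntegralElem
        (algebraMap K₀ F pK⁻¹ * b) := by
      obtain ⟨r, hr'⟩ := hpinv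
      refine RingHom.IsIntegralElem.mul _ ?_ hb
      rw [← hr']
      exact RingHom.isIntegralElem_map ((algebraMap K₀ F).comp (algebraMap R₂ K₀))
    refine isIntegralElem_of_two (R₁ := ↥(h.valSub K₀)) (R₂ := R₂) f₀ ?_ _ int1 int2
    rintro c ⟨a, rfl⟩ hc2
    exact hr _ a.2 hc2
  · rw [← mul_assoc, ← map_mul, mul_inv_cancel₀ hpK0, map_one, one_mul]

end Module

end IsGauss

end Abs

end Fermat.Agent.S28.H36
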