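import Mathlib
import Fermat.Agent.S28.GaussB_helper36

/-!
S28, valuation part (helper36), file C: the concrete Gauss data for the modular function field,
polynomial scaling, and the descent statements for `ℚ[t] ∩ O` and `ℚ(t) ∩ O`.
-/

set_option autoImplicit false

noncomputable section

namespace Fermat.Agent.S28.H36

open Polynomial ModularCurve

section Concrete

variable (ℓ : ℕ) [Fact ℓ.Prime]

/-- the Gauss localization of `ℤ_(ℓ)((q))`. -/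
abbrev OG : Type := OLoc (redA ℓ)

/-- its embedding in `ℚ((q))`. -/
def ιG : OG ℓ →+* LaurentSeries ℚ := ιO (ιA ℓ) (redA ℓ) (ιA_injective ℓ)

/-- its reduction to `𝔽_ℓ((q))`. -/
def redG : OG ℓ →+* LaurentSeries (ZMod ℓ) := redO (redA ℓ)

/-- the inclusion of `ℤ_(ℓ)((q))`. -/
def incG : LaurentSeries (Zl ℓ) →+* OG ℓ := algebraMap (LaurentSeries (Zl ℓ)) (OG ℓ)

/-- the uniformizer. -/
def πG : OG ℓ := incG ℓ (ℓ : LaurentSeries (Zl ℓ))

theorem ιG_incG (a : LaurentSeries (Zl ℓ)) : ιG ℓ (incG ℓ a) = ιA ℓ a :=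
  ιO_algebraMap _ _ _ a

theorem redG_incG (a : LaurentSeries (Zl ℓ)) : redG ℓ (incG ℓ a) = redA ℓ a :=
  redO_algebraMap _ a

theorem ιG_injective : Function.Injective (ιG ℓ) := ιO_injective _ _ _

theorem ιG_πG : ιG ℓ (πG ℓ) = (ℓ : LaurentSeries ℚ) := by
  rw [πG, ιG_incG, map_natCast]

theorem redG_πG : redG ℓ (πG ℓ) = 0 := by
  rw [πG, redG_incG]; exact redA_natCast_self ℓ

theorem natCast_ne_zero_Lq : (ℓ : LaurentSeries ℚ) ≠ 0 := by
  intro h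
  have h1 := congrArg (fun x : LaurentSeries ℚ => x.coeff 0) h
  have h2 : ((ℓ : LaurentSeries ℚ)).coeff 0 = (ℓ : ℚ) := by
    have := natCast_mul_coeff (R := ℚ) ℓ 1 0
    rw [mul_one] at this
    rw [this]; simp
  simp only [h2, HahnSeries.coeff_zero] at h1
  exact (Fact.out : ℓ.Prime).ne_zero (by exact_mod_cast h1)

/-- the fraction field of `ℤ_(ℓ)((q))` inside `ℚ((q))`. -/
def fracA : Subfield (LaurentSeries ℚ) where
  carrier := {x | ∃ g h : LaurentSeries (Zl ℓ), h ≠ 0 ∧ x * ιA ℓ h = ιA ℓ g}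
  mul_mem' := by
    rintro x y ⟨g, h, hh, hx⟩ ⟨g', h', hh', hy⟩
    exact ⟨g * g', h * h', mul_ne_zero hh hh', by rw [map_mul, map_mul, ← hx, ← hy]; ring⟩
  one_mem' := ⟨1, 1, one_ne_zero, by simp⟩
  add_mem' := by
    rintro x y ⟨g, h, hh, hx⟩ ⟨g', h', hh', hy⟩
    exact ⟨g * h' + g' * h, h * h', mul_ne_zero hh hh', by
      simp only [map_add, map_mul, ← hx, ← hy]; ring⟩
  zero_mem' := ⟨0, 1, one_ne_zero, by simp⟩
  neg_mem' := by
    rintro x ⟨g, h, hh, hx⟩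
    exact ⟨-g, h, hh, by rw [map_neg, ← hx]; ring⟩
  inv_mem' := by
    rintro x ⟨g, h, hh, hx⟩
    by_cases hx0 : x = 0
    · exact ⟨0, 1, one_ne_zero, by simp [hx0]⟩
    · have hg : g ≠ 0 := by
        rintro rfl
        rw [map_zero] at hx
        rcases mul_eq_zero.mp hx with h1 | h1
        · exact hx0 h1
        · exact hh (ιA_injective ℓ (by rw [h1, map_zero]))
      refine ⟨h, g, hg, ?_⟩
      rw [← hx, ← mul_assoc, inv_mul_cancel₀ hx0, one_mul]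

omit [Fact ℓ.Prime] in
theorem full_le_fracA (N : ℕ) [NeZero N] (x : LaurentSeries ℚ)
    (hx : x ∈ modularFunctionFieldFull N) : x ∈ fracA ℓ := by
  have hx' : x ∈ Subfield.closure
      (Set.range (algebraMap ℚ (LaurentSeries ℚ)) ∪ divisorExpansions N) := hx
  refine Subfield.closure_le.mpr ?_ hx'
  rintro y (⟨c, rfl⟩ | ⟨d, hd, -, rfl⟩)
  · rw [eq_ratCast (algebraMap ℚ (LaurentSeries ℚ)) c]
    exact SubfieldClass.ratCast_mem _ c
  · haveI := hd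
    refine ⟨jqNModC (Zl ℓ) d, 1, one_ne_zero, ?_⟩
    rw [map_one, mul_one]
    exact (coeffMap_jqNModC (GaloisRep.ratLocalizedAt ℓ).subtype d).symm

/-- the Gauss data for the full modular function field. -/
theorem isGauss (N : ℕ) [NeZero N] :
    IsGauss (ιG ℓ) (redG ℓ) (πG ℓ)
      ((modularFunctionFieldFull N).val : ↥(modularFunctionFieldFull N) →+* LaurentSeries ℚ) where
  inj := ιG_injective ℓ
  ker := redO_eq_zero (redA ℓ) (ℓ : LaurentSeries (Zl ℓ)) (redA_eq_zero ℓ)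
  red_pi := redG_πG ℓ
  unit := isUnit_of_redO_ne (redA ℓ)
  pow := fun x => by
    obtain ⟨g, h, hh, hx⟩ := full_le_fracA ℓ N x x.2
    obtain ⟨n, z, hz⟩ := exists_pow_mul_ιO (ιA ℓ) (redA ℓ) (ιA_injective ℓ)
      (ℓ : LaurentSeries (Zl ℓ)) (exists_pow_mul_A ℓ) x g h hh hx
    refine ⟨n, z, ?_⟩
    rw [ιG_πG]
    rw [map_natCast] at hz
    exact hz
  pi_ne := by rw [ιG_πG]; exact natCast_ne_zero_Lq ℓ

/-! ### polynomial scaling -/

/-- clearing `ℓ`-denominators of a rational polynomial. -/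
theorem exists_map_eq_C_mul (P : ℚ[X]) :
    ∃ (a : ℕ) (P₁ : (Zl ℓ)[X]),
      P₁.map (GaloisRep.ratLocalizedAt ℓ).subtype = C ((ℓ : ℚ) ^ a) * P := by
  have hℓ : ℓ.Prime := Fact.out
  induction P using Polynomial.induction_on' with
  | add P Q hP hQ =>
    obtain ⟨a, P₁, h1⟩ := hP
    obtain ⟨b, Q₁, h2⟩ := hQ
    refine ⟨a + b, C ((ℓ : Zl ℓ) ^ b) * P₁ + C ((ℓ : Zl ℓ) ^ a) * Q₁, ?_⟩
    have ha : (GaloisRep.ratLocalizedAt ℓ).subtype ((ℓ : Zl ℓ) ^ a) = (ℓ : ℚ) ^ a := by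
      rw [map_pow, map_natCast]
    have hb : (GaloisRep.ratLocalizedAt ℓ).subtype ((ℓ : Zl ℓ) ^ b) = (ℓ : ℚ) ^ b := by
      rw [map_pow, map_natCast]
    rw [Polynomial.map_add, Polynomial.map_mul, Polynomial.map_mul, Polynomial.map_C,
      Polynomial.map_C, ha, hb, h1, h2, pow_add, C_mul]
    ring
  | monomial n c =>
    obtain ⟨e, d', hd', hden⟩ := Nat.exists_eq_pow_mul_and_not_dvd c.den_ne_zero ℓ hℓ.ne_one
    have hcop : d'.Coprime ℓ := ((Nat.Prime.coprime_iff_not_dvd hℓ).mpr hd').symm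
    refine ⟨e, monomial n (⟨(c.num : ℚ) * ((d' : ℚ))⁻¹,
      Subring.mul_mem _ (intCast_mem_Zl ℓ c.num) (inv_natCast_mem_Zl ℓ hcop)⟩ : Zl ℓ), ?_⟩
    rw [Polynomial.map_monomial, C_mul_monomial]
    congr 1
    show (c.num : ℚ) * ((d' : ℚ))⁻¹ = (ℓ : ℚ) ^ e * c
    have hd0 : (d' : ℚ) ≠ 0 := by
      intro h0
      have : d' = 0 := by exact_mod_cast h0
      rw [this, mul_zero] at hden
      exact c.den_ne_zero hden
    have hℓ0 : (ℓ : ℚ) ≠ 0 := by exact_mod_cast hℓ.ne_zero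
    have hc : c = (c.num : ℚ) / ((ℓ : ℚ) ^ e * (d' : ℚ)) := by
      conv_lhs => rw [← Rat.num_div_den c]
      rw [hden]; push_cast; rfl
    conv_rhs => rw [hc]
    field_simp

theorem map_resZl_eq_zero (P : (Zl ℓ)[X]) (hP : P.map (resZl ℓ) = 0) :
    ∃ P', P = C (ℓ : Zl ℓ) * P' := by
  have : C (ℓ : Zl ℓ) ∣ P := by
    rw [C_dvd_iff_dvd_coeff]
    intro i
    have hi : resZl ℓ (P.coeff i) = 0 := by rw [← coeff_map, hP, coeff_zero]
    obtain ⟨y, hy⟩ := resZl_eq_zero ℓ _ hi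
    exact ⟨y, hy⟩
  exact this

/-- normal form of a nonzero polynomial over `ℤ_(ℓ)`. -/
theorem exists_pow_mul_poly (P : (Zl ℓ)[X]) (hP : P ≠ 0) :
    ∃ (m : ℕ) (P₀ : (Zl ℓ)[X]), P = C (ℓ : Zl ℓ) ^ m * P₀ ∧ P₀.map (resZl ℓ) ≠ 0 := by
  have hc : P.leadingCoeff ≠ 0 := leadingCoeff_ne_zero.mpr hP
  have hB : ¬ C (ℓ : Zl ℓ) ^ ((P.leadingCoeff : ℚ).num.natAbs) ∣ P := by
    intro hd
    rw [← C_pow, C_dvd_iff_dvd_coeff] at hd
    exact not_pow_dvd_Zl ℓ _ hc (hd _)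
  exact exists_pow_mul_of_bound (mapRingHom (resZl ℓ)) (C (ℓ : Zl ℓ))
    (fun r hr => map_resZl_eq_zero ℓ r hr) _ P hB

/-! ### evaluation at a generator -/

/-- constants `ℤ_(ℓ) → O`. -/
def cG : Zl ℓ →+* OG ℓ := (incG ℓ).comp HahnSeries.C

theorem ιG_comp_cG :
    (ιG ℓ).comp (cG ℓ) = (algebraMap ℚ (LaurentSeries ℚ)).comp (GaloisRep.ratLocalizedAt ℓ).subtype := by
  ext c : 1
  show ιG ℓ (incG ℓ (HahnSeries.C c)) = algebraMap ℚ (LaurentSeries ℚ) (c : ℚ)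
  rw [ιG_incG, algebraMap_apply_eq_single]
  show coeffMap _ (HahnSeries.single 0 c) = _
  rw [coeffMap_single]; rfl

theorem redG_comp_cG :
    (redG ℓ).comp (cG ℓ) = (algebraMap (ZMod ℓ) (LaurentSeries (ZMod ℓ))).comp (resZl ℓ) := by
  ext c : 1
  show redG ℓ (incG ℓ (HahnSeries.C c)) = algebraMap (ZMod ℓ) (LaurentSeries (ZMod ℓ)) (resZl ℓ c)
  rw [redG_incG, algebraMap_laurentSeries_eq_single]
  show coeffMap _ (HahnSeries.single 0 c) = _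
  rw [coeffMap_single]

/-- evaluation of integral polynomials at an integral series. -/
def evG (tA : LaurentSeries (Zl ℓ)) : (Zl ℓ)[X] →+* OG ℓ :=
  eval₂RingHom (cG ℓ) (incG ℓ tA)

theorem ιG_evG (tA : LaurentSeries (Zl ℓ)) (P : (Zl ℓ)[X]) :
    ιG ℓ (evG ℓ tA P) = aeval (ιA ℓ tA) (P.map (GaloisRep.ratLocalizedAt ℓ).subtype) := by
  rw [evG, coe_eval₂RingHom, hom_eval₂, ιG_comp_cG, ιG_incG, aeval_def, eval₂_map]

theorem redG_evG (tA : LaurentSeries (Zl ℓ)) (P : (Zl ℓ)[X]) :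
    redG ℓ (evG ℓ tA P) = aeval (redA ℓ tA) (P.map (resZl ℓ)) := by
  rw [evG, coe_eval₂RingHom, hom_eval₂, redG_comp_cG, redG_incG, aeval_def, eval₂_map]

/-- `ℚ[t] ∩ O = ℤ_(ℓ)[t]`. -/
theorem poly_descent (tA : LaurentSeries (Zl ℓ)) (htr : Transcendental (ZMod ℓ) (redA ℓ tA))
    (P : ℚ[X]) (w : OG ℓ) (hw : ιG ℓ w = aeval (ιA ℓ tA) P) :
    ∃ P₀ : (Zl ℓ)[X], P₀.map (GaloisRep.ratLocalizedAt ℓ).subtype = P := by
  classical
  have hℓ0 : (ℓ : ℚ) ≠ 0 := by exact_mod_cast (Fact.out : ℓ.Prime).ne_zero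
  have hex := exists_map_eq_C_mul ℓ P
  have hM := Nat.find_spec hex
  rcases Nat.eq_zero_or_pos (Nat.find hex) with h0 | hpos
  · obtain ⟨P₁, hP₁⟩ := hM
    exact ⟨P₁, by rw [hP₁, h0, pow_zero, C_1, one_mul]⟩
  · exfalso
    obtain ⟨M', hM'⟩ : ∃ M', Nat.find hex = M' + 1 := Nat.exists_eq_succ_of_ne_zero hpos.ne'
    rw [hM'] at hM
    obtain ⟨P₁, hP₁⟩ := hM
    have h1 : evG ℓ tA P₁ = πG ℓ ^ (M' + 1) * w := ιG_injective ℓ (by
      calc ιG ℓ (evG ℓ tA P₁) = aeval (ιA ℓ tA) (C ((ℓ : ℚ) ^ (M' + 1)) * P) := by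
            rw [ιG_evG, hP₁]
        _ = (ℓ : LaurentSeries ℚ) ^ (M' + 1) * aeval (ιA ℓ tA) P := by
            rw [map_mul, aeval_C, map_pow, map_natCast]
        _ = ιG ℓ (πG ℓ ^ (M' + 1) * w) := by
            rw [map_mul (ιG ℓ), map_pow, ιG_πG, hw])
    have h2 : redG ℓ (evG ℓ tA P₁) = 0 := by
      rw [h1, map_mul, map_pow, redG_πG, zero_pow (Nat.succ_ne_zero M'), zero_mul]
    rw [redG_evG] at h2
    have h3 : P₁.map (resZl ℓ) = 0 := by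
      by_contra hne
      exact htr ⟨_, hne, h2⟩
    obtain ⟨P₂, rfl⟩ := map_resZl_eq_zero ℓ P₁ h3
    refine Nat.find_min hex (m := M') (by omega) ⟨P₂, ?_⟩
    rw [Polynomial.map_mul, Polynomial.map_C, pow_succ, C_mul] at hP₁
    have hC : (C ((ℓ : ℚ)) : ℚ[X]) ≠ 0 := C_ne_zero.mpr hℓ0
    apply mul_left_cancel₀ hC
    rw [← mul_assoc, mul_comm (C (ℓ : ℚ)) (C ((ℓ : ℚ) ^ M')), ← hP₁]
    rfl

theorem aeval_mem_intermediate {k L : Type*} [Field k] [Field L] [Algebra k L]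
    (κ : IntermediateField k L) {x : L} (hx : x ∈ κ) (p : k[X]) : aeval x p ∈ κ := by
  rw [aeval_eq_sum_range]
  exact sum_mem fun i _ => κ.smul_mem (pow_mem hx i)

/-- normal form of the value of a rational polynomial at an integral series. -/
theorem normal_form_aeval (tA : LaurentSeries (Zl ℓ))
    (htr : Transcendental (ZMod ℓ) (redA ℓ tA))
    (κ : IntermediateField (ZMod ℓ) (LaurentSeries (ZMod ℓ))) (htκ : redA ℓ tA ∈ κ)
    (P : ℚ[X]) (hP : P ≠ 0) :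
    ∃ (a b : ℕ) (u : OG ℓ), redG ℓ u ≠ 0 ∧ redG ℓ u ∈ κ ∧
      (ℓ : LaurentSeries ℚ) ^ a * aeval (ιA ℓ tA) P = (ℓ : LaurentSeries ℚ) ^ b * ιG ℓ u := by
  have hℓ0 : (ℓ : ℚ) ≠ 0 := by exact_mod_cast (Fact.out : ℓ.Prime).ne_zero
  obtain ⟨a, P₁, hP₁⟩ := exists_map_eq_C_mul ℓ P
  have hP₁0 : P₁ ≠ 0 := by
    rintro rfl
    rw [Polynomial.map_zero] at hP₁
    rcases mul_eq_zero.mp hP₁.symm with h | h
    · exact absurd (C_eq_zero.mp h) (pow_ne_zero _ hℓ0)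
    · exact hP h
  obtain ⟨b, P₀, rfl, hP₀⟩ := exists_pow_mul_poly ℓ P₁ hP₁0
  refine ⟨a, b, evG ℓ tA P₀, ?_, ?_, ?_⟩
  · rw [redG_evG]; exact fun h => htr ⟨_, hP₀, h⟩
  · rw [redG_evG]; exact aeval_mem_intermediate κ htκ _
  · rw [ιG_evG]
    have h1 := congrArg (aeval (ιA ℓ tA)) hP₁
    rw [Polynomial.map_mul, Polynomial.map_pow, Polynomial.map_C] at h1
    have h2 : (GaloisRep.ratLocalizedAt ℓ).subtype (ℓ : Zl ℓ) = (ℓ : ℚ) := map_natCast _ _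
    rw [h2, map_mul, map_pow, aeval_C, map_natCast, map_mul, aeval_C, map_pow, map_natCast] at h1
    exact h1.symm

theorem aeval_ιA_ne_zero (tA : LaurentSeries (Zl ℓ))
    (htr : Transcendental (ZMod ℓ) (redA ℓ tA)) (P : ℚ[X]) (hP : P ≠ 0) :
    aeval (ιA ℓ tA) P ≠ 0 := by
  intro h0
  obtain ⟨a, b, u, hu0, -, hu⟩ := normal_form_aeval ℓ tA htr ⊤ trivial P hP
  rw [h0, mul_zero] at hu
  have hu1 : ιG ℓ u = 0 := by
    rcases mul_eq_zero.mp hu.symm with h | h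
    · exact absurd h (pow_ne_zero _ (natCast_ne_zero_Lq ℓ))
    · exact h
  have : u = 0 := ιG_injective ℓ (by rw [hu1, map_zero])
  exact hu0 (by rw [this, map_zero])

/-- `red (ℚ(t) ∩ O) ⊆ 𝔽_ℓ(t̄)`. -/
theorem red_mem_of_frac (tA : LaurentSeries (Zl ℓ))
    (htr : Transcendental (ZMod ℓ) (redA ℓ tA))
    (κ : IntermediateField (ZMod ℓ) (LaurentSeries (ZMod ℓ))) (htκ : redA ℓ tA ∈ κ)
    (r s : ℚ[X]) (z : OG ℓ) (hz : ιG ℓ z = aeval (ιA ℓ tA) r / aeval (ιA ℓ tA) s) :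
    redG ℓ z ∈ κ := by
  classical
  have hℓq : (ℓ : LaurentSeries ℚ) ≠ 0 := natCast_ne_zero_Lq ℓ
  by_cases hz0 : ιG ℓ z = 0
  · have : z = 0 := ιG_injective ℓ (by rw [hz0, map_zero])
    rw [this, map_zero]; exact zero_mem κ
  have hr : aeval (ιA ℓ tA) r ≠ 0 := fun h => hz0 (by rw [hz, h, zero_div])
  have hs : aeval (ιA ℓ tA) s ≠ 0 := fun h => hz0 (by rw [hz, h, div_zero])
  have hr0 : r ≠ 0 := fun h => hr (by rw [h, map_zero])
  have hs0 : s ≠ 0 := fun h => hs (by rw [h, map_zero])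
  obtain ⟨a, b, u, hu0, huκ, hu⟩ := normal_form_aeval ℓ tA htr κ htκ r hr0
  obtain ⟨a', b', v, hv0, hvκ, hv⟩ := normal_form_aeval ℓ tA htr κ htκ s hs0
  have key : ιG ℓ z * (ℓ : LaurentSeries ℚ) ^ (b' + a) * ιG ℓ v
      = (ℓ : LaurentSeries ℚ) ^ (b + a') * ιG ℓ u := by
    rw [hz]
    calc aeval (ιA ℓ tA) r / aeval (ιA ℓ tA) s * (ℓ : LaurentSeries ℚ) ^ (b' + a) * ιG ℓ v
        = ((ℓ : LaurentSeries ℚ) ^ a * aeval (ιA ℓ tA) r)
            * ((ℓ : LaurentSeries ℚ) ^ b' * ιG ℓ v) / aeval (ιA ℓ tA) s := by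
          rw [pow_add]; ring
      _ = ((ℓ : LaurentSeries ℚ) ^ b * ιG ℓ u)
            * ((ℓ : LaurentSeries ℚ) ^ a' * aeval (ιA ℓ tA) s) / aeval (ιA ℓ tA) s := by
          rw [hu, hv]
      _ = (ℓ : LaurentSeries ℚ) ^ (b + a') * ιG ℓ u := by
          rw [pow_add]; field_simp
  rcases le_or_gt (b' + a) (b + a') with hle | hlt
  · have h2 : z * v = πG ℓ ^ (b + a' - (b' + a)) * u := ιG_injective ℓ (by
      simp only [map_mul, map_pow, ιG_πG]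
      have hp : (ℓ : LaurentSeries ℚ) ^ (b' + a) ≠ 0 := pow_ne_zero _ hℓq
      apply mul_left_cancel₀ hp
      calc (ℓ : LaurentSeries ℚ) ^ (b' + a) * (ιG ℓ z * ιG ℓ v)
          = ιG ℓ z * (ℓ : LaurentSeries ℚ) ^ (b' + a) * ιG ℓ v := by ring
        _ = (ℓ : LaurentSeries ℚ) ^ (b + a') * ιG ℓ u := key
        _ = (ℓ : LaurentSeries ℚ) ^ (b' + a)
              * ((ℓ : LaurentSeries ℚ) ^ (b + a' - (b' + a)) * ιG ℓ u) := by
            rw [← mul_assoc, ← pow_add, Nat.add_sub_cancel' hle])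
    have h3 := congrArg (redG ℓ) h2
    rw [map_mul, map_mul, map_pow, redG_πG] at h3
    have h4 : redG ℓ z = (0 ^ (b + a' - (b' + a)) * redG ℓ u) * (redG ℓ v)⁻¹ := by
      rw [← h3, mul_assoc, mul_inv_cancel₀ hv0, mul_one]
    rw [h4]
    exact κ.mul_mem (κ.mul_mem (pow_mem (zero_mem κ) _) huκ) (κ.inv_mem hvκ)
  · exfalso
    have h2 : πG ℓ ^ (b' + a - (b + a')) * (z * v) = u := ιG_injective ℓ (by
      simp only [map_mul, map_pow, ιG_πG]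
      have hp : (ℓ : LaurentSeries ℚ) ^ (b + a') ≠ 0 := pow_ne_zero _ hℓq
      apply mul_left_cancel₀ hp
      calc (ℓ : LaurentSeries ℚ) ^ (b + a')
            * ((ℓ : LaurentSeries ℚ) ^ (b' + a - (b + a')) * (ιG ℓ z * ιG ℓ v))
          = (ℓ : LaurentSeries ℚ) ^ (b' + a) * (ιG ℓ z * ιG ℓ v) := by
            rw [← mul_assoc, ← pow_add, Nat.add_sub_cancel' hlt.le]
        _ = ιG ℓ z * (ℓ : LaurentSeries ℚ) ^ (b' + a) * ιG ℓ v := by ring
        _ = (ℓ : LaurentSeries ℚ) ^ (b + a') * ιG ℓ u := key)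
    have h3 := congrArg (redG ℓ) h2
    rw [map_mul, map_pow, redG_πG, zero_pow (by omega), zero_mul] at h3
    exact hu0 h3.symm

/-- lifting along the injective `ιG`. -/
def liftG {B : Type*} [CommRing B] (ψ : B →+* LaurentSeries ℚ)
    (h : ∀ y, ∃ z, ιG ℓ z = ψ y) : B →+* OG ℓ where
  toFun y := (h y).choose
  map_one' := ιG_injective ℓ (by rw [(h 1).choose_spec, map_one, map_one])
  map_mul' a b := ιG_injective ℓ (by
    rw [(h _).choose_spec, map_mul, map_mul, (h a).choose_spec, (h b).choose_spec])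
  map_zero' := ιG_injective ℓ (by rw [(h 0).choose_spec, map_zero, map_zero])
  map_add' a b := ιG_injective ℓ (by
    rw [(h _).choose_spec, map_add, map_add, (h a).choose_spec, (h b).choose_spec])

theorem ιG_liftG {B : Type*} [CommRing B] (ψ : B →+* LaurentSeries ℚ)
    (h : ∀ y, ∃ z, ιG ℓ z = ψ y) (y : B) : ιG ℓ (liftG ℓ ψ h y) = ψ y :=
  (h y).choose_spec

/-- ring homs out of `ℤ_(ℓ)` into `𝔽_ℓ` are unique. -/
theorem ringHom_Zl_eq (f : Zl ℓ →+* ZMod ℓ) : f = resZl ℓ := by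
  ext x
  have hd := den_ne_zero_zmod ℓ x
  have h1 : x * (((x : ℚ).den : ℕ) : Zl ℓ) = (((x : ℚ).num : ℤ) : Zl ℓ) := by
    apply Subtype.ext
    show (x : ℚ) * (((x : ℚ).den : ℕ) : ℚ) = (((x : ℚ).num : ℤ) : ℚ)
    exact Rat.mul_den_eq_num _
  have h2 := congrArg f h1
  rw [map_mul, map_natCast, map_intCast] at h2
  rw [resZl_apply, Rat.cast_def, eq_div_iff hd, h2]

end Concrete

end Fermat.Agent.S28.H36
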