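import Mathlib
import Fermat.Agent.S28.GaussC_helper36

/-!
S28, valuation part (helper36), final file: the reduction homomorphisms of the three charts
of the Igusa model, with kernel generated by `ℓ` on the two affine charts, from the degree
input `DegLower`.
-/

set_option autoImplicit false

noncomputable section

namespace Fermat.Agent.S28.H36

open Polynomial ModularCurve ModularCurve.IgusaScheme

/-- the full modular function field as a type. -/
abbrev FNt (N : ℕ) [NeZero N] : Type := ↥(modularFunctionFieldFull N)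

/-- `𝔽_ℓ(j̄)` inside `𝔽_ℓ((q))`. -/
abbrev κJ (ℓ : ℕ) [Fact ℓ.Prime] : IntermediateField (ZMod ℓ) (LaurentSeries (ZMod ℓ)) :=
  IntermediateField.adjoin (ZMod ℓ) {jqModC (ZMod ℓ)}

/-- ring homs out of `ℤ_(ℓ)` are unique. -/
theorem ringHom_Zl_ext (ℓ : ℕ) {R : Type*} [CommRing R] (f g : Zl ℓ →+* R) : f = g := by
  ext x
  have h1 : x * (((x : ℚ).den : ℕ) : Zl ℓ) = (((x : ℚ).num : ℤ) : Zl ℓ) := by
    apply Subtype.ext
    show (x : ℚ) * (((x : ℚ).den : ℕ) : ℚ) = (((x : ℚ).num : ℤ) : ℚ)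
    exact Rat.mul_den_eq_num _
  have hu : IsUnit ((((x : ℚ).den : ℕ) : Zl ℓ)) := by
    refine IsUnit.of_mul_eq_one ⟨(((x : ℚ).den : ℕ) : ℚ)⁻¹, inv_natCast_mem_Zl ℓ x.2⟩
      (Subtype.ext ?_)
    show (((x : ℚ).den : ℕ) : ℚ) * (((x : ℚ).den : ℕ) : ℚ)⁻¹ = 1
    exact mul_inv_cancel₀ (by exact_mod_cast (x : ℚ).den_ne_zero)
  have hf := congrArg f h1
  have hg := congrArg g h1
  rw [map_mul, map_natCast, map_intCast] at hf hg
  have hu' : IsUnit ((((x : ℚ).den : ℕ) : R)) := by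
    have := hu.map f
    rwa [map_natCast] at this
  exact hu'.mul_left_injective (hf.trans hg.symm)

section Chart

variable (ℓ : ℕ) [Fact ℓ.Prime] (N : ℕ) [NeZero N]

/-- the embedding of the function field in `ℚ((q))` as a ring hom. -/
abbrev φN : FNt N →+* LaurentSeries ℚ := (modularFunctionFieldFull N).val

theorem algebraMap_Zl_coe (c : Zl ℓ) :
    ((algebraMap (Zl ℓ) (FNt N) c : FNt N) : LaurentSeries ℚ) = ιG ℓ (cG ℓ c) :=
  congrArg (fun f : Zl ℓ →+* LaurentSeries ℚ => f c)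
    (ringHom_Zl_ext ℓ ((φN N).comp (algebraMap (Zl ℓ) (FNt N))) ((ιG ℓ).comp (cG ℓ)))

/-- a chart algebra generated by integral elements consists of integral elements. -/
theorem chart_mem_range (S : Set (FNt N))
    (hS : ∀ s ∈ S, ∃ z, ιG ℓ z = ((s : FNt N) : LaurentSeries ℚ))
    (y : FNt N) (hy : y ∈ chartAlg N ℓ S) : ∃ z, ιG ℓ z = (y : LaurentSeries ℚ) := by
  obtain ⟨p, hp, hpy⟩ := hy
  have hadj : ∀ a ∈ Algebra.adjoin (Zl ℓ) S, ∃ z, ιG ℓ z = ((a : FNt N) : LaurentSeries ℚ) := by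
    intro a ha
    induction ha using Algebra.adjoin_induction with
    | mem s hs => exact hS s hs
    | algebraMap c => exact ⟨cG ℓ c, (algebraMap_Zl_coe ℓ N c).symm⟩
    | add a b _ _ ha hb =>
      obtain ⟨za, hza⟩ := ha
      obtain ⟨zb, hzb⟩ := hb
      exact ⟨za + zb, by rw [map_add, hza, hzb]; rfl⟩
    | mul a b _ _ ha hb =>
      obtain ⟨za, hza⟩ := ha
      obtain ⟨zb, hzb⟩ := hb
      exact ⟨za * zb, by rw [map_mul, hza, hzb]; rfl⟩
  exact (isGauss ℓ N).mem_of_monic (p.map (algebraMap _ (FNt N))) (hp.map _)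
    (fun i => by rw [coeff_map]; exact hadj _ (p.coeff i).2) y
    (by rw [eval_map]; exact hpy)

/-- the reduction hom of a chart algebra generated by integral elements. -/
def chartRed (S : Set (FNt N))
    (hS : ∀ s ∈ S, ∃ z, ιG ℓ z = ((s : FNt N) : LaurentSeries ℚ)) :
    ↥(chartAlg N ℓ S) →+* LaurentSeries (ZMod ℓ) :=
  (redG ℓ).comp (liftG ℓ ((φN N).comp (chartAlg N ℓ S).val.toRingHom)
    (fun y => chart_mem_range ℓ N S hS y y.2))

theorem chartRed_apply (S : Set (FNt N))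
    (hS : ∀ s ∈ S, ∃ z, ιG ℓ z = ((s : FNt N) : LaurentSeries ℚ))
    (y : ↥(chartAlg N ℓ S)) (z : OG ℓ) (hz : ιG ℓ z = ((y : FNt N) : LaurentSeries ℚ)) :
    chartRed ℓ N S hS y = redG ℓ z := by
  have h1 : liftG ℓ ((φN N).comp (chartAlg N ℓ S).val.toRingHom)
      (fun y => chart_mem_range ℓ N S hS y y.2) y = z :=
    ιG_injective ℓ ((ιG_liftG ℓ _ _ y).trans hz.symm)
  show redG ℓ (liftG ℓ _ _ y) = _
  rw [h1]

/-- the main statement for one chart with generator `t`. -/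
theorem exists_red_chart (t : FNt N) (tA : LaurentSeries (Zl ℓ))
    (htA : ιA ℓ tA = (t : LaurentSeries ℚ))
    (htr : Transcendental (ZMod ℓ) (redA ℓ tA)) (htκ : redA ℓ tA ∈ κJ ℓ)
    (K₀ : IntermediateField ℚ (FNt N)) (hK : K₀ = IntermediateField.adjoin ℚ {t})
    [FiniteDimensional K₀ (FNt N)] {n : ℕ} (hn : Module.finrank K₀ (FNt N) ≤ n)
    (b : Fin n → LaurentSeries (Zl ℓ)) (hb : ∀ i, ιA ℓ (b i) ∈ modularFunctionFieldFull N)
    (hli : LinearIndependent ↥(κJ ℓ) (fun i => redA ℓ (b i))) :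
    ∃ ε : ↥(chartAlg N ℓ {t}) →+* LaurentSeries (ZMod ℓ),
      ∀ y, ε y = 0 → ∃ y', y = (ℓ : ↥(chartAlg N ℓ {t})) * y' := by
  subst hK
  have hS : ∀ s ∈ ({t} : Set (FNt N)), ∃ z, ιG ℓ z = ((s : FNt N) : LaurentSeries ℚ) := by
    intro s hs
    rw [Set.mem_singleton_iff] at hs
    subst hs
    exact ⟨incG ℓ tA, by rw [ιG_incG, htA]⟩
  refine ⟨chartRed ℓ N {t} hS, fun y hy => ?_⟩
  let t₀ : ↥(IntermediateField.adjoin ℚ {t}) := ⟨t, IntermediateField.mem_adjoin_simple_self ℚ t⟩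
  letI algQ : Algebra ℚ[X] ↥(IntermediateField.adjoin ℚ {t}) := (aeval t₀).toRingHom.toAlgebra
  have halg : ∀ P : ℚ[X], algebraMap ℚ[X] ↥(IntermediateField.adjoin ℚ {t}) P = aeval t₀ P :=
    fun _ => rfl
  have hcoeF : ∀ P : ℚ[X],
      algebraMap ↥(IntermediateField.adjoin ℚ {t}) (FNt N) (aeval t₀ P) = aeval t P := by
    intro P
    have e1 : (algebraMap ↥(IntermediateField.adjoin ℚ {t}) (FNt N)).comp
        (algebraMap ℚ ↥(IntermediateField.adjoin ℚ {t})) = algebraMap ℚ (FNt N) :=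
      RingHom.ext_rat _ _
    rw [aeval_def, hom_eval₂, e1, aeval_def]
    rfl
  have hcoe : ∀ P : ℚ[X],
      φN N (algebraMap ↥(IntermediateField.adjoin ℚ {t}) (FNt N) (aeval t₀ P))
        = aeval (ιA ℓ tA) P := by
    intro P
    have e1 : (φN N).comp (algebraMap ℚ (FNt N)) = algebraMap ℚ (LaurentSeries ℚ) :=
      RingHom.ext_rat _ _
    rw [hcoeF, aeval_def, hom_eval₂, e1, aeval_def, htA]
    rfl
  haveI hfs : FaithfulSMul ℚ[X] ↥(IntermediateField.adjoin ℚ {t}) := by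
    rw [faithfulSMul_iff_algebraMap_injective, injective_iff_map_eq_zero]
    intro P hP
    by_contra hP0
    apply aeval_ιA_ne_zero ℓ tA htr P hP0
    rw [← hcoe, ← halg, hP, map_zero, map_zero]
  haveI hfr : IsFractionRing ℚ[X] ↥(IntermediateField.adjoin ℚ {t}) := by
    refine IsFractionRing.of_field ℚ[X] _ (fun z => ?_)
    obtain ⟨r, s, hrs⟩ := (IntermediateField.mem_adjoin_simple_iff ℚ _).mp z.2
    refine ⟨r, s, Subtype.ext ?_⟩
    rw [hrs, halg, halg, IntermediateField.coe_div]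
    congr 1
    · exact (hcoeF r).symm
    · exact (hcoeF s).symm
  have h := isGauss ℓ N
  have hpK : φN N (algebraMap ↥(IntermediateField.adjoin ℚ {t}) (FNt N)
      ((ℓ : ℕ) : ↥(IntermediateField.adjoin ℚ {t}))) = ιG ℓ (πG ℓ) := by
    rw [map_natCast, map_natCast, ιG_πG]
  have hκ : ∀ (c : ↥(IntermediateField.adjoin ℚ {t})) (z : OG ℓ),
      ιG ℓ z = φN N (algebraMap ↥(IntermediateField.adjoin ℚ {t}) (FNt N) c) →
      redG ℓ z ∈ (algebraMap ↥(κJ ℓ) (LaurentSeries (ZMod ℓ))).range := by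
    intro c z hz
    obtain ⟨r, s, hrs⟩ := (IntermediateField.mem_adjoin_simple_iff ℚ _).mp c.2
    have hc : c = aeval t₀ r / aeval t₀ s := by
      refine Subtype.ext ?_
      rw [hrs, IntermediateField.coe_div]
      congr 1
      · exact (hcoeF r).symm
      · exact (hcoeF s).symm
    have hz' : ιG ℓ z = aeval (ιA ℓ tA) r / aeval (ιA ℓ tA) s := by
      rw [hz, hc, map_div₀, map_div₀, hcoe, hcoe]
    exact ⟨⟨_, red_mem_of_frac ℓ tA htr (κJ ℓ) htκ r s z hz'⟩, rfl⟩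
  let x : Fin n → FNt N := fun i => ⟨ιA ℓ (b i), hb i⟩
  let zx : Fin n → OG ℓ := fun i => incG ℓ (b i)
  have hzx : ∀ i, ιG ℓ (zx i) = φN N (x i) := fun i => ιG_incG ℓ (b i)
  have hli' : LinearIndependent ↥(κJ ℓ) (fun i => redG ℓ (zx i)) := by
    have : (fun i => redG ℓ (zx i)) = fun i => redA ℓ (b i) := funext fun i => redG_incG ℓ (b i)
    rw [this]; exact hli
  let f₀ : (Zl ℓ)[X] →+* ↥(IntermediateField.adjoin ℚ {t}) :=
    (algebraMap ℚ[X] ↥(IntermediateField.adjoin ℚ {t})).comp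
      (mapRingHom (GaloisRep.ratLocalizedAt ℓ).subtype)
  have hr : ∀ c : ↥(IntermediateField.adjoin ℚ {t}),
      c ∈ h.valSub ↥(IntermediateField.adjoin ℚ {t}) →
      c ∈ (algebraMap ℚ[X] ↥(IntermediateField.adjoin ℚ {t})).range → c ∈ f₀.range := by
    rintro c ⟨w, hw⟩ ⟨P, rfl⟩
    obtain ⟨P₀, rfl⟩ := poly_descent ℓ tA htr P w (by rw [hw, halg, hcoe])
    exact ⟨P₀, rfl⟩
  have hpinv : ((ℓ : ℕ) : ↥(IntermediateField.adjoin ℚ {t}))⁻¹
      ∈ (algebraMap ℚ[X] ↥(IntermediateField.adjoin ℚ {t})).range :=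
    ⟨C ((ℓ : ℚ)⁻¹), by rw [halg, aeval_C, map_inv₀, map_natCast]⟩
  obtain ⟨z, hz⟩ := chart_mem_range ℓ N {t} hS y y.2
  have hredz : redG ℓ z = 0 := by rw [← chartRed_apply ℓ N {t} hS y z hz]; exact hy
  have hle1 : ∀ r ∈ Algebra.adjoin (Zl ℓ) ({t} : Set (FNt N)),
      r ∈ ((algebraMap ↥(IntermediateField.adjoin ℚ {t}) (FNt N)).comp
        (algebraMap ℚ[X] ↥(IntermediateField.adjoin ℚ {t}))).range := by
    intro r hr
    induction hr using Algebra.adjoin_induction with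
    | mem s hs =>
      rw [Set.mem_singleton_iff] at hs
      subst hs
      exact ⟨X, by rw [RingHom.comp_apply, halg, aeval_X]; rfl⟩
    | algebraMap c =>
      refine ⟨C (c : ℚ), ?_⟩
      rw [RingHom.comp_apply, halg, aeval_C]
      exact congrArg (fun f : Zl ℓ →+* FNt N => f c)
        (ringHom_Zl_ext ℓ
          (((algebraMap ↥(IntermediateField.adjoin ℚ {t}) (FNt N)).comp
            (algebraMap ℚ ↥(IntermediateField.adjoin ℚ {t}))).comp
              (GaloisRep.ratLocalizedAt ℓ).subtype)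
          (algebraMap (Zl ℓ) (FNt N)))
    | add a b _ _ ha hb => exact add_mem ha hb
    | mul a b _ _ ha hb => exact mul_mem ha hb
  have hyint : ((algebraMap ↥(IntermediateField.adjoin ℚ {t}) (FNt N)).comp
      (algebraMap ℚ[X] ↥(IntermediateField.adjoin ℚ {t}))).IsIntegralElem (y : FNt N) :=
    isIntegralElem_of_range_le
      (algebraMap ↥(Algebra.adjoin (Zl ℓ) ({t} : Set (FNt N))) (FNt N)) _
      (fun r => hle1 _ r.2) y.2
  obtain ⟨b', hb'int, hb'eq⟩ := h.core ((ℓ : ℕ) : ↥(IntermediateField.adjoin ℚ {t})) hpK hκ hn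
    x zx hzx hli' f₀ hr hpinv (y : FNt N) hyint z hz hredz
  have hle2 : ∀ P₀ : (Zl ℓ)[X],
      ((algebraMap ↥(IntermediateField.adjoin ℚ {t}) (FNt N)).comp f₀) P₀
        ∈ (algebraMap ↥(Algebra.adjoin (Zl ℓ) ({t} : Set (FNt N))) (FNt N)).range := by
    intro P₀
    have e : ((algebraMap ↥(IntermediateField.adjoin ℚ {t}) (FNt N)).comp f₀) P₀
        = aeval (R := Zl ℓ) t P₀ := by
      show algebraMap ↥(IntermediateField.adjoin ℚ {t}) (FNt N)
        (aeval t₀ (P₀.map (GaloisRep.ratLocalizedAt ℓ).subtype)) = _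
      rw [hcoeF, aeval_def, eval₂_map, aeval_def]
      congr 1
    rw [e]
    exact ⟨⟨_, Polynomial.aeval_mem_adjoin_singleton (Zl ℓ) t⟩, rfl⟩
  have hb'mem : b' ∈ chartAlg N ℓ {t} := isIntegralElem_of_range_le _ _ hle2 hb'int
  refine ⟨⟨b', hb'mem⟩, Subtype.ext ?_⟩
  rw [hb'eq, map_natCast]
  rfl

end Chart

/-! ### the two generators `j` and `1/j` -/

theorem transcendental_jqModC (K : Type*) [Field K] : Transcendental K (jqModC K) := by
  rw [transcendental_iff]
  intro p hp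
  by_contra hne
  have hcoef : (aeval (jqModC K) p).coeff (-(p.natDegree : ℤ)) = p.leadingCoeff := by
    rw [aeval_def, eval₂_eq_sum_range, HahnSeries.coeff_sum, Finset.sum_range_succ,
      Finset.sum_eq_zero, zero_add, algebraMap_laurentSeries_eq_single,
      HahnSeries.coeff_single_mul, sub_zero, coeff_jqModC_pow_self, mul_one]
    · rfl
    · intro i hi
      have hi' := Finset.mem_range.mp hi
      rw [algebraMap_laurentSeries_eq_single, HahnSeries.coeff_single_mul, sub_zero,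
        coeff_jqModC_pow_of_lt K (by omega), mul_zero]
  rw [hp, HahnSeries.coeff_zero] at hcoef
  exact hne (leadingCoeff_eq_zero.mp hcoef.symm)

/-- the inverse of `j` as a Laurent series over any commutative ring. -/
def jInv (R : Type*) [CommRing R] : LaurentSeries R :=
  HahnSeries.single (1 : ℤ) 1 *
    HahnSeries.ofPowerSeries ℤ R (PowerSeries.invOfUnit (jNum.map (Int.castRingHom R)) 1)

theorem jqModC_mul_jInv (R : Type*) [CommRing R] : jqModC R * jInv R = 1 := by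
  have hc : PowerSeries.constantCoeff (jNum.map (Int.castRingHom R)) = ((1 : Rˣ) : R) := by
    rw [← PowerSeries.coeff_zero_eq_constantCoeff, PowerSeries.coeff_map,
      PowerSeries.coeff_zero_eq_constantCoeff, constantCoeff_jNum]
    simp
  have h1 := PowerSeries.mul_invOfUnit (jNum.map (Int.castRingHom R)) 1 hc
  have h2 : HahnSeries.single (-1 : ℤ) (1 : R) * HahnSeries.single (1 : ℤ) (1 : R) = 1 := by
    rw [HahnSeries.single_mul_single]
    simp
  unfold jqModC jInv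
  calc HahnSeries.single (-1 : ℤ) (1 : R) * HahnSeries.ofPowerSeries ℤ R (jNum.map (Int.castRingHom R))
        * (HahnSeries.single (1 : ℤ) 1 * HahnSeries.ofPowerSeries ℤ R
            (PowerSeries.invOfUnit (jNum.map (Int.castRingHom R)) 1))
      = (HahnSeries.single (-1 : ℤ) (1 : R) * HahnSeries.single (1 : ℤ) 1)
        * (HahnSeries.ofPowerSeries ℤ R (jNum.map (Int.castRingHom R))
          * HahnSeries.ofPowerSeries ℤ R (PowerSeries.invOfUnit (jNum.map (Int.castRingHom R)) 1)) := by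
        ring
    _ = 1 := by
        have h3 : HahnSeries.ofPowerSeries ℤ R (jNum.map (Int.castRingHom R))
            * HahnSeries.ofPowerSeries ℤ R
              (PowerSeries.invOfUnit (jNum.map (Int.castRingHom R)) 1) = 1 := by
          rw [← map_mul (HahnSeries.ofPowerSeries ℤ R), h1, map_one]
        rw [h3, h2, mul_one]

theorem coeffMap_jInv {R S : Type*} [CommRing R] [CommRing S] (f : R →+* S) :
    coeffMap f (jInv R) = jInv S := by
  have h1 : jqModC S * coeffMap f (jInv R) = 1 := by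
    rw [← coeffMap_jqModC f, ← map_mul, jqModC_mul_jInv, map_one]
  have h2 := jqModC_mul_jInv S
  calc coeffMap f (jInv R) = (jInv S * jqModC S) * coeffMap f (jInv R) := by
        rw [mul_comm (jInv S), h2, one_mul]
    _ = jInv S := by rw [mul_assoc, h1, mul_one]

theorem jInv_eq_inv (K : Type*) [Field K] : jInv K = (jqModC K)⁻¹ :=
  eq_inv_of_mul_eq_one_right (jqModC_mul_jInv K)

theorem adjoin_inv_eq {F E : Type*} [Field F] [Field E] [Algebra F E] (x : E) :
    IntermediateField.adjoin F {x} = IntermediateField.adjoin F {x⁻¹} := by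
  apply le_antisymm
  · rw [IntermediateField.adjoin_simple_le_iff]
    have := (IntermediateField.adjoin F {x⁻¹}).inv_mem
      (IntermediateField.mem_adjoin_simple_self F x⁻¹)
    rwa [inv_inv] at this
  · rw [IntermediateField.adjoin_simple_le_iff]
    exact (IntermediateField.adjoin F {x}).inv_mem (IntermediateField.mem_adjoin_simple_self F x)

section Final

variable (N : ℕ) [NeZero N] (ℓ : ℕ) [Fact ℓ.Prime]

/-- the degree input: `n ≥ [F_N : ℚ(j)]` integral series in `F_N` whose reductions are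
linearly independent over `𝔽_ℓ(j̄)`. -/
def DegLower : Prop :=
  ∃ (n : ℕ) (b : Fin n → LaurentSeries (Zl ℓ)),
    Module.finrank ↥(IntermediateField.adjoin ℚ {jFull N}) ↥(modularFunctionFieldFull N) ≤ n ∧
    (∀ i, ιA ℓ (b i) ∈ modularFunctionFieldFull N) ∧
    LinearIndependent ↥(IntermediateField.adjoin (ZMod ℓ) {jqModC (ZMod ℓ)})
      (fun i => redA ℓ (b i))

theorem natCast_Lk_eq_zero : ((ℓ : ℕ) : LaurentSeries (ZMod ℓ)) = 0 := by
  rw [← map_natCast (redA ℓ)]; exact redA_natCast_self ℓ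

theorem ker_eq_span {B : Type*} [CommRing B] (ε : B →+* LaurentSeries (ZMod ℓ))
    (hε : ∀ y, ε y = 0 → ∃ y', y = (ℓ : B) * y') : RingHom.ker ε = Ideal.span {(ℓ : B)} := by
  apply le_antisymm
  · intro y hy
    obtain ⟨y', rfl⟩ := hε y (RingHom.mem_ker.mp hy)
    exact Ideal.mem_span_singleton'.mpr ⟨y', mul_comm _ _⟩
  · rw [Ideal.span_le, Set.singleton_subset_iff]
    show ε (ℓ : B) = 0
    rw [map_natCast]; exact natCast_Lk_eq_zero ℓ

theorem exists_red_fin
    (hfin : FiniteDimensional ↥(IntermediateField.adjoin ℚ {jFull N})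
      ↥(modularFunctionFieldFull N)) (hdeg : DegLower N ℓ) :
    ∃ ε : ↥(chartAlgFin N ℓ) →+* LaurentSeries (ZMod ℓ),
      ∀ y, ε y = 0 → ∃ y', y = (ℓ : ↥(chartAlgFin N ℓ)) * y' := by
  obtain ⟨n, b, hn, hb, hli⟩ := hdeg
  haveI := hfin
  have h1 : ιA ℓ (jqModC (Zl ℓ)) = ((jFull N : FNt N) : LaurentSeries ℚ) :=
    coeffMap_jqModC (GaloisRep.ratLocalizedAt ℓ).subtype
  have h2 : redA ℓ (jqModC (Zl ℓ)) = jqModC (ZMod ℓ) := coeffMap_jqModC (resZl ℓ)
  exact exists_red_chart ℓ N (jFull N) (jqModC (Zl ℓ)) h1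
    (by rw [h2]; exact transcendental_jqModC _)
    (by rw [h2]; exact IntermediateField.mem_adjoin_simple_self _ _)
    (IntermediateField.adjoin ℚ {jFull N}) rfl hn b hb hli

theorem exists_red_inf
    (hfin : FiniteDimensional ↥(IntermediateField.adjoin ℚ {jFull N})
      ↥(modularFunctionFieldFull N)) (hdeg : DegLower N ℓ) :
    ∃ ε : ↥(chartAlgInf N ℓ) →+* LaurentSeries (ZMod ℓ),
      ∀ y, ε y = 0 → ∃ y', y = (ℓ : ↥(chartAlgInf N ℓ)) * y' := by
  obtain ⟨n, b, hn, hb, hli⟩ := hdeg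
  haveI := hfin
  have h1 : ιA ℓ (jInv (Zl ℓ)) = (((jFull N)⁻¹ : FNt N) : LaurentSeries ℚ) := by
    rw [IntermediateField.coe_inv]
    exact (coeffMap_jInv (GaloisRep.ratLocalizedAt ℓ).subtype).trans (jInv_eq_inv ℚ)
  have h2 : redA ℓ (jInv (Zl ℓ)) = (jqModC (ZMod ℓ))⁻¹ :=
    (coeffMap_jInv (resZl ℓ)).trans (jInv_eq_inv (ZMod ℓ))
  refine exists_red_chart ℓ N (jFull N)⁻¹ (jInv (Zl ℓ)) h1 ?_ ?_
    (IntermediateField.adjoin ℚ {jFull N}) (adjoin_inv_eq (jFull N)) hn b hb hli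
  · rw [h2]
    intro halg
    exact transcendental_jqModC (ZMod ℓ) (by simpa using halg.inv)
  · rw [h2]
    exact (κJ ℓ).inv_mem (IntermediateField.mem_adjoin_simple_self _ _)

theorem exists_red_mid : Nonempty (↥(chartAlgMid N ℓ) →+* LaurentSeries (ZMod ℓ)) := by
  refine ⟨chartRed ℓ N {jFull N, (jFull N)⁻¹} ?_⟩
  intro s hs
  rcases hs with rfl | hs
  · exact ⟨incG ℓ (jqModC (Zl ℓ)), by
      rw [ιG_incG]; exact coeffMap_jqModC (GaloisRep.ratLocalizedAt ℓ).subtype⟩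
  · rw [Set.mem_singleton_iff] at hs
    subst hs
    refine ⟨incG ℓ (jInv (Zl ℓ)), ?_⟩
    rw [ιG_incG, IntermediateField.coe_inv]
    exact (coeffMap_jInv (GaloisRep.ratLocalizedAt ℓ).subtype).trans (jInv_eq_inv ℚ)

/-- the three reduction maps of the charts of the Igusa model, from the degree input. -/
theorem eps_of_degLower
    (hfin : FiniteDimensional ↥(IntermediateField.adjoin ℚ {jFull N})
      ↥(modularFunctionFieldFull N)) (hdeg : DegLower N ℓ) :
    (∃ ε : ↥(chartAlgFin N ℓ) →+* LaurentSeries (ZMod ℓ),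
        RingHom.ker ε = Ideal.span {(ℓ : ↥(chartAlgFin N ℓ))}) ∧
    (∃ ε : ↥(chartAlgInf N ℓ) →+* LaurentSeries (ZMod ℓ),
        RingHom.ker ε = Ideal.span {(ℓ : ↥(chartAlgInf N ℓ))}) ∧
    Nonempty (↥(chartAlgMid N ℓ) →+* LaurentSeries (ZMod ℓ)) := by
  obtain ⟨ε₁, h₁⟩ := exists_red_fin N ℓ hfin hdeg
  obtain ⟨ε₂, h₂⟩ := exists_red_inf N ℓ hfin hdeg
  exact ⟨⟨ε₁, ker_eq_span ℓ ε₁ h₁⟩, ⟨ε₂, ker_eq_span ℓ ε₂ h₂⟩, exists_red_mid N ℓ⟩

end Final

end Fermat.Agent.S28.H36
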