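import Mathlib
import Fermat.Prelude.Def_ModularCurve_IgusaScheme
import Fermat.Agent.S28.Monomials_helper72

/-!
# S28: the degree input for the valuation part (helper72)

Assembly of the lower bound (tower bound over some field of characteristic `l`) and the upper
bound (`[F_N : ℚ(j)] ≤ ψ(N)`): the degree is exactly `ψ(N)` and there are `ψ(N)` integral
monomials in the `j(q^d)` whose reductions mod `l` are independent over `F_l(J)`.
-/

set_option autoImplicit false

noncomputable section

open ModularCurve ModularCurve.IgusaScheme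

namespace Fermat.Agent.S28.H72

/-- A family in `F_N` that is linearly independent over `ℚ(j)` inside `ℚ((q))` bounds the
degree `[F_N : ℚ(j)]` from below. -/
theorem le_finrank_full (N : ℕ) [NeZero N] {n : ℕ} (v : Fin n → LaurentSeries ℚ)
    (hv : ∀ i, v i ∈ modularFunctionFieldFull N)
    (hli : LinearIndependent ↥(IntermediateField.adjoin ℚ {jqModC ℚ}) v)
    (hfin : FiniteDimensional ↥(IntermediateField.adjoin ℚ {jFull N})
      ↥(modularFunctionFieldFull N)) :
    n ≤ Module.finrank ↥(IntermediateField.adjoin ℚ {jFull N}) ↥(modularFunctionFieldFull N) := by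
  classical
  have hmem : ∀ x : ↥(IntermediateField.adjoin ℚ {jFull N}),
      ((x : ↥(modularFunctionFieldFull N)) : LaurentSeries ℚ) ∈
        IntermediateField.adjoin ℚ {jqModC ℚ} := by
    rintro ⟨x, hx⟩
    show ((x : ↥(modularFunctionFieldFull N)) : LaurentSeries ℚ) ∈ _
    induction hx using IntermediateField.adjoin_induction with
    | mem y hy =>
      rw [Set.mem_singleton_iff] at hy
      subst hy
      exact IntermediateField.subset_adjoin ℚ _ (Set.mem_singleton _)
    | algebraMap r =>
      rw [eq_ratCast (algebraMap ℚ ↥(modularFunctionFieldFull N)) r]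
      have h1 : (((r : ℚ) : ↥(modularFunctionFieldFull N)) : LaurentSeries ℚ) =
          algebraMap ℚ (LaurentSeries ℚ) r := by
        rw [eq_ratCast (algebraMap ℚ (LaurentSeries ℚ)) r]
        rfl
      rw [h1]
      exact IntermediateField.algebraMap_mem _ _
    | add y z _ _ hy hz => exact add_mem hy hz
    | inv y _ hy => exact inv_mem hy
    | mul y z _ _ hy hz => exact mul_mem hy hz
  have hli' : LinearIndependent ↥(IntermediateField.adjoin ℚ {jFull N})
      (fun i => (⟨v i, hv i⟩ : ↥(modularFunctionFieldFull N))) := by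
    rw [Fintype.linearIndependent_iff] at hli ⊢
    intro g hg i
    have h2 := hli (fun i => ⟨_, hmem (g i)⟩) (by
      have h3 := congrArg (Subtype.val : ↥(modularFunctionFieldFull N) → LaurentSeries ℚ) hg
      rw [ZeroMemClass.coe_zero] at h3
      rw [← h3, AddSubmonoidClass.coe_finsetSum]
      refine Finset.sum_congr rfl fun j _ => ?_
      rw [IntermediateField.smul_def, IntermediateField.smul_def, smul_eq_mul, smul_eq_mul]
      rfl) i
    have h4 : ((g i : ↥(modularFunctionFieldFull N)) : LaurentSeries ℚ) = 0 :=
      congrArg Subtype.val h2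
    exact Subtype.ext (Subtype.ext h4)
  have := hli'.fintype_card_le_finrank
  simpa using this


/-- Integral monomials in the `j(q^d)`, `d ∣ N`, lie in `F_N` (after the cast to `ℚ`). -/
theorem coeffMap_mem_full (N : ℕ) [NeZero N] {b : LaurentSeries ℤ}
    (hb : b ∈ Submonoid.closure (gensZ N)) :
    coeffMap (Int.castRingHom ℚ) b ∈ modularFunctionFieldFull N := by
  induction hb using Submonoid.closure_induction with
  | mem x hx =>
    obtain ⟨d, hd, hdN, rfl⟩ := hx
    rw [coeffMap_qExpand_jqModC]
    exact jqd_mem_full N hdN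
  | one =>
    rw [map_one]
    exact one_mem _
  | mul x y _ _ hx hy =>
    rw [map_mul]
    exact mul_mem hx hy

/-- The coefficients of an integral series are `l`-integral rational numbers. -/
theorem coeff_mem_ratLocalizedAt (l : ℕ) (b : LaurentSeries ℤ) (n : ℤ) :
    (coeffMap (Int.castRingHom ℚ) b).coeff n ∈ GaloisRep.ratLocalizedAt l := by
  rw [coeffMap_coeff]
  exact intCast_mem _ _

/-- The same series with coefficients in `ℤ_(l)`. -/
def liftZl (l : ℕ) (b : LaurentSeries ℤ) : LaurentSeries ↥(GaloisRep.ratLocalizedAt l) :=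
  coeffMap (Int.castRingHom ↥(GaloisRep.ratLocalizedAt l)) b

theorem coeffMap_subtype_liftZl (l : ℕ) (b : LaurentSeries ℤ) :
    coeffMap (GaloisRep.ratLocalizedAt l).subtype (liftZl l b) =
      coeffMap (Int.castRingHom ℚ) b := by
  rw [liftZl, coeffMap_coeffMap]
  exact coeffMap_congr (RingHom.ext_int _ _) _

/-- Compatibility with ANY residue map `ℤ_(l) → ZMod l` (ring homs out of `ℤ` are unique). -/
theorem coeffMap_res_liftZl (l : ℕ) (res : ↥(GaloisRep.ratLocalizedAt l) →+* ZMod l)
    (b : LaurentSeries ℤ) :
    coeffMap res (liftZl l b) = coeffMap (Int.castRingHom (ZMod l)) b := by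
  rw [liftZl, coeffMap_coeffMap]
  exact coeffMap_congr (RingHom.ext_int _ _) _

/-- **Degree input for the valuation part.**  Given the tower bound over some field `k0` of
characteristic `l` (`hpsi`, the conclusion of `psi_le`) and the characteristic-zero upper bound
(`hU`), the degree `[F_N : ℚ(j)]` is exactly `ψ(N)` and there are `ψ(N)` integral monomials in
the `j(q^d)`, lying in `F_N`, whose reductions mod `l` are linearly independent over `F_l(J)`
(and which are therefore linearly independent over `ℚ(j)`). -/
theorem exists_degLower (l : ℕ) [Fact l.Prime] (N : ℕ) [NeZero N]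
    (k0 : Type*) [Field k0] [CharP k0 l]
    (hpsi : dedekindPsi N ≤
      (IntermediateField.adjoin k0 {jqModC k0}).relfinrank (modularFunctionFieldFullC k0 N))
    (hU : FiniteDimensional ↥(IntermediateField.adjoin ℚ {jFull N})
        ↥(modularFunctionFieldFull N) ∧
      Module.finrank ↥(IntermediateField.adjoin ℚ {jFull N}) ↥(modularFunctionFieldFull N) ≤
        dedekindPsi N) :
    Module.finrank ↥(IntermediateField.adjoin ℚ {jFull N}) ↥(modularFunctionFieldFull N) =
        dedekindPsi N ∧
    ∃ b : Fin (dedekindPsi N) → LaurentSeries ℤ,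
      (∀ i, b i ∈ Submonoid.closure (gensZ N)) ∧
      (∀ i, coeffMap (Int.castRingHom ℚ) (b i) ∈ modularFunctionFieldFull N) ∧
      LinearIndependent ↥(IntermediateField.adjoin (ZMod l) {jqModC (ZMod l)})
        (fun i => coeffMap (Int.castRingHom (ZMod l)) (b i)) ∧
      LinearIndependent ↥(IntermediateField.adjoin ℚ {jqModC ℚ})
        (fun i => coeffMap (Int.castRingHom ℚ) (b i)) := by
  obtain ⟨b, hb, hli⟩ := exists_monomials_zmod l k0 N hpsi
  have hQ := linearIndependent_rat_of_zmod l b hli
  have hmem : ∀ i, coeffMap (Int.castRingHom ℚ) (b i) ∈ modularFunctionFieldFull N :=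
    fun i => coeffMap_mem_full N (hb i)
  have hge := le_finrank_full N _ hmem hQ hU.1
  exact ⟨le_antisymm hU.2 hge, b, hb, hmem, hli, hQ⟩

end Fermat.Agent.S28.H72
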