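/-
S28 work package B4 (helper24): `(Coef_l)` -- the reduction of `j` modulo a prime `l`
is never of the form `q⁻¹ + const`.

Route: `etaProd` is the pentagonal series (Mathlib), so its first coefficients are known;
`jNum * etaProd ^ 24 = eisenstein4 ^ 3` is then solved coefficient by coefficient.
We obtain the coefficients `c(0), …, c(7)` of `j`; `gcd (c(1), c(2)) = 4` and `c(7)` is odd.
-/
import Mathlib
import Fermat.Prelude.Def_ModularCurve_X0ModL

set_option autoImplicit false

namespace Fermat.Agent.S28.H24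

open PowerSeries ModularCurve

/-! ### Truncated arithmetic of integral power series -/

/-- A list of integers read as a coefficient function (zero beyond the end). -/
def cl (L : List ℤ) (n : ℕ) : ℤ := L.getD n 0

/-- Cauchy product of two coefficient functions. -/
def conv (a b : ℕ → ℤ) (n : ℕ) : ℤ := ∑ i ∈ Finset.range (n + 1), a i * b (n - i)

/-- The power series `f` has the coefficients listed in `L` in degrees `< N`. -/
def Agree (N : ℕ) (f : ℤ⟦X⟧) (L : List ℤ) : Prop := ∀ n < N, coeff n f = cl L n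

theorem coeff_mul_eq_conv (f g : ℤ⟦X⟧) (n : ℕ) :
    coeff n (f * g) = conv (fun i => coeff i f) (fun i => coeff i g) n := by
  rw [coeff_mul, Finset.Nat.sum_antidiagonal_eq_sum_range_succ_mk]
  rfl

theorem Agree.mul {N : ℕ} {f g : ℤ⟦X⟧} {F G : List ℤ} (H : List ℤ) (hf : Agree N f F)
    (hg : Agree N g G) (h : ∀ n < N, conv (cl F) (cl G) n = cl H n) : Agree N (f * g) H := by
  intro n hn
  rw [coeff_mul_eq_conv, ← h n hn]
  unfold conv
  refine Finset.sum_congr rfl fun i hi => ?_
  rw [Finset.mem_range] at hi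
  show coeff i f * coeff (n - i) g = cl F i * cl G (n - i)
  rw [hf i (by omega), hg (n - i) (by omega)]

/-- Division: if `f * g = h`, `g` has constant coefficient `1`, and the candidate list `F`
satisfies the truncated product relation, then `f` agrees with `F`. -/
theorem Agree.of_mul {N : ℕ} {f g h : ℤ⟦X⟧} {G H : List ℤ} (F : List ℤ) (hfg : f * g = h)
    (hg : Agree N g G) (hh : Agree N h H) (hG0 : cl G 0 = 1)
    (hc : ∀ n < N, conv (cl F) (cl G) n = cl H n) : Agree N f F := by
  intro n
  induction n using Nat.strong_induction_on with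
  | _ n ih =>
    intro hn
    have h1 : coeff n (f * g) = cl H n := by rw [hfg]; exact hh n hn
    rw [coeff_mul_eq_conv, ← hc n hn] at h1
    unfold conv at h1
    rw [Finset.sum_range_succ, Finset.sum_range_succ] at h1
    simp only [Nat.sub_self] at h1
    have h2 : ∑ i ∈ Finset.range n, coeff i f * coeff (n - i) g =
        ∑ i ∈ Finset.range n, cl F i * cl G (n - i) := by
      refine Finset.sum_congr rfl fun i hi => ?_
      rw [Finset.mem_range] at hi
      rw [ih i hi (by omega), hg (n - i) (by omega)]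
    rw [h2, hg 0 (by omega), hG0] at h1
    linarith

/-! ### The eta product -/

theorem etaProd_eq_pentagonalSeries : etaProd = pentagonalSeries ℤ :=
  PowerSeries.WithPiTopology.tprod_one_sub_X_pow ℤ

theorem not_mem_range_pentagonal (n : ℕ) (hn : n < 12)
    (h : ∀ k : ℤ, -3 ≤ k → k ≤ 3 → k * (3 * k - 1) ≠ 2 * (n : ℤ)) :
    n ∉ Set.range pentagonal := by
  rintro ⟨k, hk⟩
  have h2 := two_mul_natCast_pentagonal k
  rw [hk] at h2
  have hn' : (n : ℤ) < 12 := by exact_mod_cast hn
  have hk1 : -3 ≤ k := by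
    by_contra hlt
    rw [not_le] at hlt
    nlinarith
  have hk2 : k ≤ 3 := by
    by_contra hlt
    rw [not_le] at hlt
    nlinarith
  exact h k hk1 hk2 h2.symm

/-- The list of the first nine coefficients of `etaProd`. -/
def etaL : List ℤ := [1, -1, -1, 0, 0, 1, 0, 1, 0]

theorem agree_etaProd : Agree 9 etaProd etaL := by
  intro n hn
  rw [etaProd_eq_pentagonalSeries]
  have hz : ∀ m : ℕ, m < 12 →
      (∀ k : ℤ, -3 ≤ k → k ≤ 3 → k * (3 * k - 1) ≠ 2 * (m : ℤ)) →
      coeff m (pentagonalSeries ℤ) = 0 := fun m hm h =>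
    coeff_pentagonalSeries_eq_zero ℤ (not_mem_range_pentagonal m hm h)
  have hv : ∀ (k : ℤ) (m : ℕ) (v : ℤ), pentagonal k = m → ((Int.negOnePow k : ℤˣ) : ℤ) = v →
      coeff m (pentagonalSeries ℤ) = v := by
    intro k m v hm hv
    rw [← hm, coeff_pentagonalSeries_pentagonal]
    rw [Int.cast_id]
    exact hv
  interval_cases n
  · exact hv 0 0 1 (by decide) (by decide)
  · exact hv 1 1 (-1) (by decide) (by decide)
  · exact hv (-1) 2 (-1) (by decide) (by decide)
  · exact hz 3 (by norm_num) (by intro k h1 h2; interval_cases k <;> norm_num)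
  · exact hz 4 (by norm_num) (by intro k h1 h2; interval_cases k <;> norm_num)
  · exact hv 2 5 1 (by decide) (by decide)
  · exact hz 6 (by norm_num) (by intro k h1 h2; interval_cases k <;> norm_num)
  · exact hv (-2) 7 1 (by decide) (by decide)
  · exact hz 8 (by norm_num) (by intro k h1 h2; interval_cases k <;> norm_num)

/-! ### Powers of the eta product -/

/-- `etaProd ^ 2` -/
def eta2L : List ℤ := [1, -2, -1, 2, 1, 2, -2, 0, -2]
/-- `etaProd ^ 3` -/
def eta3L : List ℤ := [1, -3, 0, 5, 0, 0, -7, 0, 0]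
/-- `etaProd ^ 6` -/
def eta6L : List ℤ := [1, -6, 9, 10, -30, 0, 11, 42, 0]
/-- `etaProd ^ 12` -/
def eta12L : List ℤ := [1, -12, 54, -88, -99, 540, -418, -648, 594]
/-- `etaProd ^ 24` (the first values of Ramanujan's tau function). -/
def eta24L : List ℤ := [1, -24, 252, -1472, 4830, -6048, -16744, 84480, -113643]

theorem agree_dedekindEtaUnit : Agree 9 dedekindEtaUnit eta24L := by
  have h2 : Agree 9 (etaProd * etaProd) eta2L :=
    Agree.mul eta2L agree_etaProd agree_etaProd (by decide)
  have h3 : Agree 9 (etaProd * etaProd * etaProd) eta3L :=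
    Agree.mul eta3L h2 agree_etaProd (by decide)
  have h6 := Agree.mul eta6L h3 h3 (by decide)
  have h12 := Agree.mul eta12L h6 h6 (by decide)
  have h24 := Agree.mul eta24L h12 h12 (by decide)
  have he : dedekindEtaUnit = etaProd * etaProd * etaProd * (etaProd * etaProd * etaProd) *
      (etaProd * etaProd * etaProd * (etaProd * etaProd * etaProd)) *
      (etaProd * etaProd * etaProd * (etaProd * etaProd * etaProd) *
      (etaProd * etaProd * etaProd * (etaProd * etaProd * etaProd))) := by
    unfold dedekindEtaUnit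
    ring
  rw [he]
  exact h24

/-! ### The Eisenstein series `E₄` -/

/-- `E₄` -/
def e4L : List ℤ := [1, 240, 2160, 6720, 17520, 30240, 60480, 82560, 140400]
/-- `E₄ ^ 2` -/
def e42L : List ℤ :=
  [1, 480, 61920, 1050240, 7926240, 37500480, 135480960, 395301120, 1014559200]
/-- `E₄ ^ 3` -/
def e43L : List ℤ :=
  [1, 720, 179280, 16954560, 396974160, 4632858720, 34413301440, 187477879680, 814940600400]

theorem agree_eisenstein4 : Agree 9 eisenstein4 e4L := by
  intro n hn
  unfold eisenstein4
  rw [coeff_mk]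
  interval_cases n <;> decide

theorem agree_eisenstein4_cube : Agree 9 (eisenstein4 ^ 3) e43L := by
  have h2 : Agree 9 (eisenstein4 * eisenstein4) e42L :=
    Agree.mul e42L agree_eisenstein4 agree_eisenstein4 (by decide)
  have h3 := Agree.mul e43L h2 agree_eisenstein4 (by decide)
  have he : eisenstein4 ^ 3 = eisenstein4 * eisenstein4 * eisenstein4 := by ring
  rw [he]
  exact h3

/-! ### The coefficients of `j` -/

/-- The coefficients `1, 744, 196884, …` of `q * j`. -/
def jL : List ℤ :=
  [1, 744, 196884, 21493760, 864299970, 20245856256, 333202640600, 4252023300096,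
    44656994071935]

theorem jNum_mul_dedekindEtaUnit : jNum * dedekindEtaUnit = eisenstein4 ^ 3 := by
  rw [jNum, mul_assoc, mul_comm dedekindEtaUnitInv, dedekindEtaUnit_mul_inv, mul_one]

theorem agree_jNum : Agree 9 jNum jL :=
  Agree.of_mul jL jNum_mul_dedekindEtaUnit agree_dedekindEtaUnit agree_eisenstein4_cube
    (by decide) (by decide)

theorem coeff_jNum_one : coeff 1 jNum = 744 := agree_jNum 1 (by norm_num)

theorem coeff_jNum_two : coeff 2 jNum = 196884 := agree_jNum 2 (by norm_num)

theorem coeff_jNum_three : coeff 3 jNum = 21493760 := agree_jNum 3 (by norm_num)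

theorem coeff_jNum_eight : coeff 8 jNum = 44656994071935 := agree_jNum 8 (by norm_num)

theorem odd_coeff_jNum_eight : Odd (coeff 8 jNum) := by
  rw [coeff_jNum_eight]
  decide

/-! ### `(Coef_l)` -/

theorem coeff_jqModC_int (m : ℕ) : (jqModC ℤ).coeff ((m : ℤ) - 1) = coeff m jNum := by
  unfold jqModC
  rw [show ((m : ℤ) - 1) = (m : ℤ) + (-1) by ring, HahnSeries.coeff_single_mul_add, one_mul,
    HahnSeries.ofPowerSeries_apply_coeff, PowerSeries.coeff_map]
  rfl

/-- The coefficient of `q ^ (m - 1)` of the reduction of `j` is the image of the integer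
`coeff m jNum`. -/
theorem coeff_jqModC (k : Type*) [CommRing k] (m : ℕ) :
    (jqModC k).coeff ((m : ℤ) - 1) = ((coeff m jNum : ℤ) : k) := by
  rw [coeff_jqModC_eq_intCast, coeff_jqModC_int]

/-- For every prime `l`, one of the integers `c(1) = 196884`, `c(2) = 21493760`,
`c(7) = 44656994071935` is prime to `l`. -/
theorem exists_coeff_jNum_not_dvd (l : ℕ) (hl : l.Prime) :
    ∃ m : ℕ, 2 ≤ m ∧ ¬ (l : ℤ) ∣ coeff m jNum := by
  by_cases h1 : (l : ℤ) ∣ 196884
  · by_cases h2 : (l : ℤ) ∣ 21493760
    · have h4 : (l : ℤ) ∣ 4 := by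
        have h := dvd_add (Dvd.dvd.mul_left h1 (-570739)) (Dvd.dvd.mul_left h2 5228)
        norm_num at h
        exact h
      have h4' : l ∣ 2 ^ 2 := by exact_mod_cast h4
      have hl2 : l = 2 := (Nat.prime_dvd_prime_iff_eq hl Nat.prime_two).mp (hl.dvd_of_dvd_pow h4')
      refine ⟨8, by norm_num, ?_⟩
      rw [coeff_jNum_eight, hl2]
      decide
    · exact ⟨3, by norm_num, by rw [coeff_jNum_three]; exact h2⟩
  · exact ⟨2, le_rfl, by rw [coeff_jNum_two]; exact h1⟩

/-- `(Coef_l)`, coefficient form: in characteristic `l` the reduction of `j` has a nonzero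
coefficient in positive degree. -/
theorem exists_coeff_jqModC_ne_zero (l : ℕ) [Fact l.Prime] (k : Type*) [Field k] [CharP k l] :
    ∃ n : ℤ, 1 ≤ n ∧ (jqModC k).coeff n ≠ 0 := by
  obtain ⟨m, hm, hdvd⟩ := exists_coeff_jNum_not_dvd l (Fact.out)
  refine ⟨(m : ℤ) - 1, by omega, ?_⟩
  rw [coeff_jqModC, Ne, CharP.intCast_eq_zero_iff k l]
  exact hdvd

/-- `(Coef_l)`: in characteristic `l` the reduction of `j` is not `q⁻¹ + const`. -/
theorem jqModC_ne_single_add_C (l : ℕ) [Fact l.Prime] (k : Type*) [Field k] [CharP k l] (c : k) :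
    jqModC k ≠ HahnSeries.single (-1 : ℤ) 1 + HahnSeries.C c := by
  obtain ⟨n, hn, hne⟩ := exists_coeff_jqModC_ne_zero l k
  intro h
  apply hne
  rw [h, HahnSeries.coeff_add, HahnSeries.coeff_single_of_ne (by omega), HahnSeries.C_apply,
    HahnSeries.coeff_single_of_ne (by omega), add_zero]

/-- Variant of `(Coef_l)` with the constant subtracted: `J - c ≠ q⁻¹`. -/
theorem jqModC_sub_C_ne_single (l : ℕ) [Fact l.Prime] (k : Type*) [Field k] [CharP k l] (c : k) :
    jqModC k - HahnSeries.C c ≠ HahnSeries.single (-1 : ℤ) 1 := fun h =>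
  jqModC_ne_single_add_C l k c (by rw [← h]; ring)

end Fermat.Agent.S28.H24
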