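import Mathlib
import Fermat.Prelude.Def_ModularCurve_IgusaScheme

/-!
# S28: the scheme glue

If the three chart algebras of the Igusa scheme, base changed to a field `K`, are
(domain, domain, nontrivial), then the base change of the Igusa scheme to `K` is integral.
-/

set_option autoImplicit false

open AlgebraicGeometry CategoryTheory CategoryTheory.Limits ModularCurve ModularCurve.IgusaScheme
open scoped TensorProduct

noncomputable section

namespace Fermat.Agent.S28.H55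

/-- A space covered by two irreducible subsets, one of them open, which meet, is irreducible. -/
theorem irreducibleSpace_of_two_irreducible {X : Type*} [TopologicalSpace X] {U V : Set X}
    (hU : IsIrreducible U) (hV : IsIrreducible V) (hUo : IsOpen U)
    (hcov : U ∪ V = Set.univ) (hne : (V ∩ U).Nonempty) : IrreducibleSpace X := by
  have hVU : V ⊆ closure U :=
    (subset_closure_inter_of_isPreirreducible_of_isOpen hV.isPreirreducible hUo hne).trans
      (closure_mono Set.inter_subset_right)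
  have hcl : closure U = Set.univ := by
    apply Set.eq_univ_of_univ_subset
    rw [← hcov]
    exact Set.union_subset subset_closure hVU
  rw [irreducibleSpace_def]
  show IsIrreducible (Set.univ : Set X)
  rw [← hcl]
  exact isIrreducible_iff_closure.mpr hU

variable (N : ℕ) [NeZero N] (ℓ : ℕ) [Fact ℓ.Prime]
variable (K : Type) [Field K] [Algebra ↥(GaloisRep.ratLocalizedAt ℓ) K]

/-- the base-change morphism `Spec K ⟶ Spec ℤ_(ℓ)` -/
abbrev gK : Spec (CommRingCat.of K) ⟶ Spec (CommRingCat.of ↥(GaloisRep.ratLocalizedAt ℓ)) :=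
  Spec.map (CommRingCat.ofHom (algebraMap ↥(GaloisRep.ratLocalizedAt ℓ) K))

theorem mid_toBase :
    (fFin N ℓ ≫ ιFin N ℓ) ≫ igusaTo N ℓ =
      Spec.map (CommRingCat.ofHom (algebraMap ↥(GaloisRep.ratLocalizedAt ℓ) (chartAlgMid N ℓ))) := by
  have h : (inclFin N ℓ).toRingHom.comp (algebraMap ↥(GaloisRep.ratLocalizedAt ℓ) (chartAlgFin N ℓ)) =
      algebraMap ↥(GaloisRep.ratLocalizedAt ℓ) (chartAlgMid N ℓ) :=
    RingHom.ext fun a => (inclFin N ℓ).commutes a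
  rw [Category.assoc, ιFin_igusaTo, ← Spec.map_comp, ← CommRingCat.ofHom_comp, h]

/-- the finite chart of the base change, as a spectrum -/
def isoFin : pullback (ιFin N ℓ ≫ igusaTo N ℓ) (gK ℓ K) ≅
    Spec (CommRingCat.of (↥(chartAlgFin N ℓ) ⊗[↥(GaloisRep.ratLocalizedAt ℓ)] K)) :=
  pullback.congrHom (ιFin_igusaTo N ℓ) rfl ≪≫
    pullbackSpecIso ↥(GaloisRep.ratLocalizedAt ℓ) ↥(chartAlgFin N ℓ) K

/-- the infinite chart of the base change, as a spectrum -/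
def isoInf : pullback (ιInf N ℓ ≫ igusaTo N ℓ) (gK ℓ K) ≅
    Spec (CommRingCat.of (↥(chartAlgInf N ℓ) ⊗[↥(GaloisRep.ratLocalizedAt ℓ)] K)) :=
  pullback.congrHom (ιInf_igusaTo N ℓ) rfl ≪≫
    pullbackSpecIso ↥(GaloisRep.ratLocalizedAt ℓ) ↥(chartAlgInf N ℓ) K

/-- the middle chart of the base change, as a spectrum -/
def isoMid : pullback ((fFin N ℓ ≫ ιFin N ℓ) ≫ igusaTo N ℓ) (gK ℓ K) ≅
    Spec (CommRingCat.of (↥(chartAlgMid N ℓ) ⊗[↥(GaloisRep.ratLocalizedAt ℓ)] K)) :=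
  pullback.congrHom (mid_toBase N ℓ) rfl ≪≫
    pullbackSpecIso ↥(GaloisRep.ratLocalizedAt ℓ) ↥(chartAlgMid N ℓ) K

/-- the open immersion of the finite chart into the base change -/
abbrev jFin : pullback (ιFin N ℓ ≫ igusaTo N ℓ) (gK ℓ K) ⟶ pullback (igusaTo N ℓ) (gK ℓ K) :=
  pullback.map (ιFin N ℓ ≫ igusaTo N ℓ) (gK ℓ K) (igusaTo N ℓ) (gK ℓ K) (ιFin N ℓ) (𝟙 _) (𝟙 _)
    (by simp) (by simp)

/-- the open immersion of the infinite chart into the base change -/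
abbrev jInf : pullback (ιInf N ℓ ≫ igusaTo N ℓ) (gK ℓ K) ⟶ pullback (igusaTo N ℓ) (gK ℓ K) :=
  pullback.map (ιInf N ℓ ≫ igusaTo N ℓ) (gK ℓ K) (igusaTo N ℓ) (gK ℓ K) (ιInf N ℓ) (𝟙 _) (𝟙 _)
    (by simp) (by simp)

/-- the map of the middle chart into the base change -/
abbrev jMid : pullback ((fFin N ℓ ≫ ιFin N ℓ) ≫ igusaTo N ℓ) (gK ℓ K) ⟶
    pullback (igusaTo N ℓ) (gK ℓ K) :=
  pullback.map ((fFin N ℓ ≫ ιFin N ℓ) ≫ igusaTo N ℓ) (gK ℓ K) (igusaTo N ℓ) (gK ℓ K)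
    (fFin N ℓ ≫ ιFin N ℓ) (𝟙 _) (𝟙 _) (by simp) (by simp)

theorem range_jFin :
    Set.range (jFin N ℓ K) = pullback.fst (igusaTo N ℓ) (gK ℓ K) ⁻¹' Set.range (ιFin N ℓ) := by
  rw [jFin, Scheme.Pullback.range_map]
  simp

theorem range_jInf :
    Set.range (jInf N ℓ K) = pullback.fst (igusaTo N ℓ) (gK ℓ K) ⁻¹' Set.range (ιInf N ℓ) := by
  rw [jInf, Scheme.Pullback.range_map]
  simp

theorem mem_range_jFin_or_jInf (x : ↑(pullback (igusaTo N ℓ) (gK ℓ K))) :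
    x ∈ Set.range (jFin N ℓ K) ∨ x ∈ Set.range (jInf N ℓ K) := by
  rw [range_jFin, range_jInf]
  exact mem_range_ιFin_or_mem_range_ιInf N ℓ (pullback.fst (igusaTo N ℓ) (gK ℓ K) x)

theorem fst_jMid (y : ↑(pullback ((fFin N ℓ ≫ ιFin N ℓ) ≫ igusaTo N ℓ) (gK ℓ K))) :
    pullback.fst (igusaTo N ℓ) (gK ℓ K) (jMid N ℓ K y) =
      ιFin N ℓ (fFin N ℓ (pullback.fst ((fFin N ℓ ≫ ιFin N ℓ) ≫ igusaTo N ℓ) (gK ℓ K) y)) := by
  have e : jMid N ℓ K ≫ pullback.fst (igusaTo N ℓ) (gK ℓ K) =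
      pullback.fst ((fFin N ℓ ≫ ιFin N ℓ) ≫ igusaTo N ℓ) (gK ℓ K) ≫ (fFin N ℓ ≫ ιFin N ℓ) :=
    pullback.lift_fst _ _ _
  have h := congrArg (fun f => f y) e
  simpa only [Scheme.Hom.comp_apply] using h

theorem fst_jMid' (y : ↑(pullback ((fFin N ℓ ≫ ιFin N ℓ) ≫ igusaTo N ℓ) (gK ℓ K))) :
    pullback.fst (igusaTo N ℓ) (gK ℓ K) (jMid N ℓ K y) =
      ιInf N ℓ (fInf N ℓ (pullback.fst ((fFin N ℓ ≫ ιFin N ℓ) ≫ igusaTo N ℓ) (gK ℓ K) y)) := by
  rw [fst_jMid]
  have h : ∀ z, ιFin N ℓ (fFin N ℓ z) = ιInf N ℓ (fInf N ℓ z) := fun z => by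
    rw [← Scheme.Hom.comp_apply, ← Scheme.Hom.comp_apply, glue_condition]
  exact h _

theorem range_jMid_subset :
    Set.range (jMid N ℓ K) ⊆ Set.range (jInf N ℓ K) ∩ Set.range (jFin N ℓ K) := by
  rintro _ ⟨y, rfl⟩
  rw [range_jFin, range_jInf]
  exact ⟨⟨_, (fst_jMid' N ℓ K y).symm⟩, ⟨_, (fst_jMid N ℓ K y).symm⟩⟩

/-- **Scheme glue.** If the base changes to `K` of the finite and infinite chart algebras are
domains and that of the middle chart algebra is nontrivial, then the base change of the Igusa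
scheme to `K` is integral. -/
theorem isIntegral_pullback_of_charts
    (hFin : IsDomain (↥(chartAlgFin N ℓ) ⊗[↥(GaloisRep.ratLocalizedAt ℓ)] K))
    (hInf : IsDomain (↥(chartAlgInf N ℓ) ⊗[↥(GaloisRep.ratLocalizedAt ℓ)] K))
    (hMid : Nontrivial (↥(chartAlgMid N ℓ) ⊗[↥(GaloisRep.ratLocalizedAt ℓ)] K)) :
    IsIntegral ↑(pullback (igusaTo N ℓ)
      (Spec.map (CommRingCat.ofHom (algebraMap ↥(GaloisRep.ratLocalizedAt ℓ) K)))) := by
  have iFin : IsIntegral (pullback (ιFin N ℓ ≫ igusaTo N ℓ) (gK ℓ K)) :=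
    IsIntegral.of_isIso (isoFin N ℓ K).inv
  have iInf : IsIntegral (pullback (ιInf N ℓ ≫ igusaTo N ℓ) (gK ℓ K)) :=
    IsIntegral.of_isIso (isoInf N ℓ K).inv
  have nMid : Nonempty ↑(pullback ((fFin N ℓ ≫ ιFin N ℓ) ≫ igusaTo N ℓ) (gK ℓ K)) :=
    Nonempty.map (isoMid N ℓ K).inv inferInstance
  -- reducedness
  let 𝒱 : (pullback (igusaTo N ℓ) (gK ℓ K)).OpenCover :=
    Scheme.Cover.mkOfCovers Bool
      (fun b => Bool.rec (pullback (ιInf N ℓ ≫ igusaTo N ℓ) (gK ℓ K))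
        (pullback (ιFin N ℓ ≫ igusaTo N ℓ) (gK ℓ K)) b)
      (fun b => Bool.rec (motive := fun b => (Bool.rec (pullback (ιInf N ℓ ≫ igusaTo N ℓ) (gK ℓ K))
        (pullback (ιFin N ℓ ≫ igusaTo N ℓ) (gK ℓ K)) b : Scheme) ⟶ pullback (igusaTo N ℓ) (gK ℓ K))
        (jInf N ℓ K) (jFin N ℓ K) b)
      (fun x => by
        rcases mem_range_jFin_or_jInf N ℓ K x with ⟨y, hy⟩ | ⟨y, hy⟩
        · exact ⟨true, y, hy⟩
        · exact ⟨false, y, hy⟩)
      (fun b => by cases b <;> infer_instance)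
  have hred : ∀ i, IsReduced (𝒱.X i) := by
    intro i
    cases i
    · show IsReduced (pullback (ιInf N ℓ ≫ igusaTo N ℓ) (gK ℓ K))
      infer_instance
    · show IsReduced (pullback (ιFin N ℓ ≫ igusaTo N ℓ) (gK ℓ K))
      infer_instance
  have hredP : IsReduced (pullback (igusaTo N ℓ) (gK ℓ K)) := IsReduced.of_openCover _ 𝒱
  -- irreducibility
  have hirr : IrreducibleSpace ↑(pullback (igusaTo N ℓ) (gK ℓ K)) := by
    refine irreducibleSpace_of_two_irreducible (U := Set.range (jFin N ℓ K))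
      (V := Set.range (jInf N ℓ K)) ?_ ?_ ?_ ?_ ?_
    · rw [← Set.image_univ]
      exact (IrreducibleSpace.isIrreducible_univ _).image _ (jFin N ℓ K).continuous.continuousOn
    · rw [← Set.image_univ]
      exact (IrreducibleSpace.isIrreducible_univ _).image _ (jInf N ℓ K).continuous.continuousOn
    · exact (jFin N ℓ K).isOpenEmbedding.isOpen_range
    · ext x
      simpa using mem_range_jFin_or_jInf N ℓ K x
    · obtain ⟨y⟩ := nMid
      exact ⟨jMid N ℓ K y, range_jMid_subset N ℓ K ⟨y, rfl⟩⟩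
  exact isIntegral_of_irreducibleSpace_of_isReduced _

end Fermat.Agent.S28.H55
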