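import Mathlib
import Fermat.Prelude.Def_ModularCurve_IgusaScheme
import Fermat.Prelude.Def_ModularCurve_LaurentCoeff

/-!
# S28, work package D4: `B ⊗_{ℤ_(ℓ)} K` embeds in `K((q))`

Let `Zl = ℤ_(ℓ)` (`GaloisRep.ratLocalizedAt ℓ`), let `A` be a commutative `Zl`-algebra with a ring
homomorphism `ρ : A → 𝔽_ℓ((q))` whose kernel is `ℓ A`, and let `K` be a field of characteristic
`ℓ`.  Then `A ⊗[Zl] K` embeds in `K((q))`; in particular it is a domain.  Without the kernel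
hypothesis the tensor product is still nontrivial.
-/

set_option autoImplicit false

noncomputable section

open TensorProduct

namespace Fermat.Agent.S28.H19

/-- Ring homomorphisms out of `ℤ_(ℓ)` are unique. -/
theorem ringHom_ratLocalizedAt_ext (ℓ : ℕ) [Fact ℓ.Prime] {R : Type*} [Ring R]
    (f g : ↥(GaloisRep.ratLocalizedAt ℓ) →+* R) : f = g := by
  ext x
  obtain ⟨q, hq⟩ := x
  have hq' : q.den.Coprime ℓ := hq
  have hu : ((q.den : ℚ))⁻¹ ∈ GaloisRep.ratLocalizedAt ℓ := by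
    show ((q.den : ℚ))⁻¹.den.Coprime ℓ
    have : ((q.den : ℚ))⁻¹.den = q.den := by
      rw [Rat.inv_natCast_den, if_neg q.den_nz]
    rw [this]; exact hq'
  set x : ↥(GaloisRep.ratLocalizedAt ℓ) := ⟨q, hq⟩ with hx
  set u : ↥(GaloisRep.ratLocalizedAt ℓ) := ⟨_, hu⟩ with hu'
  set d : ↥(GaloisRep.ratLocalizedAt ℓ) := (q.den : ↥(GaloisRep.ratLocalizedAt ℓ)) with hd
  have hdu : d * u = 1 := by
    apply Subtype.ext
    simp [hd, hu', q.den_nz]
  have hud : u * d = 1 := by rw [mul_comm]; exact hdu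
  have hxd : x * d = (q.num : ↥(GaloisRep.ratLocalizedAt ℓ)) := by
    apply Subtype.ext
    simp [hd, hx, Rat.mul_den_eq_num]
  have hfd : f d = g d := by rw [hd, map_natCast, map_natCast]
  have hfg : f u = g u := by
    calc f u = f u * (g d * g u) := by rw [← map_mul, hdu, map_one, mul_one]
      _ = f (u * d) * g u := by rw [map_mul, ← hfd, mul_assoc]
      _ = g u := by rw [hud, map_one, one_mul]
  calc f x = f (x * d * u) := by rw [mul_assoc, hdu, mul_one]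
    _ = f (x * d) * f u := by rw [map_mul]
    _ = g (x * d) * g u := by rw [hxd, map_intCast, map_intCast, hfg]
    _ = g x := by rw [← map_mul, mul_assoc, hdu, mul_one]

section

variable (ℓ : ℕ) [Fact ℓ.Prime]
variable (A : Type*) [CommRing A] [Algebra ↥(GaloisRep.ratLocalizedAt ℓ) A]
variable (ρ : A →+* LaurentSeries (ZMod ℓ))
variable (K : Type*) [Field K] [CharP K ℓ] [Algebra ↥(GaloisRep.ratLocalizedAt ℓ) K]

/-- The coefficientwise base change `𝔽_ℓ((q)) → K((q))`. -/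
def castL : LaurentSeries (ZMod ℓ) →+* LaurentSeries K :=
  ModularCurve.coeffMap (ZMod.castHom (dvd_refl ℓ) K)

/-- `a ↦ ρ(a)` viewed in `K((q))`, as a `ℤ_(ℓ)`-algebra map. -/
def leftHom : A →ₐ[↥(GaloisRep.ratLocalizedAt ℓ)] LaurentSeries K :=
  { (castL ℓ K).comp ρ with
    commutes' := fun r => by
      have := ringHom_ratLocalizedAt_ext ℓ
        (((castL ℓ K).comp ρ).comp (algebraMap ↥(GaloisRep.ratLocalizedAt ℓ) A))
        (algebraMap ↥(GaloisRep.ratLocalizedAt ℓ) (LaurentSeries K))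
      exact RingHom.congr_fun this r }

theorem leftHom_apply (a : A) : leftHom ℓ A ρ K a = castL ℓ K (ρ a) := rfl

/-- Constants `K → K((q))`, as a `ℤ_(ℓ)`-algebra map. -/
def rightHom : K →ₐ[↥(GaloisRep.ratLocalizedAt ℓ)] LaurentSeries K :=
  { (HahnSeries.C : K →+* LaurentSeries K) with
    commutes' := fun r => by
      have := ringHom_ratLocalizedAt_ext ℓ
        ((HahnSeries.C : K →+* LaurentSeries K).comp (algebraMap ↥(GaloisRep.ratLocalizedAt ℓ) K))
        (algebraMap ↥(GaloisRep.ratLocalizedAt ℓ) (LaurentSeries K))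
      exact RingHom.congr_fun this r }

omit [CharP K ℓ] in
theorem rightHom_apply (c : K) : rightHom ℓ K c = HahnSeries.C c := rfl

/-- The comparison map `A ⊗[ℤ_(ℓ)] K → K((q))`. -/
def tensorHom : A ⊗[↥(GaloisRep.ratLocalizedAt ℓ)] K →ₐ[↥(GaloisRep.ratLocalizedAt ℓ)]
    LaurentSeries K :=
  @Algebra.TensorProduct.lift _ _ _ _ _ _ _ _ _ _ _ _ _ _ _ _ _
    (IsScalarTower.of_algebraMap_eq (fun _ => rfl))
    (leftHom ℓ A ρ K) (rightHom ℓ K) (fun _ _ => Commute.all _ _)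

theorem tensorHom_tmul (a : A) (c : K) :
    tensorHom ℓ A ρ K (a ⊗ₜ c) = HahnSeries.C c * castL ℓ K (ρ a) := by
  have h : tensorHom ℓ A ρ K (a ⊗ₜ c) = leftHom ℓ A ρ K a * rightHom ℓ K c := rfl
  rw [h, leftHom_apply, rightHom_apply, mul_comm]

/-- Moving an `𝔽_ℓ`-scalar across the tensor product over `ℤ_(ℓ)`. -/
theorem tmul_zmod_smul (a : A) (t : ZMod ℓ) (e : K) :
    letI := ZMod.algebra K ℓ
    (a ⊗ₜ[↥(GaloisRep.ratLocalizedAt ℓ)] (t • e) : A ⊗[↥(GaloisRep.ratLocalizedAt ℓ)] K)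
      = ((t.val : A) * a) ⊗ₜ e := by
  let _ := ZMod.algebra K ℓ
  have h1 : t • e = ((t.val : ℕ) : ↥(GaloisRep.ratLocalizedAt ℓ)) • e := by
    conv_lhs => rw [← ZMod.natCast_zmod_val t]
    rw [Nat.cast_smul_eq_nsmul, Nat.cast_smul_eq_nsmul]
  rw [h1, ← TensorProduct.smul_tmul, Algebra.smul_def, map_natCast]

/-- Every element of `A ⊗[ℤ_(ℓ)] K` is a finite sum `∑ aᵢ ⊗ eᵢ` with the `eᵢ` taken from a fixed
`𝔽_ℓ`-basis of `K`. -/
theorem exists_finsupp_repr (z : A ⊗[↥(GaloisRep.ratLocalizedAt ℓ)] K) :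
    letI := ZMod.algebra K ℓ
    ∃ a : Module.Basis.ofVectorSpaceIndex (ZMod ℓ) K →₀ A,
      z = a.sum (fun i x => x ⊗ₜ[↥(GaloisRep.ratLocalizedAt ℓ)]
        (Module.Basis.ofVectorSpace (ZMod ℓ) K i)) := by
  let _ := ZMod.algebra K ℓ
  induction z using TensorProduct.induction_on with
  | zero => exact ⟨0, by simp⟩
  | tmul x c =>
    set b := Module.Basis.ofVectorSpace (ZMod ℓ) K with hb
    refine ⟨(b.repr c).mapRange (fun t => ((t.val : ℕ) : A) * x) (by simp), ?_⟩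
    rw [Finsupp.sum_mapRange_index (fun i => by simp)]
    have hc : c = (b.repr c).sum (fun i t => t • b i) := by
      conv_lhs => rw [← b.linearCombination_repr c]
      rfl
    conv_lhs => rw [hc]
    rw [Finsupp.sum, TensorProduct.tmul_sum, Finsupp.sum]
    refine Finset.sum_congr rfl (fun i _ => ?_)
    exact tmul_zmod_smul ℓ A K x _ _
  | add z₁ z₂ h₁ h₂ =>
    obtain ⟨a₁, rfl⟩ := h₁
    obtain ⟨a₂, rfl⟩ := h₂
    refine ⟨a₁ + a₂, ?_⟩
    rw [Finsupp.sum_add_index' (fun i => by simp) (fun i x y => by rw [TensorProduct.add_tmul])]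

theorem tensorHom_injective (hρ : ∀ a : A, ρ a = 0 → ∃ a' : A, a = (ℓ : A) * a') :
    Function.Injective (tensorHom ℓ A ρ K) := by
  let _ := ZMod.algebra K ℓ
  rw [injective_iff_map_eq_zero]
  intro z hz
  obtain ⟨a, rfl⟩ := exists_finsupp_repr ℓ A K z
  set b := Module.Basis.ofVectorSpace (ZMod ℓ) K with hb
  rw [Finsupp.sum, map_sum] at hz
  simp only [tensorHom_tmul] at hz
  have key : ∀ i ∈ a.support, ρ (a i) = 0 := by
    intro i hi
    ext n
    have hn := congrArg (fun f => HahnSeries.coeff f n) hz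
    simp only [HahnSeries.coeff_sum, HahnSeries.C_mul_eq_smul, HahnSeries.coeff_smul,
      HahnSeries.coeff_zero] at hn
    have hli := linearIndependent_iff'.mp b.linearIndependent a.support
      (fun i => (ρ (a i)).coeff n) ?_ i hi
    · simpa using hli
    · rw [← hn]
      refine Finset.sum_congr rfl (fun j _ => ?_)
      rw [Algebra.smul_def, smul_eq_mul, mul_comm]
      rfl
  refine Finset.sum_eq_zero (fun i hi => ?_)
  obtain ⟨a', ha'⟩ := hρ _ (key i hi)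
  have h1 : ((ℓ : A) * a') ⊗ₜ[↥(GaloisRep.ratLocalizedAt ℓ)] b i
      = a' ⊗ₜ (((ℓ : ℕ) : ↥(GaloisRep.ratLocalizedAt ℓ)) • b i) := by
    rw [← TensorProduct.smul_tmul, Algebra.smul_def, map_natCast]
  show (a i) ⊗ₜ[↥(GaloisRep.ratLocalizedAt ℓ)] b i = 0
  rw [ha', h1, Nat.cast_smul_eq_nsmul, nsmul_eq_mul, CharP.cast_eq_zero, zero_mul,
    TensorProduct.tmul_zero]

end

/-- **D4, embedding form.** If `ρ : A → 𝔽_ℓ((q))` has kernel `ℓ A`, then `A ⊗[ℤ_(ℓ)] K` embeds in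
`K((q))` for every field `K` of characteristic `ℓ`. -/
theorem exists_injective_tensor (ℓ : ℕ) [Fact ℓ.Prime] (A : Type*) [CommRing A]
    [Algebra ↥(GaloisRep.ratLocalizedAt ℓ) A] (ρ : A →+* LaurentSeries (ZMod ℓ))
    (hρ : ∀ a : A, ρ a = 0 → ∃ a' : A, a = (ℓ : A) * a')
    (K : Type*) [Field K] [CharP K ℓ] [Algebra ↥(GaloisRep.ratLocalizedAt ℓ) K] :
    ∃ Φ : A ⊗[↥(GaloisRep.ratLocalizedAt ℓ)] K →+* LaurentSeries K,
      Function.Injective Φ ∧ ∀ (a : A) (c : K), Φ (a ⊗ₜ c)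
        = HahnSeries.C c * ModularCurve.coeffMap (ZMod.castHom (dvd_refl ℓ) K) (ρ a) :=
  ⟨(tensorHom ℓ A ρ K).toRingHom, tensorHom_injective ℓ A ρ K hρ,
    fun a c => tensorHom_tmul ℓ A ρ K a c⟩

/-- **D4.** If `ρ : A → 𝔽_ℓ((q))` has kernel `ℓ A`, then `A ⊗[ℤ_(ℓ)] K` is a domain for every
field `K` of characteristic `ℓ`. -/
theorem isDomain_tensor (ℓ : ℕ) [Fact ℓ.Prime] (A : Type*) [CommRing A]
    [Algebra ↥(GaloisRep.ratLocalizedAt ℓ) A] (ρ : A →+* LaurentSeries (ZMod ℓ))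
    (hρ : ∀ a : A, ρ a = 0 → ∃ a' : A, a = (ℓ : A) * a')
    (K : Type*) [Field K] [CharP K ℓ] [Algebra ↥(GaloisRep.ratLocalizedAt ℓ) K] :
    IsDomain (A ⊗[↥(GaloisRep.ratLocalizedAt ℓ)] K) :=
  Function.Injective.isDomain (tensorHom ℓ A ρ K).toRingHom (tensorHom_injective ℓ A ρ K hρ)

/-- **D4, nontriviality.** Any ring homomorphism `ρ : A → 𝔽_ℓ((q))` forces `A ⊗[ℤ_(ℓ)] K` to be
nontrivial. -/
theorem nontrivial_tensor (ℓ : ℕ) [Fact ℓ.Prime] (A : Type*) [CommRing A]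
    [Algebra ↥(GaloisRep.ratLocalizedAt ℓ) A] (ρ : A →+* LaurentSeries (ZMod ℓ))
    (K : Type*) [Field K] [CharP K ℓ] [Algebra ↥(GaloisRep.ratLocalizedAt ℓ) K] :
    Nontrivial (A ⊗[↥(GaloisRep.ratLocalizedAt ℓ)] K) :=
  (tensorHom ℓ A ρ K).toRingHom.domain_nontrivial

end Fermat.Agent.S28.H19
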