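import Mathlib
import Fermat.Prelude.Def_ModularCurve_IgusaScheme
import Fermat.Prelude.Def_ModularCurve_X0ModL
import Fermat.Agent.S28.Glue_helper55
import Fermat.Agent.S28.TensorDomain_helper19

/-!
# S28: assembly of the special fibre statement from the reduction maps on the three charts

`EpsData N ℓ` is the one remaining top node: ring homomorphisms from the three chart algebras
of the Igusa model to `𝔽_ℓ((q))` whose kernel (on the two affine charts) is generated by `ℓ`.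
`isIntegral_of_epsData` derives the frozen statement from it, using the gluing lemma
(`Glue_helper55`) and the tensor-product lemma (`TensorDomain_helper19`).
-/

set_option autoImplicit false

open AlgebraicGeometry CategoryTheory CategoryTheory.Limits ModularCurve ModularCurve.IgusaScheme

noncomputable section

namespace Fermat.Agent.S28.H74

/-- Reduction data on the three charts: ring homomorphisms to `𝔽_ℓ((q))`; on the two affine
charts every element killed by the reduction is a multiple of `ℓ`. -/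
def EpsData (N : ℕ) [NeZero N] (ℓ : ℕ) [Fact ℓ.Prime] : Prop :=
  (∃ ρ : ↥(chartAlgFin N ℓ) →+* LaurentSeries (ZMod ℓ),
      ∀ a : ↥(chartAlgFin N ℓ), ρ a = 0 → ∃ a' : ↥(chartAlgFin N ℓ), a = (ℓ : ↥(chartAlgFin N ℓ)) * a') ∧
  (∃ ρ : ↥(chartAlgInf N ℓ) →+* LaurentSeries (ZMod ℓ),
      ∀ a : ↥(chartAlgInf N ℓ), ρ a = 0 → ∃ a' : ↥(chartAlgInf N ℓ), a = (ℓ : ↥(chartAlgInf N ℓ)) * a') ∧
  Nonempty (↥(chartAlgMid N ℓ) →+* LaurentSeries (ZMod ℓ))

/-- The kernel clause of `EpsData` in the two-sided form `ker ε = (ℓ)` implies the one-sided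
form. -/
theorem epsData_of_ker (N : ℕ) [NeZero N] (ℓ : ℕ) [Fact ℓ.Prime]
    (h : (∃ ε : ↥(chartAlgFin N ℓ) →+* LaurentSeries (ZMod ℓ),
            RingHom.ker ε = Ideal.span {(ℓ : ↥(chartAlgFin N ℓ))}) ∧
         (∃ ε : ↥(chartAlgInf N ℓ) →+* LaurentSeries (ZMod ℓ),
            RingHom.ker ε = Ideal.span {(ℓ : ↥(chartAlgInf N ℓ))}) ∧
         Nonempty (↥(chartAlgMid N ℓ) →+* LaurentSeries (ZMod ℓ))) :
    EpsData N ℓ := by
  obtain ⟨⟨ε₁, h₁⟩, ⟨ε₂, h₂⟩, h₃⟩ := h
  refine ⟨⟨ε₁, fun a ha => ?_⟩, ⟨ε₂, fun a ha => ?_⟩, h₃⟩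
  · have : a ∈ RingHom.ker ε₁ := ha
    rw [h₁, Ideal.mem_span_singleton'] at this
    obtain ⟨a', rfl⟩ := this
    exact ⟨a', mul_comm _ _⟩
  · have : a ∈ RingHom.ker ε₂ := ha
    rw [h₂, Ideal.mem_span_singleton'] at this
    obtain ⟨a', rfl⟩ := this
    exact ⟨a', mul_comm _ _⟩

/-- **Top of S28.** The special fibre of the Igusa model is integral, given the reduction data
on the three charts. -/
theorem isIntegral_of_epsData (N : ℕ) [NeZero N] (ℓ : ℕ) [Fact ℓ.Prime] (hE : EpsData N ℓ)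
    (K : Type) [Field K] [CharP K ℓ] [Algebra ↥(GaloisRep.ratLocalizedAt ℓ) K] :
    IsIntegral ↑(pullback (igusaTo N ℓ)
      (Spec.map (CommRingCat.ofHom (algebraMap ↥(GaloisRep.ratLocalizedAt ℓ) K)))) := by
  obtain ⟨⟨ρ₁, h₁⟩, ⟨ρ₂, h₂⟩, ⟨ρ₃⟩⟩ := hE
  exact Fermat.Agent.S28.H55.isIntegral_pullback_of_charts N ℓ K
    (Fermat.Agent.S28.H19.isDomain_tensor ℓ _ ρ₁ h₁ K)
    (Fermat.Agent.S28.H19.isDomain_tensor ℓ _ ρ₂ h₂ K)
    (Fermat.Agent.S28.H19.nontrivial_tensor ℓ _ ρ₃ K)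

end Fermat.Agent.S28.H74
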