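import Mathlib
import Fermat.Agent.S28.Gauss_helper36
import Fermat.Agent.S28.DegreeQ_helper98
import Fermat.Agent.S28.Assembly_helper74
import Fermat.Agent.S28.PsiFinal_helper50
import Fermat.Agent.S28.DegLower_helper72

/-!
# S28: from integral series with independent reductions to the reduction data of the charts

`degLower_of_int` converts a family of Laurent series over `ℤ` (lying in the function field
after base change to `ℚ`, with reductions mod `ℓ` linearly independent over `𝔽_ℓ(j)`) into the
input `DegLower` of the valuation part (`Gauss_helper36`); `epsData_of_int` then produces the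
reduction data `EpsData` of the three charts, using the degree upper bound
(`DegreeQ_helper98`); `epsData` is the unconditional statement for `ℓ ∤ N`, with the integral
series supplied by the degree lower bound over `𝔽̄_ℓ` (`PsiFinal_helper50`) and the monomial
basis (`Monomials_helper72`).
-/

set_option autoImplicit false

open ModularCurve ModularCurve.IgusaScheme

noncomputable section

namespace Fermat.Agent.S28.H74

/-- Integral series, `ℤ → ℤ_(ℓ)`: the input `DegLower` of the valuation part. -/
theorem degLower_of_int (N : ℕ) [NeZero N] (ℓ : ℕ) [Fact ℓ.Prime] (n : ℕ)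
    (b : Fin n → LaurentSeries ℤ)
    (hn : Module.finrank ↥(IntermediateField.adjoin ℚ {jFull N})
      ↥(modularFunctionFieldFull N) ≤ n)
    (hb : ∀ i, coeffMap (Int.castRingHom ℚ) (b i) ∈ modularFunctionFieldFull N)
    (hli : LinearIndependent ↥(IntermediateField.adjoin (ZMod ℓ) {jqModC (ZMod ℓ)})
      (fun i => coeffMap (Int.castRingHom (ZMod ℓ)) (b i))) :
    H36.DegLower N ℓ := by
  refine ⟨n, fun i => coeffMap (Int.castRingHom (H36.Zl ℓ)) (b i), hn, fun i => ?_, ?_⟩
  · have h : H36.ιA ℓ (coeffMap (Int.castRingHom (H36.Zl ℓ)) (b i))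
        = coeffMap (Int.castRingHom ℚ) (b i) := by
      rw [H36.ιA, coeffMap_coeffMap]
      exact coeffMap_congr (RingHom.ext_int _ _) _
    rw [h]
    exact hb i
  · have h : (fun i => H36.redA ℓ (coeffMap (Int.castRingHom (H36.Zl ℓ)) (b i)))
        = fun i => coeffMap (Int.castRingHom (ZMod ℓ)) (b i) := by
      funext i
      rw [H36.redA, coeffMap_coeffMap]
      exact coeffMap_congr (RingHom.ext_int _ _) _
    rw [h]
    exact hli

/-- The reduction data of the three charts from `ψ(N)` integral series in the function field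
whose reductions mod `ℓ` are linearly independent over `𝔽_ℓ(j)`. -/
theorem epsData_of_int (N : ℕ) [NeZero N] (ℓ : ℕ) [Fact ℓ.Prime]
    (b : Fin (dedekindPsi N) → LaurentSeries ℤ)
    (hb : ∀ i, coeffMap (Int.castRingHom ℚ) (b i) ∈ modularFunctionFieldFull N)
    (hli : LinearIndependent ↥(IntermediateField.adjoin (ZMod ℓ) {jqModC (ZMod ℓ)})
      (fun i => coeffMap (Int.castRingHom (ZMod ℓ)) (b i))) :
    EpsData N ℓ :=
  epsData_of_ker N ℓ
    (H36.eps_of_degLower N ℓ (H98.finrank_full_le N).1
      (degLower_of_int N ℓ _ b (H98.finrank_full_le N).2 hb hli))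

/-- **The reduction data of the three charts of the Igusa model, for `ℓ ∤ N`.** -/
theorem epsData (N : ℕ) [NeZero N] (ℓ : ℕ) [Fact ℓ.Prime] (hℓN : ¬ ℓ ∣ N) : EpsData N ℓ := by
  obtain ⟨b, hb, hli⟩ := H72.exists_monomials_zmod ℓ (AlgebraicClosure (ZMod ℓ)) N
    (H50.psi_le_algebraicClosure_zmod ℓ N hℓN)
  exact epsData_of_int N ℓ b (fun i => H72.coeffMap_mem_full N (hb i)) hli

end Fermat.Agent.S28.H74
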