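import Mathlib
import Fermat.Agent.S28.Tower_helper50
import Fermat.Agent.S28.IGFinal_helper43
import Fermat.Agent.S28.ModEq_helper20

/-!
# S28: the degree lower bound over `𝔽̄_ℓ`, assembled

* `modEq2_of_primitiveRoot` : helper20's modular equation (product form) gives the two
  identities `Φ(J, J(x^p)) = 0 = Φ(J(x^p), J)` consumed by the tower lemma;
* `modEq2_of_isAlgClosed`   : the same over an algebraically closed field in which `p ≠ 0`;
* `psi_le_of_hasse`         : `ψ(N) ≤ [k(j_d : d ∣ N) : k(j)]` for an algebraically closed field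
  `k` of characteristic `ℓ ∤ N`, given the Hasse relation `G(J) Δ^(ℓ-1) = 1` over `k`.
-/

set_option autoImplicit false

open Polynomial ModularCurve

noncomputable section

namespace Fermat.Agent.S28.H74

/-- `qExpand p` commutes with evaluating a two-variable polynomial with constant
coefficients. -/
theorem qExpand_eval_map_aeval (k : Type*) [Field k] (p : ℕ) [NeZero p] (Ψ : k[X][X])
    (a b : LaurentSeries k) :
    qExpand k p ((Ψ.map (aeval (R := k) a).toRingHom).eval b)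
      = (Ψ.map (aeval (R := k) (qExpand k p a)).toRingHom).eval (qExpand k p b) := by
  rw [Polynomial.eval_map, Polynomial.eval_map, Polynomial.hom_eval₂]
  congr 1
  apply Polynomial.ringHom_ext
  · intro c
    simp only [RingHom.coe_comp, Function.comp_apply, AlgHom.toRingHom_eq_coe, RingHom.coe_coe,
      aeval_C]
    exact (qExpandAlgHomC k p).commutes c
  · simp only [RingHom.coe_comp, Function.comp_apply, AlgHom.toRingHom_eq_coe, RingHom.coe_coe,
      aeval_X]

/-- **(G1)** The two identities of the tower lemma from the product form of the modular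
equation. -/
theorem modEq2_of_primitiveRoot (p : ℕ) (hp : p.Prime) (k : Type*) [Field k] (ζ : kˣ)
    (hζ : IsPrimitiveRoot ζ p) : @H50.ModEq2 k _ p ⟨hp.ne_zero⟩ := by
  have : NeZero p := ⟨hp.ne_zero⟩
  have : NeZero (p * p) := ⟨mul_ne_zero hp.ne_zero hp.ne_zero⟩
  obtain ⟨Φ, hm, hdeg, hΦ⟩ := H20.exists_modEq p hp k ζ hζ
  refine ⟨Φ, hm, hdeg, ?_, ?_⟩
  · apply qExpand_injective (R := k) p
    rw [map_zero, qExpand_eval_map_aeval, hΦ, qExpand_qExpand, Polynomial.eval_mul,
      Polynomial.eval_sub, Polynomial.eval_X, Polynomial.eval_C, sub_self, zero_mul]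
  · rw [hΦ, Polynomial.eval_mul, Polynomial.eval_prod]
    have h0 : ∏ b ∈ Finset.range p,
        Polynomial.eval (jqModC k) (X - C (H20.twist (ζ ^ b) (jqModC k))) = 0 := by
      apply Finset.prod_eq_zero (Finset.mem_range.mpr hp.pos)
      rw [pow_zero, H20.twist_one, Polynomial.eval_sub, Polynomial.eval_X, Polynomial.eval_C,
        sub_self]
    rw [h0, mul_zero]

/-- **(G2)** The modular equation over an algebraically closed field in which `p ≠ 0`. -/
theorem modEq2_of_isAlgClosed (k : Type*) [Field k] [IsAlgClosed k] (p : ℕ) (hp : p.Prime)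
    (hpk : (p : k) ≠ 0) : @H50.ModEq2 k _ p ⟨hp.ne_zero⟩ := by
  have : NeZero (p : k) := ⟨hpk⟩
  obtain ⟨ζ, hζroot⟩ := IsAlgClosed.exists_root (cyclotomic p k)
    (by rw [degree_cyclotomic]; exact_mod_cast (Nat.totient_pos.mpr hp.pos).ne')
  have hζ : IsPrimitiveRoot ζ p := Polynomial.isRoot_cyclotomic_iff.mp hζroot
  have hζ0 : ζ ≠ 0 := hζ.ne_zero hp.ne_zero
  have hζu : IsPrimitiveRoot (Units.mk0 ζ hζ0) p := by
    rw [← IsPrimitiveRoot.coe_units_iff]
    simpa using hζ
  exact modEq2_of_primitiveRoot p hp k _ hζu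

/-- In characteristic `ℓ`, a prime `p ≠ ℓ` is nonzero. -/
theorem natCast_ne_zero_of_prime_ne (k : Type*) [Field k] (ℓ : ℕ) [CharP k ℓ] {p : ℕ}
    (hp : p.Prime) (hℓ : ℓ.Prime) (hpl : p ≠ ℓ) : (p : k) ≠ 0 := by
  intro h
  have hdvd : ℓ ∣ p := (CharP.cast_eq_zero_iff k ℓ p).mp h
  rcases (Nat.dvd_prime hp).mp hdvd with h1 | h1
  · exact hℓ.one_lt.ne' h1
  · exact hpl h1.symm

/-- **(G3)** The degree lower bound `ψ(N) ≤ [k(j_d : d ∣ N) : k(j)]` over an algebraically
closed field `k` of characteristic `ℓ ∤ N`, given the Hasse relation over `k`. -/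
theorem psi_le_of_hasse (k : Type*) [Field k] [IsAlgClosed k] (ℓ : ℕ) (hℓ : ℓ.Prime) [CharP k ℓ]
    (N : ℕ) [NeZero N] (hℓN : ¬ ℓ ∣ N)
    (hHasse : ∃ G : Polynomial k, G.Monic ∧ G.natDegree = ℓ - 1 ∧
      aeval (jqModC k) G * H47.deltaL k ^ (ℓ - 1) = 1) :
    dedekindPsi N ≤
      (IntermediateField.adjoin k {jqModC k}).relfinrank (modularFunctionFieldFullC k N) := by
  have hne : ∀ p (hp : p.Prime), p ∣ N → p ≠ ℓ := fun p _ hpN h => hℓN (h ▸ hpN)
  have hMod : ∀ p (hp : p.Prime), p ∣ N → @H50.ModEq2 k _ p ⟨hp.ne_zero⟩ := fun p hp hpN =>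
    modEq2_of_isAlgClosed k p hp (natCast_ne_zero_of_prime_ne k ℓ hp hℓ (hne p hp hpN))
  refine H50.psi_le k N hMod (fun p hp hpN => ?_)
  obtain ⟨Φ, hm, -, h1, -⟩ := hMod p hp hpN
  exact H43.igusa_of_char ℓ hℓ hHasse p hp (hne p hp hpN) ⟨Φ, hm, h1⟩

/-- **(G3')** The same over `𝔽̄_ℓ`. -/
theorem psi_le_algebraicClosure (ℓ : ℕ) [Fact ℓ.Prime] (N : ℕ) [NeZero N] (hℓN : ¬ ℓ ∣ N)
    (hHasse : ∃ G : Polynomial (AlgebraicClosure (ZMod ℓ)), G.Monic ∧ G.natDegree = ℓ - 1 ∧
      aeval (jqModC (AlgebraicClosure (ZMod ℓ))) G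
        * H47.deltaL (AlgebraicClosure (ZMod ℓ)) ^ (ℓ - 1) = 1) :
    dedekindPsi N ≤
      (IntermediateField.adjoin (AlgebraicClosure (ZMod ℓ))
          {jqModC (AlgebraicClosure (ZMod ℓ))}).relfinrank
        (modularFunctionFieldFullC (AlgebraicClosure (ZMod ℓ)) N) :=
  psi_le_of_hasse (AlgebraicClosure (ZMod ℓ)) ℓ Fact.out N hℓN hHasse

end Fermat.Agent.S28.H74
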