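import Mathlib
import Fermat.Prelude.Def_ModularCurve_JqCoeff
import Fermat.Agent.S28.CoefL_helper54

set_option autoImplicit false

noncomputable section

open PowerSeries ModularCurve

namespace Fermat.Agent.S28.H54

/-! ### Coefficients of products and powers up to a fixed degree -/

theorem coeff_mul_congr {R : Type*} [CommRing R] {f f' g g' : PowerSeries R} {n : ℕ}
    (hf : ∀ i ≤ n, PowerSeries.coeff i f = PowerSeries.coeff i f')
    (hg : ∀ i ≤ n, PowerSeries.coeff i g = PowerSeries.coeff i g') :
    ∀ i ≤ n, PowerSeries.coeff i (f * g) = PowerSeries.coeff i (f' * g') := by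
  intro i hi
  rw [PowerSeries.coeff_mul, PowerSeries.coeff_mul]
  refine Finset.sum_congr rfl fun x hx => ?_
  have h0 : x.1 + x.2 = i := Finset.HasAntidiagonal.mem_antidiagonal.mp hx
  have h1 : x.1 ≤ i := by omega
  have h2 : x.2 ≤ i := by omega
  rw [hf x.1 (h1.trans hi), hg x.2 (h2.trans hi)]

/-- If `u = 1 + a X^n + O(X^(n+1))` with `n ≥ 1` then `u^r = 1 + r a X^n + O(X^(n+1))`. -/
theorem coeff_pow_eq {R : Type*} [CommRing R] (u : PowerSeries R) (n : ℕ) (hn : 1 ≤ n) (a : R)
    (hu : ∀ i ≤ n, PowerSeries.coeff i u =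
      PowerSeries.coeff i (1 + PowerSeries.C a * PowerSeries.X ^ n)) (r : ℕ) :
    ∀ i ≤ n, PowerSeries.coeff i (u ^ r) =
      PowerSeries.coeff i (1 + PowerSeries.C ((r : R) * a) * PowerSeries.X ^ n) := by
  induction r with
  | zero =>
    intro i _
    simp
  | succ r ih =>
    intro i hi
    rw [pow_succ, coeff_mul_congr ih hu i hi]
    have hexp : (1 + PowerSeries.C ((r : R) * a) * PowerSeries.X ^ n) *
        (1 + PowerSeries.C a * PowerSeries.X ^ n) =
        1 + PowerSeries.C (((r + 1 : ℕ) : R) * a) * PowerSeries.X ^ n +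
          PowerSeries.C ((r : R) * a * a) * PowerSeries.X ^ (n + n) := by
      rw [pow_add]
      simp only [map_mul, map_add, Nat.cast_add, Nat.cast_one, map_one, map_natCast]
      ring
    rw [hexp, map_add, PowerSeries.coeff_C_mul (n := i) (a := (r : R) * a * a),
      PowerSeries.coeff_X_pow, if_neg (by omega), mul_zero, add_zero]

/-! ### The functional equation `u(q^r) = u(q)^r` -/

theorem jqModC_sub_C_eq (k : Type*) [CommRing k] (z0 : k) :
    jqModC k - HahnSeries.C z0 = HahnSeries.single (-1 : ℤ) 1 *
      HahnSeries.ofPowerSeries ℤ k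
        (jNum.map (Int.castRingHom k) - PowerSeries.C z0 * PowerSeries.X) := by
  rw [map_sub, map_mul, HahnSeries.ofPowerSeries_C, HahnSeries.ofPowerSeries_X, mul_sub, jqModC]
  congr 1
  rw [← mul_assoc, mul_comm _ (HahnSeries.C z0), mul_assoc, HahnSeries.single_mul_single]
  simp

theorem coeff_single_neg_mul_ofPowerSeries (k : Type*) [CommRing k] (r : ℕ) (u : PowerSeries k)
    (n : ℕ) :
    (HahnSeries.single (-(r : ℤ)) (1 : k) * HahnSeries.ofPowerSeries ℤ k u).coeff
      ((n : ℤ) - r) = PowerSeries.coeff n u := by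
  rw [HahnSeries.coeff_single_mul, one_mul, sub_neg_eq_add, sub_add_cancel,
    HahnSeries.ofPowerSeries_apply_coeff]

/-- The `(fin)` step of `(IG_r)`: `J - z0` never satisfies `f(q^r) = f(q)^r` when `r ≥ 2` is
invertible in `k`. -/
theorem qExpand_sub_ne_pow (k : Type*) [CommRing k] [IsDomain k] (r : ℕ) [NeZero r] (hr : 2 ≤ r)
    (hrk : (r : k) ≠ 0) (z0 : k) :
    qExpand k r (jqModC k - HahnSeries.C z0) ≠ (jqModC k - HahnSeries.C z0) ^ r := by
  intro heq
  set u : PowerSeries k := jNum.map (Int.castRingHom k) - PowerSeries.C z0 * PowerSeries.X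
    with hu
  have hf : jqModC k - HahnSeries.C z0 =
      HahnSeries.single (-1 : ℤ) 1 * HahnSeries.ofPowerSeries ℤ k u := jqModC_sub_C_eq k z0
  have hpow : (jqModC k - HahnSeries.C z0) ^ r =
      HahnSeries.single (-(r : ℤ)) 1 * HahnSeries.ofPowerSeries ℤ k (u ^ r) := by
    have h : r • (-1 : ℤ) = -(r : ℤ) := by simp
    rw [hf, mul_pow, HahnSeries.single_pow, one_pow, h, ← map_pow]
  have hu0 : PowerSeries.coeff 0 u = 1 := by
    rw [hu, map_sub, PowerSeries.coeff_map, PowerSeries.coeff_zero_eq_constantCoeff,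
      constantCoeff_jNum]
    simp
  -- the coefficient identity
  have key : ∀ n : ℕ, PowerSeries.coeff n (u ^ r) =
      if r ∣ n then PowerSeries.coeff (n / r) u else 0 := by
    intro n
    rw [← coeff_single_neg_mul_ofPowerSeries k r (u ^ r) n, ← hpow, ← heq]
    split_ifs with hdvd
    · obtain ⟨m, rfl⟩ := hdvd
      have h1 : ((r * m : ℕ) : ℤ) - r = (r : ℤ) * ((m : ℤ) - 1) := by push_cast; ring
      rw [h1, qExpand_coeff_mul, hf, Nat.mul_div_cancel_left m (Nat.pos_of_ne_zero (NeZero.ne r))]
      have h2 := coeff_single_neg_mul_ofPowerSeries k 1 u m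
      simpa using h2
    · apply qExpand_coeff_of_not_dvd
      intro hd
      apply hdvd
      have h3 : (r : ℤ) ∣ (n : ℤ) := by
        have := dvd_add hd (dvd_refl (r : ℤ))
        simpa using this
      exact_mod_cast h3
  -- all higher coefficients vanish
  have hvan : ∀ n : ℕ, 1 ≤ n → PowerSeries.coeff n u = 0 := by
    intro n
    induction n using Nat.strong_induction_on with
    | _ n ih =>
      intro hn
      have hu' : ∀ i ≤ n, PowerSeries.coeff i u =
          PowerSeries.coeff i (1 + PowerSeries.C (PowerSeries.coeff n u) * PowerSeries.X ^ n) := by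
        intro i hi
        rw [map_add, PowerSeries.coeff_C_mul, PowerSeries.coeff_X_pow, PowerSeries.coeff_one]
        rcases Nat.eq_zero_or_pos i with h0 | hpos
        · subst h0
          rw [hu0, if_pos rfl, if_neg (by omega), mul_zero, add_zero]
        · rcases Nat.lt_or_ge i n with hlt | hge
          · rw [ih i hlt hpos, if_neg (by omega), if_neg (by omega), mul_zero, add_zero]
          · have hin : i = n := le_antisymm hi hge
            subst hin
            rw [if_neg (by omega), if_pos rfl, mul_one, zero_add]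
      have h1 := coeff_pow_eq u n hn _ hu' r n le_rfl
      rw [map_add, PowerSeries.coeff_C_mul, PowerSeries.coeff_X_pow, PowerSeries.coeff_one,
        if_neg (by omega), if_pos rfl, mul_one, zero_add, key n] at h1
      have h2 : (if r ∣ n then PowerSeries.coeff (n / r) u else 0) = 0 := by
        split_ifs with hdvd
        · obtain ⟨m, rfl⟩ := hdvd
          have hm : 1 ≤ m := by
            rcases Nat.eq_zero_or_pos m with h0 | hpos
            · subst h0; omega
            · exact hpos
          rw [Nat.mul_div_cancel_left m (Nat.pos_of_ne_zero (NeZero.ne r))]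
          exact ih m (by nlinarith) hm
        · rfl
      rw [h2] at h1
      rcases mul_eq_zero.mp h1.symm with h | h
      · exact absurd h hrk
      · exact h
  have hu1 : u = 1 := by
    ext n
    rw [PowerSeries.coeff_one]
    rcases Nat.eq_zero_or_pos n with h0 | hpos
    · subst h0; rw [hu0, if_pos rfl]
    · rw [hvan n hpos, if_neg (by omega)]
  apply jqModC_ne k z0
  have h4 := hf
  rw [hu1, map_one (HahnSeries.ofPowerSeries ℤ k), mul_one] at h4
  rw [← h4]
  ring

/-- The same statement with the constant written through `algebraMap`. -/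
theorem qExpand_sub_algebraMap_ne_pow (k : Type*) [CommRing k] [IsDomain k] (r : ℕ) [NeZero r]
    (hr : 2 ≤ r) (hrk : (r : k) ≠ 0) (z0 : k) :
    qExpand k r (jqModC k - algebraMap k (LaurentSeries k) z0) ≠
      (jqModC k - algebraMap k (LaurentSeries k) z0) ^ r := by
  have h : algebraMap k (LaurentSeries k) z0 = HahnSeries.C z0 := by
    have h1 : algebraMap k (PowerSeries k) z0 = PowerSeries.C z0 := by simp
    rw [HahnSeries.algebraMap_apply', h1, HahnSeries.ofPowerSeries_C]
  rw [h]
  exact qExpand_sub_ne_pow k r hr hrk z0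

end Fermat.Agent.S28.H54
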