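import Mathlib
import Fermat.Agent.S28.Gauss_helper36

/-!
S28 (helper36): adapter producing `DegLower` from integral series (coefficients in `ℤ`).
-/

set_option autoImplicit false

noncomputable section

namespace Fermat.Agent.S28.H36

open Polynomial ModularCurve ModularCurve.IgusaScheme

/-- the integral generators `j(q^d)`, `d ∣ N`, over `ℤ`. -/
def gensInt (N : ℕ) : Set (LaurentSeries ℤ) :=
  {x | ∃ (d : ℕ) (_ : NeZero d), d ∣ N ∧ x = qExpand ℤ d (jqModC ℤ)}

theorem coeffMap_mem_full_of_mem_closure (N : ℕ) [NeZero N] (x : LaurentSeries ℤ)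
    (hx : x ∈ Submonoid.closure (gensInt N)) :
    coeffMap (Int.castRingHom ℚ) x ∈ modularFunctionFieldFull N := by
  induction hx using Submonoid.closure_induction with
  | mem y hy =>
    obtain ⟨d, hd, hdN, rfl⟩ := hy
    haveI := hd
    rw [coeffMap_qExpand, coeffMap_jqModC]
    exact jqd_mem_full N hdN
  | one => rw [map_one]; exact one_mem _
  | mul a b _ _ ha hb => rw [map_mul]; exact mul_mem ha hb

variable (N : ℕ) [NeZero N] (ℓ : ℕ) [Fact ℓ.Prime]

omit [Fact ℓ.Prime] in
theorem ιA_coeffMap_int (x : LaurentSeries ℤ) :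
    ιA ℓ (coeffMap (Int.castRingHom (Zl ℓ)) x) = coeffMap (Int.castRingHom ℚ) x := by
  rw [ιA, coeffMap_coeffMap]
  exact coeffMap_congr (RingHom.ext_int _ _) x

theorem redA_coeffMap_int (x : LaurentSeries ℤ) :
    redA ℓ (coeffMap (Int.castRingHom (Zl ℓ)) x) = coeffMap (Int.castRingHom (ZMod ℓ)) x := by
  rw [redA, coeffMap_coeffMap]
  exact coeffMap_congr (RingHom.ext_int _ _) x

/-- `DegLower` from integer series: enough members of the function field (after `ℤ → ℚ`)
whose reductions mod `ℓ` are independent over `𝔽_ℓ(j̄)`. -/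
theorem degLower_of_int {n : ℕ}
    (hn : Module.finrank ↥(IntermediateField.adjoin ℚ {jFull N}) ↥(modularFunctionFieldFull N) ≤ n)
    (b : Fin n → LaurentSeries ℤ)
    (hb : ∀ i, coeffMap (Int.castRingHom ℚ) (b i) ∈ modularFunctionFieldFull N)
    (hli : LinearIndependent ↥(IntermediateField.adjoin (ZMod ℓ) {jqModC (ZMod ℓ)})
      (fun i => coeffMap (Int.castRingHom (ZMod ℓ)) (b i))) : DegLower N ℓ := by
  refine ⟨n, fun i => coeffMap (Int.castRingHom (Zl ℓ)) (b i), hn, fun i => ?_, ?_⟩
  · rw [ιA_coeffMap_int]; exact hb i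
  · have : (fun i => redA ℓ (coeffMap (Int.castRingHom (Zl ℓ)) (b i)))
        = fun i => coeffMap (Int.castRingHom (ZMod ℓ)) (b i) :=
      funext fun i => redA_coeffMap_int ℓ (b i)
    rw [this]; exact hli

/-- the same with the monomial form of the members. -/
theorem degLower_of_monomials {n : ℕ}
    (hn : Module.finrank ↥(IntermediateField.adjoin ℚ {jFull N}) ↥(modularFunctionFieldFull N) ≤ n)
    (b : Fin n → LaurentSeries ℤ) (hb : ∀ i, b i ∈ Submonoid.closure (gensInt N))
    (hli : LinearIndependent ↥(IntermediateField.adjoin (ZMod ℓ) {jqModC (ZMod ℓ)})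
      (fun i => coeffMap (Int.castRingHom (ZMod ℓ)) (b i))) : DegLower N ℓ :=
  degLower_of_int N ℓ hn b (fun i => coeffMap_mem_full_of_mem_closure N (b i) (hb i)) hli

end Fermat.Agent.S28.H36
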