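import Mathlib
import Fermat.Prelude.Def_ModularCurve_X0
import Fermat.Prelude.Def_ModularCurve_X0ModL

/-!
# S28 (Igusa), WP-B1, final step: `J(q^r) - z₀ = (J(q) - z₀)^r` is impossible

If `f = q⁻¹ + a₀ + a₁ q + …` is a Laurent series over a field `k` in which `r ≥ 2` is
invertible, and some `aₙ` with `n ≥ 1` is nonzero, then
`qExpand k r (f - z₀) ≠ (f - z₀) ^ r` for every constant `z₀`.
-/

set_option autoImplicit false

open ModularCurve

namespace Fermat.Agent.S28.H29

/-- `(1 + y)^r = 1 + r y + y² s` in any commutative ring. -/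
theorem one_add_pow_eq {A : Type*} [CommRing A] (y : A) (r : ℕ) :
    ∃ s : A, (1 + y) ^ r = 1 + (r : A) * y + y ^ 2 * s := by
  induction r with
  | zero => exact ⟨0, by simp⟩
  | succ n ih =>
    obtain ⟨s, hs⟩ := ih
    refine ⟨s * (1 + y) + (n : A), ?_⟩
    rw [pow_succ, hs]
    push_cast
    ring

/-- A power series `p = 1 + …` over a field with `p(X^r)`-coefficients equal to those of `p^r`
is `1` (`r ≥ 2` invertible). Stated through coefficients:
`coeff (r * n) (p ^ r) = coeff n p` and `coeff m (p ^ r) = 0` for `r ∤ m`. -/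
theorem powerSeries_eq_one_of_pow {k : Type*} [Field k] (r : ℕ) (hr2 : 2 ≤ r) (hr : (r : k) ≠ 0)
    (p : PowerSeries k) (hp0 : PowerSeries.constantCoeff p = 1)
    (h1 : ∀ n : ℕ, PowerSeries.coeff (r * n) (p ^ r) = PowerSeries.coeff n p)
    (h2 : ∀ m : ℕ, ¬ r ∣ m → PowerSeries.coeff m (p ^ r) = 0) :
    p = 1 := by
  classical
  by_contra hne
  have hex : ∃ m : ℕ, 1 ≤ m ∧ PowerSeries.coeff m p ≠ 0 := by
    by_contra hcon
    have hcon : ∀ m : ℕ, 1 ≤ m → PowerSeries.coeff m p = 0 := fun m hm1 ↦ by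
      by_contra hc
      exact hcon ⟨m, hm1, hc⟩
    apply hne
    ext n
    rcases Nat.eq_zero_or_pos n with rfl | hn
    · simpa using hp0
    · rw [hcon n hn, PowerSeries.coeff_one, if_neg (by omega)]
  set m := Nat.find hex with hm
  obtain ⟨hm1, hma⟩ := Nat.find_spec hex
  have hmin : ∀ i : ℕ, 1 ≤ i → i < m → PowerSeries.coeff i p = 0 := by
    intro i hi1 hi
    by_contra hc
    exact Nat.find_min hex hi ⟨hi1, hc⟩
  -- p = 1 + X^m * w
  have hdvd : (PowerSeries.X : PowerSeries k) ^ m ∣ p - 1 := by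
    rw [PowerSeries.X_pow_dvd_iff]
    intro i hi
    rcases Nat.eq_zero_or_pos i with rfl | hi1
    · simp [hp0]
    · rw [map_sub, hmin i hi1 hi, PowerSeries.coeff_one, if_neg (by omega), sub_zero]
  obtain ⟨w, hw⟩ := hdvd
  have hp : p = 1 + PowerSeries.X ^ m * w := by rw [← hw]; ring
  have hw0 : PowerSeries.coeff 0 w = PowerSeries.coeff m p := by
    rw [hp, map_add, PowerSeries.coeff_one, if_neg (by omega), zero_add]
    have := PowerSeries.coeff_X_pow_mul w m 0
    rw [zero_add] at this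
    exact this.symm
  -- coefficient of X^m in p^r
  obtain ⟨s, hs⟩ := one_add_pow_eq (PowerSeries.X ^ m * w) r
  have hpr : p ^ r = 1 + (r : PowerSeries k) * (PowerSeries.X ^ m * w) +
      (PowerSeries.X ^ m * w) ^ 2 * s := by
    rw [← hs, ← hp]
  have hcoeff : PowerSeries.coeff m (p ^ r) = (r : k) * PowerSeries.coeff m p := by
    rw [hpr, map_add, map_add, PowerSeries.coeff_one, if_neg (by omega), zero_add]
    have e1 : PowerSeries.coeff m ((r : PowerSeries k) * (PowerSeries.X ^ m * w)) =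
        (r : k) * PowerSeries.coeff 0 w := by
      have h3 : ((r : PowerSeries k)) * (PowerSeries.X ^ m * w) =
          PowerSeries.X ^ m * ((r : PowerSeries k) * w) := by ring
      rw [h3]
      have := PowerSeries.coeff_X_pow_mul ((r : PowerSeries k) * w) m 0
      rw [zero_add] at this
      rw [this]
      have h4 : ((r : PowerSeries k)) = PowerSeries.C (r : k) := by simp
      rw [h4, PowerSeries.coeff_C_mul]
    have e2 : PowerSeries.coeff m ((PowerSeries.X ^ m * w) ^ 2 * s) = 0 := by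
      have h3 : (PowerSeries.X ^ m * w) ^ 2 * s = PowerSeries.X ^ (2 * m) * (w ^ 2 * s) := by
        ring
      rw [h3, PowerSeries.coeff_X_pow_mul']
      rw [if_neg (by omega)]
    rw [e1, e2, add_zero, hw0]
  have hzero : PowerSeries.coeff m (p ^ r) = 0 := by
    by_cases hdiv : r ∣ m
    · obtain ⟨m', hm'⟩ := hdiv
      have hm'1 : 1 ≤ m' := by
        rcases Nat.eq_zero_or_pos m' with h | h
        · rw [h, mul_zero] at hm'
          omega
        · exact h
      have hlt : m' < m := by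
        rw [hm']
        nlinarith
      rw [hm', h1 m']
      exact hmin m' hm'1 hlt
    · exact h2 m hdiv
  rw [hcoeff] at hzero
  rcases mul_eq_zero.mp hzero with h | h
  · exact hr h
  · exact hma h

/-- **(fin)** `qExpand k r (f - z₀) ≠ (f - z₀) ^ r` for `f = q⁻¹ + a₀ + a₁ q + …` with some
`aₙ ≠ 0`, `n ≥ 1`. -/
theorem qExpand_sub_ne_pow {k : Type*} [Field k] (r : ℕ) [NeZero r] (hr2 : 2 ≤ r)
    (hr : (r : k) ≠ 0) (f : LaurentSeries k) (hf1 : f.coeff (-1) = 1)
    (hf0 : ∀ n : ℤ, n < -1 → f.coeff n = 0) (hne : ∃ n : ℤ, 1 ≤ n ∧ f.coeff n ≠ 0) (z₀ : k) :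
    qExpand k r (f - HahnSeries.C z₀) ≠ (f - HahnSeries.C z₀) ^ r := by
  intro heq
  set g : LaurentSeries k := f - HahnSeries.C z₀ with hg
  have hCcoeff : ∀ n : ℤ, n ≠ 0 → (HahnSeries.C z₀ : LaurentSeries k).coeff n = 0 := by
    intro n hn
    rw [HahnSeries.C_apply, HahnSeries.coeff_single_of_ne hn]
  have hg1 : g.coeff (-1) = 1 := by
    rw [hg, HahnSeries.coeff_sub, hf1, hCcoeff (-1) (by norm_num), sub_zero]
  have hg0 : ∀ n : ℤ, n < -1 → g.coeff n = 0 := by
    intro n hn
    rw [hg, HahnSeries.coeff_sub, hf0 n hn, hCcoeff n (by omega), sub_zero]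
  -- the power series part
  set p : PowerSeries k := PowerSeries.mk fun n : ℕ ↦ g.coeff ((n : ℤ) - 1) with hp
  have hgp : g = HahnSeries.single (-1 : ℤ) (1 : k) * HahnSeries.ofPowerSeries ℤ k p := by
    ext n
    obtain ⟨n', rfl⟩ : ∃ n' : ℤ, n = n' + (-1) := ⟨n + 1, by ring⟩
    rw [HahnSeries.coeff_single_mul_add, one_mul]
    rcases lt_or_ge n' 0 with hneg | hnn
    · rw [ModularCurve.ofPowerSeries_coeff_of_neg _ hneg]
      exact hg0 _ (by omega)
    · obtain ⟨j, rfl⟩ := Int.eq_ofNat_of_zero_le hnn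
      rw [HahnSeries.ofPowerSeries_apply_coeff, hp, PowerSeries.coeff_mk, sub_eq_add_neg]
  have hp0 : PowerSeries.constantCoeff p = 1 := by
    rw [← PowerSeries.coeff_zero_eq_constantCoeff_apply, hp, PowerSeries.coeff_mk]
    simpa using hg1
  -- translate the functional equation
  have hunit : (HahnSeries.single (r : ℤ) (1 : k)) * HahnSeries.single (-(r : ℤ)) (1 : k) =
      (1 : LaurentSeries k) := by
    rw [HahnSeries.single_mul_single, add_neg_cancel, one_mul]
    rfl
  have hL : qExpand k r g = HahnSeries.single (-(r : ℤ)) (1 : k) *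
      qExpand k r (HahnSeries.ofPowerSeries ℤ k p) := by
    rw [hgp, map_mul, qExpand_single, show ((r : ℤ) * -1) = -(r : ℤ) by ring]
  have hR : g ^ r = HahnSeries.single (-(r : ℤ)) (1 : k) *
      HahnSeries.ofPowerSeries ℤ k (p ^ r) := by
    rw [hgp, mul_pow, HahnSeries.single_pow, one_pow, map_pow]
    congr 2
    simp
  have hmain : qExpand k r (HahnSeries.ofPowerSeries ℤ k p) =
      HahnSeries.ofPowerSeries ℤ k (p ^ r) := by
    have h3 : HahnSeries.single (-(r : ℤ)) (1 : k) *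
        qExpand k r (HahnSeries.ofPowerSeries ℤ k p) =
        HahnSeries.single (-(r : ℤ)) (1 : k) * HahnSeries.ofPowerSeries ℤ k (p ^ r) := by
      rw [← hL, ← hR, heq]
    have h4 := congrArg (fun x ↦ HahnSeries.single (r : ℤ) (1 : k) * x) h3
    simp only [← mul_assoc, hunit, one_mul] at h4
    exact h4
  have h1 : ∀ n : ℕ, PowerSeries.coeff (r * n) (p ^ r) = PowerSeries.coeff n p := by
    intro n
    have h5 : (qExpand k r (HahnSeries.ofPowerSeries ℤ k p)).coeff ((r : ℤ) * (n : ℤ)) =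
        (HahnSeries.ofPowerSeries ℤ k (p ^ r)).coeff ((r : ℤ) * (n : ℤ)) := by rw [hmain]
    rw [qExpand_coeff_mul, HahnSeries.ofPowerSeries_apply_coeff] at h5
    have h6 : ((r : ℤ) * (n : ℤ)) = ((r * n : ℕ) : ℤ) := by push_cast; ring
    rw [h6, HahnSeries.ofPowerSeries_apply_coeff] at h5
    exact h5.symm
  have h2 : ∀ m : ℕ, ¬ r ∣ m → PowerSeries.coeff m (p ^ r) = 0 := by
    intro m hm
    have h5 : (qExpand k r (HahnSeries.ofPowerSeries ℤ k p)).coeff (m : ℤ) =
        (HahnSeries.ofPowerSeries ℤ k (p ^ r)).coeff (m : ℤ) := by rw [hmain]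
    rw [HahnSeries.ofPowerSeries_apply_coeff, qExpand_coeff_of_not_dvd] at h5
    · exact h5.symm
    · intro hd
      exact hm (by exact_mod_cast hd)
  have hp1 := powerSeries_eq_one_of_pow r hr2 hr p hp0 h1 h2
  obtain ⟨n, hn1, hn⟩ := hne
  apply hn
  have hgn : g.coeff n = 0 := by
    obtain ⟨j, hj⟩ := Int.eq_ofNat_of_zero_le (by omega : (0 : ℤ) ≤ n + 1)
    have h7 : PowerSeries.coeff j p = g.coeff n := by
      rw [hp, PowerSeries.coeff_mk, show ((j : ℤ) - 1) = n by omega]
    rw [← h7, hp1, PowerSeries.coeff_one, if_neg (by omega)]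
  have : f.coeff n = g.coeff n + (HahnSeries.C z₀ : LaurentSeries k).coeff n := by
    rw [hg, HahnSeries.coeff_sub, sub_add_cancel]
  rw [this, hgn, hCcoeff n (by omega), add_zero]

/-- The instance for `J = jqModC k`, given a nonzero coefficient `c(n)`, `n ≥ 1` (Coef_l). -/
theorem qExpand_jqModC_sub_ne_pow {k : Type*} [Field k] (r : ℕ) [NeZero r] (hr2 : 2 ≤ r)
    (hr : (r : k) ≠ 0) (hne : ∃ n : ℤ, 1 ≤ n ∧ (jqModC k).coeff n ≠ 0) (z₀ : k) :
    qExpand k r (jqModC k - HahnSeries.C z₀) ≠ (jqModC k - HahnSeries.C z₀) ^ r :=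
  qExpand_sub_ne_pow r hr2 hr _ (coeff_jqModC_neg_one k) (fun _ hn ↦ coeff_jqModC_of_lt k hn)
    hne z₀

end Fermat.Agent.S28.H29
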