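import Fermat.Agent.S28.GaussRing_helper93

/-!
# S28: concrete `j`-facts for the Gauss ring of `F_N` (helper93)

For `V = gaussF ℓ N`, `red = gaussFRed ℓ N`:
* `transcendental_jqModC`: `j̄` is transcendental over the coefficient ring;
* `gaussFRed_aeval`: `red (P(t)) = P̄(red t)` for `t ∈ V`, `P ∈ ℤ_(ℓ)[X]`;
* `jFull`, `jFull⁻¹ ∈ V` with reductions `j̄`, `j̄⁻¹`;
* `mem_adjoin_of_mul_mem` (`hRπ`): `w ∈ V`, `ℓ w ∈ ℤ_(ℓ)[t]` imply `w ∈ ℤ_(ℓ)[t]`;
* `gaussFRed_mem_adjoin`: `red (V ∩ ℚ(j)) ⊆ 𝔽_ℓ(j̄)`.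
-/

set_option autoImplicit false

noncomputable section

open HahnSeries ModularCurve ModularCurve.IgusaScheme Polynomial

namespace Fermat.Agent.S28.H93

/-! ### Generalities on Laurent series -/

theorem algebraMap_laurent_eq_C (k : Type*) [CommRing k] (c : k) :
    algebraMap k (LaurentSeries k) c = HahnSeries.C c := by
  have h1 : algebraMap k (PowerSeries k) c = PowerSeries.C c := by simp
  rw [HahnSeries.algebraMap_apply', h1, HahnSeries.ofPowerSeries_C]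

theorem coeff_algebraMap_mul (k : Type*) [CommRing k] (c : k) (x : LaurentSeries k) (n : ℤ) :
    (algebraMap k (LaurentSeries k) c * x).coeff n = c * x.coeff n := by
  rw [algebraMap_laurent_eq_C, HahnSeries.C_mul_eq_smul]
  exact HahnSeries.coeff_smul

theorem coeffMap_algebraMap_comm {R S : Type*} [CommRing R] [CommRing S] (f : R →+* S) (c : R) :
    coeffMap f (algebraMap R (LaurentSeries R) c) = algebraMap S (LaurentSeries S) (f c) := by
  rw [algebraMap_laurent_eq_C, algebraMap_laurent_eq_C]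
  exact coeffMap_single f 0 c

/-! ### Transcendence of `j̄` -/

theorem coeff_aeval_jqModC (k : Type*) [CommRing k] (P : Polynomial k) :
    (Polynomial.aeval (jqModC k) P).coeff (-(P.natDegree : ℤ)) = P.leadingCoeff := by
  rw [Polynomial.aeval_eq_sum_range, HahnSeries.coeff_sum,
    Finset.sum_eq_single_of_mem P.natDegree (Finset.self_mem_range_succ _)]
  · rw [Algebra.smul_def, coeff_algebraMap_mul, coeff_jqModC_pow_self, mul_one]
    rfl
  · intro i hi hne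
    have hlt : i < P.natDegree := by
      have := Finset.mem_range.mp hi
      omega
    have hlt' : (-(P.natDegree : ℤ)) < -(i : ℤ) := by
      have : (i : ℤ) < (P.natDegree : ℤ) := by exact_mod_cast hlt
      omega
    rw [Algebra.smul_def, coeff_algebraMap_mul, coeff_jqModC_pow_of_lt k hlt', mul_zero]

theorem transcendental_jqModC (k : Type*) [CommRing k] : Transcendental k (jqModC k) := by
  rintro ⟨P, hP0, hP⟩
  have h := coeff_aeval_jqModC k P
  rw [hP, HahnSeries.coeff_zero] at h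
  exact hP0 (Polynomial.leadingCoeff_eq_zero.mp h.symm)

theorem transcendental_jqModC_inv (k : Type*) [Field k] : Transcendental k (jqModC k)⁻¹ := by
  intro h
  exact transcendental_jqModC k (by simpa using h.inv)

/-! ### The residue map of `ℤ_(ℓ)` -/

section

variable (ℓ : ℕ) [Fact ℓ.Prime]

theorem resZl_natCast_self : resZl ℓ (ℓ : ZL ℓ) = 0 := by
  rw [map_natCast, ZMod.natCast_self]

theorem ker_resZl : RingHom.ker (resZl ℓ) = Ideal.span {(ℓ : ZL ℓ)} := by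
  ext a
  rw [RingHom.mem_ker, Ideal.mem_span_singleton']
  constructor
  · intro ha
    refine ⟨⟨_, inv_mul_mem_of_resZl_eq_zero ℓ a ha⟩, Subtype.ext ?_⟩
    have hℓ : (ℓ : ℚ) ≠ 0 := Nat.cast_ne_zero.mpr (Fact.out : ℓ.Prime).ne_zero
    show (ℓ : ℚ)⁻¹ * (a : ℚ) * (ℓ : ℚ) = a
    field_simp
  · rintro ⟨b, rfl⟩
    rw [map_mul, resZl_natCast_self, mul_zero]

/-- A polynomial over `ℤ_(ℓ)` that vanishes mod `ℓ` is divisible by `ℓ`. -/
theorem exists_eq_C_mul_of_map_resZl_eq_zero (P : Polynomial (ZL ℓ))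
    (hP : P.map (resZl ℓ) = 0) : ∃ P₁ : Polynomial (ZL ℓ), P = Polynomial.C (ℓ : ZL ℓ) * P₁ := by
  have h1 : P ∈ RingHom.ker (Polynomial.mapRingHom (resZl ℓ)) := by
    rw [RingHom.mem_ker]; exact hP
  rw [Polynomial.ker_mapRingHom, ker_resZl, Ideal.map_span, Set.image_singleton,
    Ideal.mem_span_singleton'] at h1
  obtain ⟨P₁, h⟩ := h1
  exact ⟨P₁, by rw [← h, mul_comm]⟩

end

/-! ### Constants and polynomials in an element of the Gauss ring -/

section FunctionField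

variable (ℓ : ℕ) [Fact ℓ.Prime] (N : ℕ)

omit [Fact ℓ.Prime] in
theorem coe_algebraMap_ZL (c : ZL ℓ) :
    ((algebraMap (ZL ℓ) ↥(modularFunctionFieldFull N) c : ↥(modularFunctionFieldFull N)) :
        LaurentSeries ℚ) = iota ℓ (algebraMap (ZL ℓ) (LaurentSeries (ZL ℓ)) c) := by
  rw [IsScalarTower.algebraMap_apply (ZL ℓ) ℚ ↥(modularFunctionFieldFull N),
    eq_ratCast (algebraMap ℚ ↥(modularFunctionFieldFull N)), iota, coeffMap_algebraMap_comm,
    eq_ratCast (algebraMap ℚ (LaurentSeries ℚ))]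
  rfl

theorem algebraMap_mem_gaussF (c : ZL ℓ) :
    algebraMap (ZL ℓ) ↥(modularFunctionFieldFull N) c ∈ gaussF ℓ N := by
  obtain ⟨h, -⟩ := gaussFRed_of_iota ℓ N _ _ (coe_algebraMap_ZL ℓ N c)
  exact h

/-- The structure map `ℤ_(ℓ) → gaussF`. -/
def zlHom : ZL ℓ →+* ↥(gaussF ℓ N) :=
  (algebraMap (ZL ℓ) ↥(modularFunctionFieldFull N)).codRestrict (gaussF ℓ N)
    (algebraMap_mem_gaussF ℓ N)

theorem coe_zlHom (c : ZL ℓ) :
    ((zlHom ℓ N c : ↥(gaussF ℓ N)) : ↥(modularFunctionFieldFull N)) =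
      algebraMap (ZL ℓ) ↥(modularFunctionFieldFull N) c := rfl

theorem gaussFRed_zlHom (c : ZL ℓ) :
    gaussFRed ℓ N (zlHom ℓ N c) =
      algebraMap (ZMod ℓ) (LaurentSeries (ZMod ℓ)) (resZl ℓ c) := by
  obtain ⟨h, e⟩ := gaussFRed_of_iota ℓ N _ _ (coe_algebraMap_ZL ℓ N c)
  exact e.trans (coeffMap_algebraMap_comm _ c)

theorem gaussFRed_comp_zlHom :
    (gaussFRed ℓ N).comp (zlHom ℓ N) =
      (algebraMap (ZMod ℓ) (LaurentSeries (ZMod ℓ))).comp (resZl ℓ) :=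
  RingHom.ext (gaussFRed_zlHom ℓ N)

theorem aeval_eq_eval₂_zlHom (t : ↥(gaussF ℓ N)) (P : Polynomial (ZL ℓ)) :
    Polynomial.aeval (t : ↥(modularFunctionFieldFull N)) P =
      ((Polynomial.eval₂ (zlHom ℓ N) t P : ↥(gaussF ℓ N)) : ↥(modularFunctionFieldFull N)) := by
  have h : algebraMap (ZL ℓ) ↥(modularFunctionFieldFull N) =
      (gaussF ℓ N).subtype.comp (zlHom ℓ N) := RingHom.ext fun _ => rfl
  rw [Polynomial.aeval_def, h]
  exact (Polynomial.hom_eval₂ P (zlHom ℓ N) (gaussF ℓ N).subtype t).symm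

/-- `hRV`: polynomials in an element of the Gauss ring lie in the Gauss ring. -/
theorem aeval_mem_gaussF (t : ↥(gaussF ℓ N)) (P : Polynomial (ZL ℓ)) :
    Polynomial.aeval (t : ↥(modularFunctionFieldFull N)) P ∈ gaussF ℓ N := by
  rw [aeval_eq_eval₂_zlHom]
  exact SetLike.coe_mem _

/-- `red (P(t)) = P̄(red t)`. -/
theorem gaussFRed_aeval (t : ↥(gaussF ℓ N)) (P : Polynomial (ZL ℓ)) :
    gaussFRed ℓ N ⟨Polynomial.aeval (t : ↥(modularFunctionFieldFull N)) P,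
        aeval_mem_gaussF ℓ N t P⟩ =
      Polynomial.aeval (gaussFRed ℓ N t) (P.map (resZl ℓ)) := by
  have h : (⟨Polynomial.aeval (t : ↥(modularFunctionFieldFull N)) P,
      aeval_mem_gaussF ℓ N t P⟩ : ↥(gaussF ℓ N)) = Polynomial.eval₂ (zlHom ℓ N) t P :=
    Subtype.ext (aeval_eq_eval₂_zlHom ℓ N t P)
  rw [h, Polynomial.hom_eval₂, gaussFRed_comp_zlHom, Polynomial.aeval_def, Polynomial.eval₂_map]

theorem adjoin_le_gaussF (t : ↥(gaussF ℓ N)) (x : ↥(modularFunctionFieldFull N))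
    (hx : x ∈ Algebra.adjoin (ZL ℓ) {(t : ↥(modularFunctionFieldFull N))}) : x ∈ gaussF ℓ N := by
  rw [Algebra.adjoin_singleton_eq_range_aeval] at hx
  obtain ⟨P, rfl⟩ := hx
  exact aeval_mem_gaussF ℓ N t P

theorem natCast_F_ne_zero : ((ℓ : ℕ) : ↥(modularFunctionFieldFull N)) ≠ 0 := by
  intro h
  apply natCast_laurent_rat_ne_zero ℓ
  have := congrArg (algebraMap ↥(modularFunctionFieldFull N) (LaurentSeries ℚ)) h
  rwa [map_natCast, map_zero] at this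

/-- `hRπ`: if `t ∈ V` has transcendental reduction, `w ∈ V` and `ℓ w ∈ ℤ_(ℓ)[t]`, then
`w ∈ ℤ_(ℓ)[t]`. -/
theorem mem_adjoin_of_mul_mem (t : ↥(gaussF ℓ N))
    (ht : Transcendental (ZMod ℓ) (gaussFRed ℓ N t)) (w : ↥(gaussF ℓ N))
    (hw : (ℓ : ↥(modularFunctionFieldFull N)) * (w : ↥(modularFunctionFieldFull N)) ∈
      Algebra.adjoin (ZL ℓ) {(t : ↥(modularFunctionFieldFull N))}) :
    (w : ↥(modularFunctionFieldFull N)) ∈
      Algebra.adjoin (ZL ℓ) {(t : ↥(modularFunctionFieldFull N))} := by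
  rw [Algebra.adjoin_singleton_eq_range_aeval] at hw ⊢
  obtain ⟨P, hP⟩ := hw
  have hP' : Polynomial.aeval (t : ↥(modularFunctionFieldFull N)) P =
      (ℓ : ↥(modularFunctionFieldFull N)) * (w : ↥(modularFunctionFieldFull N)) := hP
  have h1 : gaussFRed ℓ N ⟨Polynomial.aeval (t : ↥(modularFunctionFieldFull N)) P,
      aeval_mem_gaussF ℓ N t P⟩ = 0 := by
    have h0 : (⟨Polynomial.aeval (t : ↥(modularFunctionFieldFull N)) P,
        aeval_mem_gaussF ℓ N t P⟩ : ↥(gaussF ℓ N)) = (ℓ : ↥(gaussF ℓ N)) * w := Subtype.ext hP'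
    rw [h0, map_mul, gaussFRed_natCast_self, zero_mul]
  rw [gaussFRed_aeval] at h1
  have h2 : P.map (resZl ℓ) = 0 := by
    by_contra h
    exact ht ⟨_, h, h1⟩
  obtain ⟨P₁, rfl⟩ := exists_eq_C_mul_of_map_resZl_eq_zero ℓ P h2
  refine ⟨P₁, ?_⟩
  rw [map_mul, Polynomial.aeval_C, map_natCast] at hP'
  exact mul_left_cancel₀ (natCast_F_ne_zero ℓ N) hP'

theorem mem_adjoin_of_pow_mul_mem (t : ↥(gaussF ℓ N))
    (ht : Transcendental (ZMod ℓ) (gaussFRed ℓ N t)) (a : ℕ) (w : ↥(gaussF ℓ N))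
    (hw : (ℓ : ↥(modularFunctionFieldFull N)) ^ a * (w : ↥(modularFunctionFieldFull N)) ∈
      Algebra.adjoin (ZL ℓ) {(t : ↥(modularFunctionFieldFull N))}) :
    (w : ↥(modularFunctionFieldFull N)) ∈
      Algebra.adjoin (ZL ℓ) {(t : ↥(modularFunctionFieldFull N))} := by
  induction a generalizing w with
  | zero => simpa using hw
  | succ a ih =>
    apply ih
    have h1 := mem_adjoin_of_mul_mem ℓ N t ht ((ℓ : ↥(gaussF ℓ N)) ^ a * w)
      (by
        have : (ℓ : ↥(modularFunctionFieldFull N)) *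
            (((ℓ : ↥(gaussF ℓ N)) ^ a * w : ↥(gaussF ℓ N)) : ↥(modularFunctionFieldFull N)) =
            (ℓ : ↥(modularFunctionFieldFull N)) ^ (a + 1) * (w : ↥(modularFunctionFieldFull N)) := by
          push_cast
          ring
        rw [this]
        exact hw)
    simpa using h1

/-! ### `j` and `1/j` -/

variable [NeZero N]

omit [Fact ℓ.Prime] in
theorem coe_jFull_eq_iota :
    ((jFull N : ↥(modularFunctionFieldFull N)) : LaurentSeries ℚ) = iota ℓ (jqModC (ZL ℓ)) := by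
  rw [coe_jFull, iota, coeffMap_jqModC, jqModC_rat]

theorem rbar_jqModC : rbar ℓ (jqModC (ZL ℓ)) = jqModC (ZMod ℓ) := coeffMap_jqModC _

theorem jFull_mem_gaussF : jFull N ∈ gaussF ℓ N := by
  obtain ⟨h, -⟩ := gaussFRed_of_iota ℓ N _ _ (coe_jFull_eq_iota ℓ N)
  exact h

theorem gaussFRed_jFull :
    gaussFRed ℓ N ⟨jFull N, jFull_mem_gaussF ℓ N⟩ = jqModC (ZMod ℓ) := by
  obtain ⟨h, e⟩ := gaussFRed_of_iota ℓ N _ _ (coe_jFull_eq_iota ℓ N)
  exact e.trans (rbar_jqModC ℓ)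

theorem rbar_jqModC_ne_zero : rbar ℓ (jqModC (ZL ℓ)) ≠ 0 := by
  rw [rbar_jqModC]
  exact jqModC_ne_zero_of_nontrivial _

omit [Fact ℓ.Prime] in
theorem coe_jFull_inv_mul :
    (((jFull N)⁻¹ : ↥(modularFunctionFieldFull N)) : LaurentSeries ℚ) * iota ℓ (jqModC (ZL ℓ)) =
      iota ℓ 1 := by
  rw [map_one, ← coe_jFull_eq_iota ℓ N]
  have h : ((jFull N)⁻¹ * jFull N : ↥(modularFunctionFieldFull N)) = 1 :=
    inv_mul_cancel₀ (jFull_ne_zero N)
  have h2 := congrArg (algebraMap ↥(modularFunctionFieldFull N) (LaurentSeries ℚ)) h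
  rwa [map_mul, map_one] at h2

theorem jFull_inv_mem_gaussF : (jFull N)⁻¹ ∈ gaussF ℓ N :=
  ⟨1, jqModC (ZL ℓ), rbar_jqModC_ne_zero ℓ, coe_jFull_inv_mul ℓ N⟩

theorem gaussFRed_jFull_inv :
    gaussFRed ℓ N ⟨(jFull N)⁻¹, jFull_inv_mem_gaussF ℓ N⟩ = (jqModC (ZMod ℓ))⁻¹ := by
  have h := gaussFRed_eq ℓ N ⟨(jFull N)⁻¹, jFull_inv_mem_gaussF ℓ N⟩ 1 (jqModC (ZL ℓ))
    (rbar_jqModC_ne_zero ℓ) (coe_jFull_inv_mul ℓ N)
  rw [h, map_one, rbar_jqModC, one_div]

theorem transcendental_gaussFRed_jFull :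
    Transcendental (ZMod ℓ) (gaussFRed ℓ N ⟨jFull N, jFull_mem_gaussF ℓ N⟩) := by
  rw [gaussFRed_jFull]; exact transcendental_jqModC _

theorem transcendental_gaussFRed_jFull_inv :
    Transcendental (ZMod ℓ) (gaussFRed ℓ N ⟨(jFull N)⁻¹, jFull_inv_mem_gaussF ℓ N⟩) := by
  rw [gaussFRed_jFull_inv]; exact transcendental_jqModC_inv _

/-- `hRV` for `R = ℤ_(ℓ)[j]`. -/
theorem adjoin_jFull_le_gaussF (x : ↥(modularFunctionFieldFull N))
    (hx : x ∈ Algebra.adjoin (ZL ℓ) {jFull N}) : x ∈ gaussF ℓ N :=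
  adjoin_le_gaussF ℓ N ⟨jFull N, jFull_mem_gaussF ℓ N⟩ x hx

/-- `hRV` for `R = ℤ_(ℓ)[1/j]`. -/
theorem adjoin_jFull_inv_le_gaussF (x : ↥(modularFunctionFieldFull N))
    (hx : x ∈ Algebra.adjoin (ZL ℓ) {(jFull N)⁻¹}) : x ∈ gaussF ℓ N :=
  adjoin_le_gaussF ℓ N ⟨(jFull N)⁻¹, jFull_inv_mem_gaussF ℓ N⟩ x hx

/-- `hRπ` for `R = ℤ_(ℓ)[j]`. -/
theorem mem_adjoin_jFull_of_mul_mem (w : ↥(gaussF ℓ N))
    (hw : (ℓ : ↥(modularFunctionFieldFull N)) * (w : ↥(modularFunctionFieldFull N)) ∈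
      Algebra.adjoin (ZL ℓ) {jFull N}) :
    (w : ↥(modularFunctionFieldFull N)) ∈ Algebra.adjoin (ZL ℓ) {jFull N} :=
  mem_adjoin_of_mul_mem ℓ N ⟨jFull N, jFull_mem_gaussF ℓ N⟩
    (transcendental_gaussFRed_jFull ℓ N) w hw

/-- `hRπ` for `R = ℤ_(ℓ)[1/j]`. -/
theorem mem_adjoin_jFull_inv_of_mul_mem (w : ↥(gaussF ℓ N))
    (hw : (ℓ : ↥(modularFunctionFieldFull N)) * (w : ↥(modularFunctionFieldFull N)) ∈
      Algebra.adjoin (ZL ℓ) {(jFull N)⁻¹}) :
    (w : ↥(modularFunctionFieldFull N)) ∈ Algebra.adjoin (ZL ℓ) {(jFull N)⁻¹} :=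
  mem_adjoin_of_mul_mem ℓ N ⟨(jFull N)⁻¹, jFull_inv_mem_gaussF ℓ N⟩
    (transcendental_gaussFRed_jFull_inv ℓ N) w hw

/-! ### `red (V ∩ ℚ(j)) ⊆ 𝔽_ℓ(j̄)` -/

omit [Fact ℓ.Prime] in
/-- Every element of `ℚ(j)` is a quotient of two polynomials in `j` with `ℓ`-integral
coefficients. -/
theorem exists_aeval_frac (x : ↥(modularFunctionFieldFull N))
    (hx : x ∈ IntermediateField.adjoin ℚ {jFull N}) :
    ∃ P Q : Polynomial (ZL ℓ), Polynomial.aeval (jFull N) Q ≠ 0 ∧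
      x * Polynomial.aeval (jFull N) Q = Polynomial.aeval (jFull N) P := by
  induction hx using IntermediateField.adjoin_induction with
  | mem y hy =>
    rw [Set.mem_singleton_iff] at hy
    subst hy
    exact ⟨Polynomial.X, 1, by rw [map_one]; exact one_ne_zero,
      by rw [map_one, mul_one, Polynomial.aeval_X]⟩
  | algebraMap c =>
    refine ⟨Polynomial.C (c.num : ZL ℓ), Polynomial.C (c.den : ZL ℓ), ?_, ?_⟩
    · rw [Polynomial.aeval_C, map_natCast]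
      exact Nat.cast_ne_zero.mpr c.den_ne_zero
    · rw [Polynomial.aeval_C, Polynomial.aeval_C, map_natCast, map_intCast,
        ← map_natCast (algebraMap ℚ ↥(modularFunctionFieldFull N)),
        ← map_intCast (algebraMap ℚ ↥(modularFunctionFieldFull N)), ← map_mul,
        Rat.mul_den_eq_num]
  | add y z _ _ hy hz =>
    obtain ⟨P₁, Q₁, hQ₁, e₁⟩ := hy
    obtain ⟨P₂, Q₂, hQ₂, e₂⟩ := hz
    refine ⟨P₁ * Q₂ + P₂ * Q₁, Q₁ * Q₂, ?_, ?_⟩
    · rw [map_mul]; exact mul_ne_zero hQ₁ hQ₂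
    · rw [map_mul, map_add, map_mul, map_mul, ← e₁, ← e₂]; ring
  | inv y _ hy =>
    obtain ⟨P, Q, hQ, e⟩ := hy
    by_cases hy0 : y = 0
    · exact ⟨0, 1, by rw [map_one]; exact one_ne_zero, by rw [hy0, inv_zero, zero_mul, map_zero]⟩
    · refine ⟨Q, P, ?_, ?_⟩
      · rw [← e]; exact mul_ne_zero hy0 hQ
      · rw [← e, inv_mul_cancel_left₀ hy0]
  | mul y z _ _ hy hz =>
    obtain ⟨P₁, Q₁, hQ₁, e₁⟩ := hy
    obtain ⟨P₂, Q₂, hQ₂, e₂⟩ := hz
    refine ⟨P₁ * P₂, Q₁ * Q₂, ?_, ?_⟩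
    · rw [map_mul]; exact mul_ne_zero hQ₁ hQ₂
    · rw [map_mul, map_mul, ← e₁, ← e₂]; ring

theorem gaussFRed_aeval_jFull (P : Polynomial (ZL ℓ)) :
    gaussFRed ℓ N ⟨Polynomial.aeval (jFull N) P,
        aeval_mem_gaussF ℓ N ⟨jFull N, jFull_mem_gaussF ℓ N⟩ P⟩ =
      Polynomial.aeval (jqModC (ZMod ℓ)) (P.map (resZl ℓ)) := by
  have h := gaussFRed_aeval ℓ N ⟨jFull N, jFull_mem_gaussF ℓ N⟩ P
  rw [gaussFRed_jFull] at h
  exact h

/-- Content normalisation for polynomials in `j`. -/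
theorem exists_pow_mul_aeval (P : Polynomial (ZL ℓ)) (hP : Polynomial.aeval (jFull N) P ≠ 0) :
    ∃ (a : ℕ) (P₀ : Polynomial (ZL ℓ)),
      Polynomial.aeval (jFull N) P =
        (ℓ : ↥(modularFunctionFieldFull N)) ^ a * Polynomial.aeval (jFull N) P₀ ∧
      Polynomial.aeval (jqModC (ZMod ℓ)) (P₀.map (resZl ℓ)) ≠ 0 := by
  obtain ⟨m, u, hu, hxu⟩ := gaussF_val ℓ N _ hP
  have hℓ := natCast_F_ne_zero ℓ N
  rcases le_or_gt 0 m with hm | hm
  · obtain ⟨a, rfl⟩ := Int.eq_ofNat_of_zero_le hm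
    rw [zpow_natCast] at hxu
    have hmem : (u : ↥(modularFunctionFieldFull N)) ∈ Algebra.adjoin (ZL ℓ) {jFull N} := by
      refine mem_adjoin_of_pow_mul_mem ℓ N ⟨jFull N, jFull_mem_gaussF ℓ N⟩
        (transcendental_gaussFRed_jFull ℓ N) a u ?_
      rw [← hxu, Algebra.adjoin_singleton_eq_range_aeval]
      exact ⟨P, rfl⟩
    rw [Algebra.adjoin_singleton_eq_range_aeval] at hmem
    obtain ⟨P₀, hP₀⟩ := hmem
    have hP₀' : Polynomial.aeval (jFull N) P₀ = (u : ↥(modularFunctionFieldFull N)) := hP₀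
    refine ⟨a, P₀, by rw [hP₀']; exact hxu, ?_⟩
    rw [← gaussFRed_aeval_jFull ℓ N P₀]
    have : (⟨Polynomial.aeval (jFull N) P₀,
        aeval_mem_gaussF ℓ N ⟨jFull N, jFull_mem_gaussF ℓ N⟩ P₀⟩ : ↥(gaussF ℓ N)) = u :=
      Subtype.ext hP₀'
    rw [this]
    exact hu
  · exfalso
    obtain ⟨k, hk⟩ := Int.exists_eq_neg_ofNat hm.le
    have hk0 : k ≠ 0 := by
      rintro rfl
      simp at hk
      omega
    rw [hk, zpow_neg, zpow_natCast] at hxu
    have h1 : (u : ↥(modularFunctionFieldFull N)) =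
        (ℓ : ↥(modularFunctionFieldFull N)) ^ k * Polynomial.aeval (jFull N) P := by
      rw [hxu, mul_inv_cancel_left₀ (pow_ne_zero _ hℓ)]
    have h2 : u = (ℓ : ↥(gaussF ℓ N)) ^ k * ⟨Polynomial.aeval (jFull N) P,
        aeval_mem_gaussF ℓ N ⟨jFull N, jFull_mem_gaussF ℓ N⟩ P⟩ := Subtype.ext h1
    apply hu
    rw [h2, map_mul, map_pow, gaussFRed_natCast_self, zero_pow hk0, zero_mul]

/-- `red (V ∩ ℚ(j)) ⊆ 𝔽_ℓ(j̄)`. -/
theorem gaussFRed_mem_adjoin (v : ↥(gaussF ℓ N))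
    (hv : (v : ↥(modularFunctionFieldFull N)) ∈ IntermediateField.adjoin ℚ {jFull N}) :
    gaussFRed ℓ N v ∈ IntermediateField.adjoin (ZMod ℓ) {jqModC (ZMod ℓ)} := by
  have haev : ∀ R : Polynomial (ZMod ℓ), Polynomial.aeval (jqModC (ZMod ℓ)) R ∈
      IntermediateField.adjoin (ZMod ℓ) {jqModC (ZMod ℓ)} := fun R =>
    IntermediateField.algebra_adjoin_le_adjoin (ZMod ℓ) _
      (Polynomial.aeval_mem_adjoin_singleton (ZMod ℓ) (jqModC (ZMod ℓ)))
  have hℓ := natCast_F_ne_zero ℓ N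
  obtain ⟨P, Q, hQ, hPQ⟩ := exists_aeval_frac ℓ N v hv
  by_cases hP : Polynomial.aeval (jFull N) P = 0
  · have h0 : (v : ↥(modularFunctionFieldFull N)) = 0 := by
      rw [hP] at hPQ
      exact (mul_eq_zero.mp hPQ).resolve_right hQ
    have h1 : v = 0 := Subtype.ext h0
    rw [h1, map_zero]
    exact zero_mem _
  obtain ⟨a, P₀, hP₀, hP₀'⟩ := exists_pow_mul_aeval ℓ N P hP
  obtain ⟨b, Q₀, hQ₀, hQ₀'⟩ := exists_pow_mul_aeval ℓ N Q hQ
  rw [hP₀, hQ₀] at hPQ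
  have redp := gaussFRed_aeval_jFull ℓ N P₀
  have redq := gaussFRed_aeval_jFull ℓ N Q₀
  rcases le_or_gt b a with hba | hab
  · have h1 : v * ⟨Polynomial.aeval (jFull N) Q₀,
          aeval_mem_gaussF ℓ N ⟨jFull N, jFull_mem_gaussF ℓ N⟩ Q₀⟩ =
        (ℓ : ↥(gaussF ℓ N)) ^ (a - b) * ⟨Polynomial.aeval (jFull N) P₀,
          aeval_mem_gaussF ℓ N ⟨jFull N, jFull_mem_gaussF ℓ N⟩ P₀⟩ := by
      apply Subtype.ext
      show (v : ↥(modularFunctionFieldFull N)) * Polynomial.aeval (jFull N) Q₀ =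
        (ℓ : ↥(modularFunctionFieldFull N)) ^ (a - b) * Polynomial.aeval (jFull N) P₀
      apply mul_left_cancel₀ (pow_ne_zero b hℓ)
      calc (ℓ : ↥(modularFunctionFieldFull N)) ^ b *
            ((v : ↥(modularFunctionFieldFull N)) * Polynomial.aeval (jFull N) Q₀)
          = (v : ↥(modularFunctionFieldFull N)) *
            ((ℓ : ↥(modularFunctionFieldFull N)) ^ b * Polynomial.aeval (jFull N) Q₀) := by ring
        _ = (ℓ : ↥(modularFunctionFieldFull N)) ^ a * Polynomial.aeval (jFull N) P₀ := hPQ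
        _ = (ℓ : ↥(modularFunctionFieldFull N)) ^ b *
            ((ℓ : ↥(modularFunctionFieldFull N)) ^ (a - b) * Polynomial.aeval (jFull N) P₀) := by
          rw [← mul_assoc, ← _root_.pow_add, Nat.add_sub_cancel' hba]
    have h2 := congrArg (gaussFRed ℓ N) h1
    rw [map_mul, map_mul, map_pow, map_natCast, redp, redq] at h2
    have h3 : gaussFRed ℓ N v = (ℓ : LaurentSeries (ZMod ℓ)) ^ (a - b) *
        Polynomial.aeval (jqModC (ZMod ℓ)) (P₀.map (resZl ℓ)) /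
        Polynomial.aeval (jqModC (ZMod ℓ)) (Q₀.map (resZl ℓ)) := by
      rw [eq_div_iff hQ₀']
      exact h2
    rw [h3]
    exact div_mem (mul_mem (pow_mem (natCast_mem _ _) _) (haev _)) (haev _)
  · exfalso
    have h1 : (ℓ : ↥(gaussF ℓ N)) ^ (b - a) * (v * ⟨Polynomial.aeval (jFull N) Q₀,
          aeval_mem_gaussF ℓ N ⟨jFull N, jFull_mem_gaussF ℓ N⟩ Q₀⟩) =
        ⟨Polynomial.aeval (jFull N) P₀,
          aeval_mem_gaussF ℓ N ⟨jFull N, jFull_mem_gaussF ℓ N⟩ P₀⟩ := by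
      apply Subtype.ext
      show (ℓ : ↥(modularFunctionFieldFull N)) ^ (b - a) *
          ((v : ↥(modularFunctionFieldFull N)) * Polynomial.aeval (jFull N) Q₀) =
        Polynomial.aeval (jFull N) P₀
      apply mul_left_cancel₀ (pow_ne_zero a hℓ)
      calc (ℓ : ↥(modularFunctionFieldFull N)) ^ a *
            ((ℓ : ↥(modularFunctionFieldFull N)) ^ (b - a) *
              ((v : ↥(modularFunctionFieldFull N)) * Polynomial.aeval (jFull N) Q₀))
          = (ℓ : ↥(modularFunctionFieldFull N)) ^ (a + (b - a)) *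
              ((v : ↥(modularFunctionFieldFull N)) * Polynomial.aeval (jFull N) Q₀) := by
            rw [_root_.pow_add, mul_assoc]
        _ = (v : ↥(modularFunctionFieldFull N)) *
            ((ℓ : ↥(modularFunctionFieldFull N)) ^ b * Polynomial.aeval (jFull N) Q₀) := by
            rw [Nat.add_sub_cancel' hab.le]; ring
        _ = (ℓ : ↥(modularFunctionFieldFull N)) ^ a * Polynomial.aeval (jFull N) P₀ := hPQ
    have h2 := congrArg (gaussFRed ℓ N) h1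
    rw [map_mul, map_pow, gaussFRed_natCast_self, zero_pow (by omega), zero_mul, redp] at h2
    exact hP₀' h2.symm

/-- `hRπ` in the `toSubring` form, for both charts at once. -/
theorem mem_adjoin_of_natCast_mul_mem (t : ↥(modularFunctionFieldFull N))
    (ht : t = jFull N ∨ t = (jFull N)⁻¹) (w : ↥(gaussF ℓ N))
    (hw : (ℓ : ↥(modularFunctionFieldFull N)) * (w : ↥(modularFunctionFieldFull N)) ∈
      (Algebra.adjoin ↥(GaloisRep.ratLocalizedAt ℓ) {t}).toSubring) :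
    (w : ↥(modularFunctionFieldFull N)) ∈
      (Algebra.adjoin ↥(GaloisRep.ratLocalizedAt ℓ) {t}).toSubring := by
  rcases ht with rfl | rfl
  · exact mem_adjoin_jFull_of_mul_mem ℓ N w hw
  · exact mem_adjoin_jFull_inv_of_mul_mem ℓ N w hw

end FunctionField

end Fermat.Agent.S28.H93
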