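import Mathlib
import Fermat.Prelude.Def_ModularCurve_IgusaScheme
import Fermat.Prelude.Def_ModularCurve_X0ModL

/-!
# S28: the Gauss valuation ring of `ℚ((q))` at `ℓ` and its reduction map (helper93)

Concrete half of the valuation part (D1-D3): the ring
`gaussRing ℓ = {x ∈ ℚ((q)) | ∃ g h ∈ ℤ_(ℓ)((q)), (h mod ℓ) ≠ 0, x * h = g}`,
its reduction homomorphism `gaussRed ℓ` to `𝔽_ℓ((q))`, the kernel `ℓ * gaussRing`, and the
fact that every nonzero element of the function field `F_N` is `ℓ ^ m * unit`.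
-/

set_option autoImplicit false

noncomputable section

open HahnSeries ModularCurve

namespace Fermat.Agent.S28.H93

variable (ℓ : ℕ) [Fact ℓ.Prime]

/-- `ℤ_(ℓ)` (the frozen localisation, as a type). -/
abbrev ZL : Type := ↥(GaloisRep.ratLocalizedAt ℓ)

omit [Fact ℓ.Prime] in
theorem intCast_mem_ratLocalizedAt (k : ℤ) : (k : ℚ) ∈ GaloisRep.ratLocalizedAt ℓ := by
  show ((k : ℚ).den).Coprime ℓ
  simp

omit [Fact ℓ.Prime] in
theorem natCast_mem_ratLocalizedAt (k : ℕ) : (k : ℚ) ∈ GaloisRep.ratLocalizedAt ℓ := by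
  show ((k : ℚ).den).Coprime ℓ
  simp

omit [Fact ℓ.Prime] in
theorem inv_natCast_mem_ratLocalizedAt (n : ℕ) (hn : n.Coprime ℓ) :
    ((n : ℚ)⁻¹) ∈ GaloisRep.ratLocalizedAt ℓ := by
  show (((n : ℚ)⁻¹).den).Coprime ℓ
  rw [Rat.inv_natCast_den]
  split_ifs with h
  · simp
  · exact hn

theorem den_ne_zero_zmod (a : ZL ℓ) : (((a : ℚ).den : ℕ) : ZMod ℓ) ≠ 0 := by
  intro h
  rw [ZMod.natCast_eq_zero_iff] at h
  exact (Nat.Prime.coprime_iff_not_dvd Fact.out).mp (Nat.Coprime.symm a.2) h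

/-- The residue map `ℤ_(ℓ) → 𝔽_ℓ`. -/
def resZl : ZL ℓ →+* ZMod ℓ where
  toFun a := ((a : ℚ) : ZMod ℓ)
  map_one' := by simp
  map_mul' a b := Rat.cast_mul_of_ne_zero (den_ne_zero_zmod ℓ a) (den_ne_zero_zmod ℓ b)
  map_zero' := by simp
  map_add' a b := Rat.cast_add_of_ne_zero (den_ne_zero_zmod ℓ a) (den_ne_zero_zmod ℓ b)

theorem resZl_apply (a : ZL ℓ) : resZl ℓ a = ((a : ℚ) : ZMod ℓ) := rfl

/-- The kernel of the residue map is `ℓ * ℤ_(ℓ)` (in `ℚ`-form). -/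
theorem inv_mul_mem_of_resZl_eq_zero (a : ZL ℓ) (ha : resZl ℓ a = 0) :
    (ℓ : ℚ)⁻¹ * (a : ℚ) ∈ GaloisRep.ratLocalizedAt ℓ := by
  rw [resZl_apply, Rat.cast_def, div_eq_zero_iff] at ha
  rcases ha with ha | ha
  · rw [ZMod.intCast_zmod_eq_zero_iff_dvd] at ha
    obtain ⟨k, hk⟩ := ha
    have hℓ : (ℓ : ℚ) ≠ 0 := Nat.cast_ne_zero.mpr (Fact.out : ℓ.Prime).ne_zero
    have hden : (((a : ℚ).den : ℕ) : ℚ) ≠ 0 := Nat.cast_ne_zero.mpr (a : ℚ).den_ne_zero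
    have h2 : (a : ℚ) = ((ℓ : ℚ) * (k : ℚ)) / (((a : ℚ).den : ℕ) : ℚ) := by
      have h3 := (Rat.num_div_den (a : ℚ)).symm
      rw [hk] at h3
      push_cast at h3
      exact h3
    have h1 : (ℓ : ℚ)⁻¹ * (a : ℚ) = (k : ℚ) * (((a : ℚ).den : ℕ) : ℚ)⁻¹ := by
      conv_lhs => rw [h2]
      field_simp
    rw [h1]
    exact Subring.mul_mem _ (intCast_mem_ratLocalizedAt ℓ k)
      (inv_natCast_mem_ratLocalizedAt ℓ _ a.2)
  · exact absurd ha (den_ne_zero_zmod ℓ a)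

/-- Coefficient embedding `ℤ_(ℓ)((q)) → ℚ((q))`. -/
def iota : LaurentSeries (ZL ℓ) →+* LaurentSeries ℚ :=
  coeffMap (GaloisRep.ratLocalizedAt ℓ).subtype

/-- Coefficientwise reduction `ℤ_(ℓ)((q)) → 𝔽_ℓ((q))`. -/
def rbar : LaurentSeries (ZL ℓ) →+* LaurentSeries (ZMod ℓ) :=
  coeffMap (resZl ℓ)

omit [Fact ℓ.Prime] in
@[simp] theorem iota_coeff (g : LaurentSeries (ZL ℓ)) (n : ℤ) :
    (iota ℓ g).coeff n = (g.coeff n : ℚ) := rfl

@[simp] theorem rbar_coeff (g : LaurentSeries (ZL ℓ)) (n : ℤ) :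
    (rbar ℓ g).coeff n = resZl ℓ (g.coeff n) := rfl

omit [Fact ℓ.Prime] in
theorem iota_injective : Function.Injective (iota ℓ) := by
  intro x y h
  ext n
  have := congrArg (fun z : LaurentSeries ℚ => z.coeff n) h
  simpa using this

omit [Fact ℓ.Prime] in
/-- A Laurent series over `ℚ` with `ℓ`-integral coefficients comes from `ℤ_(ℓ)((q))`. -/
theorem exists_iota_eq (x : LaurentSeries ℚ)
    (hx : ∀ n : ℤ, x.coeff n ∈ GaloisRep.ratLocalizedAt ℓ) :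
    ∃ g : LaurentSeries (ZL ℓ), iota ℓ g = x := by
  have hsupp : Function.support (fun n : ℤ => (⟨x.coeff n, hx n⟩ : ZL ℓ)) = x.support := by
    ext n
    simp [Subtype.ext_iff]
  refine ⟨⟨fun n => ⟨x.coeff n, hx n⟩, ?_⟩, ?_⟩
  · rw [hsupp]; exact x.isPWO_support
  · ext n
    rfl


omit [Fact ℓ.Prime] in
theorem natCast_laurent_eq_C (R : Type*) [CommRing R] (n : ℕ) :
    (n : LaurentSeries R) = HahnSeries.C (n : R) := (map_natCast HahnSeries.C n).symm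

omit [Fact ℓ.Prime] in
theorem natCast_mul_coeff (R : Type*) [CommRing R] (n : ℕ) (x : LaurentSeries R) (k : ℤ) :
    ((n : LaurentSeries R) * x).coeff k = (n : R) * x.coeff k := by
  rw [natCast_laurent_eq_C, HahnSeries.C_mul_eq_smul, HahnSeries.coeff_smul, smul_eq_mul]

theorem natCast_laurent_rat_ne_zero : ((ℓ : ℕ) : LaurentSeries ℚ) ≠ 0 := by
  rw [natCast_laurent_eq_C]
  intro h
  have h0 : (HahnSeries.C (ℓ : ℚ) : LaurentSeries ℚ) = HahnSeries.C 0 := by rw [h, map_zero]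
  exact (Nat.cast_ne_zero.mpr (Fact.out : ℓ.Prime).ne_zero) (HahnSeries.C_injective h0)

/-- The kernel of the coefficientwise reduction is `ℓ * ℤ_(ℓ)((q))`. -/
theorem exists_eq_mul_of_rbar_eq_zero (g : LaurentSeries (ZL ℓ)) (hg : rbar ℓ g = 0) :
    ∃ g' : LaurentSeries (ZL ℓ), g = (ℓ : LaurentSeries (ZL ℓ)) * g' := by
  have hℓ : (ℓ : ℚ) ≠ 0 := Nat.cast_ne_zero.mpr (Fact.out : ℓ.Prime).ne_zero
  have hcoeff : ∀ n : ℤ, resZl ℓ (g.coeff n) = 0 := fun n => by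
    have := congrArg (fun z : LaurentSeries (ZMod ℓ) => z.coeff n) hg
    simpa using this
  obtain ⟨g', hg'⟩ := exists_iota_eq ℓ ((ℓ : ℚ)⁻¹ • iota ℓ g) (fun n => by
    rw [HahnSeries.coeff_smul, smul_eq_mul, iota_coeff]
    exact inv_mul_mem_of_resZl_eq_zero ℓ _ (hcoeff n))
  refine ⟨g', iota_injective ℓ ?_⟩
  rw [map_mul, map_natCast, hg']
  ext n
  rw [natCast_mul_coeff, HahnSeries.coeff_smul, smul_eq_mul, mul_inv_cancel_left₀ hℓ]

theorem rbar_natCast_mul (g : LaurentSeries (ZL ℓ)) :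
    rbar ℓ ((ℓ : LaurentSeries (ZL ℓ)) * g) = 0 := by
  rw [map_mul, map_natCast]
  have : ((ℓ : ℕ) : LaurentSeries (ZMod ℓ)) = 0 := by
    rw [natCast_laurent_eq_C, ZMod.natCast_self, map_zero]
  rw [this, zero_mul]

theorem padicValRat_nonneg_of_mem (c : ℚ) (hc : c ∈ GaloisRep.ratLocalizedAt ℓ) :
    0 ≤ padicValRat ℓ c := by
  have hden : ¬ ℓ ∣ c.den :=
    (Nat.Prime.coprime_iff_not_dvd Fact.out).mp (Nat.Coprime.symm hc)
  have h : padicValRat ℓ c = padicValInt ℓ c.num - padicValNat ℓ c.den := rfl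
  rw [h, padicValNat.eq_zero_of_not_dvd hden]
  simp

/-- Content normalisation: a nonzero `ℓ`-integral series is `ℓ ^ m` times a series with nonzero
reduction. -/
theorem exists_pow_mul_rbar_ne (g : LaurentSeries (ZL ℓ)) (hg : g ≠ 0) :
    ∃ (m : ℕ) (g' : LaurentSeries (ZL ℓ)),
      g = (ℓ : LaurentSeries (ZL ℓ)) ^ m * g' ∧ rbar ℓ g' ≠ 0 := by
  have hℓ : (ℓ : ℚ) ≠ 0 := Nat.cast_ne_zero.mpr (Fact.out : ℓ.Prime).ne_zero
  have key : ∀ (k : ℕ) (g : LaurentSeries (ZL ℓ)) (n₀ : ℤ), g.coeff n₀ ≠ 0 →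
      padicValRat ℓ (g.coeff n₀ : ℚ) = k →
      ∃ (m : ℕ) (g' : LaurentSeries (ZL ℓ)),
        g = (ℓ : LaurentSeries (ZL ℓ)) ^ m * g' ∧ rbar ℓ g' ≠ 0 := by
    intro k
    induction k with
    | zero =>
      intro g n₀ hn₀ hv
      by_cases hr : rbar ℓ g = 0
      · exfalso
        obtain ⟨g₁, rfl⟩ := exists_eq_mul_of_rbar_eq_zero ℓ g hr
        rw [natCast_mul_coeff] at hn₀ hv
        have hc₁ : (g₁.coeff n₀ : ℚ) ≠ 0 := by
          intro h0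
          apply hn₀
          rw [show g₁.coeff n₀ = 0 from Subtype.ext h0, mul_zero]
        have h1 : padicValRat ℓ (((ℓ : ZL ℓ) * g₁.coeff n₀ : ZL ℓ) : ℚ) =
            1 + padicValRat ℓ (g₁.coeff n₀ : ℚ) := by
          push_cast
          rw [padicValRat.mul hℓ hc₁, padicValRat.self (Fact.out : ℓ.Prime).one_lt]
        have h2 := padicValRat_nonneg_of_mem ℓ _ (g₁.coeff n₀).2
        rw [h1] at hv
        simp at hv
        omega
      · exact ⟨0, g, by rw [pow_zero, one_mul], hr⟩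
    | succ k ih =>
      intro g n₀ hn₀ hv
      by_cases hr : rbar ℓ g = 0
      · obtain ⟨g₁, rfl⟩ := exists_eq_mul_of_rbar_eq_zero ℓ g hr
        rw [natCast_mul_coeff] at hn₀ hv
        have hc₁ : (g₁.coeff n₀ : ℚ) ≠ 0 := by
          intro h0
          apply hn₀
          rw [show g₁.coeff n₀ = 0 from Subtype.ext h0, mul_zero]
        have h1 : padicValRat ℓ (((ℓ : ZL ℓ) * g₁.coeff n₀ : ZL ℓ) : ℚ) =
            1 + padicValRat ℓ (g₁.coeff n₀ : ℚ) := by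
          push_cast
          rw [padicValRat.mul hℓ hc₁, padicValRat.self (Fact.out : ℓ.Prime).one_lt]
        rw [h1] at hv
        have hv' : padicValRat ℓ (g₁.coeff n₀ : ℚ) = k := by
          push_cast at hv
          omega
        obtain ⟨m, g', hg', hr'⟩ := ih g₁ n₀ (fun h0 => hc₁ (by rw [h0]; rfl)) hv'
        exact ⟨m + 1, g', by rw [hg', pow_succ']; ring, hr'⟩
      · exact ⟨0, g, by rw [pow_zero, one_mul], hr⟩
  obtain ⟨n₀, hn₀⟩ : ∃ n₀ : ℤ, g.coeff n₀ ≠ 0 := by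
    by_contra hcon
    push Not at hcon
    exact hg (HahnSeries.ext (funext hcon))
  have hnn := padicValRat_nonneg_of_mem ℓ _ (g.coeff n₀).2
  exact key (padicValRat ℓ (g.coeff n₀ : ℚ)).toNat g n₀ hn₀ (Int.toNat_of_nonneg hnn).symm

/-! ### The Gauss ring -/

/-- The Gauss valuation ring of `ℚ((q))` at `ℓ` (inside the fraction field of `ℤ_(ℓ)((q))`). -/
def gaussRing : Subring (LaurentSeries ℚ) where
  carrier := {x | ∃ g h : LaurentSeries (ZL ℓ), rbar ℓ h ≠ 0 ∧ x * iota ℓ h = iota ℓ g}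
  mul_mem' := by
    rintro x y ⟨g₁, h₁, hh₁, e₁⟩ ⟨g₂, h₂, hh₂, e₂⟩
    refine ⟨g₁ * g₂, h₁ * h₂, ?_, ?_⟩
    · rw [map_mul]; exact mul_ne_zero hh₁ hh₂
    · rw [map_mul, map_mul, ← e₁, ← e₂]; ring
  one_mem' := ⟨1, 1, by rw [map_one]; exact one_ne_zero, by rw [map_one, mul_one]⟩
  add_mem' := by
    rintro x y ⟨g₁, h₁, hh₁, e₁⟩ ⟨g₂, h₂, hh₂, e₂⟩
    refine ⟨g₁ * h₂ + g₂ * h₁, h₁ * h₂, ?_, ?_⟩
    · rw [map_mul]; exact mul_ne_zero hh₁ hh₂
    · rw [map_mul, map_add, map_mul, map_mul, ← e₁, ← e₂]; ring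
  zero_mem' := ⟨0, 1, by rw [map_one]; exact one_ne_zero, by rw [map_zero, zero_mul]⟩
  neg_mem' := by
    rintro x ⟨g, h, hh, e⟩
    exact ⟨-g, h, hh, by rw [map_neg, ← e]; ring⟩

theorem mem_gaussRing_iff (x : LaurentSeries ℚ) :
    x ∈ gaussRing ℓ ↔
      ∃ g h : LaurentSeries (ZL ℓ), rbar ℓ h ≠ 0 ∧ x * iota ℓ h = iota ℓ g := Iff.rfl

/-- The reduction map (as a function). -/
def gaussRedFun (x : gaussRing ℓ) : LaurentSeries (ZMod ℓ) :=
  rbar ℓ (Classical.choose x.2) / rbar ℓ (Classical.choose (Classical.choose_spec x.2))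

theorem gaussRedFun_eq (x : gaussRing ℓ) (g h : LaurentSeries (ZL ℓ)) (hh : rbar ℓ h ≠ 0)
    (e : (x : LaurentSeries ℚ) * iota ℓ h = iota ℓ g) :
    gaussRedFun ℓ x = rbar ℓ g / rbar ℓ h := by
  obtain ⟨hh₀, e₀⟩ := Classical.choose_spec (Classical.choose_spec x.2)
  set g₀ := Classical.choose x.2
  set h₀ := Classical.choose (Classical.choose_spec x.2)
  have h1 : g₀ * h = g * h₀ := by
    apply iota_injective ℓ
    rw [map_mul, map_mul, ← e₀, ← e]; ring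
  have h2 : rbar ℓ g₀ * rbar ℓ h = rbar ℓ g * rbar ℓ h₀ := by
    rw [← map_mul, ← map_mul, h1]
  show rbar ℓ g₀ / rbar ℓ h₀ = rbar ℓ g / rbar ℓ h
  rw [div_eq_div_iff hh₀ hh, h2]

/-- The reduction homomorphism of the Gauss ring. -/
def gaussRed : gaussRing ℓ →+* LaurentSeries (ZMod ℓ) where
  toFun := gaussRedFun ℓ
  map_one' := by
    rw [gaussRedFun_eq ℓ 1 1 1 (by rw [map_one]; exact one_ne_zero) (by simp), map_one, div_one]
  map_mul' := by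
    intro x y
    obtain ⟨g₁, h₁, hh₁, e₁⟩ := x.2
    obtain ⟨g₂, h₂, hh₂, e₂⟩ := y.2
    rw [gaussRedFun_eq ℓ x g₁ h₁ hh₁ e₁, gaussRedFun_eq ℓ y g₂ h₂ hh₂ e₂,
      gaussRedFun_eq ℓ (x * y) (g₁ * g₂) (h₁ * h₂)
        (by rw [map_mul]; exact mul_ne_zero hh₁ hh₂)
        (by
          show (x : LaurentSeries ℚ) * y * iota ℓ (h₁ * h₂) = iota ℓ (g₁ * g₂)
          rw [map_mul, map_mul, ← e₁, ← e₂]; ring),
      map_mul, map_mul, div_mul_div_comm]
  map_zero' := by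
    rw [gaussRedFun_eq ℓ 0 0 1 (by rw [map_one]; exact one_ne_zero) (by simp), map_zero, zero_div]
  map_add' := by
    intro x y
    obtain ⟨g₁, h₁, hh₁, e₁⟩ := x.2
    obtain ⟨g₂, h₂, hh₂, e₂⟩ := y.2
    rw [gaussRedFun_eq ℓ x g₁ h₁ hh₁ e₁, gaussRedFun_eq ℓ y g₂ h₂ hh₂ e₂,
      gaussRedFun_eq ℓ (x + y) (g₁ * h₂ + g₂ * h₁) (h₁ * h₂)
        (by rw [map_mul]; exact mul_ne_zero hh₁ hh₂)
        (by
          show ((x : LaurentSeries ℚ) + y) * iota ℓ (h₁ * h₂) = iota ℓ (g₁ * h₂ + g₂ * h₁)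
          rw [map_mul, map_add, map_mul, map_mul, ← e₁, ← e₂]; ring),
      map_mul, map_add, map_mul, map_mul, div_add_div _ _ hh₁ hh₂]
    congr 1
    ring

/-- Defining property of the reduction. -/
theorem gaussRed_eq (x : gaussRing ℓ) (g h : LaurentSeries (ZL ℓ)) (hh : rbar ℓ h ≠ 0)
    (e : (x : LaurentSeries ℚ) * iota ℓ h = iota ℓ g) :
    gaussRed ℓ x = rbar ℓ g / rbar ℓ h := gaussRedFun_eq ℓ x g h hh e

theorem gaussRed_mul_rbar (x : gaussRing ℓ) (g h : LaurentSeries (ZL ℓ))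
    (e : (x : LaurentSeries ℚ) * iota ℓ h = iota ℓ g) :
    gaussRed ℓ x * rbar ℓ h = rbar ℓ g := by
  obtain ⟨g₀, h₀, hh₀, e₀⟩ := x.2
  rw [gaussRed_eq ℓ x g₀ h₀ hh₀ e₀, div_mul_eq_mul_div, div_eq_iff hh₀, ← map_mul, ← map_mul]
  congr 1
  apply iota_injective ℓ
  rw [map_mul, map_mul, ← e₀, ← e]; ring

theorem iota_mem_gaussRing (g : LaurentSeries (ZL ℓ)) : iota ℓ g ∈ gaussRing ℓ :=
  ⟨g, 1, by rw [map_one]; exact one_ne_zero, by rw [map_one, mul_one]⟩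

/-- On `ℓ`-integral series the reduction is the coefficientwise one. -/
theorem gaussRed_iota (g : LaurentSeries (ZL ℓ)) :
    gaussRed ℓ ⟨iota ℓ g, iota_mem_gaussRing ℓ g⟩ = rbar ℓ g := by
  rw [gaussRed_eq ℓ _ g 1 (by rw [map_one]; exact one_ne_zero) (by rw [map_one, mul_one]),
    map_one, div_one]

theorem natCast_mem_gaussRing (n : ℕ) : (n : LaurentSeries ℚ) ∈ gaussRing ℓ :=
  natCast_mem _ n

theorem gaussRed_natCast_self : gaussRed ℓ (ℓ : gaussRing ℓ) = 0 := by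
  rw [map_natCast]
  rw [natCast_laurent_eq_C, ZMod.natCast_self, map_zero]

/-- The kernel of the reduction is `ℓ * gaussRing` (ambient form). -/
theorem exists_eq_mul_of_gaussRed_eq_zero' (x : gaussRing ℓ) (hx : gaussRed ℓ x = 0) :
    (ℓ : LaurentSeries ℚ)⁻¹ * (x : LaurentSeries ℚ) ∈ gaussRing ℓ := by
  obtain ⟨g, h, hh, e⟩ := x.2
  have h1 : rbar ℓ g = 0 := by
    rw [← gaussRed_mul_rbar ℓ x g h e, hx, zero_mul]
  obtain ⟨g', rfl⟩ := exists_eq_mul_of_rbar_eq_zero ℓ g h1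
  refine ⟨g', h, hh, ?_⟩
  rw [mul_assoc, e, map_mul, map_natCast, inv_mul_cancel_left₀ (natCast_laurent_rat_ne_zero ℓ)]

/-- The kernel of the reduction is `ℓ * gaussRing`. -/
theorem exists_eq_mul_of_gaussRed_eq_zero (x : gaussRing ℓ) (hx : gaussRed ℓ x = 0) :
    ∃ y : gaussRing ℓ, x = (ℓ : gaussRing ℓ) * y := by
  refine ⟨⟨_, exists_eq_mul_of_gaussRed_eq_zero' ℓ x hx⟩, Subtype.ext ?_⟩
  show (x : LaurentSeries ℚ) = (ℓ : LaurentSeries ℚ) * ((ℓ : LaurentSeries ℚ)⁻¹ * x)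
  rw [mul_inv_cancel_left₀ (natCast_laurent_rat_ne_zero ℓ)]

theorem rbar_ne_zero_imp_ne_zero {g : LaurentSeries (ZL ℓ)} (hg : rbar ℓ g ≠ 0) : g ≠ 0 := by
  rintro rfl
  exact hg (map_zero _)

omit [Fact ℓ.Prime] in
theorem iota_ne_zero {g : LaurentSeries (ZL ℓ)} (hg : g ≠ 0) : iota ℓ g ≠ 0 := by
  intro h
  exact hg (iota_injective ℓ (by rw [h, map_zero]))

/-- Every nonzero element of the fraction field of `ℤ_(ℓ)((q))` is `ℓ ^ m` times a unit of the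
Gauss ring. -/
theorem exists_zpow_mul (x : LaurentSeries ℚ) (hx : x ≠ 0) (g h : LaurentSeries (ZL ℓ))
    (hh : h ≠ 0) (e : x * iota ℓ h = iota ℓ g) :
    ∃ (m : ℤ) (u : gaussRing ℓ), gaussRed ℓ u ≠ 0 ∧
      x = (ℓ : LaurentSeries ℚ) ^ m * (u : LaurentSeries ℚ) := by
  have hℓ := natCast_laurent_rat_ne_zero ℓ
  have hg : g ≠ 0 := by
    rintro rfl
    rw [map_zero] at e
    rcases mul_eq_zero.mp e with h0 | h0
    · exact hx h0
    · exact iota_ne_zero ℓ hh h0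
  obtain ⟨a, g₀, rfl, hg₀⟩ := exists_pow_mul_rbar_ne ℓ g hg
  obtain ⟨b, h₀, rfl, hh₀⟩ := exists_pow_mul_rbar_ne ℓ h hh
  have hh₀' : iota ℓ h₀ ≠ 0 := iota_ne_zero ℓ (rbar_ne_zero_imp_ne_zero ℓ hh₀)
  have hu : iota ℓ g₀ / iota ℓ h₀ ∈ gaussRing ℓ :=
    ⟨g₀, h₀, hh₀, div_mul_cancel₀ _ hh₀'⟩
  refine ⟨(a : ℤ) - b, ⟨_, hu⟩, ?_, ?_⟩
  · rw [gaussRed_eq ℓ ⟨_, hu⟩ g₀ h₀ hh₀ (div_mul_cancel₀ _ hh₀')]
    exact div_ne_zero hg₀ hh₀
  · show x = (ℓ : LaurentSeries ℚ) ^ ((a : ℤ) - b) * (iota ℓ g₀ / iota ℓ h₀)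
    rw [map_mul, map_mul, map_pow, map_pow, map_natCast] at e
    rw [zpow_sub₀ hℓ, zpow_natCast, zpow_natCast]
    have hb : (ℓ : LaurentSeries ℚ) ^ b ≠ 0 := pow_ne_zero _ hℓ
    field_simp
    linear_combination e

/-! ### The function field `F_N` lies in the fraction field of `ℤ_(ℓ)((q))` -/

omit [Fact ℓ.Prime] in
theorem exists_frac_algebraMap (c : ℚ) :
    ∃ g h : LaurentSeries (ZL ℓ), h ≠ 0 ∧
      algebraMap ℚ (LaurentSeries ℚ) c * iota ℓ h = iota ℓ g := by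
  refine ⟨(c.num : LaurentSeries (ZL ℓ)), (c.den : LaurentSeries (ZL ℓ)), ?_, ?_⟩
  · intro h0
    have h1 : iota ℓ (c.den : LaurentSeries (ZL ℓ)) = 0 := by rw [h0, map_zero]
    rw [map_natCast, ← map_natCast (algebraMap ℚ (LaurentSeries ℚ))] at h1
    have h2 := (algebraMap ℚ (LaurentSeries ℚ)).injective (h1.trans (map_zero _).symm)
    exact c.den_ne_zero (by exact_mod_cast h2)
  · rw [map_natCast, map_intCast, ← map_natCast (algebraMap ℚ (LaurentSeries ℚ)),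
      ← map_intCast (algebraMap ℚ (LaurentSeries ℚ)), ← map_mul, Rat.mul_den_eq_num]

omit [Fact ℓ.Prime] in
theorem exists_frac_of_mem_full (N : ℕ) (x : LaurentSeries ℚ)
    (hx : x ∈ modularFunctionFieldFull N) :
    ∃ g h : LaurentSeries (ZL ℓ), h ≠ 0 ∧ x * iota ℓ h = iota ℓ g := by
  unfold modularFunctionFieldFull at hx
  induction hx using IntermediateField.adjoin_induction with
  | mem y hy =>
    obtain ⟨d, hd, -, rfl⟩ := hy
    refine ⟨qExpand (ZL ℓ) d (jqModC (ZL ℓ)), 1, one_ne_zero, ?_⟩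
    rw [map_one, mul_one]
    show qExpand ℚ d jq = coeffMap _ (qExpand (ZL ℓ) d (jqModC (ZL ℓ)))
    rw [coeffMap_qExpand, coeffMap_jqModC, jqModC_rat]
  | algebraMap c => exact exists_frac_algebraMap ℓ c
  | add y z _ _ hy hz =>
    obtain ⟨g₁, h₁, hh₁, e₁⟩ := hy
    obtain ⟨g₂, h₂, hh₂, e₂⟩ := hz
    refine ⟨g₁ * h₂ + g₂ * h₁, h₁ * h₂, ?_, ?_⟩
    · intro h0
      have := congrArg (iota ℓ) h0
      rw [map_mul, map_zero] at this
      rcases mul_eq_zero.mp this with h | h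
      · exact iota_ne_zero ℓ hh₁ h
      · exact iota_ne_zero ℓ hh₂ h
    · rw [map_mul, map_add, map_mul, map_mul, ← e₁, ← e₂]; ring
  | inv y _ hy =>
    obtain ⟨g, h, hh, e⟩ := hy
    by_cases hy0 : y = 0
    · exact ⟨0, 1, one_ne_zero, by rw [hy0, inv_zero, zero_mul, map_zero]⟩
    · refine ⟨h, g, ?_, ?_⟩
      · rintro rfl
        rw [map_zero] at e
        rcases mul_eq_zero.mp e with h0 | h0
        · exact hy0 h0
        · exact iota_ne_zero ℓ hh h0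
      · rw [← e, inv_mul_cancel_left₀ hy0]
  | mul y z _ _ hy hz =>
    obtain ⟨g₁, h₁, hh₁, e₁⟩ := hy
    obtain ⟨g₂, h₂, hh₂, e₂⟩ := hz
    refine ⟨g₁ * g₂, h₁ * h₂, ?_, ?_⟩
    · intro h0
      have := congrArg (iota ℓ) h0
      rw [map_mul, map_zero] at this
      rcases mul_eq_zero.mp this with h | h
      · exact iota_ne_zero ℓ hh₁ h
      · exact iota_ne_zero ℓ hh₂ h
    · rw [map_mul, map_mul, ← e₁, ← e₂]; ring

/-! ### Packaging for the function field `F = modularFunctionFieldFull N` -/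

section FunctionField

variable (N : ℕ)

/-- The Gauss valuation ring of the function field `F_N`. -/
def gaussF : Subring ↥(modularFunctionFieldFull N) :=
  (gaussRing ℓ).comap (algebraMap ↥(modularFunctionFieldFull N) (LaurentSeries ℚ))

theorem mem_gaussF_iff (x : ↥(modularFunctionFieldFull N)) :
    x ∈ gaussF ℓ N ↔ (x : LaurentSeries ℚ) ∈ gaussRing ℓ := Iff.rfl

/-- The reduction homomorphism of the Gauss ring of `F_N`. -/
def gaussFRed : ↥(gaussF ℓ N) →+* LaurentSeries (ZMod ℓ) :=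
  (gaussRed ℓ).comp
    ((algebraMap ↥(modularFunctionFieldFull N) (LaurentSeries ℚ)).restrict (gaussF ℓ N)
      (gaussRing ℓ) (fun _ h => h))

theorem gaussFRed_apply (v : ↥(gaussF ℓ N)) :
    gaussFRed ℓ N v = gaussRed ℓ ⟨((v : ↥(modularFunctionFieldFull N)) : LaurentSeries ℚ), v.2⟩ :=
  rfl

theorem gaussFRed_eq (v : ↥(gaussF ℓ N)) (g h : LaurentSeries (ZL ℓ)) (hh : rbar ℓ h ≠ 0)
    (e : ((v : ↥(modularFunctionFieldFull N)) : LaurentSeries ℚ) * iota ℓ h = iota ℓ g) :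
    gaussFRed ℓ N v = rbar ℓ g / rbar ℓ h :=
  gaussRed_eq ℓ _ g h hh e

/-- Elements of `F_N` with `ℓ`-integral coefficients lie in the Gauss ring and reduce
coefficientwise. -/
theorem gaussFRed_of_iota (x : ↥(modularFunctionFieldFull N)) (g : LaurentSeries (ZL ℓ))
    (hx : (x : LaurentSeries ℚ) = iota ℓ g) :
    ∃ hx' : x ∈ gaussF ℓ N, gaussFRed ℓ N ⟨x, hx'⟩ = rbar ℓ g := by
  have hx' : x ∈ gaussF ℓ N := by
    rw [mem_gaussF_iff, hx]; exact iota_mem_gaussRing ℓ g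
  refine ⟨hx', ?_⟩
  rw [gaussFRed_eq ℓ N ⟨x, hx'⟩ g 1 (by rw [map_one]; exact one_ne_zero)
    (by rw [map_one, mul_one]; exact hx), map_one, div_one]

theorem gaussFRed_natCast_self : gaussFRed ℓ N (ℓ : ↥(gaussF ℓ N)) = 0 := by
  rw [map_natCast, natCast_laurent_eq_C, ZMod.natCast_self, map_zero]

/-- `hker`: the kernel of the reduction on `F_N` is generated by `ℓ`. -/
theorem gaussF_ker (v : ↥(gaussF ℓ N)) (hv : gaussFRed ℓ N v = 0) :
    ∃ w : ↥(gaussF ℓ N), v = (ℓ : ↥(gaussF ℓ N)) * w := by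
  have h1 := exists_eq_mul_of_gaussRed_eq_zero' ℓ
    ⟨((v : ↥(modularFunctionFieldFull N)) : LaurentSeries ℚ), v.2⟩ hv
  have h2 : (ℓ : LaurentSeries ℚ)⁻¹ * ((v : ↥(modularFunctionFieldFull N)) : LaurentSeries ℚ) ∈
      modularFunctionFieldFull N :=
    mul_mem (inv_mem (natCast_mem _ ℓ)) (v : ↥(modularFunctionFieldFull N)).2
  refine ⟨⟨⟨_, h2⟩, h1⟩, Subtype.ext (Subtype.ext ?_)⟩
  show ((v : ↥(modularFunctionFieldFull N)) : LaurentSeries ℚ) =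
    (ℓ : LaurentSeries ℚ) * ((ℓ : LaurentSeries ℚ)⁻¹ * v)
  rw [mul_inv_cancel_left₀ (natCast_laurent_rat_ne_zero ℓ)]

/-- `hval`: every nonzero element of `F_N` is `ℓ ^ m` times a unit of the Gauss ring. -/
theorem gaussF_val (x : ↥(modularFunctionFieldFull N)) (hx : x ≠ 0) :
    ∃ (m : ℤ) (u : ↥(gaussF ℓ N)), gaussFRed ℓ N u ≠ 0 ∧
      x = (ℓ : ↥(modularFunctionFieldFull N)) ^ m * (u : ↥(modularFunctionFieldFull N)) := by
  have hℓ := natCast_laurent_rat_ne_zero ℓ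
  have hx' : (x : LaurentSeries ℚ) ≠ 0 := fun h => hx (Subtype.ext h)
  obtain ⟨g, h, hh, e⟩ := exists_frac_of_mem_full ℓ N x x.2
  obtain ⟨m, u, hu, hxu⟩ := exists_zpow_mul ℓ x hx' g h hh e
  have hu' : (u : LaurentSeries ℚ) = ((ℓ : LaurentSeries ℚ) ^ m)⁻¹ * x := by
    rw [hxu, inv_mul_cancel_left₀ (zpow_ne_zero _ hℓ)]
  have h2 : (u : LaurentSeries ℚ) ∈ modularFunctionFieldFull N := by
    rw [hu']
    exact mul_mem (inv_mem (zpow_mem (natCast_mem _ ℓ) m)) x.2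
  refine ⟨m, ⟨⟨u, h2⟩, u.2⟩, hu, ?_⟩
  apply (algebraMap ↥(modularFunctionFieldFull N) (LaurentSeries ℚ)).injective
  rw [map_mul, map_zpow₀, map_natCast]
  exact hxu

omit [Fact ℓ.Prime] in
theorem iota_coeffMap_intCast (c : LaurentSeries ℤ) :
    iota ℓ (coeffMap (Int.castRingHom (ZL ℓ)) c) = coeffMap (Int.castRingHom ℚ) c := by
  rw [iota, coeffMap_coeffMap]
  exact coeffMap_congr (RingHom.ext_int _ _) c

theorem rbar_coeffMap_intCast (c : LaurentSeries ℤ) :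
    rbar ℓ (coeffMap (Int.castRingHom (ZL ℓ)) c) = coeffMap (Int.castRingHom (ZMod ℓ)) c := by
  rw [rbar, coeffMap_coeffMap]
  exact coeffMap_congr (RingHom.ext_int _ _) c

/-- `hint`: integer Laurent series lying in `F_N` are in the Gauss ring and reduce
coefficientwise. -/
theorem gaussF_int (c : LaurentSeries ℤ)
    (hc : coeffMap (Int.castRingHom ℚ) c ∈ modularFunctionFieldFull N) :
    ∃ h : (⟨_, hc⟩ : ↥(modularFunctionFieldFull N)) ∈ gaussF ℓ N,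
      gaussFRed ℓ N ⟨⟨_, hc⟩, h⟩ = coeffMap (Int.castRingHom (ZMod ℓ)) c := by
  obtain ⟨h, e⟩ := gaussFRed_of_iota ℓ N ⟨_, hc⟩ (coeffMap (Int.castRingHom (ZL ℓ)) c)
    (iota_coeffMap_intCast ℓ c).symm
  exact ⟨h, e.trans (rbar_coeffMap_intCast ℓ c)⟩

/-- The Gauss datum of `F_N` at `ℓ`, packaged: a subring `V` with a reduction homomorphism to
`𝔽_ℓ((q))` whose kernel is `ℓ V`, such that every nonzero element of `F_N` is `ℓ ^ m` times an
element with nonzero reduction, and integer series reduce coefficientwise. -/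
theorem exists_gauss_datum :
    ∃ (V : Subring ↥(modularFunctionFieldFull N)) (red : ↥V →+* LaurentSeries (ZMod ℓ)),
      (∀ v : ↥V, red v = 0 → ∃ w : ↥V, v = (ℓ : ↥V) * w) ∧
      (∀ x : ↥(modularFunctionFieldFull N), x ≠ 0 → ∃ (m : ℤ) (u : ↥V), red u ≠ 0 ∧
        x = (ℓ : ↥(modularFunctionFieldFull N)) ^ m * (u : ↥(modularFunctionFieldFull N))) ∧
      (∀ (c : LaurentSeries ℤ)
        (hc : coeffMap (Int.castRingHom ℚ) c ∈ modularFunctionFieldFull N),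
        ∃ h : (⟨_, hc⟩ : ↥(modularFunctionFieldFull N)) ∈ V,
          red ⟨⟨_, hc⟩, h⟩ = coeffMap (Int.castRingHom (ZMod ℓ)) c) :=
  ⟨gaussF ℓ N, gaussFRed ℓ N, gaussF_ker ℓ N, gaussF_val ℓ N, gaussF_int ℓ N⟩

end FunctionField

end Fermat.Agent.S28.H93
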