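import Mathlib
import Fermat.Agent.S28.ModEq_helper20
import Fermat.Agent.S28.Tower_helper50

/-!
# S28: the modular equation in the consumers' shapes (helper20)

Adapters from `H20.exists_modEq` (product form of the modular equation of prime level `r`
over any field with a primitive `r`-th root of unity) to

* `H50.ModEq2 k r` (the hypothesis `hMod` of `H50.psi_le`, helper50's tower lower bound);
* the integrality half `∃ Φ monic, Φ(J(x), J(x^r)) = 0` (the hypothesis `hMod` of
  `H43.igusa_of_char` / `H43.igusa_of_hasse`).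

Both over a field with a primitive `r`-th root of unity, and over an algebraically closed
field in which `r ≠ 0`.
-/

set_option autoImplicit false

noncomputable section

namespace Fermat.Agent.S28.H20

open Polynomial ModularCurve

/-- Both vanishing statements of the modular equation, from the product form. -/
theorem modEq_eval (r : ℕ) [NeZero r] (hr : r.Prime) (k : Type*) [Field k] (ζ : kˣ)
    (hζ : IsPrimitiveRoot ζ r) :
    ∃ Φ : k[X][X], Φ.Monic ∧ Φ.natDegree = r + 1 ∧
      (Φ.map (aeval (R := k) (jqModC k)).toRingHom).eval (qExpand k r (jqModC k)) = 0 ∧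
      (Φ.map (aeval (R := k) (qExpand k r (jqModC k))).toRingHom).eval (jqModC k) = 0 := by
  obtain ⟨Φ, hmonic, hdeg, hΦ⟩ := exists_modEq r hr k ζ hζ
  refine ⟨Φ, hmonic, hdeg, ?_, ?_⟩
  · -- evaluate the product form at `J(x^(r²))` and pull back along `x ↦ x^r`
    have h1 : (Φ.map (aeval (R := k) (qExpand k r (jqModC k))).toRingHom).eval
        (qExpand k (r * r) (jqModC k)) = 0 := by
      rw [hΦ, eval_mul, eval_sub, eval_X, eval_C, sub_self, zero_mul]
    have h2 : (aeval (R := k) (qExpand k r (jqModC k))).toRingHom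
        = (qExpandAlgHomC k r).toRingHom.comp (aeval (R := k) (jqModC k)).toRingHom := by
      have : aeval (R := k) (qExpand k r (jqModC k))
          = (qExpandAlgHomC k r).comp (aeval (R := k) (jqModC k)) := by
        rw [← qExpandAlgHomC_apply, aeval_algHom]
      rw [this]; rfl
    rw [h2, ← Polynomial.map_map, ← qExpand_qExpand] at h1
    have h3 : ((Φ.map (aeval (R := k) (jqModC k)).toRingHom).map
        (qExpandAlgHomC k r).toRingHom).eval (qExpand k r (qExpand k r (jqModC k)))
        = qExpand k r ((Φ.map (aeval (R := k) (jqModC k)).toRingHom).eval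
            (qExpand k r (jqModC k))) :=
      Polynomial.eval_map_apply (qExpandAlgHomC k r).toRingHom (qExpand k r (jqModC k))
    rw [h3] at h1
    exact qExpand_injective (R := k) (N := r) (by rw [h1, map_zero])
  · -- the factor `b = 0` of the product form
    rw [hΦ, eval_mul, eval_prod,
      Finset.prod_eq_zero (Finset.mem_range.mpr hr.pos) (by
        rw [pow_zero, twist_one, eval_sub, eval_X, eval_C]
        exact sub_self _), mul_zero]

/-- **`ModEq2`** (the hypothesis of helper50's tower lower bound `H50.psi_le`) over any field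
with a primitive `r`-th root of unity. -/
theorem modEq2_of_isPrimitiveRoot (r : ℕ) [NeZero r] (hr : r.Prime) (k : Type*) [Field k]
    (ζ : kˣ) (hζ : IsPrimitiveRoot ζ r) : H50.ModEq2 k r :=
  modEq_eval r hr k ζ hζ

/-- A primitive `r`-th root of unity (as a unit) in an algebraically closed field in which
`r ≠ 0`. -/
theorem exists_isPrimitiveRoot_unit (k : Type*) [Field k] [IsAlgClosed k] (r : ℕ)
    (hr : r.Prime) (hrk : (r : k) ≠ 0) : ∃ ζ : kˣ, IsPrimitiveRoot ζ r := by
  have : NeZero (r : k) := ⟨hrk⟩
  obtain ⟨ζ, hζroot⟩ := IsAlgClosed.exists_root (cyclotomic r k)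
    (by rw [degree_cyclotomic]; exact_mod_cast (Nat.totient_pos.mpr hr.pos).ne')
  have hζ : IsPrimitiveRoot ζ r := Polynomial.isRoot_cyclotomic_iff.mp hζroot
  obtain ⟨u, hu⟩ := hζ.isUnit hr.ne_zero
  refine ⟨u, ?_⟩
  rw [← hu] at hζ
  exact IsPrimitiveRoot.coe_units_iff.mp hζ

/-- **`ModEq2`** over an algebraically closed field in which `r ≠ 0`. -/
theorem modEq2 (k : Type*) [Field k] [IsAlgClosed k] (r : ℕ) [NeZero r] (hr : r.Prime)
    (hrk : (r : k) ≠ 0) : H50.ModEq2 k r := by
  obtain ⟨ζ, hζ⟩ := exists_isPrimitiveRoot_unit k r hr hrk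
  exact modEq2_of_isPrimitiveRoot r hr k ζ hζ

/-- `hMod` of `H50.psi_le`, literally: over an algebraically closed field of characteristic
`l`, for every level `N` prime to `l`. -/
theorem modEq2_of_char (k : Type*) [Field k] [IsAlgClosed k] (l : ℕ) [CharP k l]
    (N : ℕ) (hN : ¬ l ∣ N) :
    ∀ p (hp : p.Prime), p ∣ N → @H50.ModEq2 k _ p ⟨hp.ne_zero⟩ := by
  intro p hp hpN
  have : NeZero p := ⟨hp.ne_zero⟩
  refine modEq2 k p hp ?_
  intro h0
  exact hN (((CharP.cast_eq_zero_iff k l p).mp h0).trans hpN)

/-- The integrality half of the modular equation, literally the hypothesis `hMod` of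
`H43.igusa_of_char` / `H43.igusa_of_hasse`. -/
theorem modEq_integral (k : Type*) [Field k] [IsAlgClosed k] (p : ℕ) (hp : p.Prime)
    (hpk : (p : k) ≠ 0) :
    ∃ Φ : Polynomial (Polynomial k), Φ.Monic ∧
      (Φ.map (Polynomial.aeval (jqModC k)).toRingHom).eval
        (@qExpand k _ p ⟨hp.ne_zero⟩ (jqModC k)) = 0 := by
  have : NeZero p := ⟨hp.ne_zero⟩
  obtain ⟨Φ, hm, -, h1, -⟩ := modEq2 k p hp hpk
  exact ⟨Φ, hm, h1⟩

end Fermat.Agent.S28.H20
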