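import Mathlib

/-!
# S28 (Igusa), WP-B1: the polynomial core of the prime-level argument

If `k` is algebraically closed, `r ≥ 2` is invertible in `k`, `P` is monic of degree `r`, `G` is
nonconstant and `G(P(X)) * ∏_{z root of G} (P(z) - X) = c * G(X)^(r+1)` with `c ≠ 0`, then
`P = z₀ + (X - z₀)^r` for some `z₀`.
-/

namespace Fermat.Agent.S28.H29

open Polynomial

variable {k : Type*} [Field k] [IsAlgClosed k]

theorem poly_core (r : ℕ) (hr2 : 2 ≤ r) (hr : (r : k) ≠ 0) (P G : k[X]) (hP : P.Monic)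
    (hPd : P.natDegree = r) (hG : G.natDegree ≠ 0) (c : k) (hc : c ≠ 0)
    (h : G.comp P * (G.roots.map fun z ↦ C (P.eval z) - X).prod = C c * G ^ (r + 1)) :
    ∃ z₀ : k, P = C z₀ + (X - C z₀) ^ r := by
  classical
  have hG0 : G ≠ 0 := fun h0 ↦ hG (by simp [h0])
  set Z : Finset k := G.roots.toFinset with hZ
  have hmemZ : ∀ w, w ∈ Z ↔ G.eval w = 0 := by
    intro w
    simp [hZ, mem_roots hG0, IsRoot]
  have hZne : Z.Nonempty := by
    obtain ⟨z, hz⟩ := IsAlgClosed.exists_root G (by
      rw [degree_eq_natDegree hG0]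
      exact_mod_cast hG)
    exact ⟨z, (hmemZ z).mpr hz⟩
  -- (1) preimages of roots are roots
  have h1 : ∀ w, P.eval w ∈ Z → w ∈ Z := by
    intro w hw
    rw [hmemZ] at hw ⊢
    have h2 := congrArg (eval w) h
    simp only [eval_mul, eval_comp, hw, zero_mul, eval_C, eval_pow] at h2
    have h' : G.eval w ^ (r + 1) = 0 := by
      rcases mul_eq_zero.mp h2.symm with h3 | h3
      · exact absurd h3 hc
      · exact h3
    exact pow_eq_zero_iff (by omega) |>.mp h'
  have hdegsub : ∀ z : k, (P - C z).natDegree = r := by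
    intro z
    rw [natDegree_sub_C, hPd]
  have hmonsub : ∀ z : k, (P - C z).Monic := by
    intro z
    refine hP.sub_of_left ?_
    refine lt_of_le_of_lt degree_C_le ?_
    rw [degree_eq_natDegree hP.ne_zero, hPd]
    exact_mod_cast (by omega : 0 < r)
  have hsurj : ∀ z : k, ∃ w, P.eval w = z := by
    intro z
    obtain ⟨w, hw⟩ := IsAlgClosed.exists_root (P - C z) (by
      rw [degree_eq_natDegree (hmonsub z).ne_zero, hdegsub]
      exact_mod_cast (by omega : r ≠ 0))
    exact ⟨w, by simpa [IsRoot, sub_eq_zero] using hw⟩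
  choose φ hφ using hsurj
  have hφZ : ∀ z ∈ Z, φ z ∈ Z := fun z hz ↦ h1 _ (by rw [hφ]; exact hz)
  have hφinj : Function.Injective φ := fun a b hab ↦ by rw [← hφ a, ← hφ b, hab]
  have hφsurj : ∀ w ∈ Z, ∃ z ∈ Z, φ z = w := by
    have := Finset.surj_on_of_inj_on_of_card_le (s := Z) (t := Z) (fun z _ ↦ φ z) hφZ
      (fun a b _ _ hab ↦ hφinj hab) le_rfl
    intro w hw
    obtain ⟨z, hz, hzw⟩ := this w hw
    exact ⟨z, hz, hzw.symm⟩
  have huniq : ∀ z ∈ Z, ∀ w, P.eval w = z → w = φ z := by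
    intro z hz w hw
    have hwZ : w ∈ Z := h1 w (hw ▸ hz)
    obtain ⟨z', _, rfl⟩ := hφsurj w hwZ
    rw [hφ] at hw
    rw [hw]
  have hform : ∀ z ∈ Z, P = C z + (X - C (φ z)) ^ r := by
    intro z hz
    have hsplit : (P - C z).Splits := IsAlgClosed.splits _
    have hroots : (P - C z).roots = Multiset.replicate r (φ z) := by
      rw [Multiset.eq_replicate]
      refine ⟨?_, fun w hw ↦ ?_⟩
      · rw [← hsplit.natDegree_eq_card_roots, hdegsub]
      · have hw' : P.eval w = z := by
          have := (mem_roots (hmonsub z).ne_zero).mp hw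
          simpa [IsRoot, sub_eq_zero] using this
        exact huniq z hz w hw'
    have h3 := hsplit.eq_prod_roots_of_monic (hmonsub z)
    rw [hroots, Multiset.map_replicate, Multiset.prod_replicate] at h3
    rw [← h3]
    ring
  obtain ⟨z₀, hz₀⟩ := hZne
  have hderiv : ∀ z ∈ Z, derivative P = C (r : k) * (X - C (φ z)) ^ (r - 1) := by
    intro z hz
    conv_lhs => rw [hform z hz]
    simp [derivative_pow]
  have hw_eq : ∀ z ∈ Z, φ z = φ z₀ := by
    intro z hz
    have h3 := congrArg (eval (φ z₀)) ((hderiv z hz).symm.trans (hderiv z₀ hz₀))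
    simp only [eval_mul, eval_C, eval_pow, eval_sub, eval_X, sub_self] at h3
    rw [zero_pow (by omega), mul_zero] at h3
    rcases mul_eq_zero.mp h3 with h4 | h4
    · exact absurd h4 hr
    · exact (sub_eq_zero.mp (pow_eq_zero_iff (by omega) |>.mp h4)).symm
  have hZ1 : ∀ z ∈ Z, z = z₀ := by
    intro z hz
    have e1 := hform z hz
    have e2 := hform z₀ hz₀
    rw [hw_eq z hz] at e1
    exact C_injective (add_right_cancel (e1.symm.trans e2))
  have hfix : φ z₀ = z₀ := hZ1 _ (hφZ z₀ hz₀)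
  refine ⟨z₀, ?_⟩
  have := hform z₀ hz₀
  rwa [hfix] at this

end Fermat.Agent.S28.H29
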