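import Mathlib
import Fermat.Prelude.Def_ModularCurve_IgusaScheme
import Fermat.Prelude.Def_ModularCurve_X0ModL
import Fermat.Agent.S28.GaussRing_helper93
import Fermat.Agent.S28.RedCore_helper95

/-!
# S28 : the reduction homomorphisms on the three charts (final instantiation of the Eps node)

`V = H93.gaussF ℓ N` is the Gauss valuation ring of `F_N = modularFunctionFieldFull N` at `ℓ`, with
reduction `red = H93.gaussFRed ℓ N : V →+* 𝔽_ℓ((q))`.  Given `dedekindPsi N` integer series in `F_N`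
whose reductions are linearly independent over `𝔽_ℓ(J)`, and the upper bound
`[F_N : ℚ(j)] ≤ dedekindPsi N`, the restriction of `red` to the integral closures of `ℤ_(ℓ)[j]` and
`ℤ_(ℓ)[1/j]` in `F_N` has kernel generated by `ℓ`.

The three facts about the polynomial rings `ℤ_(ℓ)[t]`, `t ∈ {j, 1/j}`, enter as explicit
hypotheses `HypS1`, `HypS2`, `HypS3`.
-/

set_option autoImplicit false
set_option linter.unusedSectionVars false

open ModularCurve ModularCurve.IgusaScheme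

namespace Fermat.Agent.S28.H67

variable (ℓ : ℕ) [Fact ℓ.Prime] (N : ℕ) [NeZero N]

/-- `red (V ∩ ℚ(j)) ⊆ 𝔽_ℓ(J)`. -/
def HypS1 : Prop :=
  ∀ c : ↥(H93.gaussF ℓ N),
    (c : ↥(modularFunctionFieldFull N)) ∈ IntermediateField.adjoin ℚ {jFull N} →
    H93.gaussFRed ℓ N c ∈ IntermediateField.adjoin (ZMod ℓ) {jqModC (ZMod ℓ)}

/-- `ℤ_(ℓ)[t]` is integrally closed in `ℚ(j)`, `t ∈ {j, 1/j}`. -/
def HypS2 : Prop :=
  ∀ t : ↥(modularFunctionFieldFull N), (t = jFull N ∨ t = (jFull N)⁻¹) →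
    ∀ a : ↥(modularFunctionFieldFull N),
      a ∈ (IntermediateField.adjoin ℚ {jFull N}).toSubfield →
      IsIntegral ↥(Algebra.adjoin ↥(GaloisRep.ratLocalizedAt ℓ) {t}).toSubring a →
      a ∈ (Algebra.adjoin ↥(GaloisRep.ratLocalizedAt ℓ) {t}).toSubring

/-- `ℤ_(ℓ)[t] ∩ ℓ V = ℓ ℤ_(ℓ)[t]`, `t ∈ {j, 1/j}`. -/
def HypS3 : Prop :=
  ∀ t : ↥(modularFunctionFieldFull N), (t = jFull N ∨ t = (jFull N)⁻¹) →
    ∀ w : ↥(H93.gaussF ℓ N),
      (ℓ : ↥(modularFunctionFieldFull N)) * (w : ↥(modularFunctionFieldFull N)) ∈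
        (Algebra.adjoin ↥(GaloisRep.ratLocalizedAt ℓ) {t}).toSubring →
      (w : ↥(modularFunctionFieldFull N)) ∈
        (Algebra.adjoin ↥(GaloisRep.ratLocalizedAt ℓ) {t}).toSubring

/-! ## The Gauss datum -/

theorem natCast_ne_zero_full : (ℓ : ↥(modularFunctionFieldFull N)) ≠ 0 := by
  intro h
  have h2 := congrArg (algebraMap ↥(modularFunctionFieldFull N) (LaurentSeries ℚ)) h
  rw [map_natCast, map_zero] at h2
  exact H93.natCast_laurent_rat_ne_zero ℓ h2

theorem isGauss :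
    H95.IsGauss (H93.gaussF ℓ N) (ℓ : ↥(H93.gaussF ℓ N)) (H93.gaussFRed ℓ N) := by
  refine ⟨?_, H93.gaussFRed_natCast_self ℓ N, H93.gaussF_ker ℓ N, ?_⟩
  · rw [Subring.coe_natCast]
    exact natCast_ne_zero_full ℓ N
  · intro x hx
    obtain ⟨m, u, hu, hxu⟩ := H93.gaussF_val ℓ N x hx
    exact ⟨m, u, hu, by rw [Subring.coe_natCast]; exact hxu⟩

/-! ## Elements of the Gauss ring -/

theorem algebraMap_mem_gaussF (a : ↥(GaloisRep.ratLocalizedAt ℓ)) :
    algebraMap ↥(GaloisRep.ratLocalizedAt ℓ) ↥(modularFunctionFieldFull N) a ∈ H93.gaussF ℓ N := by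
  have h : ((algebraMap ↥(GaloisRep.ratLocalizedAt ℓ) ↥(modularFunctionFieldFull N) a :
      ↥(modularFunctionFieldFull N)) : LaurentSeries ℚ) = H93.iota ℓ (HahnSeries.C a) := by
    have h1 : ((algebraMap ↥(GaloisRep.ratLocalizedAt ℓ) ↥(modularFunctionFieldFull N) a :
        ↥(modularFunctionFieldFull N)) : LaurentSeries ℚ) =
        algebraMap ℚ (LaurentSeries ℚ) (a : ℚ) := by
      have h0 : algebraMap ↥(GaloisRep.ratLocalizedAt ℓ) ↥(modularFunctionFieldFull N) a =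
          algebraMap ℚ ↥(modularFunctionFieldFull N) (a : ℚ) := rfl
      rw [h0]
      exact RingHom.congr_fun (Subsingleton.elim
        ((algebraMap ↥(modularFunctionFieldFull N) (LaurentSeries ℚ)).comp
          (algebraMap ℚ ↥(modularFunctionFieldFull N))) (algebraMap ℚ (LaurentSeries ℚ))) (a : ℚ)
    rw [h1, algebraMap_laurentSeries_eq_single, H93.iota]
    show _ = coeffMap _ (HahnSeries.single 0 a)
    rw [coeffMap_single]
    rfl
  exact (H93.gaussFRed_of_iota ℓ N _ _ h).1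

/-- `j`, as an element of the Gauss ring. -/
theorem jFull_mem_gaussF : jFull N ∈ H93.gaussF ℓ N := by
  have hc : coeffMap (Int.castRingHom ℚ) (jqModC ℤ) ∈ modularFunctionFieldFull N := by
    rw [coeffMap_jqModC, jqModC_rat]
    exact (jFull N).2
  obtain ⟨h, -⟩ := H93.gaussF_int ℓ N (jqModC ℤ) hc
  have e : (⟨_, hc⟩ : ↥(modularFunctionFieldFull N)) = jFull N := by
    apply Subtype.ext
    show coeffMap (Int.castRingHom ℚ) (jqModC ℤ) = jq
    rw [coeffMap_jqModC, jqModC_rat]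
  rwa [e] at h

theorem gaussFRed_jFull :
    H93.gaussFRed ℓ N ⟨jFull N, jFull_mem_gaussF ℓ N⟩ = jqModC (ZMod ℓ) := by
  have hc : coeffMap (Int.castRingHom ℚ) (jqModC ℤ) ∈ modularFunctionFieldFull N := by
    rw [coeffMap_jqModC, jqModC_rat]
    exact (jFull N).2
  obtain ⟨h, hred⟩ := H93.gaussF_int ℓ N (jqModC ℤ) hc
  have e : (⟨_, hc⟩ : ↥(modularFunctionFieldFull N)) = jFull N := by
    apply Subtype.ext
    show coeffMap (Int.castRingHom ℚ) (jqModC ℤ) = jq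
    rw [coeffMap_jqModC, jqModC_rat]
  have e2 : (⟨⟨_, hc⟩, h⟩ : ↥(H93.gaussF ℓ N)) = ⟨jFull N, jFull_mem_gaussF ℓ N⟩ :=
    Subtype.ext e
  rw [← e2, hred, coeffMap_jqModC]

theorem jFull_inv_mem_gaussF : (jFull N)⁻¹ ∈ H93.gaussF ℓ N := by
  have hne : H93.gaussFRed ℓ N ⟨jFull N, jFull_mem_gaussF ℓ N⟩ ≠ 0 := by
    rw [gaussFRed_jFull]
    exact jqModC_ne_zero_of_nontrivial (ZMod ℓ)
  obtain ⟨u', hu', -⟩ := (isGauss ℓ N).exists_inv _ hne
  have h2 : (jFull N) * (u' : ↥(modularFunctionFieldFull N)) = 1 := by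
    have := congrArg (fun v : ↥(H93.gaussF ℓ N) => (v : ↥(modularFunctionFieldFull N))) hu'
    simpa using this
  have h3 : (jFull N)⁻¹ = (u' : ↥(modularFunctionFieldFull N)) :=
    (eq_inv_of_mul_eq_one_right h2).symm
  rw [h3]
  exact u'.2

/-- The Gauss ring as a `ℤ_(ℓ)`-subalgebra. -/
noncomputable def gaussAlg : Subalgebra ↥(GaloisRep.ratLocalizedAt ℓ) ↥(modularFunctionFieldFull N) :=
  { H93.gaussF ℓ N with
    algebraMap_mem' := fun a => algebraMap_mem_gaussF ℓ N a }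

theorem mem_gaussAlg_iff (x : ↥(modularFunctionFieldFull N)) :
    x ∈ gaussAlg ℓ N ↔ x ∈ H93.gaussF ℓ N := Iff.rfl

theorem adjoin_le_gaussF (S : Set ↥(modularFunctionFieldFull N))
    (hS : ∀ s ∈ S, s ∈ H93.gaussF ℓ N) :
    (Algebra.adjoin ↥(GaloisRep.ratLocalizedAt ℓ) S).toSubring ≤ H93.gaussF ℓ N := by
  intro x hx
  have h : Algebra.adjoin ↥(GaloisRep.ratLocalizedAt ℓ) S ≤ gaussAlg ℓ N :=
    Algebra.adjoin_le hS
  exact h hx

/-! ## The subfield `ℚ(j)` and the polynomial rings -/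

/-- `ℚ(j)` as a subfield of `F_N`. -/
noncomputable abbrev K0 : Subfield ↥(modularFunctionFieldFull N) :=
  (IntermediateField.adjoin ℚ {jFull N}).toSubfield

theorem adjoin_le_K0 (t : ↥(modularFunctionFieldFull N))
    (ht : t = jFull N ∨ t = (jFull N)⁻¹) :
    (Algebra.adjoin ↥(GaloisRep.ratLocalizedAt ℓ) {t}).toSubring ≤ (K0 N).toSubring := by
  intro x hx
  let KA : Subalgebra ↥(GaloisRep.ratLocalizedAt ℓ) ↥(modularFunctionFieldFull N) :=
    { (K0 N).toSubring with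
      algebraMap_mem' := fun a => by
        have h0 : algebraMap ↥(GaloisRep.ratLocalizedAt ℓ) ↥(modularFunctionFieldFull N) a =
            algebraMap ℚ ↥(modularFunctionFieldFull N) (a : ℚ) := rfl
        rw [h0]
        exact (IntermediateField.adjoin ℚ {jFull N}).algebraMap_mem _ }
  have h : Algebra.adjoin ↥(GaloisRep.ratLocalizedAt ℓ) {t} ≤ KA := by
    refine Algebra.adjoin_le ?_
    rintro s rfl
    have hj : jFull N ∈ IntermediateField.adjoin ℚ {jFull N} :=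
      IntermediateField.mem_adjoin_simple_self ℚ (jFull N)
    rcases ht with rfl | rfl
    · exact hj
    · exact (inv_mem hj : (jFull N)⁻¹ ∈ IntermediateField.adjoin ℚ {jFull N})
  exact h hx

theorem natCast_mem_K0 : ((ℓ : ↥(H93.gaussF ℓ N)) : ↥(modularFunctionFieldFull N)) ∈ K0 N := by
  rw [Subring.coe_natCast]
  exact natCast_mem _ ℓ

/-! ## The independent family -/

section Family

variable {n : ℕ} (b : Fin n → LaurentSeries ℤ)
  (hbF : ∀ i, coeffMap (Int.castRingHom ℚ) (b i) ∈ modularFunctionFieldFull N)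

/-- The integer series `b i`, as elements of the Gauss ring. -/
noncomputable def xfam : Fin n → ↥(H93.gaussF ℓ N) :=
  fun i => ⟨⟨_, hbF i⟩, (H93.gaussF_int ℓ N (b i) (hbF i)).1⟩

theorem red_xfam (i : Fin n) :
    H93.gaussFRed ℓ N (xfam ℓ N b hbF i) = coeffMap (Int.castRingHom (ZMod ℓ)) (b i) :=
  (H93.gaussF_int ℓ N (b i) (hbF i)).2

theorem hind_of (h1 : HypS1 ℓ N)
    (hb : LinearIndependent ↥(IntermediateField.adjoin (ZMod ℓ) {jqModC (ZMod ℓ)})
      (fun i => coeffMap (Int.castRingHom (ZMod ℓ)) (b i)))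
    (c : Fin n → ↥(H93.gaussF ℓ N))
    (hc : ∀ i, (c i : ↥(modularFunctionFieldFull N)) ∈ IntermediateField.adjoin ℚ {jFull N})
    (hsum : ∑ i, H93.gaussFRed ℓ N (c i) * H93.gaussFRed ℓ N (xfam ℓ N b hbF i) = 0) :
    ∀ i, H93.gaussFRed ℓ N (c i) = 0 := by
  intro i
  have key := Fintype.linearIndependent_iff.1 hb
    (fun i => ⟨H93.gaussFRed ℓ N (c i), h1 (c i) (hc i)⟩) ?_ i
  · exact congrArg Subtype.val key
  · simp only [red_xfam] at hsum
    rw [← hsum]
    exact Finset.sum_congr rfl (fun i _ => rfl)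

theorem linearIndependent_xfam (h1 : HypS1 ℓ N)
    (hb : LinearIndependent ↥(IntermediateField.adjoin (ZMod ℓ) {jqModC (ZMod ℓ)})
      (fun i => coeffMap (Int.castRingHom (ZMod ℓ)) (b i))) :
    LinearIndependent ↥(IntermediateField.adjoin ℚ {jFull N})
      (fun i => ((xfam ℓ N b hbF i : ↥(H93.gaussF ℓ N)) : ↥(modularFunctionFieldFull N))) := by
  refine (isGauss ℓ N).linearIndependent (K₀ := ↥(IntermediateField.adjoin ℚ {jFull N}))
    (ℓ : ↥(IntermediateField.adjoin ℚ {jFull N})) ?_ (xfam ℓ N b hbF) ?_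
  · rw [map_natCast, Subring.coe_natCast]
  · intro c hc hsum
    refine hind_of ℓ N b hbF h1 hb c (fun i => ?_) hsum
    obtain ⟨a, ha⟩ := hc i
    rw [← ha]
    exact a.2

end Family

theorem dedekindPsi_pos : 0 < dedekindPsi N := by
  have hN : 0 < N := Nat.pos_of_ne_zero (NeZero.ne N)
  have h1 : (1 : ℕ) ∈ N.divisors.filter (fun d => Squarefree d) :=
    Finset.mem_filter.2 ⟨Nat.one_mem_divisors.2 hN.ne', squarefree_one⟩
  have h2 : N / 1 ≤ dedekindPsi N :=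
    Finset.single_le_sum (f := fun d => N / d) (fun _ _ => Nat.zero_le _) h1
  rw [Nat.div_one] at h2
  exact lt_of_lt_of_le hN h2

theorem finrank_K0_eq (h1 : HypS1 ℓ N)
    (hfd : FiniteDimensional ↥(IntermediateField.adjoin ℚ {jFull N})
      ↥(modularFunctionFieldFull N))
    (hU : Module.finrank ↥(IntermediateField.adjoin ℚ {jFull N})
      ↥(modularFunctionFieldFull N) ≤ dedekindPsi N)
    (b : Fin (dedekindPsi N) → LaurentSeries ℤ)
    (hbF : ∀ i, coeffMap (Int.castRingHom ℚ) (b i) ∈ modularFunctionFieldFull N)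
    (hb : LinearIndependent ↥(IntermediateField.adjoin (ZMod ℓ) {jqModC (ZMod ℓ)})
      (fun i => coeffMap (Int.castRingHom (ZMod ℓ)) (b i))) :
    Module.finrank ↥(K0 N) ↥(modularFunctionFieldFull N) = dedekindPsi N := by
  have hli := linearIndependent_xfam ℓ N b hbF h1 hb
  have h2 := hli.fintype_card_le_finrank
  rw [Fintype.card_fin] at h2
  exact le_antisymm hU h2

/-! ## The core statement for the two polynomial rings -/

theorem core (h1 : HypS1 ℓ N) (h2 : HypS2 ℓ N) (h3 : HypS3 ℓ N)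
    (hfd : FiniteDimensional ↥(IntermediateField.adjoin ℚ {jFull N})
      ↥(modularFunctionFieldFull N))
    (hU : Module.finrank ↥(IntermediateField.adjoin ℚ {jFull N})
      ↥(modularFunctionFieldFull N) ≤ dedekindPsi N)
    (b : Fin (dedekindPsi N) → LaurentSeries ℤ)
    (hbF : ∀ i, coeffMap (Int.castRingHom ℚ) (b i) ∈ modularFunctionFieldFull N)
    (hb : LinearIndependent ↥(IntermediateField.adjoin (ZMod ℓ) {jqModC (ZMod ℓ)})
      (fun i => coeffMap (Int.castRingHom (ZMod ℓ)) (b i)))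
    (t : ↥(modularFunctionFieldFull N)) (ht : t = jFull N ∨ t = (jFull N)⁻¹)
    (y : ↥(modularFunctionFieldFull N))
    (hy : IsIntegral ↥(Algebra.adjoin ↥(GaloisRep.ratLocalizedAt ℓ) {t}).toSubring y) :
    y ∈ H93.gaussF ℓ N ∧ ∀ w : ↥(H93.gaussF ℓ N),
      y = (ℓ : ↥(modularFunctionFieldFull N)) * (w : ↥(modularFunctionFieldFull N)) →
      IsIntegral ↥(Algebra.adjoin ↥(GaloisRep.ratLocalizedAt ℓ) {t}).toSubring
        (w : ↥(modularFunctionFieldFull N)) := by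
  have hG := isGauss ℓ N
  have hjV : ∀ s ∈ ({t} : Set ↥(modularFunctionFieldFull N)), s ∈ H93.gaussF ℓ N := by
    rintro s rfl
    rcases ht with rfl | rfl
    · exact jFull_mem_gaussF ℓ N
    · exact jFull_inv_mem_gaussF ℓ N
  have key := H95.integral_of_mul (H93.gaussF ℓ N) (ℓ : ↥(H93.gaussF ℓ N)) hG.1
    (H93.gaussFRed ℓ N) hG.2.1 hG.2.2.1 hG.2.2.2 (K0 N) (natCast_mem_K0 ℓ N)
    (Algebra.adjoin ↥(GaloisRep.ratLocalizedAt ℓ) {t}).toSubring
    (adjoin_le_gaussF ℓ N {t} hjV) (adjoin_le_K0 ℓ N t ht) (h2 t ht)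
    (fun w hw => h3 t ht w (by rw [Subring.coe_natCast] at hw; exact hw))
    (dedekindPsi N) (finrank_K0_eq ℓ N h1 hfd hU b hbF hb) (dedekindPsi_pos N)
    (xfam ℓ N b hbF) (fun c hc hsum => hind_of ℓ N b hbF h1 hb c hc hsum) y hy
  refine ⟨key.1, fun w hw => key.2 w ?_⟩
  rw [Subring.coe_natCast]
  exact hw

/-! ## The charts -/

section Charts

variable (S : Set ↥(modularFunctionFieldFull N))

theorem isIntegral_toSubring_iff (y : ↥(modularFunctionFieldFull N)) :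
    IsIntegral ↥(Algebra.adjoin ↥(GaloisRep.ratLocalizedAt ℓ) S) y ↔
      IsIntegral ↥(Algebra.adjoin ↥(GaloisRep.ratLocalizedAt ℓ) S).toSubring y := by
  let φ : ↥(Algebra.adjoin ↥(GaloisRep.ratLocalizedAt ℓ) S) →+*
      ↥(Algebra.adjoin ↥(GaloisRep.ratLocalizedAt ℓ) S).toSubring :=
    { toFun := fun r => ⟨r.1, r.2⟩
      map_one' := rfl
      map_mul' := fun _ _ => rfl
      map_zero' := rfl
      map_add' := fun _ _ => rfl }
  let φ' : ↥(Algebra.adjoin ↥(GaloisRep.ratLocalizedAt ℓ) S).toSubring →+*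
      ↥(Algebra.adjoin ↥(GaloisRep.ratLocalizedAt ℓ) S) :=
    { toFun := fun r => ⟨r.1, r.2⟩
      map_one' := rfl
      map_mul' := fun _ _ => rfl
      map_zero' := rfl
      map_add' := fun _ _ => rfl }
  constructor
  · intro h
    exact h.map_of_comp_eq φ (RingHom.id _) (by ext; rfl)
  · intro h
    exact h.map_of_comp_eq φ' (RingHom.id _) (by ext; rfl)

/-- The inclusion of a chart algebra contained in the Gauss ring. -/
noncomputable def chartToGauss (hle : ∀ a ∈ chartAlg N ℓ S, a ∈ H93.gaussF ℓ N) :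
    ↥(chartAlg N ℓ S) →+* ↥(H93.gaussF ℓ N) :=
  { toFun := fun a => ⟨a.1, hle a.1 a.2⟩
    map_one' := rfl
    map_mul' := fun _ _ => rfl
    map_zero' := rfl
    map_add' := fun _ _ => rfl }

theorem exists_red_chart
    (hcore : ∀ y : ↥(modularFunctionFieldFull N),
      IsIntegral ↥(Algebra.adjoin ↥(GaloisRep.ratLocalizedAt ℓ) S).toSubring y →
      y ∈ H93.gaussF ℓ N ∧ ∀ w : ↥(H93.gaussF ℓ N),
        y = (ℓ : ↥(modularFunctionFieldFull N)) * (w : ↥(modularFunctionFieldFull N)) →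
        IsIntegral ↥(Algebra.adjoin ↥(GaloisRep.ratLocalizedAt ℓ) S).toSubring
          (w : ↥(modularFunctionFieldFull N))) :
    ∃ ρ : ↥(chartAlg N ℓ S) →+* LaurentSeries (ZMod ℓ),
      ∀ a, ρ a = 0 → ∃ a', a = (ℓ : ↥(chartAlg N ℓ S)) * a' := by
  have hle : ∀ a ∈ chartAlg N ℓ S, a ∈ H93.gaussF ℓ N := fun a ha =>
    (hcore a ((isIntegral_toSubring_iff ℓ N S a).1 ((mem_chartAlg_iff N ℓ).1 ha))).1
  refine ⟨(H93.gaussFRed ℓ N).comp (chartToGauss ℓ N S hle), fun a ha => ?_⟩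
  obtain ⟨w, hw⟩ := H93.gaussF_ker ℓ N (chartToGauss ℓ N S hle a) ha
  have e : (a : ↥(modularFunctionFieldFull N)) =
      (ℓ : ↥(modularFunctionFieldFull N)) * (w : ↥(modularFunctionFieldFull N)) := by
    have := congrArg (fun v : ↥(H93.gaussF ℓ N) => (v : ↥(modularFunctionFieldFull N))) hw
    simpa [chartToGauss] using this
  have hwint := (hcore a
    ((isIntegral_toSubring_iff ℓ N S a).1 ((mem_chartAlg_iff N ℓ).1 a.2))).2 w e
  have hwmem : (w : ↥(modularFunctionFieldFull N)) ∈ chartAlg N ℓ S :=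
    (mem_chartAlg_iff N ℓ).2 ((isIntegral_toSubring_iff ℓ N S _).2 hwint)
  refine ⟨⟨w, hwmem⟩, Subtype.ext ?_⟩
  rw [e]
  simp

end Charts

theorem exists_red_mid : Nonempty (↥(chartAlgMid N ℓ) →+* LaurentSeries (ZMod ℓ)) := by
  have hG := isGauss ℓ N
  have hS : ∀ s ∈ ({jFull N, (jFull N)⁻¹} : Set ↥(modularFunctionFieldFull N)),
      s ∈ H93.gaussF ℓ N := by
    rintro s (rfl | rfl)
    · exact jFull_mem_gaussF ℓ N
    · exact jFull_inv_mem_gaussF ℓ N
  have hle : ∀ a ∈ chartAlg N ℓ {jFull N, (jFull N)⁻¹}, a ∈ H93.gaussF ℓ N := fun a ha =>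
    H95.mem_of_isIntegral_of_le (H93.gaussF ℓ N) (ℓ : ↥(H93.gaussF ℓ N)) hG.1
      (H93.gaussFRed ℓ N) hG.2.1 hG.2.2.1 hG.2.2.2
      (Algebra.adjoin ↥(GaloisRep.ratLocalizedAt ℓ) {jFull N, (jFull N)⁻¹}).toSubring
      (adjoin_le_gaussF ℓ N _ hS) a
      ((isIntegral_toSubring_iff ℓ N _ a).1 ((mem_chartAlg_iff N ℓ).1 ha))
  exact ⟨(H93.gaussFRed ℓ N).comp (chartToGauss ℓ N _ hle)⟩

/-- **The Eps node**, modulo the three facts on `ℤ_(ℓ)[t]`. -/
theorem eps_of_deg_of_hyps (h1 : HypS1 ℓ N) (h2 : HypS2 ℓ N) (h3 : HypS3 ℓ N)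
    (hfd : FiniteDimensional ↥(IntermediateField.adjoin ℚ {jFull N})
      ↥(modularFunctionFieldFull N))
    (hU : Module.finrank ↥(IntermediateField.adjoin ℚ {jFull N})
      ↥(modularFunctionFieldFull N) ≤ dedekindPsi N)
    (b : Fin (dedekindPsi N) → LaurentSeries ℤ)
    (hbF : ∀ i, coeffMap (Int.castRingHom ℚ) (b i) ∈ modularFunctionFieldFull N)
    (hb : LinearIndependent ↥(IntermediateField.adjoin (ZMod ℓ) {jqModC (ZMod ℓ)})
      (fun i => coeffMap (Int.castRingHom (ZMod ℓ)) (b i))) :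
    (∃ ρ : ↥(chartAlgFin N ℓ) →+* LaurentSeries (ZMod ℓ),
      ∀ a, ρ a = 0 → ∃ a', a = (ℓ : ↥(chartAlgFin N ℓ)) * a') ∧
    (∃ ρ : ↥(chartAlgInf N ℓ) →+* LaurentSeries (ZMod ℓ),
      ∀ a, ρ a = 0 → ∃ a', a = (ℓ : ↥(chartAlgInf N ℓ)) * a') ∧
    Nonempty (↥(chartAlgMid N ℓ) →+* LaurentSeries (ZMod ℓ)) :=
  ⟨exists_red_chart ℓ N {jFull N}
      (fun y hy => core ℓ N h1 h2 h3 hfd hU b hbF hb (jFull N) (Or.inl rfl) y hy),
    exists_red_chart ℓ N {(jFull N)⁻¹}
      (fun y hy => core ℓ N h1 h2 h3 hfd hU b hbF hb (jFull N)⁻¹ (Or.inr rfl) y hy),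
    exists_red_mid ℓ N⟩

end Fermat.Agent.S28.H67
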