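import Fermat.Agent.S28.TensorDomain_helper19

/-!
# S28, work package D4: the ideal form of the kernel hypothesis

`isDomain_tensor` of `TensorDomain_helper19` with the hypothesis `RingHom.ker ρ = Ideal.span {ℓ}`
(the shape produced by the valuation part), and the conversions between the two shapes.
-/

set_option autoImplicit false

noncomputable section

open TensorProduct

namespace Fermat.Agent.S28.H19

/-- From the ideal form of the kernel clause to the elementwise form. -/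
theorem exists_eq_mul_of_ker_eq {A B : Type*} [CommRing A] [Semiring B] (ℓ : ℕ) (ρ : A →+* B)
    (hker : RingHom.ker ρ = Ideal.span {(ℓ : A)}) (a : A) (ha : ρ a = 0) :
    ∃ a' : A, a = (ℓ : A) * a' := by
  have h : a ∈ Ideal.span {(ℓ : A)} := by rw [← hker]; exact ha
  obtain ⟨a', ha'⟩ := Ideal.mem_span_singleton'.mp h
  exact ⟨a', by rw [← ha', mul_comm]⟩

/-- `ℓ = 0` in `𝔽_ℓ((q))`. -/
theorem natCast_laurentSeries_zmod (ℓ : ℕ) : ((ℓ : ℕ) : LaurentSeries (ZMod ℓ)) = 0 := by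
  rw [← map_natCast (HahnSeries.C : ZMod ℓ →+* LaurentSeries (ZMod ℓ)), ZMod.natCast_self,
    map_zero]

/-- From the elementwise form of the kernel clause to the ideal form (when `ℓ = 0` in the
target). -/
theorem ker_eq_span_of_exists_eq_mul {A B : Type*} [CommRing A] [Semiring B] (ℓ : ℕ)
    (hℓ : ((ℓ : ℕ) : B) = 0)
    (ρ : A →+* B) (hρ : ∀ a : A, ρ a = 0 → ∃ a' : A, a = (ℓ : A) * a') :
    RingHom.ker ρ = Ideal.span {(ℓ : A)} := by
  ext a
  constructor
  · intro ha
    obtain ⟨a', rfl⟩ := hρ a ha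
    exact Ideal.mul_mem_right _ _ (Ideal.subset_span rfl)
  · intro ha
    obtain ⟨a', rfl⟩ := Ideal.mem_span_singleton'.mp ha
    rw [RingHom.mem_ker, map_mul, map_natCast, hℓ, mul_zero]

/-- **D4, ideal form.** If `ρ : A → 𝔽_ℓ((q))` has kernel `(ℓ)`, then `A ⊗[ℤ_(ℓ)] K` is a domain for
every field `K` of characteristic `ℓ`. -/
theorem isDomain_tensor_of_ker_eq (ℓ : ℕ) [Fact ℓ.Prime] (A : Type*) [CommRing A]
    [Algebra ↥(GaloisRep.ratLocalizedAt ℓ) A] (ρ : A →+* LaurentSeries (ZMod ℓ))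
    (hker : RingHom.ker ρ = Ideal.span {(ℓ : A)})
    (K : Type*) [Field K] [CharP K ℓ] [Algebra ↥(GaloisRep.ratLocalizedAt ℓ) K] :
    IsDomain (A ⊗[↥(GaloisRep.ratLocalizedAt ℓ)] K) :=
  isDomain_tensor ℓ A ρ (exists_eq_mul_of_ker_eq ℓ ρ hker) K

end Fermat.Agent.S28.H19
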